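import Fermat.Agent.GaussKolyvagin.RootDivisor
import Fermat.Agent.DeuringCM.Primes

/-!
# The new auxiliary prime

If `r` is a `p ^ k * P`-th power modulo `q`, there is a prime `Q'` of degree one of the root field
of `T` over a prime number `r' ≡ 1 (mod q)` with `Q' = Q (β) (y / x)`, where `β` is the
`p ^ k * P`-th power of a unit at `q` and `x, y ≡ 1 (mod q)` (a prime of degree one in a ray
class).
-/

set_option autoImplicit false
set_option linter.unusedSectionVars false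
set_option linter.style.haveILetI false

noncomputable section

open scoped Classical Pointwise nonZeroDivisors
open Finset IntermediateField NumberField IsDedekindDomain FA.ArtinRec
open FA.Kolyvagin (zr zr_spec fullField IsRootField zProd IsDeg1
  exists_galPrime_eq eq_one_of_galPrime_eq exists_natCast_mem eq_of_natCast_mem
  val_natCast_lt_one_iff modEq_of_congr)
open FA.Hecke (coprimeIdeals rayClass rayClass_eq_iff)
open FA.Ext (primeIdeal)

namespace FA.GaussKolyvagin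

variable {Ω : Type*} [Field Ω] [CharZero Ω] [IsAlgClosed Ω] [Algebra.IsAlgebraic ℚ Ω] {p P k c : ℕ}

/-- Two ideals without a common prime. -/
theorem sup_eq_top_of_forall {K : Type*} [Field K] [NumberField K] {I J : Ideal (𝓞 K)}
    (hJ : J ≠ ⊥) (h : ∀ P : HeightOneSpectrum (𝓞 K), I ≤ P.asIdeal → ¬ J ≤ P.asIdeal) :
    I ⊔ J = ⊤ := by
  by_contra hne
  obtain ⟨P, hP, hle⟩ := Ideal.exists_le_maximal _ hne
  exact h ⟨P, hP.isPrime, fun hb => hJ (by
    rw [eq_bot_iff, ← hb]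
    exact le_sup_right.trans hle)⟩ (le_sup_left.trans hle) (le_sup_right.trans hle)

variable {L : IntermediateField ℚ Ω} [NumberField L] [IsGalois ℚ L] {T : Finset ℕ}

/-- An element with prescribed residues at the primes over `q`, and its norm. -/
theorem exists_residues (hp2 : 2 < P) (hS : RootSet (insert P T)) (hL : IsRootField P T L)
    {q : ℕ} (hq : q.Prime) (hqd : ∀ s ∈ insert P T, s ∣ q - 1) {t : ℕ} (ht : ¬ q ∣ t) :
    ∃ b : 𝓞 L, b ≠ 0 ∧
      (∀ P : HeightOneSpectrum (𝓞 L), (q : 𝓞 L) ∈ P.asIdeal → b ∉ P.asIdeal) ∧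
      Ideal.absNorm (Ideal.span {b}) ≡ t [MOD q] := by
  obtain ⟨P₀, hP₀⟩ := exists_natCast_mem (F := L) hq.ne_one
  have hdeg := isDeg1_root hS hL hq hqd P₀ hP₀
  set s : Finset (HeightOneSpectrum (𝓞 L)) :=
    (Finset.univ : Finset (L ≃ₐ[ℚ] L)).image fun σ => galPrime σ P₀
  have hs : ∀ P : HeightOneSpectrum (𝓞 L), (q : 𝓞 L) ∈ P.asIdeal → P ∈ s := fun P hP => by
    obtain ⟨σ, hσ⟩ := exists_galPrime_eq hq hP₀ hP
    exact Finset.mem_image.2 ⟨σ, Finset.mem_univ σ, hσ⟩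
  obtain ⟨b, hb⟩ := IsDedekindDomain.exists_forall_sub_mem_ideal (s := s)
    (fun P : HeightOneSpectrum (𝓞 L) => P.asIdeal) (fun _ => 1)
    (fun P _ => Ideal.prime_of_isPrime P.ne_bot P.isPrime)
    (fun P _ P' _ hne h => hne (HeightOneSpectrum.ext h))
    (fun P => if (P : HeightOneSpectrum (𝓞 L)) = P₀ then (t : 𝓞 L) else 1)
  simp only [pow_one] at hb
  have hbP : ∀ P : HeightOneSpectrum (𝓞 L), (q : 𝓞 L) ∈ P.asIdeal →
      b - (if P = P₀ then (t : 𝓞 L) else 1) ∈ P.asIdeal := fun P hP => hb P (hs P hP)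
  have hnot : ∀ P : HeightOneSpectrum (𝓞 L), (q : 𝓞 L) ∈ P.asIdeal → b ∉ P.asIdeal := by
    intro P hP hm
    have h := P.asIdeal.sub_mem hm (hbP P hP)
    rw [sub_sub_cancel] at h
    split_ifs at h with he
    · exact ht (by
        by_contra hnd
        exact ((val_natCast_lt_one_iff P t).2 h).ne
          (FA.Kolyvagin.val_natCast_eq_one_of_coprime (hq.coprime_iff_not_dvd.2 hnd).symm
            ((val_natCast_lt_one_iff P q).2 hP)))
    · exact P.isPrime.ne_top ((Ideal.eq_top_iff_one _).2 h)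
  have hb0 : b ≠ 0 := fun h => hnot P₀ hP₀ (h ▸ P₀.asIdeal.zero_mem)
  refine ⟨b, hb0, hnot, modEq_of_congr (w := P₀.valuation L) hq
    ((val_natCast_lt_one_iff P₀ q).2 hP₀) ?_⟩
  have hmem : ((Ideal.absNorm (Ideal.span {b}) : ℕ) : 𝓞 L) - (t : 𝓞 L) ∈ P₀.asIdeal := by
    rw [absNorm_span_pos hS hL hp2 hb0, ← Ideal.Quotient.eq, map_prod,
      Finset.prod_eq_single (1 : L ≃ₐ[ℚ] L)]
    · rw [one_smul, Ideal.Quotient.eq]
      have h := hbP P₀ hP₀
      rwa [if_pos rfl] at h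
    · intro σ _ hσ
      rw [← map_one (Ideal.Quotient.mk P₀.asIdeal), Ideal.Quotient.eq]
      have hne : galPrime σ⁻¹ P₀ ≠ P₀ := fun h =>
        hσ (inv_eq_one.1 (eq_one_of_galPrime_eq hdeg h))
      have hqm : (q : 𝓞 L) ∈ (galPrime σ⁻¹ P₀).asIdeal := by
        have h := Ideal.smul_mem_pointwise_smul σ⁻¹ _ _ hP₀
        rwa [show σ⁻¹ • (q : 𝓞 L) = q from
          map_natCast (MulSemiringAction.toRingHom (L ≃ₐ[ℚ] L) (𝓞 L) σ⁻¹) q] at h
      have h := Ideal.smul_mem_pointwise_smul σ _ _ (hbP _ hqm)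
      rw [if_neg hne, smul_sub, smul_one,
        show σ • (galPrime σ⁻¹ P₀).asIdeal = P₀.asIdeal from smul_inv_smul σ _] at h
      exact h
    · exact fun h => absurd (Finset.mem_univ _) h
  have h2 := (P₀.valuation_lt_one_iff_mem (K := L) _).2 hmem
  simpa using h2

variable {r g : ℕ} (hs : Setup p P k c) (hT : ∀ s ∈ T, IsAdm p P k s) (hA : IsAux P T r g)
  (hL : IsRootField P T L)
include hs hT hA hL

omit hs hT hL in
theorem dvd_insert_aux : ∀ s ∈ insert P T, s ∣ r - 1 := hA.dvd_insert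

/-- **The new auxiliary prime.** -/
theorem exists_aux_prime {Q : HeightOneSpectrum (𝓞 L)} (hrQ : (r : 𝓞 L) ∈ Q.asIdeal) {q : ℕ}
    (hq : IsAdm p P k q) (hqT : ∀ s ∈ T, s ∣ q - 1) (hrq : r ≠ q) {ρ : ℕ}
    (hρ : ρ ^ (p ^ k * P) ≡ r [MOD q]) :
    ∃ (r' g' : ℕ) (Q' : HeightOneSpectrum (𝓞 L)) (W : Lˣ) (b x y : 𝓞 L),
      IsAux P (insert q T) r' g' ∧ IsDeg1 1 Q' r' ∧
      (∀ v : L, v ^ (∏ s ∈ insert P T, s) = 1 → (∀ j, 1 ≤ j → j ≤ c → v ^ j ≠ 1) →
        ordJ r' g' c Q' v = ordJ r g c Q v) ∧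
      (∀ P, ord P W = (if Q' = P then 1 else 0) - if Q = P then 1 else 0) ∧
      (∀ φ : L →+* ℂ, (∏ σ : L ≃ₐ[ℚ] L, ‖φ (σ (W : L))‖) * r = r') ∧
      (W : L) = (y : L) / (x : L) * (b : L) ^ (p ^ k * P) ∧
      x - 1 ∈ Ideal.span {(q : 𝓞 L)} ∧ y - 1 ∈ Ideal.span {(q : 𝓞 L)} ∧
      (∀ P : HeightOneSpectrum (𝓞 L), (q : 𝓞 L) ∈ P.asIdeal → b ∉ P.asIdeal) ∧
      x ≠ 0 ∧ y ≠ 0 ∧ b ≠ 0 ∧
      Ideal.span {x} * Q'.asIdeal =
        Ideal.span {y} * (Q.asIdeal * Ideal.span {b ^ (p ^ k * P)}) := by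
  have hS := rootSet_insert hs hT
  have hdr := dvd_insert_aux hA
  haveI : Fact r.Prime := ⟨hA.prime⟩
  have hqd : ∀ s ∈ insert P T, s ∣ q - 1 := fun s h => (Finset.mem_insert.1 h).elim
    (fun e => e ▸ hq.dvd_base) (hqT s)
  haveI : Fact q.Prime := ⟨hq.prime⟩
  have hρ0 : ¬ q ∣ ρ := fun h => hrq ((Nat.prime_dvd_prime_iff_eq hq.prime hA.prime).1
    (((hρ.dvd_iff dvd_rfl).1 (dvd_pow h hs.pow_mul_ne_zero))) ).symm
  have hρz : (ρ : ZMod q) ≠ 0 := fun h => hρ0 ((ZMod.natCast_eq_zero_iff ρ q).1 h)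
  obtain ⟨b, hb0, hbP, hbN⟩ := exists_residues hs.two_lt hS hL hq.prime hqd
    (t := ((ρ : ZMod q)⁻¹).val) (fun h => inv_ne_zero hρz (by
      rw [← ZMod.natCast_zmod_val (ρ : ZMod q)⁻¹, ZMod.natCast_eq_zero_iff]; exact h))
  have hq0 : Ideal.span {(q : 𝓞 L)} ≠ ⊥ := by simpa using hq.prime.ne_zero
  have hβ0 : b ^ (p ^ k * P) ≠ 0 := pow_ne_zero _ hb0
  let I : (Ideal (𝓞 L))⁰ := ⟨Q.asIdeal * Ideal.span {b ^ (p ^ k * P)},
    mem_nonZeroDivisors_iff_ne_zero.mpr (mul_ne_zero Q.ne_bot (by simpa using hβ0))⟩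
  have hI : I ∈ coprimeIdeals (Ideal.span {(q : 𝓞 L)}) := by
    refine sup_eq_top_of_forall hq0 fun P hP hqP => ?_
    rw [Ideal.span_singleton_le_iff_mem] at hqP
    rcases P.isPrime.mul_le.1 hP with h | h
    · have hQP : Q = P := HeightOneSpectrum.ext (Q.isMaximal.eq_of_le P.isPrime.ne_top h)
      exact hrq (eq_of_natCast_mem hA.prime hq.prime (hQP ▸ hrQ) hqP)
    · rw [Ideal.span_singleton_le_iff_mem] at h
      exact hbP P hqP (P.isPrime.mem_of_pow_mem _ h)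
  have hN0 : P * q * ∏ s ∈ T, s ≠ 0 := Nat.mul_ne_zero
    (Nat.mul_ne_zero hs.pos.ne' hq.prime.ne_zero)
    (Finset.prod_pos fun s h => (hT s h).prime.pos).ne'
  have hfin : {v : HeightOneSpectrum (𝓞 L) |
      ((P * q * ∏ s ∈ T, s : ℕ) : 𝓞 L) ∈ v.asIdeal}.Finite :=
    (Ideal.finite_factors (I := Ideal.span {((P * q * ∏ s ∈ T, s : ℕ) : 𝓞 L)})
      (by rw [ne_eq, Ideal.zero_eq_bot, Ideal.span_singleton_eq_bot]
          exact Nat.cast_ne_zero.2 hN0)).subset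
      fun v hv => Ideal.dvd_span_singleton.mpr hv
  obtain ⟨Q', hQ'c, hQ'S, hprime, hclass⟩ :=
    FA.DeuringCM.exists_degree_one_class hq0 (rayClass hq0 ⟨I, hI⟩) hfin
  obtain ⟨x, y, hx, hy, hxy⟩ := (rayClass_eq_iff hq0).1 hclass
  change Ideal.span {x} * Q'.asIdeal =
    Ideal.span {y} * (Q.asIdeal * Ideal.span {b ^ (p ^ k * P)}) at hxy
  set r' := Ideal.absNorm Q'.asIdeal
  haveI : Fact r'.Prime := ⟨hprime⟩
  have hr'Q : (r' : 𝓞 L) ∈ Q'.asIdeal := Ideal.absNorm_mem _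
  have hdiv : ¬ r' ∣ P * q * ∏ s ∈ T, s := fun hd => hQ'S (by
    show ((P * q * ∏ s ∈ T, s : ℕ) : 𝓞 L) ∈ Q'.asIdeal
    exact Ideal.mem_of_dvd _ (Nat.cast_dvd_cast hd) hr'Q)
  have hr'notMem : ∀ s ∈ insert P T, r'.Coprime s := fun s h =>
    hprime.coprime_iff_not_dvd.2 fun hd => hdiv ((Finset.mem_insert.1 h).elim
      (fun e => dvd_mul_of_dvd_left (dvd_mul_of_dvd_left (e ▸ hd) q) _)
      fun h => dvd_mul_of_dvd_right (hd.trans (Finset.dvd_prod_of_mem (fun s : ℕ => s) h)) _)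
  have hdr' : ∀ s ∈ insert P T, s ∣ r' - 1 := fun s h =>
    dvd_sub_one_of_absNorm hS hL hprime hr'notMem Q' rfl h
  have hQdeg := isDeg1_root hS hL hA.prime hdr Q hrQ
  have hQ'deg := isDeg1_root hS hL hprime hdr' Q' hr'Q
  -- norms
  have hnorm : Ideal.absNorm (Ideal.span {x}) * r' = Ideal.absNorm (Ideal.span {y}) *
      (r * Ideal.absNorm (Ideal.span {b}) ^ (p ^ k * P)) := by
    have h := congrArg Ideal.absNorm hxy
    rwa [map_mul, map_mul, map_mul, hQdeg.norm, ← Ideal.span_singleton_pow, map_pow] at h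
  have hr'q : q ∣ r' - 1 := by
    haveI : NeZero q := ⟨hq.prime.ne_zero⟩
    have h := congrArg (fun n : ℕ => (n : ZMod q)) hnorm
    simp only [Nat.cast_mul, Nat.cast_pow, absNorm_of_ray q hx, absNorm_of_ray q hy, one_mul,
      (ZMod.natCast_eq_natCast_iff _ _ _).2 hbN, ZMod.natCast_zmod_val] at h
    rw [← (ZMod.natCast_eq_natCast_iff _ _ _).2 hρ, Nat.cast_pow, ← mul_pow,
      mul_inv_cancel₀ hρz, one_pow, ← Nat.cast_one, ZMod.natCast_eq_natCast_iff] at h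
    exact (Nat.modEq_iff_dvd' hprime.one_le).1 h.symm
  -- exponents
  obtain ⟨Zi, hZi, -⟩ := hL.adjoin_int
  set m := ∏ s ∈ insert P T, s
  have hZ : IsPrimitiveRoot (Zi : L) m := IsPrimitiveRoot.coe_submonoidClass_iff.1
    (show IsPrimitiveRoot ((Zi : L) : Ω) m by rw [hZi]; exact zProd_isPrimitiveRoot hS)
  haveI : NeZero m := ⟨hS.prod_pos.ne'⟩
  obtain ⟨d, hd⟩ : m ∣ r - 1 := hS.prod_dvd hdr
  obtain ⟨d', hd'⟩ : m ∣ r' - 1 := hS.prod_dvd hdr'
  obtain ⟨i, hi, hn⟩ := exists_coprime_exponent hA.gen hQdeg hd hZ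
  obtain ⟨g', hg', hn'⟩ := exists_gen_exponent hprime hQ'deg hd' hZ hi
  have hA' : IsAux P (insert q T) r' g' := ⟨hprime, hg', hdr' P (Finset.mem_insert_self _ _),
    fun s h => (Finset.mem_insert.1 h).elim (fun e => e ▸ hr'q)
      fun h => hdr' s (Finset.mem_insert_of_mem h)⟩
  have heq : ∀ v : L, v ^ m = 1 → (∀ j, 1 ≤ j → j ≤ c → v ^ j ≠ 1) →
      ordJ r' g' c Q' v = ordJ r g c Q v := fun v hv hvc => by
    obtain ⟨a, -, rfl⟩ := hZ.eq_pow_of_pow_eq_one hv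
    rw [ordJ_pow hg' hQ'deg hd' hZ hn' (le_trans one_le_two hs.hc2) a hvc,
      ordJ_pow hA.gen hQdeg hd hZ hn (le_trans one_le_two hs.hc2) a hvc]
  -- the element
  set W : Lˣ := intU y hy.1 * intU _ hβ0 / intU x hx.1
  have hW : ∀ P, ord P W = (if Q' = P then 1 else 0) - if Q = P then 1 else 0 := by
    intro P
    have h := congrArg (ordI P) hxy
    rw [ordI_mul P (by simpa using hx.1) Q'.ne_bot,
      ordI_mul P (by simpa using hy.1) (mul_ne_zero Q.ne_bot (by simpa using hβ0)),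
      ordI_mul P Q.ne_bot (by simpa using hβ0), ordI_prime, ordI_prime] at h
    rw [ord_div, ord_mul, ord_intU_eq_ordI, ord_intU_eq_ordI, ord_intU_eq_ordI]
    simp only [@eq_comm _ P] at h
    split_ifs at h ⊢ <;> omega
  have hWval : (W : L) = (y : L) / (x : L) * (b : L) ^ (p ^ k * P) := by
    rw [Units.val_div_eq_div_val, Units.val_mul, intU_val, intU_val, intU_val]
    push_cast
    ring
  refine ⟨r', g', Q', W, b, x, y, hA', hQ'deg, heq, hW, fun φ => ?_, hWval, hx.2.1, hy.2.1, hbP,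
    hx.1, hy.1, hb0, hxy⟩
  simp only [hWval, map_mul, map_div₀, map_pow, norm_mul, norm_div, norm_pow,
    Finset.prod_mul_distrib, Finset.prod_div_distrib, Finset.prod_pow, ← absNorm_span_eq_prod]
  have hx0 : ((Ideal.absNorm (Ideal.span {x}) : ℕ) : ℝ) ≠ 0 := Nat.cast_ne_zero.2 fun h =>
    hx.1 (by simpa using Ideal.absNorm_eq_zero_iff.1 h)
  have hnorm' := congrArg (fun n : ℕ => (n : ℝ)) hnorm
  simp only [Nat.cast_mul, Nat.cast_pow] at hnorm'
  field_simp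
  linear_combination -hnorm'

end FA.GaussKolyvagin
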