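import Fermat.Agent.GaussKolyvagin.Bound

/-!
# The order of the Gauss sum in a component

For `χ = ω ^ j`, `2 ≤ j ≤ p - 2`, the class `κ_∅` of the Jacobi sums of a prime `r ≡ 1` modulo `p`
has in the component of `χ` the order `B_{1,ω^-j}` up to a unit at a prime over `r`:

* `stickelberger_sum`: the integral Stickelberger element at the character;
* `ordq_base`: the order, with `B_{1,ω^-j}` as `S / p`, `S = ∑ t ^ (1 + (p - 1 - j) p ^ k)`.
-/

set_option autoImplicit false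
set_option linter.unusedSectionVars false
set_option linter.style.haveILetI false

noncomputable section

open scoped Classical Pointwise
open Finset NumberField IsDedekindDomain FA.ArtinRec
open FA.Kolyvagin (zr zr_spec IsDeg1 vmk vmk_mul vmk_pow phiV phiq phiq_vmk ordq ordq_vmk act Vq
  spread coeff_spread pt wt)
open FA.HerbrandRibet (charEval charEval_single teich castHom_teich natCast_pow_congr)
open MonoidAlgebra (single)

namespace FA.GaussKolyvagin

variable {p : ℕ} [hp : Fact p.Prime]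

/-- The units modulo `p` are the residues different from `0`. -/
theorem sum_range_eq_sum_units {A : Type*} [AddCommMonoid A] (f : ℕ → A) (h0 : f 0 = 0) :
    ∑ t ∈ range p, f t = ∑ d : (ZMod p)ˣ, f (d : ZMod p).val := by
  haveI : NeZero p := ⟨hp.out.ne_zero⟩
  rw [← Finset.sum_filter_of_ne (p := fun t => t ≠ 0) (s := range p) (fun t _ ht h => ht (h ▸ h0))]
  have key : ∀ t ∈ (range p).filter (fun t => t ≠ 0), (t : ZMod p) ≠ 0 := fun t ht h => by
    obtain ⟨h1, h2⟩ := Finset.mem_filter.1 ht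
    have h3 := Nat.le_of_dvd (Nat.pos_of_ne_zero h2) ((ZMod.natCast_eq_zero_iff t p).1 h)
    have := Finset.mem_range.1 h1
    omega
  refine Finset.sum_bij' (fun t ht => Units.mk0 (t : ZMod p) (key t ht))
    (fun d _ => (d : ZMod p).val) (fun t _ => Finset.mem_univ _) (fun d _ => ?_) (fun t ht => ?_)
    (fun d _ => ?_) fun t ht => ?_
  · exact Finset.mem_filter.2 ⟨Finset.mem_range.2 (ZMod.val_lt _),
      fun h => d.ne_zero ((ZMod.val_eq_zero _).1 h)⟩
  · rw [Units.val_mk0, ZMod.val_natCast, Nat.mod_eq_of_lt]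
    exact Finset.mem_range.1 (Finset.mem_filter.1 ht).1
  · exact Units.ext (ZMod.natCast_zmod_val _)
  · rw [Units.val_mk0, ZMod.val_natCast, Nat.mod_eq_of_lt]
    exact Finset.mem_range.1 (Finset.mem_filter.1 ht).1

/-- Units modulo `p ^ k`. -/
theorem isUnit_of_residue {k : ℕ} (hk : 0 < k) {x : ZMod (p ^ k)}
    (h : ZMod.castHom (dvd_pow_self p hk.ne') (ZMod p) x ≠ 0) : IsUnit x := by
  haveI : NeZero (p ^ k) := ⟨pow_ne_zero _ hp.out.ne_zero⟩
  rw [← ZMod.natCast_zmod_val x, ZMod.isUnit_iff_coprime]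
  refine ((hp.out.coprime_iff_not_dvd.2 fun hd => h ?_).pow_left k).symm
  rw [← ZMod.natCast_zmod_val x, map_natCast, (ZMod.natCast_eq_zero_iff _ p).2 hd]

/-- The order of the Jacobi sums and the integral part. -/
theorem jOrd_add_floor {P c t : ℕ} (ht : t < P) (ht0 : t ≠ 0) (hs : c * t % P ≠ 0) :
    jOrd P c t + c * t / P = c - 1 := by
  have hd := Nat.div_add_mod (c * t) P
  have hm := Nat.mod_lt (c * t) (Nat.pos_of_ne_zero fun h => by omega : 0 < P)
  rw [jOrd, Nat.mod_eq_of_lt ht]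
  generalize c * t / P = q at hd
  generalize c * t % P = s at hd hm hs
  have hqc : q < c := by
    by_contra hge
    have h1 : P * c ≤ P * q := Nat.mul_le_mul_left _ (not_lt.1 hge)
    have h2 : c * t ≤ c * P := Nat.mul_le_mul_left _ ht.le
    have h3 : c * P = P * c := mul_comm _ _
    omega
  obtain ⟨a, rfl⟩ : ∃ a, c = q + 1 + a := ⟨c - q - 1, by omega⟩
  obtain ⟨b, rfl⟩ : ∃ b, P = t + b := ⟨P - t, by omega⟩
  rw [show t + b - t = b by omega]
  have hs0 := Nat.pos_of_ne_zero hs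
  have h0 : (q + 1 + a) * b / (t + b) = a := by
    refine Nat.div_eq_of_lt_le ?_ ?_ <;> nlinarith
  omega

/-- The same for the modulus `p`. -/
theorem jOrd_add_div {c t : ℕ} (ht : t < p) (ht0 : t ≠ 0) (hc : ¬ p ∣ c) :
    jOrd p c t + c * t / p = c - 1 :=
  jOrd_add_floor ht ht0 fun h => by
    rcases (Nat.Prime.dvd_mul hp.out).1 (Nat.dvd_of_mod_eq_zero h) with h' | h'
    · exact hc h'
    · have := Nat.le_of_dvd (Nat.pos_of_ne_zero ht0) h'
      omega

/-- The integral Stickelberger element at a character. -/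
theorem stickelberger_sum {k c E v w : ℕ} (hc : ¬ p ∣ c) (hE : ∃ e, E = e * p ^ k)
    (hS : ∑ t ∈ range p, t ^ (1 + E) = p ^ (v + 1) * w) :
    ((c ^ E : ℕ) : ZMod (p ^ k)) *
        ∑ d : (ZMod p)ˣ, (((d : ZMod p).val ^ E * (c * (d : ZMod p).val / p) : ℕ) : ZMod (p ^ k)) =
      (((c ^ (1 + E) : ℕ) : ZMod (p ^ k)) - 1) * ((p ^ v * w : ℕ) : ZMod (p ^ k)) := by
  haveI : NeZero p := ⟨hp.out.ne_zero⟩
  set cu : (ZMod p)ˣ := ZMod.unitOfCoprime c (hp.out.coprime_iff_not_dvd.2 hc).symm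
  set A := ∑ d : (ZMod p)ˣ, (d : ZMod p).val ^ E * (c * (d : ZMod p).val / p)
  set S := p ^ (v + 1) * w
  rw [sum_range_eq_sum_units _ (by rw [zero_pow (by omega)])] at hS
  obtain ⟨e, rfl⟩ := hE
  set E := e * p ^ k
  have h1 : c ^ E * (p * A) + ∑ d : (ZMod p)ˣ, c ^ E * (d : ZMod p).val ^ E *
      (c * (d : ZMod p).val % p) = c ^ (1 + E) * S := by
    rw [← hS, Finset.mul_sum, Finset.mul_sum, Finset.mul_sum, ← Finset.sum_add_distrib]
    refine Finset.sum_congr rfl fun d _ => ?_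
    have hd := Nat.div_add_mod (c * (d : ZMod p).val) p
    rw [pow_add, pow_add, pow_one, pow_one]
    linear_combination (c ^ E * (d : ZMod p).val ^ E) * hd
  have h2 : ((∑ d : (ZMod p)ˣ, c ^ E * (d : ZMod p).val ^ E * (c * (d : ZMod p).val % p) : ℕ) :
      ZMod (p ^ (k + 1))) = (S : ZMod (p ^ (k + 1))) := by
    rw [← hS, Nat.cast_sum, Nat.cast_sum]
    refine Fintype.sum_equiv (Equiv.mulLeft cu) _ _ fun d => ?_
    have hval : ((cu * d : (ZMod p)ˣ) : ZMod p).val = c * (d : ZMod p).val % p := by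
      rw [Units.val_mul, ZMod.coe_unitOfCoprime]
      conv_lhs => rw [← ZMod.natCast_zmod_val (d : ZMod p), ← Nat.cast_mul, ZMod.val_natCast]
    rw [Equiv.coe_mulLeft, hval, Nat.cast_mul, ← mul_pow, Nat.cast_pow, Nat.cast_pow]
    conv_rhs => rw [add_comm 1 E, pow_succ]
    congr 1
    have hpk : ((c * (d : ZMod p).val : ℕ) : ZMod (p ^ (k + 1))) ^ p ^ k =
        ((c * (d : ZMod p).val % p : ℕ) : ZMod (p ^ (k + 1))) ^ p ^ k :=
      natCast_pow_congr (Nat.succ_pos k) (by rw [ZMod.natCast_mod])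
    simp only [E, mul_comm e, pow_mul, hpk]
  have h3 : c ^ E * (p * A) + S ≡ c ^ (1 + E) * S [MOD p ^ (k + 1)] := by
    rw [← ZMod.natCast_eq_natCast_iff, ← h1, Nat.cast_add, Nat.cast_add, h2]
  have h4 : c ^ E * A + p ^ v * w ≡ c ^ (1 + E) * (p ^ v * w) [MOD p ^ k] := by
    refine Nat.ModEq.mul_left_cancel' hp.out.ne_zero ?_
    rw [← pow_succ']
    convert h3 using 1 <;> simp only [S, pow_succ] <;> ring
  rw [← ZMod.natCast_eq_natCast_iff] at h4
  rw [Nat.cast_add, Nat.cast_mul, Nat.cast_mul] at h4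
  rw [← Nat.cast_sum]
  simp only [Nat.cast_mul] at h4 ⊢
  linear_combination h4

variable {Ω : Type*} [Field Ω] [CharZero Ω] [IsAlgClosed Ω] [Algebra.IsAlgebraic ℚ Ω] {k c : ℕ}
variable {F : Type*} [Field F] [NumberField F] [IsGalois ℚ F] {ι : F →+* Ω}

/-- **The order of the class of the Gauss sum.** -/
theorem ordq_base (hι : IsCycBase p ι) (hs : Setup p p k c) (τ : (ZMod p)ˣ →* (F ≃ₐ[ℚ] F))
    (hτ : ∀ (d : (ZMod p)ˣ) (z : F), z ^ p = 1 → τ d z = z ^ (d : ZMod p).val) {j : ℕ}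
    (hj2 : 2 ≤ j) (hjp : j + 2 ≤ p) (hc : orderOf (c : ZMod p) = p - 1)
    {e : MonoidAlgebra (ZMod (p ^ k)) (ZMod p)ˣ}
    (hmul : ∀ x, x * e = single 1 (charEval (teich hs.hk ^ j) x) * e)
    (heval : charEval (teich hs.hk ^ j) e = 1) {r g : ℕ} (hA : IsAux p ∅ r g)
    {vr : HeightOneSpectrum (𝓞 F)} (hvr : Ideal.absNorm vr.asIdeal = r) {x : Fˣ}
    (hx : IsKappa Ω p c r g p k ∅ (ι x)) {v w : ℕ}
    (hS : ∑ t ∈ range p, t ^ (1 + (p - 1 - j) * p ^ k) = p ^ (v + 1) * w) (hw : ¬ p ∣ w) :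
    ∃ u : ZMod (p ^ k), IsUnit u ∧
      ordq vr (p ^ k) (act (phiV τ) dvd_rfl e (vmk (p ^ k) x)) =
        ((p ^ v : ℕ) : ZMod (p ^ k)) * u := by
  haveI : NeZero p := ⟨hs.hp.ne_zero⟩
  haveI : NeZero (p ^ k) := ⟨pow_ne_zero _ hs.hp.ne_zero⟩
  haveI : Fact r.Prime := ⟨hA.prime⟩
  have hcp : ¬ p ∣ c := hs.hcd
  set cu : (ZMod p)ˣ := ZMod.unitOfCoprime c (hs.hp.coprime_iff_not_dvd.2 hcp).symm
  set χ : (ZMod p)ˣ →* ZMod (p ^ k) := teich hs.hk ^ j
  -- the elements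
  obtain ⟨zF, hzF⟩ := (hι (zr Ω p)).1 (zr_P_mem ∅)
  have hz : IsPrimitiveRoot zF p := IsPrimitiveRoot.of_map_of_injective
    (f := ι) (by rw [hzF]; exact zr_spec Ω hs.hp.ne_zero) ι.injective
  obtain ⟨d, hd⟩ := hA.dvd_p
  have hQ := isDeg1_one hι hs hA.prime (hA.coprime p (Finset.mem_insert_self _ _)) hvr
  obtain ⟨i, hi, hn⟩ := exists_coprime_exponent hA.gen hQ hd hz
  set iu : (ZMod p)ˣ := ZMod.unitOfCoprime i hi
  have hu : ∀ a : ℕ, (zF ^ a) ^ (r - 1) = 1 := fun a => by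
    rw [← pow_mul, mul_comm, hd, mul_assoc, pow_mul, hz.pow_eq_one, one_pow]
  have hne : ∀ a : ℕ, ¬ p ∣ a → ∀ l, 1 ≤ l → l ≤ c → (zF ^ a) ^ l ≠ 1 := fun a ha l h1 h2 h => by
    rw [← pow_mul] at h
    rcases (Nat.Prime.dvd_mul hs.hp).1 (hz.dvd_of_pow_eq_one _ h) with h' | h'
    · exact ha h'
    · have := Nat.le_of_dvd (by omega) h'
      have := hs.hcP
      omega
  set J1 : Fˣ := Units.mk0 _ (pJ_ne_zero hA.gen (hu 1) (hne 1 hs.hp.not_dvd_one))
  set Jc : Fˣ := Units.mk0 _ (pJ_ne_zero hA.gen (hu c) (hne c hcp))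
  -- `x` and the Jacobi sums
  obtain ⟨-, γ, hγ, hγ0, hex, -⟩ := hx
  obtain ⟨γ₀, rfl⟩ := (hι γ).1 hγ
  have hvx : vmk (p ^ k) x + (c : ℕ) • vmk (p ^ k) J1 = vmk (p ^ k) Jc := by
    set γu : Fˣ := Units.mk0 γ₀ fun h => hγ0 (by rw [h, map_zero])
    have h1 : x * γu ^ p ^ k * J1 ^ c = Jc := by
      refine Units.ext (ι.injective ?_)
      have hJ0 : ι (J1 : F) ≠ 0 := (map_ne_zero ι).2 J1.ne_zero
      simp only [Units.val_mul, Units.val_pow_eq_pow_val, map_mul, map_pow]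
      rw [show ι (γu : F) = ι γ₀ from rfl, ← hex]
      have hdG : dG Ω p c r g (∅ : Finset ℕ) (1 : Ω) = funG Ω p c r g 1 := by
        simp [dG, pt, wt]
      rw [hdG, funG, mul_one, mul_one]
      have e1 : ι (J1 : F) = pJ r g c (zr Ω p) := by
        show ι (pJ r g c (zF ^ 1)) = _
        rw [pow_one, map_pJ, hzF]
      have ec : ι (Jc : F) = pJ r g c (zr Ω p ^ c) := by
        show ι (pJ r g c (zF ^ c)) = _
        rw [map_pJ, map_pow, hzF]
      rw [e1] at hJ0 ⊢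
      exact (div_mul_cancel₀ _ (pow_ne_zero c hJ0)).trans ec.symm
    have h0 : (p ^ k) • vmk (p ^ k) γu = 0 :=
      FA.Kolyvagin.nsmul_modq_eq_zero (p ^ k) (vmk (p ^ k) γu)
    rw [← h1, vmk_mul, vmk_mul, vmk_pow, vmk_pow, h0, add_zero]
  have hord : ∀ (a : ℕ) (ha : ¬ p ∣ a) (h : (ZMod p)ˣ) (J : Fˣ), (J : F) = pJ r g c (zF ^ a) →
      ordq vr (p ^ k) (phiq (phiV τ) _ h (vmk (p ^ k) J)) =
        (jOrd p c (i * (a * (h : ZMod p).val)) : ZMod (p ^ k)) := by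
    intro a ha h J hJ
    have ha' : ¬ p ∣ a * (h : ZMod p).val := fun hd' => by
      rcases (Nat.Prime.dvd_mul hs.hp).1 hd' with h' | h'
      · exact ha h'
      · exact h.ne_zero (by
          rw [← ZMod.natCast_zmod_val (h : ZMod p)]
          exact (ZMod.natCast_eq_zero_iff _ p).2 h')
    have hJ' : ((galU (τ h) J : Fˣ) : F) = pJ r g c (zF ^ (a * (h : ZMod p).val)) := by
      rw [galU_val, hJ]
      refine (map_pJ ((τ h : F ≃ₐ[ℚ] F) : F →+* F) c _).trans ?_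
      show pJ r g c (τ h (zF ^ a)) = _
      rw [map_pow, hτ h zF hz.pow_eq_one, ← pow_mul, mul_comm]
    rw [phiq_vmk, ordq_vmk, ← ordJ_eq vr hJ',
      ordJ_pow hA.gen hQ hd hz hn (le_trans one_le_two hs.hc2) _ (hne _ ha'), Int.cast_natCast]
  -- the sum
  set N : (ZMod p)ˣ → ZMod (p ^ k) := fun t => (jOrd p c (t : ZMod p).val : ZMod (p ^ k))
  have hN : ∀ (a : ℕ) (au : (ZMod p)ˣ), (au : ZMod p) = a → ∀ h : (ZMod p)ˣ,
      (jOrd p c (i * (a * (h : ZMod p).val)) : ZMod (p ^ k)) = N (iu * au * h) :=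
    fun a au hau h => by
    refine congrArg Nat.cast (jOrd_congr ?_)
    rw [← ZMod.natCast_eq_natCast_iff]
    simp [iu, hau, mul_assoc]
  set T := ∑ t : (ZMod p)ˣ, χ t⁻¹ * N t
  have hshift : ∀ au : (ZMod p)ˣ, ∑ h : (ZMod p)ˣ, N (iu * au * h) * χ h⁻¹ = χ (iu * au) * T := by
    intro au
    rw [Finset.mul_sum]
    refine Fintype.sum_equiv (Equiv.mulLeft (iu * au)) _ _ fun h => ?_
    rw [Equiv.coe_mulLeft, ← mul_assoc (χ _) (χ _), ← map_mul, mul_inv_rev, mul_comm h⁻¹,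
      mul_inv_cancel_left, mul_comm]
  have hGu : IsUnit (Fintype.card (ZMod p)ˣ : ZMod (p ^ k)) := by
    rw [ZMod.card_units p]
    exact (ZMod.isUnit_iff_coprime _ _).2 ((hs.hp.coprime_iff_not_dvd.2 fun hd' => by
      have := Nat.le_of_dvd (by have := hs.hp5; omega) hd'
      have := hs.hp5
      omega).pow_left k).symm
  have hspread : (Fintype.card (ZMod p)ˣ : ZMod (p ^ k)) *
      ordq vr (p ^ k) (act (phiV τ) dvd_rfl e (vmk (p ^ k) x)) = χ iu * (χ cu - c) * T := by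
    rw [← charEval_spread hmul heval]
    have hx' : vmk (p ^ k) x = vmk (p ^ k) Jc - c • vmk (p ^ k) J1 := eq_sub_of_add_eq hvx
    show charEval χ (∑ g' : (ZMod p)ˣ, single g' _) = _
    rw [map_sum, ← Equiv.sum_comp (Equiv.inv (ZMod p)ˣ)]
    simp only [charEval_single, Equiv.inv_apply, inv_inv, hx', map_sub, map_nsmul,
      hord c hcp _ Jc rfl, hord 1 hs.hp.not_dvd_one _ J1 rfl, nsmul_eq_mul, sub_mul,
      Finset.sum_sub_distrib, mul_assoc, ← Finset.mul_sum]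
    simp only [hN c cu (ZMod.coe_unitOfCoprime c _), hN 1 1 (by simp), hshift]
    rw [map_mul, mul_one]
    ring
  -- the character
  set E := (p - 1 - j) * p ^ k
  have hχ : ∀ t : (ZMod p)ˣ, χ t⁻¹ = (((t : ZMod p).val ^ E : ℕ) : ZMod (p ^ k)) := by
    intro t
    have h1 : t ^ (p - 1 - j) = (t ^ j)⁻¹ := by
      rw [eq_inv_iff_mul_eq_one, ← pow_add, Nat.sub_add_cancel (by omega)]
      have h2 := pow_card_eq_one (x := t)
      rwa [ZMod.card_units] at h2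
    rw [MonoidHom.pow_apply, ← map_pow, inv_pow, ← h1, map_pow]
    show (((t : ZMod p).val : ZMod (p ^ k)) ^ p ^ (k - 1)) ^ (p - 1 - j) = _
    rw [Nat.cast_pow, show E = p * (p ^ (k - 1) * (p - 1 - j)) by
      rw [← mul_assoc, ← pow_succ', Nat.sub_add_cancel hs.hk, mul_comm], pow_mul, pow_mul]
    refine congrArg (· ^ (p - 1 - j)) ?_
    rw [← Nat.cast_pow _ p]
    exact natCast_pow_congr hs.hk (by rw [Nat.cast_pow, ZMod.pow_card])
  have hpj : p - 1 - j ≠ 0 := by omega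
  have hcj : ∀ l, 0 < l → l < p - 1 → (c : ZMod p) ^ l ≠ 1 := fun l h1 h2 h => by
    have := orderOf_le_of_pow_eq_one h1 h
    omega
  have hχc : IsUnit (χ cu - (c : ZMod (p ^ k))) := by
    refine isUnit_of_residue hs.hk ?_
    rw [map_sub, map_natCast,
      MonoidHom.pow_apply, map_pow, castHom_teich, ZMod.coe_unitOfCoprime]
    refine sub_ne_zero.2 fun h => hcj (j - 1) (by omega) (by omega) ?_
    refine mul_right_cancel₀ (b := (c : ZMod p)) (fun h0 => hcp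
      ((ZMod.natCast_eq_zero_iff c p).1 h0)) ?_
    rw [one_mul, ← pow_succ, Nat.sub_add_cancel (by omega : 1 ≤ j), h]
  have hχ0 : ∑ t : (ZMod p)ˣ, χ t⁻¹ = 0 := by
    have h1 : χ cu * (∑ t : (ZMod p)ˣ, χ t⁻¹) = ∑ t : (ZMod p)ˣ, χ t⁻¹ := by
      rw [Finset.mul_sum]
      refine Fintype.sum_equiv (Equiv.mulLeft cu⁻¹) _ _ fun t => ?_
      rw [Equiv.coe_mulLeft, ← map_mul, mul_inv_rev, inv_inv, mul_comm t⁻¹]
    have hne1 : IsUnit (χ cu - 1) := by
      refine isUnit_of_residue hs.hk ?_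
      rw [map_sub, map_one,
        MonoidHom.pow_apply, map_pow, castHom_teich, ZMod.coe_unitOfCoprime]
      exact sub_ne_zero.2 (hcj j (by omega) (by omega))
    exact hne1.mul_right_eq_zero.1 (by rw [sub_mul, one_mul, h1, sub_self])
  set A := ∑ t : (ZMod p)ˣ,
    ((((t : ZMod p).val ^ E * (c * (t : ZMod p).val / p) : ℕ)) : ZMod (p ^ k))
  have hT : T = -A := by
    rw [eq_neg_iff_add_eq_zero, ← mul_zero (((c - 1 : ℕ) : ZMod (p ^ k))), ← hχ0, Finset.mul_sum,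
      ← Finset.sum_add_distrib]
    refine Finset.sum_congr rfl fun t _ => ?_
    rw [Nat.cast_mul, ← hχ, ← mul_add, ← Nat.cast_add, mul_comm, jOrd_add_div (ZMod.val_lt _)
      (fun h => t.ne_zero ((ZMod.val_eq_zero _).1 h)) hcp]
  have hA' := stickelberger_sum (k := k) hcp ⟨_, rfl⟩ hS
  have hcu : IsUnit ((c ^ E : ℕ) : ZMod (p ^ k)) := (ZMod.isUnit_iff_coprime _ _).2
    (((hs.hp.coprime_iff_not_dvd.2 hcp).pow_right E).pow_left k).symm
  have hcu1 : IsUnit (((c ^ (1 + E) : ℕ) : ZMod (p ^ k)) - 1) := by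
    refine isUnit_of_residue hs.hk ?_
    rw [map_sub, map_natCast, map_one,
      sub_ne_zero, Nat.cast_pow, pow_add, pow_one]
    show (c : ZMod p) * (c : ZMod p) ^ ((p - 1 - j) * p ^ k) ≠ 1
    rw [mul_comm _ (p ^ k), pow_mul, ZMod.pow_card_pow, ← pow_succ']
    exact hcj _ (by omega) (by omega)
  have hwu : IsUnit (w : ZMod (p ^ k)) :=
    (ZMod.isUnit_iff_coprime _ _).2 ((hs.hp.coprime_iff_not_dvd.2 hw).pow_left k).symm
  obtain ⟨ci, hci⟩ := hcu.exists_left_inv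
  obtain ⟨Gi, hGi⟩ := hGu.exists_left_inv
  refine ⟨-(Gi * χ iu * (χ cu - c) * ci * (((c ^ (1 + E) : ℕ) : ZMod (p ^ k)) - 1) * w),
    ((((((IsUnit.of_mul_eq_one _ hGi).mul ((Group.isUnit iu).map χ)).mul hχc).mul
      (IsUnit.of_mul_eq_one _ hci)).mul hcu1).mul hwu).neg, ?_⟩
  have hAv : A = ci * ((((c ^ (1 + E) : ℕ) : ZMod (p ^ k)) - 1) *
      ((p ^ v : ℕ) * (w : ZMod (p ^ k)))) := by
    rw [← Nat.cast_mul, ← hA', ← mul_assoc, hci, one_mul]
  have h5 := congrArg (Gi * ·) hspread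
  simp only [← mul_assoc, hGi, one_mul] at h5
  rw [h5, hT, hAv]
  ring

end FA.GaussKolyvagin
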