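import Fermat.Agent.GaussKolyvagin.Scalar

/-!
# The bound of the component

`card_component_le`: if the order at a prime over `r` of the component of the class of a Gauss sum
of `r` is `p ^ v` times a unit modulo `p ^ k`, then the component of the class group modulo a
divisor of `p ^ (k - v)` has at most `p ^ v` elements.

Kolyvagin's descent, the auxiliary prime `r` being replaced in every step by one in the same class.
-/

set_option autoImplicit false
set_option linter.unusedSectionVars false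
set_option linter.style.haveILetI false

noncomputable section

open scoped Classical Pointwise
open Finset NumberField IsDedekindDomain FA.ArtinRec FA.AmbClass
open FA.Kolyvagin (Modq mkq mkq_surjective phiq act act_of act_mul Vq Aq vmk vmk_surjective
  vmk_eq_zero_iff vmk_mul vmk_pow phiV phiA phiq_vmk ordq dlog LogAt dlogq dlogq_gal dlogq_vmk
  dlog_eq
  exists_logAt spread coeff_spread aCls IsDeg1 nsmul_modq_eq_zero_of_dvd
  zmod_exists_eq_mul_of_pow_mul_eq_zero)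
open FA.HerbrandRibet (charEval)
open MonoidAlgebra (single)

namespace FA.GaussKolyvagin

/-- A subgroup generated by one more element. -/
theorem card_closure_le {A : Type*} [AddCommGroup A] [Finite A] {K : AddSubgroup A} {z : A}
    {N : ℕ} (hN : 0 < N) (hz : N • z ∈ K) {S : Set A} (hS : S ⊆ insert z (K : Set A)) :
    Nat.card (AddSubgroup.closure S) ≤ N * Nat.card K := by
  set B := K ⊔ AddSubgroup.zmultiples z
  have hle : AddSubgroup.closure S ≤ B := (AddSubgroup.closure_le _).2 fun y hy => by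
    rcases hS hy with rfl | hy
    · exact AddSubgroup.mem_sup_right (AddSubgroup.mem_zmultiples _)
    · exact AddSubgroup.mem_sup_left hy
  refine (AddSubgroup.card_le_of_le hle).trans ?_
  let h : Fin N × K → B := fun a => ⟨(a.1 : ℕ) • z + a.2,
    add_mem (nsmul_mem (AddSubgroup.mem_sup_right (AddSubgroup.mem_zmultiples z)) _)
      (AddSubgroup.mem_sup_left a.2.2)⟩
  have hsurj : Function.Surjective h := by
    rintro ⟨y, hy⟩
    obtain ⟨b, hb, w, hw, rfl⟩ := AddSubgroup.mem_sup.1 hy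
    obtain ⟨n, rfl⟩ := AddSubgroup.mem_zmultiples_iff.1 hw
    have hN0 : (N : ℤ) ≠ 0 := by exact_mod_cast hN.ne'
    have h0 := Int.emod_nonneg n hN0
    have h1 := Int.emod_lt_of_pos n (by exact_mod_cast hN : (0 : ℤ) < N)
    refine ⟨(⟨(n % N).toNat, by omega⟩, ⟨b + (n / N) • N • z,
      add_mem hb (zsmul_mem hz _)⟩), Subtype.ext ?_⟩
    show (n % N).toNat • z + (b + (n / N) • N • z) = b + n • z
    rw [← natCast_zsmul z, Int.toNat_of_nonneg h0, ← natCast_zsmul z N, ← mul_zsmul,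
      add_left_comm, ← add_zsmul, mul_comm (n / N), Int.emod_add_mul_ediv]
  refine (Nat.card_le_card_of_surjective h hsurj).trans ?_
  rw [Nat.card_prod, Nat.card_fin]

section scalars

variable {p k : ℕ} [hp : Fact p.Prime]

/-- Solving `p ^ a o = p ^ b u`. -/
theorem exists_decomp {a b : ℕ} {o u : ZMod (p ^ k)} (hu : IsUnit u) (ha : a ≤ k) (hb : b < k)
    (h : ((p ^ a : ℕ) : ZMod (p ^ k)) * o = ((p ^ b : ℕ) : ZMod (p ^ k)) * u) :
    a ≤ b ∧ ∃ d, o = ((p ^ (b - a) : ℕ) : ZMod (p ^ k)) * u +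
      ((p ^ (k - a) : ℕ) : ZMod (p ^ k)) * d := by
  haveI : NeZero (p ^ k) := ⟨pow_ne_zero _ hp.out.ne_zero⟩
  have hab : a ≤ b := by
    by_contra hlt
    have h1 := congrArg (fun t => ((p ^ (k - a) : ℕ) : ZMod (p ^ k)) * t) h
    simp only [← mul_assoc, ← Nat.cast_mul, ← pow_add, Nat.sub_add_cancel ha, ZMod.natCast_self,
      zero_mul] at h1
    have h2 := (ZMod.natCast_eq_zero_iff _ _).1 (hu.mul_left_eq_zero.1 h1.symm)
    have := (Nat.pow_dvd_pow_iff_le_right hp.out.one_lt).1 h2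
    omega
  obtain ⟨d, hd⟩ := zmod_exists_eq_mul_of_pow_mul_eq_zero (ℓ := p) (i := a)
    (a := o - ((p ^ (b - a) : ℕ) : ZMod (p ^ k)) * u) ha (by
      rw [mul_sub, ← mul_assoc, ← Nat.cast_mul, ← pow_add, Nat.add_sub_cancel' hab, h, sub_self])
  exact ⟨hab, d, by rw [← hd]; ring⟩

/-- Removing the unit of a multiple. -/
theorem pow_smul_mem {X : Type*} [AddCommGroup X] {m : ℕ} (hm : m ∣ p ^ k) {n j : ℕ}
    (hj : m ∣ p ^ j) {K : AddSubgroup (Modq X m)} {x : Modq X m} {o u d : ZMod (p ^ k)}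
    (hu : IsUnit u) (ho : o = ((p ^ n : ℕ) : ZMod (p ^ k)) * u + ((p ^ j : ℕ) : ZMod (p ^ k)) * d)
    (h : o.val • x ∈ K) : p ^ n • x ∈ K := by
  haveI : NeZero (p ^ k) := ⟨pow_ne_zero _ hp.out.ne_zero⟩
  have ho' : o = ((u.val * p ^ n + d.val * p ^ j : ℕ) : ZMod (p ^ k)) := by
    rw [Nat.cast_add, Nat.cast_mul, Nat.cast_mul, ZMod.natCast_zmod_val, ZMod.natCast_zmod_val,
      ho]
    ring
  rw [ho', natCast_val_smul hm, add_nsmul, mul_nsmul', mul_nsmul' x d.val,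
    nsmul_modq_eq_zero_of_dvd hj, nsmul_zero, add_zero] at h
  obtain ⟨w, hw⟩ := hu.exists_left_inv
  have h1 := AddSubgroup.nsmul_mem K h w.val
  rwa [← val_smul_mul hm, hw,
    show (1 : ZMod (p ^ k)) = ((1 : ℕ) : ZMod (p ^ k)) from Nat.cast_one.symm,
    natCast_val_smul hm, one_nsmul] at h1

end scalars

variable {Ω : Type*} [Field Ω] [CharZero Ω] [IsAlgClosed Ω] [Algebra.IsAlgebraic ℚ Ω]
variable {F : Type*} [Field F] [NumberField F] [IsGalois ℚ F] {ι : F →+* Ω}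
variable {G : Type*} [CommGroup G] [Fintype G] (τ : G →* (F ≃ₐ[ℚ] F))
variable {p P k c : ℕ} [hp : Fact p.Prime] {χ : G →* ZMod (p ^ k)}
  {e : MonoidAlgebra (ZMod (p ^ k)) G}

/-- The subgroup of the component generated by the classes of the chosen primes. -/
def clsSpan {m : ℕ} (hm : m ∣ p ^ k) (e : MonoidAlgebra (ZMod (p ^ k)) G) (T : Finset ℕ)
    (vs : ℕ → HeightOneSpectrum (𝓞 F)) (vr : HeightOneSpectrum (𝓞 F)) : AddSubgroup (Aq F m) :=
  AddSubgroup.closure (insert (act (phiA τ) hm e (aCls m vr))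
    ((fun q => act (phiA τ) hm e (aCls m (vs q))) '' (T : Set ℕ)))

variable (ι c P) in
/-- The state of the descent. -/
def IsStep {m : ℕ} (hm : m ∣ p ^ k) (e : MonoidAlgebra (ZMod (p ^ k)) G) (v₀ : ℕ)
    (cs : List (Aq F m)) : Prop :=
  ∃ (T : Finset ℕ) (vs : ℕ → HeightOneSpectrum (𝓞 F)) (r g : ℕ) (vr : HeightOneSpectrum (𝓞 F))
    (x : Fˣ) (s : ℕ) (η : Vq F (p ^ k)),
    (∀ q ∈ T, IsAdm p P k q) ∧ (∀ q ∈ T, IsDeg1 (p ^ k) (vs q) q) ∧ IsAux P T r g ∧
    Ideal.absNorm vr.asIdeal = r ∧ IsKappa Ω P c r g p k T (ι x) ∧ s ≤ v₀ ∧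
    act (phiV τ) dvd_rfl e η = η ∧ act (phiV τ) dvd_rfl e (vmk (p ^ k) x) = p ^ s • η ∧
    (¬ ∃ y, η = p • y) ∧ (∀ d ∈ cs, d ∈ clsSpan τ hm e T vs vr) ∧
    Nat.card (clsSpan τ hm e T vs vr) * p ^ s ≤ p ^ v₀

variable (hι : IsCycBase P ι) (hs : Setup p P k c) (hτ : Function.Bijective τ)
  (hmul : ∀ x, x * e = single 1 (charEval χ x) * e) (heval : charEval χ e = 1)
  (hG : ¬ p ∣ Fintype.card G)
include hι hs hτ hmul heval hG

omit hτ hmul heval hG in
theorem isDeg1_one {r : ℕ} (hr : r.Prime) (hrp : r.Coprime P) {v : HeightOneSpectrum (𝓞 F)}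
    (hv : Ideal.absNorm v.asIdeal = r) : IsDeg1 1 v r :=
  ⟨hr, hv, one_dvd _,
    fun _ => ord_natCast_eq_one hι hs.pos.ne' hr hrp v (hv ▸ Ideal.absNorm_mem v.asIdeal)⟩

/-- The class relation of a class of a Gauss sum. -/
theorem sum_ord_kappa {m s : ℕ} (hm : m ∣ p ^ k) (hsk : s ≤ k) (hms : m ∣ p ^ (k - s))
    {T : Finset ℕ} (hT : ∀ q ∈ T, IsAdm p P k q) {r g : ℕ} (hA : IsAux P T r g)
    {vs : ℕ → HeightOneSpectrum (𝓞 F)} (hvs : ∀ q ∈ insert r T, IsDeg1 1 (vs q) q) {x : Fˣ}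
    (hx : IsKappa Ω P c r g p k T (ι x)) {η : Vq F (p ^ k)} (hη : act (phiV τ) dvd_rfl e η = η)
    (hxη : act (phiV τ) dvd_rfl e (vmk (p ^ k) x) = p ^ s • η) :
    ∑ q ∈ insert r T, ((Fintype.card G : ZMod (p ^ k)) * ordq (vs q) (p ^ k) η).val •
      act (phiA τ) hm e (aCls m (vs q)) = 0 :=
  sum_ord_eigen τ hmul heval hτ hm hsk hms hvs
    (fun w hw => IsKappa.dvd_ord hι hs hT hA hx w
      (fun q hq => hw q (Finset.mem_insert_of_mem hq)) (hw r (Finset.mem_insert_self r T))) hη hxη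

variable {g₀ : G} {a : ℕ} (ha : ∀ z : F, z ^ p = 1 → τ g₀ z = z ^ a) (ha0 : ¬ p ∣ a)
  (hX1 : ((χ g₀).val : ZMod p) ≠ 1) (hXa : ((χ g₀).val : ZMod p) ≠ a)
  (hX2 : ((χ g₀).val : ZMod p) ^ 2 ≠ a)
include ha ha0 hX1 hXa hX2

/-- **One step of the descent.** -/
theorem isStep_cons {m : ℕ} (hm : m ∣ p ^ k) {v₀ : ℕ} (hv₀ : v₀ < k)
    (hms : m ∣ p ^ (k - v₀)) {cs : List (Aq F m)} {cl : Aq F m}
    (hcl : act (phiA τ) hm e cl = cl) (h : IsStep (ι := ι) τ P c hm e v₀ cs) :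
    IsStep (ι := ι) τ P c hm e v₀ (cl :: cs) := by
  haveI : NeZero (p ^ k) := ⟨pow_ne_zero _ hs.hp.ne_zero⟩
  haveI : Finite (Additive (ClassGroup (𝓞 F))) := Finite.of_equiv _ Additive.ofMul
  obtain ⟨T, vs, r, g, vr, x, s, η, hT, hvs, hA, hvr, hx, hs0, hη, hxη, hηp, hcs, hcard⟩ := h
  obtain ⟨y₀, hy₀⟩ := vmk_surjective (p ^ k) η
  set X := (χ g₀).val
  have hX0 : ¬ p ∣ X := fun hd => by
    have h1 : χ g₀ * χ g₀⁻¹ = 1 := by rw [← map_mul, mul_inv_cancel, map_one]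
    have h2 := congrArg (ZMod.castHom (dvd_pow_self p hs.hk.ne') (ZMod p)) h1
    rw [map_mul, map_one, ← ZMod.natCast_zmod_val (χ g₀), map_natCast,
      (ZMod.natCast_eq_zero_iff _ p).2 hd, zero_mul] at h2
    exact zero_ne_one h2
  have hygal : ∃ y : Fˣ, galU (τ g₀) y₀ = y₀ ^ X * y ^ p := by
    have h1 : vmk (p ^ k) (galU (τ g₀) y₀) = vmk (p ^ k) (y₀ ^ X) := by
      rw [← phiq_vmk, hy₀, phiq_eigen hmul dvd_rfl g₀ hη, vmk_pow, hy₀]
    have h2 : vmk (p ^ k) (galU (τ g₀) y₀ * (y₀ ^ X)⁻¹) = 0 := by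
      refine add_right_cancel (b := vmk (p ^ k) (y₀ ^ X)) ?_
      rw [← vmk_mul, inv_mul_cancel_right, h1, zero_add]
    obtain ⟨w, hw⟩ := vmk_eq_zero_iff.1 h2
    obtain ⟨k', hk'⟩ : ∃ k', k = k' + 1 := ⟨k - 1, by have := hs.hk; omega⟩
    refine ⟨w ^ p ^ k', ?_⟩
    rw [← pow_mul, ← pow_succ, ← hk', hw, mul_left_comm, mul_inv_cancel, mul_one]
  have hyp : ¬ ∃ y : Fˣ, y ^ p = y₀ := fun ⟨y, hy⟩ => hηp ⟨vmk (p ^ k) y, by
    rw [← hy₀, ← hy, vmk_pow]⟩
  let f₀ : Additive (ClassGroup (𝓞 F)) →+ Aq F m :=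
    (act (phiA τ) hm e : Aq F m →+ Aq F m).comp (mkq m)
  have hf₀ : ∃ C, f₀ C = cl := by
    obtain ⟨C, hC⟩ := mkq_surjective m cl
    exact ⟨C, by show act (phiA τ) hm e (mkq m C) = cl; rw [hC, hcl]⟩
  have hfX : ∀ C, f₀.rangeRestrict (Additive.ofMul (galCl (τ g₀) C)) =
      X • f₀.rangeRestrict (Additive.ofMul C) := fun C => Subtype.ext (by
    show act (phiA τ) hm e (phiq (phiA τ) m g₀ (mkq m (Additive.ofMul C))) =
      X • act (phiA τ) hm e (mkq m (Additive.ofMul C))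
    rw [← act_of (φ := phiA τ) (hm := hm), ← act_mul, mul_comm, act_mul, act_of,
      phiq_eigen hmul hm g₀ (act_e_idem hmul heval hm _)])
  obtain ⟨q, v, -, hq, hqT, hqr, ⟨ρ, hρ⟩, hN, -, hfv, hlog'⟩ :=
    exists_prime hι hs hT hA.prime ha ha0 hX0 hX1 hXa hX2
      (B := f₀.range) (fun b => Subtype.ext (nsmul_modq_eq_zero_of_dvd hm (b : Aq F m)))
      f₀.rangeRestrict f₀.rangeRestrict_surjective hfX ⟨cl, hf₀⟩ (fun _ : Unit => y₀)
      (fun _ => hygal) (fun e' ⟨y, hy⟩ l => by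
        by_contra hd
        obtain ⟨b', hb'⟩ :=
          Nat.exists_mul_mod_eq_one_of_coprime (hs.hp.coprime_iff_not_dvd.2 hd).symm hs.hp.one_lt
        refine hyp ⟨y ^ b' * (y₀ ^ (e' l * b' / p))⁻¹, ?_⟩
        have hy' : y ^ p = y₀ ^ e' l := by rw [hy]; simp
        rw [mul_pow, inv_pow, pow_right_comm, hy', ← pow_mul, ← pow_mul, mul_inv_eq_iff_eq_mul,
          ← pow_succ']
        congr 1
        have h1 := Nat.div_add_mod (e' l * b') p
        rw [hb'.2, mul_comm p] at h1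
        exact h1.symm)
      (fun _ => 1) Set.finite_empty
  have hclv : act (phiA τ) hm e (aCls m v) = cl := congrArg Subtype.val hfv
  have hlog : ∀ j, LogAt v q y₀ j → ¬ p ∣ j := fun j hj hd =>
    one_ne_zero ((hlog' () j hj).1 hd)
  obtain ⟨r', g', vr', hA', hvr', hcls, hdl⟩ :=
    exists_replace hι hs hT hA hvr hq hqT hqr.symm hρ
  have hv : IsDeg1 (p ^ k) v q := ⟨hq.prime, hN, hq.dvd_pow,
    fun _ => ord_natCast_eq_one hι hs.pos.ne' hq.prime (coprime_of_dvd_sub_one hq.prime hq.dvd_base)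
      v (hN ▸ Ideal.absNorm_mem v.asIdeal)⟩
  have hqT' : q ∉ T := fun h => by
    have h1 := Nat.le_of_dvd (by have := hq.prime.two_le; omega) (hqT q h)
    have := hq.prime.two_le
    omega
  set T' := insert q T with hT'
  have hT'a : ∀ t ∈ T', IsAdm p P k t := fun t ht =>
    (Finset.mem_insert.1 ht).elim (fun h => h ▸ hq) (hT t)
  have hA'T := hA'.mono (Finset.subset_insert q T)
  obtain ⟨x₁, hx₁⟩ := exists_isKappa_base hι hs hT hA'T
  obtain ⟨x', hx'⟩ := exists_isKappa_base hι hs hT'a hA'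
  -- the order of `x'` at `v`
  have hgal : ∀ (h : G) (z : Fˣ), dlogq hv (phiq (phiV τ) _ h⁻¹ (vmk (p ^ k) z)) =
      dlog (p ^ k) (galPrime (τ h) v) q z := fun h z => by
    rw [← dlogq_gal τ hv h, show phiq (phiV τ) _ h (phiq (phiV τ) _ h⁻¹ (vmk (p ^ k) z)) =
      phiq (phiV τ) _ (h * h⁻¹) (vmk (p ^ k) z) by rw [map_mul]; rfl, mul_inv_cancel, map_one]
    rfl
  have hD : spread (phiV τ) (ordq v (p ^ k)) (vmk (p ^ k) x') =
      -spread (phiV τ) (dlogq hv) (vmk (p ^ k) x) := by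
    rw [spread_ord_eq_neg_spread_dlog hι τ hs hT'a hA' (Finset.mem_insert_self q T) hv hx'
      (y := x₁) (by rw [hT', Finset.erase_insert hqT']; exact hx₁)]
    refine congrArg Neg.neg (MonoidAlgebra.ext (Finsupp.ext fun h => ?_))
    rw [coeff_spread, coeff_spread, hgal, hgal]
    exact hdl _ (hv.gal (τ h)).norm x x₁ hx hx₁
  set z' := act (phiV τ) dvd_rfl e (vmk (p ^ k) x')
  have hGu : IsUnit (Fintype.card G : ZMod (p ^ k)) :=
    (ZMod.isUnit_iff_coprime _ _).2 ((hs.hp.coprime_iff_not_dvd.2 hG).pow_left k).symm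
  obtain ⟨j, hj⟩ := exists_logAt hv y₀
  have hu : IsUnit (-(j : ZMod (p ^ k))) :=
    ((ZMod.isUnit_iff_coprime _ _).2
      ((hs.hp.coprime_iff_not_dvd.2 (hlog j hj)).pow_left k).symm).neg
  have hord : ordq v (p ^ k) z' = ((p ^ s : ℕ) : ZMod (p ^ k)) * -(j : ZMod (p ^ k)) := by
    have h1 := congrArg (charEval χ) hD
    rw [map_neg, charEval_spread hmul heval, charEval_spread hmul heval, hxη, map_nsmul,
      ← mul_neg] at h1
    rw [hGu.mul_left_cancel h1, nsmul_eq_mul, ← mul_neg, ← hy₀, dlogq_vmk, dlog_eq hv hj]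
  have hsk : s < k := lt_of_le_of_lt hs0 hv₀
  have hz'0 : z' ≠ 0 := fun h0 => by
    rw [h0, map_zero] at hord
    have h1 := (ZMod.natCast_eq_zero_iff _ _).1 (hu.mul_left_eq_zero.1 hord.symm)
    have := (Nat.pow_dvd_pow_iff_le_right hs.hp.one_lt).1 h1
    omega
  obtain ⟨s', hs'k, η', hη', hz'η', hη'p⟩ := exists_normal_form_eigen τ hmul heval
    (show act (phiV τ) dvd_rfl e z' = z' from act_e_idem hmul heval dvd_rfl _) hz'0
  obtain ⟨hs's, d, hd⟩ := exists_decomp (a := s') (b := s) (o := ordq v (p ^ k) η') hu hs'k.le hsk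
    (by rw [← hord, hz'η', map_nsmul, nsmul_eq_mul])
  -- the relation
  set B := clsSpan τ hm e T vs vr
  have hr'T' : r' ∉ T' := hA'.notMem
  have hr'q : r' ≠ q := fun h => hr'T' (h ▸ Finset.mem_insert_self q T)
  set vs' : ℕ → HeightOneSpectrum (𝓞 F) := Function.update vs q v
  set vs'' : ℕ → HeightOneSpectrum (𝓞 F) := Function.update vs' r' vr'
  have hvs'T : ∀ t ∈ T, vs' t = vs t := fun t ht =>
    Function.update_of_ne (fun h : t = q => hqT' (h ▸ ht)) _ _
  have hvs' : ∀ t ∈ T', IsDeg1 (p ^ k) (vs' t) t := fun t ht => by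
    rcases Finset.mem_insert.1 ht with rfl | ht
    · simpa [vs'] using hv
    · rw [hvs'T t ht]; exact hvs t ht
  have hvs''T : ∀ t ∈ T', vs'' t = vs' t := fun t ht =>
    Function.update_of_ne (fun h : t = r' => hr'T' (h ▸ ht)) _ _
  have hvs''r : vs'' r' = vr' := Function.update_self r' vr' vs'
  have hms' : m ∣ p ^ (k - s') := hms.trans (pow_dvd_pow p (by omega))
  have hrel := sum_ord_kappa τ hι hs hτ hmul heval hG hm hs'k.le hms' hT'a hA' (vs := vs'')
    (fun t ht => by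
      rcases Finset.mem_insert.1 ht with rfl | ht
      · rw [hvs''r]
        exact isDeg1_one hι hs hA'.prime (hA'.coprime P (Finset.mem_insert_self _ _)) hvr'
      · rw [hvs''T t ht]
        exact ⟨(hvs' t ht).prime, (hvs' t ht).norm, one_dvd _, (hvs' t ht).ord_r⟩)
    hx' hη' hz'η'
  have hmem : ∀ t ∈ insert r' T, act (phiA τ) hm e (aCls m (vs'' t)) ∈ B := fun t ht => by
    rcases Finset.mem_insert.1 ht with rfl | ht
    · rw [hvs''r, show aCls m vr' = aCls m vr by rw [aCls, aCls, hcls]]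
      exact AddSubgroup.subset_closure (Set.mem_insert _ _)
    · rw [hvs''T t (Finset.mem_insert_of_mem ht), hvs'T t ht]
      exact AddSubgroup.subset_closure (Set.mem_insert_of_mem _ ⟨t, ht, rfl⟩)
  have hclB : p ^ (s - s') • cl ∈ B := by
    rw [hT', Finset.insert_comm, Finset.sum_insert (by simp [hr'q.symm, hqT']),
      add_eq_zero_iff_eq_neg, hvs''T q (Finset.mem_insert_self q T),
      show vs' q = v from Function.update_self q v vs, hclv] at hrel
    refine pow_smul_mem hm hms' (u := (Fintype.card G : ZMod (p ^ k)) * -(j : ZMod (p ^ k)))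
      (d := (Fintype.card G : ZMod (p ^ k)) * d) (hGu.mul hu) ?_
      (hrel ▸ neg_mem (sum_mem fun t ht => AddSubgroup.nsmul_mem _ (hmem t ht) _))
    rw [hd]
    ring
  refine ⟨T', vs', r', g', vr', x', s', η', hT'a, hvs', hA', hvr', hx', hs's.trans hs0, hη',
    hz'η', hη'p, ?_, ?_⟩
  · intro d' hd'
    rcases List.mem_cons.1 hd' with rfl | hd'
    · refine AddSubgroup.subset_closure (Set.mem_insert_of_mem _
        ⟨q, Finset.mem_insert_self q T, ?_⟩)
      show act (phiA τ) hm e (aCls m (vs' q)) = _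
      rw [show vs' q = v from Function.update_self q v vs, hclv]
    · refine AddSubgroup.closure_mono ?_ (hcs d' hd')
      rintro _ (rfl | ⟨t, ht, rfl⟩)
      · exact Set.mem_insert_iff.2 (Or.inl (by rw [aCls, aCls, hcls]))
      · exact Set.mem_insert_of_mem _ ⟨t, Finset.mem_insert_of_mem ht, by
          show act (phiA τ) hm e (aCls m (vs' t)) = _; rw [hvs'T t ht]⟩
  · have hsub : insert (act (phiA τ) hm e (aCls m vr'))
        ((fun t => act (phiA τ) hm e (aCls m (vs' t))) '' (T' : Set ℕ)) ⊆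
        insert cl (B : Set (Aq F m)) := by
      rintro _ (rfl | ⟨t, ht, rfl⟩)
      · exact Set.mem_insert_of_mem _ (hvs''r ▸ hmem r' (Finset.mem_insert_self r' T))
      · rcases Finset.mem_insert.1 ht with rfl | ht
        · refine Set.mem_insert_iff.2 (Or.inl ?_)
          show act (phiA τ) hm e (aCls m (vs' t)) = cl
          rw [show vs' t = v from Function.update_self t v vs, hclv]
        · refine Set.mem_insert_of_mem _ ?_
          have h1 := hmem t (Finset.mem_insert_of_mem ht)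
          rwa [hvs''T t (Finset.mem_insert_of_mem ht)] at h1
    calc Nat.card (clsSpan τ hm e T' vs' vr') * p ^ s'
        ≤ p ^ (s - s') * Nat.card B * p ^ s' :=
          Nat.mul_le_mul_right _ (card_closure_le (pow_pos hs.hp.pos _) hclB hsub)
      _ = Nat.card B * p ^ s := by
          rw [mul_comm (p ^ (s - s')), mul_assoc, ← pow_add, Nat.sub_add_cancel hs's]
      _ ≤ p ^ v₀ := hcard

/-- **The bound of the component.** -/
theorem card_component_le {m : ℕ} (hm : m ∣ p ^ k) {r g : ℕ} (hA : IsAux P ∅ r g)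
    {vr : HeightOneSpectrum (𝓞 F)} (hvr : Ideal.absNorm vr.asIdeal = r) {x : Fˣ}
    (hx : IsKappa Ω P c r g p k ∅ (ι x)) {v₀ : ℕ} (hv₀ : v₀ < k) (hms : m ∣ p ^ (k - v₀))
    {u : ZMod (p ^ k)} (hu : IsUnit u)
    (hval : ordq vr (p ^ k) (act (phiV τ) dvd_rfl e (vmk (p ^ k) x)) =
      ((p ^ v₀ : ℕ) : ZMod (p ^ k)) * u) :
    Nat.card (act (phiA τ) hm e : Aq F m →+ Aq F m).range ≤ p ^ v₀ := by
  haveI : NeZero (p ^ k) := ⟨pow_ne_zero _ hs.hp.ne_zero⟩
  haveI : Finite (Additive (ClassGroup (𝓞 F))) := Finite.of_equiv _ Additive.ofMul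
  have hz0 : act (phiV τ) dvd_rfl e (vmk (p ^ k) x) ≠ 0 := fun h0 => by
    rw [h0, map_zero] at hval
    have h1 := (ZMod.natCast_eq_zero_iff _ _).1 (hu.mul_left_eq_zero.1 hval.symm)
    have := (Nat.pow_dvd_pow_iff_le_right hs.hp.one_lt).1 h1
    omega
  obtain ⟨s, hsk, η, hη, hxη, hηp⟩ := exists_normal_form_eigen τ hmul heval
    (show act (phiV τ) dvd_rfl e (act (phiV τ) dvd_rfl e (vmk (p ^ k) x)) = _ from
      act_e_idem hmul heval dvd_rfl _) hz0
  obtain ⟨hs0, d, hd⟩ := exists_decomp (a := s) (b := v₀) (o := ordq vr (p ^ k) η) hu hsk.le hv₀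
    (by rw [← hval, hxη, map_nsmul, nsmul_eq_mul])
  have hT0 : ∀ q ∈ (∅ : Finset ℕ), IsAdm p P k q := by simp
  have hms' : m ∣ p ^ (k - s) := hms.trans (pow_dvd_pow p (by omega))
  have hrel := sum_ord_kappa τ hι hs hτ hmul heval hG hm hsk.le hms' hT0 hA (vs := fun _ => vr)
    (fun t ht => by
      rw [LawfulSingleton.insert_empty_eq, Finset.mem_singleton] at ht
      subst ht
      exact isDeg1_one hι hs hA.prime (hA.coprime P (Finset.mem_insert_self _ _)) hvr) hx hη hxη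
  rw [LawfulSingleton.insert_empty_eq, Finset.sum_singleton] at hrel
  have hGu : IsUnit (Fintype.card G : ZMod (p ^ k)) :=
    (ZMod.isUnit_iff_coprime _ _).2 ((hs.hp.coprime_iff_not_dvd.2 hG).pow_left k).symm
  have hbase0 : p ^ (v₀ - s) • act (phiA τ) hm e (aCls m vr) ∈ (⊥ : AddSubgroup (Aq F m)) :=
    pow_smul_mem hm hms' (u := (Fintype.card G : ZMod (p ^ k)) * u)
      (d := (Fintype.card G : ZMod (p ^ k)) * d) (hGu.mul hu) (by rw [hd]; ring)
      (AddSubgroup.mem_bot.2 hrel)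
  have hbase : IsStep (ι := ι) τ P c hm e v₀ ([] : List (Aq F m)) := by
    refine ⟨∅, fun _ => vr, r, g, vr, x, s, η, hT0, by simp, hA, hvr, hx, hs0, hη, hxη, hηp,
      by simp, ?_⟩
    calc Nat.card (clsSpan τ hm e ∅ (fun _ => vr) vr) * p ^ s
        ≤ p ^ (v₀ - s) * Nat.card (⊥ : AddSubgroup (Aq F m)) * p ^ s :=
          Nat.mul_le_mul_right _ (card_closure_le (pow_pos hs.hp.pos _) hbase0 (by simp))
      _ = p ^ v₀ := by
          rw [AddSubgroup.card_bot, mul_one, ← pow_add, Nat.sub_add_cancel hs0]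
  have hall : ∀ cs : List (Aq F m), (∀ d ∈ cs, act (phiA τ) hm e d = d) →
      IsStep (ι := ι) τ P c hm e v₀ cs := by
    intro cs
    induction cs with
    | nil => exact fun _ => hbase
    | cons d cs ih =>
      exact fun hd => isStep_cons τ hι hs hτ hmul heval hG ha ha0 hX1 hXa hX2 hm hv₀ hms
        (hd d List.mem_cons_self) (ih fun d' hd' => hd d' (List.mem_cons_of_mem _ hd'))
  set W := (act (phiA τ) hm e : Aq F m →+ Aq F m).range
  haveI : Fintype W := Fintype.ofFinite W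
  obtain ⟨T, vs, r', g', vr', x', s', η', -, -, -, -, -, -, -, -, -, hmem, hle⟩ :=
    hall ((Finset.univ : Finset W).toList.map Subtype.val) (by
      intro d hd
      obtain ⟨⟨d', y, hy⟩, -, rfl⟩ := List.mem_map.1 hd
      show act (phiA τ) hm e d' = d'
      rw [← hy]
      exact act_e_idem hmul heval hm y)
  calc Nat.card W ≤ Nat.card (clsSpan τ hm e T vs vr') :=
        AddSubgroup.card_le_of_le fun d hd =>
          hmem d (List.mem_map.2 ⟨⟨d, hd⟩, by simp, rfl⟩)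
    _ ≤ Nat.card (clsSpan τ hm e T vs vr') * p ^ s' :=
        Nat.le_mul_of_pos_right _ (pow_pos hs.hp.pos _)
    _ ≤ p ^ v₀ := hle

end FA.GaussKolyvagin
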