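import Fermat.Agent.GaussKolyvagin.ClassMap

/-!
# The choice of the new prime

`exists_prime`: for an eigen class, eigen elements `η l` independent modulo `p`-th powers, a
pattern `lam` and a prime number `r` there is a prime `v` of degree one over an admissible
`q ≡ 1` modulo `T`, in the class, with `r` a `p ^ k * P`-th power modulo `q` and the discrete
logarithm of `η l` at `v` divisible by `p` exactly for `lam l = 0`.

The automorphism exists by commutators with a lift of an automorphism `σ` of `ℚ(ζ_P)` moving the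
three eigenvalues apart.
-/

set_option autoImplicit false
set_option linter.unusedSectionVars false
set_option linter.style.haveILetI false

noncomputable section

open scoped Classical Pointwise nonZeroDivisors
open IntermediateField NumberField IsDedekindDomain FA.ArtinRec FA.AmbClass
open FA.Kolyvagin (zr zr_spec zr_pow_self zr_mem_fullField gen gen_spec not_dvd_gen
  exists_gen_pow_modEq LogAt exists_zmod_apply_root zeta_pow_congr zeta_pow_add eq_of_zeta_pow_eq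
  congr_mul congr_pow congr_mul_cancel congr_symm congr_trans modEq_of_congr
  val_natCast_lt_one_iff val_natCast_eq_one_of_coprime val_eq_one_of_pow_eq_one)

namespace FA.GaussKolyvagin

section roots

variable {E : Type*} [Field E] {m : ℕ} [NeZero m] {z : E} (hz : IsPrimitiveRoot z m)
include hz

/-- Ring endomorphisms commute on roots of unity. -/
theorem map_root_comm (f h : E →+* E) : f (h z) = h (f z) := by
  obtain ⟨i, -, hi⟩ :=
    hz.eq_pow_of_pow_eq_one (ξ := f z) (by rw [← map_pow, hz.pow_eq_one, map_one])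
  obtain ⟨j, -, hj⟩ :=
    hz.eq_pow_of_pow_eq_one (ξ := h z) (by rw [← map_pow, hz.pow_eq_one, map_one])
  rw [← hi, ← hj, map_pow, map_pow, ← hi, ← hj, ← pow_mul, ← pow_mul, mul_comm]

end roots

/-- A power of an automorphism fixing `z` on a root moved by a power of `z`. -/
theorem pow_apply_root {F E : Type*} [Field F] [Field E] [Algebra F E] {g : E ≃ₐ[F] E} {R z : E}
    {i : ℕ} (hz : g z = z) (hR : g R = R * z ^ i) (n : ℕ) : (g ^ n) R = R * z ^ (n * i) := by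
  induction n with
  | zero => simp
  | succ n ih =>
    rw [pow_succ', AlgEquiv.mul_apply, ih, map_mul, map_pow, hz, hR, mul_assoc, ← pow_add,
      show i + n * i = (n + 1) * i by ring]

/-- A multiplication prime to `p` on a group killed by `p ^ k`. -/
theorem exists_zsmul_eq {p k : ℕ} (hp : p.Prime) {B : Type*} [AddCommGroup B]
    (hB : ∀ b : B, p ^ k • b = 0) {n : ℤ} (hn : ¬ (p : ℤ) ∣ n) (b : B) : ∃ x : B, n • x = b := by
  obtain ⟨u, v, huv⟩ : IsCoprime n ((p ^ k : ℕ) : ℤ) := by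
    rw [Nat.cast_pow]
    exact (((Nat.prime_iff_prime_int.1 hp).coprime_iff_not_dvd.2 hn).symm).pow_right
  refine ⟨u • b, ?_⟩
  rw [← mul_zsmul]
  conv_rhs => rw [← one_zsmul b, ← huv, add_zsmul, mul_zsmul b v, natCast_zsmul, hB, zsmul_zero,
    add_zero]
  rw [mul_comm]

variable {Ω : Type*} [Field Ω] [CharZero Ω] [IsAlgClosed Ω] [Algebra.IsAlgebraic ℚ Ω] {p P k c : ℕ}
variable {F : Type*} [Field F] [NumberField F] [IsGalois ℚ F] {ι : F →+* Ω}

/-- **The new prime.** -/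
theorem exists_prime (hι : IsCycBase P ι) (hs : Setup p P k c) {T : Finset ℕ}
    (hT : ∀ s ∈ T, IsAdm p P k s) {r : ℕ} (hr : r.Prime) {σa : F ≃ₐ[ℚ] F} {a X : ℕ}
    (hσa : ∀ z : F, z ^ p = 1 → σa z = z ^ a) (ha0 : ¬ p ∣ a) (hX0 : ¬ p ∣ X)
    (hX1 : (X : ZMod p) ≠ 1) (hXa : (X : ZMod p) ≠ a) (hX2 : (X : ZMod p) ^ 2 ≠ a) {B : Type*}
    [AddCommGroup B] {K : ℕ} (hB : ∀ b : B, p ^ K • b = 0)
    (f : Additive (ClassGroup (𝓞 F)) →+ B) (hf : Function.Surjective f)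
    (hfX : ∀ C, f (Additive.ofMul (galCl σa C)) = X • f (Additive.ofMul C)) (b : B)
    {ν : Type*} [Fintype ν] (η : ν → Fˣ) (hη : ∀ l, ∃ y : Fˣ, galU σa (η l) = η l ^ X * y ^ p)
    (hindep : ∀ e : ν → ℕ, (∃ y : Fˣ, y ^ p = ∏ l, η l ^ e l) → ∀ l, p ∣ e l) (lam : ν → ZMod p)
    {bad : Set ℕ} (hbad : bad.Finite) :
    ∃ (q : ℕ) (v : HeightOneSpectrum (𝓞 F)), q ∉ bad ∧ IsAdm p P k q ∧ (∀ s ∈ T, s ∣ q - 1) ∧
      q ≠ r ∧ (∃ ρ : ℕ, ρ ^ (p ^ k * P) ≡ r [MOD q]) ∧ Ideal.absNorm v.asIdeal = q ∧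
      (∀ l, ord v (η l) = 0) ∧ f (Additive.ofMul (primeCls v)) = b ∧
      ∀ l j, LogAt v q (η l) j → (p ∣ j ↔ lam l = 0) := by
  haveI := FA.Kolyvagin.isGalois_rat (Ω := Ω)
  haveI : Fact p.Prime := ⟨hs.hp⟩
  haveI : NeZero p := ⟨hs.hp.ne_zero⟩
  obtain ⟨H, _, _, _, _, _, -, -, ⟨e, he⟩, hcl⟩ := exists_hilbertClassField (K := F)
  have hH : ∀ v : HeightOneSpectrum (𝓞 F), ¬ IsRam H v := fun v => hcl.unram v (sup_top_eq _)
  letI algΩ : Algebra F Ω := ι.toAlgebra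
  haveI : IsScalarTower ℚ F Ω := IsScalarTower.of_algebraMap_eq' (Subsingleton.elim _ _)
  haveI : Algebra.IsAlgebraic F Ω := Algebra.IsAlgebraic.tower_top (K := ℚ) F
  let jH : H →ₐ[F] Ω := IsAlgClosed.lift
  obtain ⟨n, hn⟩ := hs.hP
  set n₀ := p ^ k * P with hn₀
  haveI : NeZero n₀ := ⟨hs.pow_mul_ne_zero⟩
  have hn₀p : n₀ = p ^ (k + n) * p := by rw [hn₀, hn, ← pow_add, ← pow_succ]; rfl
  obtain ⟨R₀, hR₀⟩ := IsAlgClosed.exists_pow_nat_eq (r : Ω) (NeZero.pos n₀)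
  choose γ₀ hγ₀ using fun l => IsAlgClosed.exists_pow_nat_eq (ι (η l : F)) hs.hp.pos
  -- the field
  set X₀ : Set Ω := insert R₀ (insert (zr Ω n₀) (Set.range γ₀ ∪ zr Ω '' (T : Set ℕ))) with hX₀
  haveI : Finite X₀ :=
    (((Set.finite_range γ₀).union (T.finite_toSet.image _)).insert _).insert _
  set E₀ : IntermediateField ℚ Ω := (jH.restrictScalars ℚ).fieldRange ⊔ adjoin ℚ X₀
  haveI : FiniteDimensional ℚ (jH.restrictScalars ℚ).fieldRange :=
    Module.Finite.equiv (AlgEquiv.ofInjectiveField (jH.restrictScalars ℚ)).toLinearEquiv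
  haveI : FiniteDimensional ℚ (adjoin ℚ X₀) :=
    finiteDimensional_adjoin fun x _ => Algebra.IsIntegral.isIntegral x
  set E : IntermediateField ℚ Ω := normalClosure ℚ E₀ Ω
  have hle : E₀ ≤ E := IntermediateField.le_normalClosure E₀
  haveI : FiniteDimensional ℚ E := normalClosure.is_finiteDimensional ℚ E₀ Ω
  haveI : Normal ℚ E := normalClosure.normal ℚ E₀ Ω
  haveI : IsGalois ℚ E := ⟨⟩
  haveI : NumberField E := { }
  let jE : H →+* E := (jH : H →+* Ω).codRestrict E fun x =>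
    hle (le_sup_left (a := (jH.restrictScalars ℚ).fieldRange) ⟨x, rfl⟩)
  letI : Algebra H E := jE.toAlgebra
  letI : Algebra F E := (jE.comp (algebraMap F H)).toAlgebra
  haveI : IsScalarTower F H E := IsScalarTower.of_algebraMap_eq fun _ => rfl
  haveI : IsScalarTower ℚ F E := IsScalarTower.of_algebraMap_eq' (Subsingleton.elim _ _)
  haveI : IsGalois F E := IsGalois.tower_top_of_isGalois ℚ F E
  have halg : ∀ x : F, ((algebraMap F E x : E) : Ω) = ι x := fun x => jH.commutes x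
  have hmem : ∀ y ∈ X₀, y ∈ E := fun y hy =>
    hle (le_sup_right (a := (jH.restrictScalars ℚ).fieldRange) (subset_adjoin ℚ _ hy))
  set R : E := ⟨R₀, hmem _ (by simp [hX₀])⟩
  set γ : ν → E := fun l => ⟨γ₀ l, hmem _ (by simp [hX₀])⟩ with hγdef
  set zM : E := ⟨zr Ω n₀, hmem _ (by simp [hX₀])⟩
  obtain ⟨zP, hzP⟩ := (hι (zr Ω P)).1 (zr_P_mem ∅)
  set zF : F := zP ^ p ^ n
  set ζ : E := algebraMap F E zF
  have hzF : IsPrimitiveRoot (ι zF) p := by
    rw [map_pow, hzP]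
    exact (zr_spec Ω hs.pos.ne').pow hs.pos (hn.trans (pow_succ p n))
  have hζ : IsPrimitiveRoot ζ p := IsPrimitiveRoot.coe_submonoidClass_iff.1
    (show IsPrimitiveRoot (ζ : Ω) p by rw [halg]; exact hzF)
  have hzM : IsPrimitiveRoot zM n₀ :=
    IsPrimitiveRoot.coe_submonoidClass_iff.1 (zr_spec Ω (NeZero.ne n₀))
  have hR : R ^ n₀ = (r : E) := Subtype.ext (by simpa using hR₀)
  have hR0 : R ≠ 0 := fun h => hr.ne_zero (by
    rw [h, zero_pow (NeZero.ne n₀)] at hR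
    exact_mod_cast hR.symm)
  have hγ : ∀ l, γ l ^ p = algebraMap F E (η l : F) := fun l => Subtype.ext (by
    rw [halg]; exact hγ₀ l)
  have hγ0 : ∀ l, γ l ≠ 0 := fun l h => (η l).ne_zero ((map_eq_zero (algebraMap F E)).1 (by
    rw [← hγ, h, zero_pow hs.hp.ne_zero]))
  -- the lift
  set σ : E ≃ₐ[ℚ] E := σa.liftNormal E
  have hσF : σ.restrictNormal F = σa := AlgEquiv.ext fun x =>
    (algebraMap F E).injective (by
      rw [AlgEquiv.restrictNormal_commutes, AlgEquiv.liftNormal_commutes])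
  set cj : (E ≃ₐ[F] E) → (E ≃ₐ[F] E) := conjF σ with hcjdef
  -- the class
  set Φ : (E ≃ₐ[F] E) → B := fun g => f (Additive.ofMul (clsOf e g))
  have hΦmul : ∀ g h, Φ (g * h) = Φ g + Φ h := fun g h => by
    simp only [Φ, map_mul, ofMul_mul, map_add]
  have hΦinv : ∀ g, Φ g⁻¹ = -Φ g := fun g => by simp only [Φ, map_inv, ofMul_inv, map_neg]
  have hΦpow : ∀ (g) (n : ℕ), Φ (g ^ n) = n • Φ g := fun g n => by
    simp only [Φ, map_pow, ofMul_pow, map_nsmul]
  have hΦcj : ∀ g, Φ (cj g) = X • Φ g := fun g => by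
    simp only [Φ, cj, clsOf_conj e he hH, hσF, hfX]
  -- the exponents
  obtain ⟨C, -, hC⟩ := hzM.eq_pow_of_pow_eq_one (ξ := σ zM)
    (by rw [← map_pow, hzM.pow_eq_one, map_one])
  have hσζ : σ ζ = ζ ^ a := by
    show σ (algebraMap F E zF) = _
    rw [AlgEquiv.liftNormal_commutes, hσa zF (ι.injective (by
      rw [map_pow, hzF.pow_eq_one, map_one])), map_pow]
  have hCa : (C : ZMod p) = a := by
    have hz0 : IsPrimitiveRoot (zM ^ p ^ (k + n)) p := hzM.pow (NeZero.pos n₀) hn₀p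
    obtain ⟨i, -, hi⟩ := hζ.eq_pow_of_pow_eq_one hz0.pow_eq_one
    have h1 : (zM ^ p ^ (k + n)) ^ C = (zM ^ p ^ (k + n)) ^ a := by
      rw [pow_right_comm, hC, ← map_pow]
      conv_lhs => rw [← hi, map_pow, hσζ, pow_right_comm, hi]
    refine (ZMod.natCast_eq_natCast_iff _ _ _).2 ?_
    have h2 := ((hz0.isOfFinOrder hs.hp.ne_zero).pow_eq_pow_iff_modEq).1 h1
    rwa [← hz0.eq_orderOf] at h2
  have hψex : ∀ (g : E ≃ₐ[F] E) l, ∃ d : ZMod p, g (γ l) = γ l * ζ ^ d.val := fun g l =>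
    exists_zmod_apply_root hζ g (η l).ne_zero (hγ l)
  choose ψ hψ using hψex
  have hgζ : ∀ g : E ≃ₐ[F] E, g ζ = ζ := fun g => g.commutes zF
  have hψeq : ∀ (g : E ≃ₐ[F] E) l (d : ZMod p), g (γ l) = γ l * ζ ^ d.val → ψ g l = d :=
    fun g l d h => eq_of_zeta_pow_eq hζ (mul_left_cancel₀ (hγ0 l) ((hψ g l).symm.trans h))
  have hψmul : ∀ g h l, ψ (g * h) l = ψ g l + ψ h l := fun g h l => hψeq _ _ _ (by
    rw [AlgEquiv.mul_apply, hψ h, map_mul, map_pow, hgζ, hψ g, zeta_pow_add hζ, mul_assoc])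
  have hψone : ∀ l, ψ 1 l = 0 := fun l => hψeq _ _ _ (by simp)
  have hψinv : ∀ g l, ψ g⁻¹ l = -ψ g l := fun g l => by
    refine eq_neg_of_add_eq_zero_left ?_
    rw [← hψmul, inv_mul_cancel, hψone]
  have hψpow : ∀ (g) (n : ℕ) l, ψ (g ^ n) l = n * ψ g l := fun g n l => by
    induction n with
    | zero => rw [pow_zero, hψone, Nat.cast_zero, zero_mul]
    | succ n ih => rw [pow_succ, hψmul, ih, Nat.cast_succ, add_mul, one_mul]
  choose y hy using hη
  have hψcj : ∀ g l, (X : ZMod p) * ψ (cj g) l = a * ψ g l := by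
    intro g l
    set δ : E := σ.symm (γ l)
    have hσy : σ (algebraMap F E (y l : F)) = algebraMap F E (σa (y l : F)) :=
      σa.liftNormal_commutes E _
    have hz' : ∃ d : ZMod p,
        γ l = δ ^ X * σ.symm (algebraMap F E (y l : F)) * ζ ^ d.val := by
      have hδ : (δ ^ X * σ.symm (algebraMap F E (y l : F))) ^ p = γ l ^ p := by
        refine σ.injective ?_
        rw [map_pow, map_pow σ (γ l), map_mul, map_pow, σ.apply_symm_apply, σ.apply_symm_apply,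
          mul_pow, ← pow_mul, mul_comm X, pow_mul, hγ, ← map_pow σ, hγ,
          AlgEquiv.liftNormal_commutes, show σa (η l : F) = ((galU σa (η l) : Fˣ) : F) from rfl,
          hy, Units.val_mul, Units.val_pow_eq_pow_val, Units.val_pow_eq_pow_val, map_mul, map_pow,
          map_pow]
      have h0 : δ ^ X * σ.symm (algebraMap F E (y l : F)) ≠ 0 := mul_ne_zero
        (pow_ne_zero _ ((map_ne_zero σ.symm).2 (hγ0 l)))
        ((map_ne_zero σ.symm).2 ((map_ne_zero _).2 (y l).ne_zero))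
      obtain ⟨d, -, hd⟩ := hζ.eq_pow_of_pow_eq_one
        (ξ := γ l / (δ ^ X * σ.symm (algebraMap F E (y l : F))))
        (by rw [div_pow, hδ, div_self (pow_ne_zero _ (hγ0 l))])
      refine ⟨(d : ZMod p), ?_⟩
      rw [zeta_pow_congr hζ (ZMod.natCast_zmod_val (d : ZMod p)), hd, mul_div_cancel₀ _ h0]
    obtain ⟨d, hd⟩ := hz'
    have hy' : σ.symm (algebraMap F E (y l : F)) = algebraMap F E (σa.symm (y l : F)) := by
      rw [AlgEquiv.symm_apply_eq, AlgEquiv.liftNormal_commutes, AlgEquiv.apply_symm_apply]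
    have hδp : δ ^ p = algebraMap F E (σa.symm (η l : F)) := by
      rw [← map_pow, hγ, AlgEquiv.symm_apply_eq, AlgEquiv.liftNormal_commutes,
        AlgEquiv.apply_symm_apply]
    obtain ⟨t, ht⟩ := exists_zmod_apply_root hζ g
      ((map_ne_zero σa.symm).2 (η l).ne_zero) hδp
    have h1 : (X : ZMod p) * t = ψ g l := by
      symm
      refine hψeq g l _ ?_
      conv_lhs => rw [hd]
      rw [map_mul, map_mul, map_pow, map_pow, hgζ, ht, hy', g.commutes, mul_pow, ← pow_mul,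
        ← hy']
      conv_rhs => rw [hd]
      rw [zeta_pow_congr hζ (a := ((X : ZMod p) * t).val) (b := t.val * X) (by
        simp [mul_comm])]
      ring
    have h2 : ψ (cj g) l = a * t := hψeq _ _ _ (by
      show σ (g δ) = _
      rw [ht, map_mul, map_pow, σ.apply_symm_apply, hσζ, ← pow_mul]
      exact congrArg _ (zeta_pow_congr hζ (by simp)))
    rw [h2, ← h1]
    ring
  -- roots fixed by commutators
  have hcomm : ∀ (g : E ≃ₐ[F] E) {z : E} {m : ℕ}, m ≠ 0 → IsPrimitiveRoot z m →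
      cj g z = g z := by
    intro g z m hm hz
    haveI : NeZero m := ⟨hm⟩
    show σ (g (σ.symm z)) = g z
    have h := map_root_comm hz (g : E →+* E) (σ.symm : E →+* E)
    change g (σ.symm z) = σ.symm (g z) at h
    rw [h, σ.apply_symm_apply]
  let roots : Set (E ≃ₐ[F] E) := {g | g zM = zM ∧ ∀ s ∈ T, ∀ z : E, IsPrimitiveRoot z s → g z = z}
  have hrootsinv : ∀ {g : E ≃ₐ[F] E}, g ∈ roots → g⁻¹ ∈ roots := fun {g} hg =>
    ⟨(AlgEquiv.symm_apply_eq g).2 hg.1.symm,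
      fun s hs' z hz => (AlgEquiv.symm_apply_eq g).2 (hg.2 s hs' z hz).symm⟩
  have hrootspow : ∀ {g : E ≃ₐ[F] E}, g ∈ roots → ∀ n : ℕ, g ^ n ∈ roots := fun {g} hg n => by
    induction n with
    | zero => exact ⟨rfl, fun _ _ _ _ => rfl⟩
    | succ n ih =>
      exact ⟨by rw [pow_succ, AlgEquiv.mul_apply, hg.1, ih.1],
        fun s hs' z hz => by rw [pow_succ, AlgEquiv.mul_apply, hg.2 s hs' z hz, ih.2 s hs' z hz]⟩
  have hfirst : ∀ g : E ≃ₐ[F] E, g⁻¹ * cj g ∈ roots := fun g =>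
    ⟨by rw [AlgEquiv.mul_apply, hcomm g (NeZero.ne n₀) hzM]; exact g.symm_apply_apply zM,
      fun s hs' z hz => by
        rw [AlgEquiv.mul_apply, hcomm g (hT s hs').prime.ne_zero hz]
        exact g.symm_apply_apply z⟩
  have hD : ∀ {g : E ≃ₐ[F] E}, g ∈ roots → ∀ l : ℕ, (g ^ l)⁻¹ * cj g ∈ roots := fun {g} hg l => by
    have hl := hrootsinv (hrootspow hg l)
    exact ⟨by rw [AlgEquiv.mul_apply, hcomm g (NeZero.ne n₀) hzM, hg.1, hl.1],
      fun s hs' z hz => by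
        rw [AlgEquiv.mul_apply, hcomm g (hT s hs').prime.ne_zero hz, hg.2 s hs' z hz,
          hl.2 s hs' z hz]⟩
  obtain ⟨e', -, he'⟩ := hzM.eq_pow_of_pow_eq_one (ξ := σ.symm R / R) (by
    rw [div_pow, ← map_pow, hR, map_natCast, div_self (Nat.cast_ne_zero.2 hr.ne_zero)])
  have hσR : σ.symm R = R * zM ^ e' := by rw [he', mul_div_cancel₀ _ hR0]
  have hcjR : ∀ {g : E ≃ₐ[F] E} {i : ℕ}, g zM = zM → g R = R * zM ^ i →
      cj g R = R * zM ^ (C * i) := fun {g i} hgz hgR => by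
    show σ (g (σ.symm R)) = _
    rw [hσR, map_mul, map_pow, hgz, hgR, mul_right_comm, ← hσR, map_mul, σ.apply_symm_apply,
      map_pow, ← hC, ← pow_mul]
  have hDC : ∀ {g : E ≃ₐ[F] E}, g ∈ roots → ((g ^ C)⁻¹ * cj g) R = R := fun {g} hg => by
    obtain ⟨i, -, hi⟩ := hzM.eq_pow_of_pow_eq_one (ξ := g R / R) (by
      rw [div_pow, ← map_pow, hR, map_natCast, div_self (Nat.cast_ne_zero.2 hr.ne_zero)])
    have hgR : g R = R * zM ^ i := by rw [hi, mul_div_cancel₀ _ hR0]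
    rw [AlgEquiv.mul_apply, hcjR hg.1 hgR, ← pow_apply_root hg.1 hgR]
    exact (g ^ C).symm_apply_apply R
  have hXp : (X : ZMod p) ≠ 0 := fun h => hX0 ((ZMod.natCast_eq_zero_iff X p).1 h)
  have hap : (a : ZMod p) ≠ 0 := fun h => ha0 ((ZMod.natCast_eq_zero_iff a p).1 h)
  have hψD : ∀ (g) (l : ℕ) (i : ν),
      (X : ZMod p) * ψ ((g ^ l)⁻¹ * cj g) i = (a - X * l) * ψ g i := fun g l i => by
    rw [hψmul, hψinv, hψpow, mul_add, hψcj]
    ring
  have hΦD : ∀ (g) (l : ℕ), Φ ((g ^ l)⁻¹ * cj g) = ((X : ℤ) - l) • Φ g := fun g l => by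
    rw [hΦmul, hΦinv, hΦpow, hΦcj, sub_zsmul, natCast_zsmul, natCast_zsmul, neg_add_eq_sub]
    exact (sub_eq_add_neg _ _)
  have hdvd : ∀ l : ℕ, (X : ZMod p) ≠ l → ¬ (p : ℤ) ∣ (X : ℤ) - l := fun l hl hd => hl (by
    rw [← sub_eq_zero]
    rw [← ZMod.intCast_zmod_eq_zero_iff_dvd] at hd
    simpa using hd)
  -- the class
  obtain ⟨b₁, hb₁⟩ := exists_zsmul_eq hs.hp hB (hdvd C (by rw [hCa]; exact hXa)) b
  obtain ⟨b₂, hb₂⟩ := exists_zsmul_eq hs.hp hB (hdvd 1 (by rw [Nat.cast_one]; exact hX1)) b₁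
  obtain ⟨g₁, hg₁⟩ : ∃ g, Φ g = b₂ := by
    obtain ⟨C', hC'⟩ := hf b₂
    obtain ⟨g, hg⟩ := clsOf_surjective (E := E) e (Additive.toMul C')
    exact ⟨g, by simp only [Φ, hg, ofMul_toMul, hC']⟩
  have hn₁ := hfirst g₁
  set n₁ := g₁⁻¹ * cj g₁
  have hΦn₁ : Φ n₁ = b₁ := by
    rw [← hb₂, ← hg₁]
    simpa using hΦD g₁ 1
  set n₂ := (n₁ ^ C)⁻¹ * cj n₁
  have hΦn₂ : Φ n₂ = b := by rw [← hb₁, ← hΦn₁]; exact hΦD n₁ C
  -- the Kummer character
  let Ψ : Additive (E ≃ₐ[F] E) →+ (ν → ZMod p) :=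
    AddMonoidHom.mk' (fun g l => ψ (Additive.toMul g) l) fun g h => funext fun l => hψmul _ _ l
  have hΨ : ∀ w : ν → ZMod p, ∃ g, ∀ l, ψ g l = w l := by
    set W : Submodule (ZMod p) (ν → ZMod p) := AddSubgroup.toZModSubmodule p Ψ.range
    suffices hW : W = ⊤ by
      intro w
      obtain ⟨g, hg⟩ : w ∈ Ψ.range := by
        have h : w ∈ W := hW ▸ Submodule.mem_top
        exact h
      exact ⟨Additive.toMul g, fun l => congrFun hg l⟩
    by_contra hne
    obtain ⟨φ, hφ0, hφW⟩ := Submodule.exists_le_ker_of_lt_top W (lt_top_iff_ne_top.2 hne)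
    set e : ν → ℕ := fun l => (φ (Pi.single l 1)).val
    have hφ : ∀ w : ν → ZMod p, φ w = ∑ l, w l * (e l : ZMod p) := fun w => by
      conv_lhs => rw [← Finset.univ_sum_single w]
      rw [map_sum]
      refine Finset.sum_congr rfl fun l _ => ?_
      rw [ZMod.natCast_zmod_val, ← smul_eq_mul, ← map_smul]
      congr 1
      funext j
      rcases eq_or_ne j l with rfl | hj
      · simp
      · simp [hj]
    have hfix : ∀ g : E ≃ₐ[F] E, g (∏ l, γ l ^ e l) = ∏ l, γ l ^ e l := fun g => by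
      have h0 : ∑ l, ψ g l * (e l : ZMod p) = 0 := by
        rw [← hφ]
        exact LinearMap.mem_ker.1 (hφW ⟨Additive.ofMul g, rfl⟩)
      have h1 : p ∣ ∑ l, (ψ g l).val * e l := by
        rw [← ZMod.natCast_eq_zero_iff, Nat.cast_sum]
        simpa using h0
      obtain ⟨d, hd⟩ := h1
      simp only [map_prod, map_pow, hψ g, mul_pow, ← pow_mul, Finset.prod_mul_distrib]
      rw [Finset.prod_pow_eq_pow_sum, hd, pow_mul, hζ.pow_eq_one, one_pow, mul_one]
    obtain ⟨x, hx⟩ := (IsGalois.mem_range_algebraMap_iff_fixed _).mpr hfix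
    have hx0 : x ≠ 0 := fun h => by
      rw [h, map_zero] at hx
      exact Finset.prod_ne_zero_iff.2 (fun l _ => pow_ne_zero _ (hγ0 l)) hx.symm
    have he : ∀ l, p ∣ e l := hindep e ⟨Units.mk0 x hx0, Units.ext ((algebraMap F E).injective (by
      rw [Units.val_pow_eq_pow_val, Units.val_mk0, map_pow, hx, ← Finset.prod_pow, Units.coe_prod,
        map_prod]
      refine Finset.prod_congr rfl fun l _ => ?_
      rw [Units.val_pow_eq_pow_val, map_pow, ← hγ, pow_right_comm]))⟩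
    refine hφ0 (LinearMap.ext fun w => ?_)
    rw [hφ, LinearMap.zero_apply]
    exact Finset.sum_eq_zero fun l _ => by rw [(ZMod.natCast_eq_zero_iff _ p).2 (he l), mul_zero]
  -- the automorphism
  set κ : ZMod p := ((a - X) / X) * ((a - X * C) / X) * ((a - X * X) / X) with hκdef
  have hκ : κ ≠ 0 := by
    rw [hκdef, hCa]
    refine mul_ne_zero (mul_ne_zero (div_ne_zero (sub_ne_zero.2 hXa.symm) hXp)
      (div_ne_zero ?_ hXp)) (div_ne_zero (by rw [← sq]; exact sub_ne_zero.2 hX2.symm) hXp)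
    rw [show (a : ZMod p) - X * a = a * (1 - X) by ring]
    exact mul_ne_zero hap (sub_ne_zero.2 hX1.symm)
  obtain ⟨g₂, hg₂⟩ := hΨ fun l => (lam l - ψ n₂ l) / κ
  have hdiv : ∀ (g : E ≃ₐ[F] E) (l : ℕ) (i : ν),
      ψ ((g ^ l)⁻¹ * cj g) i = (a - X * l) / X * ψ g i := fun g l i => by
    rw [div_mul_eq_mul_div, ← hψD, mul_div_cancel_left₀ _ hXp]
  have hm₁ := hfirst g₂
  set m₁ := g₂⁻¹ * cj g₂
  have hψm₁ : ∀ i, ψ m₁ i = (a - X) / X * ψ g₂ i := fun i => by
    have h := hdiv g₂ 1 i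
    rwa [pow_one, Nat.cast_one, mul_one] at h
  have hm₂ := hD hm₁ C
  set m₂ := (m₁ ^ C)⁻¹ * cj m₁
  have hm₃ := hD hm₂ X
  set m₃ := (m₂ ^ X)⁻¹ * cj m₂
  have hψm₃ : ∀ i, ψ m₃ i = lam i - ψ n₂ i := fun i => by
    rw [show ψ m₃ i = _ from hdiv m₂ X i, show ψ m₂ i = _ from hdiv m₁ C i, hψm₁, hg₂]
    have hk : κ * ((lam i - ψ n₂ i) / κ) = lam i - ψ n₂ i := mul_div_cancel₀ _ hκ
    conv_rhs => rw [← hk]
    rw [hκdef]
    ring
  have hΦm₃ : Φ m₃ = 0 := by
    rw [show Φ m₃ = ((X : ℤ) - X) • Φ m₂ from hΦD m₂ X, sub_self, zero_zsmul]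
  have hRm₃ : m₃ R = R := by
    have h1 : m₂ R = R * zM ^ 0 := by rw [pow_zero, mul_one]; exact hDC hm₁
    rw [AlgEquiv.mul_apply, hcjR hm₂.1 h1, mul_zero, pow_zero, mul_one]
    have h2 := pow_apply_root hm₂.1 h1 X
    rw [mul_zero, pow_zero, mul_one] at h2
    exact (AlgEquiv.symm_apply_eq (m₂ ^ X)).2 h2.symm
  obtain ⟨s, hsroots, hsR, hsΦ, hsψ⟩ :
      ∃ s : E ≃ₐ[F] E, s ∈ roots ∧ s R = R ∧ Φ s = b ∧ ∀ l, ψ s l = lam l :=
    ⟨n₂ * m₃, ⟨by rw [AlgEquiv.mul_apply, hm₃.1, (hD hn₁ C).1],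
      fun s hs' z hz => by rw [AlgEquiv.mul_apply, hm₃.2 s hs' z hz, (hD hn₁ C).2 s hs' z hz]⟩,
      by rw [AlgEquiv.mul_apply, hRm₃]; exact hDC hn₁, by rw [hΦmul, hΦn₂, hΦm₃, add_zero],
      fun l => by rw [hψmul, hψm₃, add_sub_cancel]⟩
  -- the prime
  have hbad' : (bad ∪ {p, r} ∪ (T : Set ℕ) ∪ ⋃ l : ν, (fun w : HeightOneSpectrum (𝓞 F) =>
      Ideal.absNorm w.asIdeal) '' {w | ord w (η l) ≠ 0}).Finite :=
    ((hbad.union (by simp)).union T.finite_toSet).union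
      (Set.finite_iUnion fun l => (finite_ord_ne_zero (η l)).image _)
  obtain ⟨q, hq, hqbad, Q, hqQ, hN, hfrob⟩ := exists_frob_rat (F := F) s hbad'
  simp only [Set.mem_union, Set.mem_insert_iff, Set.mem_singleton_iff, Finset.mem_coe,
    Set.mem_iUnion, Set.mem_image, Set.mem_ofPred_eq, not_or, not_exists, not_and] at hqbad
  obtain ⟨⟨⟨hqb, hqp, hqr⟩, hqT⟩, hqη⟩ := hqbad
  set v := belowP F Q
  have hvη : ∀ l, ord v (η l) = 0 := fun l => not_not.1 fun h => hqη l v h hN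
  haveI : Fact q.Prime := ⟨hq⟩
  have hqv : (q : 𝓞 F) ∈ v.asIdeal := hN ▸ Ideal.absNorm_mem _
  have hnotmem : ∀ m : ℕ, m.Coprime q → (m : 𝓞 F) ∉ v.asIdeal := fun m hm hmem =>
    ((val_natCast_lt_one_iff v m).2 hmem).ne
      (val_natCast_eq_one_of_coprime hm ((val_natCast_lt_one_iff v q).2 hqv))
  have hroot : ∀ {z : E} {m : ℕ}, IsPrimitiveRoot z m → m ≠ 0 → m.Coprime q → s z = z →
      m ∣ q - 1 := fun {z m} hz hm0 hm hsz => by
    have h := frob_apply_root hfrob (hnotmem m hm) hz.pow_eq_one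
    rw [hsz, hN, ← Nat.sub_add_cancel hq.one_le, pow_succ] at h
    exact hz.dvd_of_pow_eq_one _ (mul_right_cancel₀ (hz.ne_zero hm0) (by rw [one_mul, ← h]))
  have hn₀q : n₀ ∣ q - 1 := hroot hzM (NeZero.ne n₀)
    (by rw [hn₀p, ← pow_succ]; exact ((Nat.coprime_primes hs.hp hq).2 (Ne.symm hqp)).pow_left _)
    hsroots.1
  have hTq : ∀ t ∈ T, t ∣ q - 1 := fun t ht => by
    have htE : zr Ω t ∈ E := hmem _ (Set.mem_insert_of_mem _
      (Set.mem_insert_of_mem _ (Or.inr ⟨t, ht, rfl⟩)))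
    have hz : IsPrimitiveRoot (⟨zr Ω t, htE⟩ : E) t :=
      IsPrimitiveRoot.coe_submonoidClass_iff.1 (zr_spec Ω (hT t ht).prime.ne_zero)
    exact hroot hz (hT t ht).prime.ne_zero
      ((Nat.coprime_primes (hT t ht).prime hq).2 fun h => hqT (h ▸ ht)) (hsroots.2 t ht _ hz)
  set w := Q.valuation E
  have hwq : w (q : E) < 1 := (val_natCast_lt_one_iff Q q).2 hqQ
  have hwr : w (r : E) = 1 :=
    val_natCast_eq_one_of_coprime ((Nat.coprime_primes hr hq).2 (Ne.symm hqr)) hwq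
  have hpow1 : ∀ {x : E}, w x = 1 → ∀ {z : E}, s x = x * z → w (x ^ (q - 1) - z) < 1 :=
    fun {x} hx {z} hxz => by
      have h := FA.HerbrandRibet.val_frob_sub_pow hfrob hx
      rw [hN, hxz, ← Nat.sub_add_cancel hq.one_le, pow_succ, mul_comm x z] at h
      exact congr_symm (congr_mul_cancel hx h)
  -- the residue of `r`
  obtain ⟨e₀, he₀⟩ := hn₀q
  have hρ : ∃ ρ : ℕ, ρ ^ (p ^ k * P) ≡ r [MOD q] := by
    have hwR : w R = 1 := (pow_eq_one_iff_of_nonneg zero_le (NeZero.ne n₀)).1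
      (by rw [← map_pow, hR, hwr])
    have h := hpow1 hwR (z := 1) (by rw [mul_one]; exact hsR)
    rw [he₀, pow_mul, hR, ← Nat.cast_pow, ← Nat.cast_one] at h
    have h1 := modEq_of_congr hq hwq h
    obtain ⟨i, -, hi⟩ := exists_gen_pow_modEq hq
      (fun hd => hqr ((Nat.prime_dvd_prime_iff_eq hq hr).1 hd))
    have h2 : (gen q : ZMod q) ^ (i * e₀) = (gen q : ZMod q) ^ 0 := by
      have h3 := (ZMod.natCast_eq_natCast_iff _ _ _).2 (((hi.pow e₀)).trans h1)
      rw [pow_zero, pow_mul]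
      simpa using h3
    have h4 := Nat.modEq_zero_iff_dvd.1 (modEq_of_pow_eq (gen_spec hq) h2)
    rw [he₀] at h4
    have he₀0 : 0 < e₀ := Nat.pos_of_ne_zero fun h0 => by
      rw [h0, mul_zero] at he₀
      have := hq.two_le
      omega
    obtain ⟨i', rfl⟩ := Nat.dvd_of_mul_dvd_mul_right he₀0 h4
    exact ⟨gen q ^ i', by rw [← pow_mul, mul_comm i']; exact hi⟩
  -- the logarithms
  refine ⟨q, v, hqb, ⟨hq, ⟨e₀, he₀⟩⟩, hTq, hqr, hρ, hN, hvη, ?_, fun l j hj => ?_⟩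
  · rw [← hsΦ]
    exact congrArg (fun C => f (Additive.ofMul C)) (clsOf_frob e he hH hfrob).symm
  have hwp : w (p : E) = 1 :=
    val_natCast_eq_one_of_coprime ((Nat.coprime_primes hs.hp hq).2 (Ne.symm hqp)) hwq
  have hval : ∀ x : F, v.valuation F x < 1 → w (algebraMap F E x) < 1 := fun x hx => by
    rw [valuation_baseU]
    exact pow_lt_one₀ zero_le hx (eIdx_pos Q).ne'
  have hη1 : w (algebraMap F E (η l : F)) = 1 := by
    rw [valuation_baseU, FA.HerbrandRibet.val_eq_one_of_ord (hvη l), one_pow]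
  have hwγ : w (γ l) = 1 := (pow_eq_one_iff_of_nonneg zero_le hs.hp.ne_zero).1
    (by rw [← map_pow, hγ, hη1])
  have h1 := hpow1 hwγ (hψ s l)
  obtain ⟨e₁, he₁⟩ : p ∣ q - 1 := hs.p_dvd.trans ((dvd_mul_left _ _).trans ⟨e₀, he₀⟩)
  rw [he₁, pow_mul, hγ, hsψ] at h1
  have hwg : w (gen q : E) ≤ 1 := FA.Kolyvagin.val_natCast_le_one _ _
  have h2 : w (algebraMap F E (η l : F) ^ e₁ - (gen q : E) ^ (j * e₁)) < 1 := by
    rw [pow_mul]
    refine congr_pow hη1.le (by rw [map_pow]; exact pow_le_one' hwg _) ?_ e₁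
    rw [LogAt, hvη l, neg_zero, zpow_zero, mul_one] at hj
    have h := hval _ hj
    rwa [map_sub, map_pow, map_natCast] at h
  have h4 := congr_trans (congr_symm h2) h1
  refine ⟨fun hpj => ?_, fun h0 => ?_⟩
  · obtain ⟨j', rfl⟩ := hpj
    have hg1 : w ((gen q : E) ^ (q - 1) - 1) < 1 := by
      have hpos : 1 ≤ gen q ^ (q - 1) := Nat.one_le_pow _ _ (Nat.pos_of_ne_zero fun h0 => by
        have h := not_dvd_gen hq
        rw [h0] at h
        exact h (dvd_zero q))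
      obtain ⟨d, hd⟩ := (Nat.modEq_iff_dvd' hpos).1 (FA.Kolyvagin.gen_pow_modEq_one hq).symm
      rw [show (gen q : E) ^ (q - 1) - 1 = ((gen q ^ (q - 1) - 1 : ℕ) : E) by
        rw [Nat.cast_sub hpos, Nat.cast_pow, Nat.cast_one], hd, Nat.cast_mul, map_mul]
      exact (mul_le_of_le_one_right' (FA.Kolyvagin.val_natCast_le_one w d)).trans_lt hwq
    have h3 : w ((gen q : E) ^ (p * j' * e₁) - 1) < 1 := by
      rw [show p * j' * e₁ = (q - 1) * j' by rw [he₁]; ring, pow_mul]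
      have h := congr_pow (w := w) (b := 1) (by rw [map_pow]; exact pow_le_one' hwg _)
        (by rw [map_one]) hg1 j'
      rwa [one_pow] at h
    have h5 := congr_trans (congr_symm h4) h3
    by_contra hne
    rw [Valuation.map_sub_swap] at h5
    refine h5.ne (val_one_sub_eq_one_of_pow w hs.hp.ne_zero hwp
      (by rw [pow_right_comm, hζ.pow_eq_one, one_pow]) fun h => hne ?_)
    exact eq_of_zeta_pow_eq hζ (h.trans (by rw [ZMod.val_zero, pow_zero]))
  · rw [h0, ZMod.val_zero, pow_zero] at h4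
    rw [← Nat.cast_pow, ← Nat.cast_one] at h4
    have h5 := modEq_of_congr hq hwq h4
    rw [← ZMod.natCast_eq_natCast_iff, Nat.cast_pow, Nat.cast_one, ← pow_zero (gen q : ZMod q)]
      at h5
    have h6 := Nat.modEq_zero_iff_dvd.1 (modEq_of_pow_eq (gen_spec hq) h5)
    rw [he₁] at h6
    refine Nat.dvd_of_mul_dvd_mul_right (Nat.pos_of_ne_zero fun h => ?_) h6
    rw [h, mul_zero] at he₁
    have := hq.two_le
    omega

end FA.GaussKolyvagin
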