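import Fermat.Agent.GaussKolyvagin.Replace
import Fermat.Agent.HerbrandRibet.Residue
import Fermat.Agent.ExistenceTheorem.HilbertClassField
import Fermat.Agent.Root.SummaryChebotarevNumberField
import Mathlib.FieldTheory.Normal.Closure

/-!
# The class of an automorphism

`E/F/ℚ` with `E/ℚ` and `F/ℚ` Galois and `E` containing the Hilbert class field `H` of `F`.

* `clsOf_conj`: conjugating an element of `Gal(E/F)` by an automorphism of `E` moves its class by
  the automorphism;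
* `exists_frob_rat`: every element of `Gal(E/F)` is a Frobenius element over `F` at a prime of
  degree one over infinitely many prime numbers.
-/

set_option autoImplicit false
set_option linter.unusedSectionVars false
set_option linter.style.haveILetI false

noncomputable section

open scoped Classical Pointwise nonZeroDivisors
open NumberField IsDedekindDomain FA.ArtinRec FA.AmbClass
open FA.Ext (primeIdeal)

namespace FA.GaussKolyvagin

/-- A prime all of whose residues are fixed by the `q`-th power has norm `q`. -/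
theorem absNorm_eq_of_fix {K : Type*} [Field K] [NumberField K] (P : HeightOneSpectrum (𝓞 K))
    {q : ℕ} (hq : q.Prime) (hqP : (q : 𝓞 K) ∈ P.asIdeal)
    (h : ∀ x : 𝓞 K, x - x ^ q ∈ P.asIdeal) : Ideal.absNorm P.asIdeal = q := by
  haveI := P.isMaximal
  letI : Field (𝓞 K ⧸ P.asIdeal) := Ideal.Quotient.field _
  haveI : Finite (𝓞 K ⧸ P.asIdeal) := Ideal.finiteQuotientOfFreeOfNeBot _ P.ne_bot
  haveI : Fintype (𝓞 K ⧸ P.asIdeal) := Fintype.ofFinite _
  haveI : Fact q.Prime := ⟨hq⟩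
  haveI : CharP (𝓞 K ⧸ P.asIdeal) q := (CharP.charP_iff_prime_eq_zero hq).2
    ((map_natCast (Ideal.Quotient.mk P.asIdeal) q).symm.trans
      (Ideal.Quotient.eq_zero_iff_mem.2 hqP))
  rw [Ideal.absNorm_apply, Submodule.cardQuot_apply, Nat.card_eq_fintype_card]
  refine le_antisymm ?_ ?_
  · refine le_trans (Finset.card_le_card (s := Finset.univ)
      (t := (Polynomial.X ^ q - Polynomial.X : Polynomial (𝓞 K ⧸ P.asIdeal)).roots.toFinset)
      fun y _ => ?_) ((Multiset.toFinset_card_le _).trans ((Polynomial.card_roots' _).trans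
        (FiniteField.X_pow_card_sub_X_natDegree_eq _ hq.one_lt).le))
    obtain ⟨x, rfl⟩ := Ideal.Quotient.mk_surjective y
    rw [Multiset.mem_toFinset,
      Polynomial.mem_roots (FiniteField.X_pow_card_sub_X_ne_zero _ hq.one_lt), Polynomial.IsRoot,
      Polynomial.eval_sub, Polynomial.eval_pow, Polynomial.eval_X, sub_eq_zero, ← map_pow, eq_comm,
      Ideal.Quotient.eq]
    exact h x
  · have := Nat.card_le_card_of_injective _ (ZMod.castHom_injective (n := q) (𝓞 K ⧸ P.asIdeal))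
    rwa [Nat.card_zmod, Nat.card_eq_fintype_card] at this

variable {F : Type*} [Field F] [NumberField F] {E : Type*} [Field E] [NumberField E] [Algebra F E]
  [IsGalois ℚ F] [IsGalois ℚ E] [IsGalois F E]

/-- The conjugate of an element of `Gal(E/F)`. -/
def conjF (σ : E ≃ₐ[ℚ] E) (g : E ≃ₐ[F] E) : E ≃ₐ[F] E :=
  AlgEquiv.ofRingEquiv (f := (σ.symm.toRingEquiv.trans g.toRingEquiv).trans σ.toRingEquiv)
    fun x => by
      show σ (g (σ.symm (algebraMap F E x))) = _
      have hx : σ.symm (algebraMap F E x) =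
          algebraMap F E ((σ.restrictNormal F).symm x) := by
        rw [AlgEquiv.symm_apply_eq, ← AlgEquiv.restrictNormal_commutes, AlgEquiv.apply_symm_apply]
      rw [hx, g.commutes, ← AlgEquiv.restrictNormal_commutes, AlgEquiv.apply_symm_apply]

theorem conjF_apply (σ : E ≃ₐ[ℚ] E) (g : E ≃ₐ[F] E) (x : E) :
    conjF σ g x = σ (g (σ.symm x)) := rfl

/-- A conjugate of a Frobenius element. -/
theorem isArithFrobAt_conjF {Q : HeightOneSpectrum (𝓞 E)} {g : E ≃ₐ[F] E}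
    (hg : IsArithFrobAt (𝓞 F) g Q.asIdeal) (σ : E ≃ₐ[ℚ] E) :
    belowP F (galPrime σ Q) = galPrime (σ.restrictNormal F) (belowP F Q) ∧
      IsArithFrobAt (𝓞 F) (conjF σ g) (galPrime σ Q).asIdeal := by
  have hmap : ∀ y : 𝓞 F, σ⁻¹ • algebraMap (𝓞 F) (𝓞 E) y =
      algebraMap (𝓞 F) (𝓞 E) ((σ.restrictNormal F)⁻¹ • y) := fun y => RingOfIntegers.ext (by
    show σ.symm (algebraMap F E (y : F)) =
      algebraMap F E ((σ.restrictNormal F).symm (y : F))
    rw [AlgEquiv.symm_apply_eq, ← AlgEquiv.restrictNormal_commutes, AlgEquiv.apply_symm_apply])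
  have hbelow : belowP F (galPrime σ Q) = galPrime (σ.restrictNormal F) (belowP F Q) := by
    refine HeightOneSpectrum.ext (Ideal.ext fun y => ?_)
    show algebraMap (𝓞 F) (𝓞 E) y ∈ σ • Q.asIdeal ↔
      y ∈ (σ.restrictNormal F) • (Q.asIdeal.under (𝓞 F))
    rw [Ideal.mem_pointwise_smul_iff_inv_smul_mem, Ideal.mem_pointwise_smul_iff_inv_smul_mem,
      Ideal.mem_comap, hmap]
  refine ⟨hbelow, fun x => ?_⟩
  have hN : Nat.card (𝓞 F ⧸ (galPrime σ Q).asIdeal.under (𝓞 F)) =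
      Nat.card (𝓞 F ⧸ Q.asIdeal.under (𝓞 F)) := by
    have h := FA.Kolyvagin.absNorm_galPrime (σ.restrictNormal F) (belowP F Q)
    rw [Ideal.absNorm_apply, Submodule.cardQuot_apply, Ideal.absNorm_apply,
      Submodule.cardQuot_apply, ← hbelow] at h
    exact h
  show conjF σ g • x - x ^ _ ∈ σ • Q.asIdeal
  rw [hN, Ideal.mem_pointwise_smul_iff_inv_smul_mem, smul_sub, smul_pow',
    show σ⁻¹ • (conjF σ g • x) = g • (σ⁻¹ • x) from RingOfIntegers.ext (σ.symm_apply_apply _)]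
  exact hg (σ⁻¹ • x)

variable {H : Type*} [Field H] [NumberField H] [Algebra F H] [IsGalois F H]
  [IsMulCommutative (H ≃ₐ[F] H)] [Algebra H E] [IsScalarTower F H E] [IsScalarTower ℚ F E]
  (e : ClassGroup (𝓞 F) ≃* (H ≃ₐ[F] H))

/-- The class of an element of `Gal(E/F)`. -/
def clsOf : (E ≃ₐ[F] E) →* ClassGroup (𝓞 F) :=
  e.symm.toMonoidHom.comp (AlgEquiv.restrictNormalHom H)

theorem clsOf_surjective : Function.Surjective (clsOf (E := E) e) := fun C => by
  obtain ⟨g, hg⟩ := AlgEquiv.restrictNormalHom_surjective (F := F) (K₁ := H) E (e C)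
  exact ⟨g, by show e.symm _ = C; rw [hg, e.symm_apply_apply]⟩

variable (he : ∀ v : HeightOneSpectrum (𝓞 F), e (ClassGroup.mk0 (primeIdeal v)) = artinAt H v)
  (hH : ∀ v : HeightOneSpectrum (𝓞 F), ¬ IsRam H v)
include he hH

theorem clsOf_frob {Q : HeightOneSpectrum (𝓞 E)} {g : E ≃ₐ[F] E}
    (hg : IsArithFrobAt (𝓞 F) g Q.asIdeal) : clsOf e g = primeCls (belowP F Q) := by
  show e.symm (AlgEquiv.restrictNormalHom H g) = _
  rw [restrict_frob (hH (belowP F Q)) rfl hg, ← he, e.symm_apply_apply]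
  rfl

/-- **Equivariance of the class.** -/
theorem clsOf_conj (σ : E ≃ₐ[ℚ] E) (g : E ≃ₐ[F] E) :
    clsOf e (conjF σ g) = galCl (σ.restrictNormal F) (clsOf e g) := by
  obtain ⟨v, Q₀, hQ₀, hQv, -, hg⟩ := (FA.Summary.chebotarev_infinite_numberField F E g).nonempty
  let Q : HeightOneSpectrum (𝓞 E) := ⟨Q₀, hQ₀.isPrime,
    Ring.ne_bot_of_isMaximal_of_not_isField hQ₀ (RingOfIntegers.not_isField _)⟩
  obtain ⟨hb, hconj⟩ := isArithFrobAt_conjF (Q := Q) hg σ
  rw [clsOf_frob e he hH hconj, clsOf_frob e he hH (Q := Q) hg, galCl_primeCls, hb]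

omit he hH in
/-- **Frobenius elements over prime numbers.** -/
theorem exists_frob_rat (g : E ≃ₐ[F] E) {bad : Set ℕ} (hbad : bad.Finite) :
    ∃ q : ℕ, q.Prime ∧ q ∉ bad ∧ ∃ Q : HeightOneSpectrum (𝓞 E), (q : 𝓞 E) ∈ Q.asIdeal ∧
      Ideal.absNorm (belowP F Q).asIdeal = q ∧ IsArithFrobAt (𝓞 F) g Q.asIdeal := by
  have hinf := FA.Summary.chebotarev_infinite_numberField ℚ E (g.restrictScalars ℚ)
  have hq : ∀ v : HeightOneSpectrum (𝓞 ℚ),
      (Ideal.absNorm v.asIdeal).Prime ∧ ((Ideal.absNorm v.asIdeal : ℕ) : 𝓞 ℚ) ∈ v.asIdeal := by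
    intro v
    refine ⟨?_, Ideal.absNorm_mem _⟩
    obtain ⟨q, hq, hqv⟩ := FA.Ext.exists_rat_prime_mem v
    have h := FA.Chebotarev.absNorm_dvd_of_mem hqv
    rw [Module.finrank_self, pow_one] at h
    rcases (Nat.dvd_prime hq).1 h with h1 | h1
    · exact absurd (Ideal.absNorm_eq_one_iff.1 h1) v.isPrime.ne_top
    · exact h1 ▸ hq
  have hfin : {v : HeightOneSpectrum (𝓞 ℚ) | Ideal.absNorm v.asIdeal ∈ bad}.Finite := by
    refine ((hbad.biUnion (t := fun d => {I : Ideal (𝓞 ℚ) | Ideal.absNorm I = d}) fun d _ =>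
      Ideal.finite_setOfPred_absNorm_eq (S := 𝓞 ℚ) d).preimage
      fun v _ w _ h => HeightOneSpectrum.ext h).subset fun v hv => ?_
    exact Set.mem_iUnion₂.mpr ⟨_, hv, rfl⟩
  obtain ⟨v, ⟨Q₀, hQ₀, hQv, -, hg⟩, hvbad⟩ := (hinf.sdiff hfin).nonempty
  obtain ⟨hqp, hqv⟩ := hq v
  set q := Ideal.absNorm v.asIdeal with hqdef
  let Q : HeightOneSpectrum (𝓞 E) := ⟨Q₀, hQ₀.isPrime,
    Ring.ne_bot_of_isMaximal_of_not_isField hQ₀ (RingOfIntegers.not_isField _)⟩
  have hcard : Nat.card (𝓞 ℚ ⧸ Q₀.under (𝓞 ℚ)) = q := by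
    rw [hQv, hqdef, Ideal.absNorm_apply, Submodule.cardQuot_apply]
  have hfrob : ∀ x : 𝓞 E, g • x - x ^ q ∈ Q.asIdeal := fun x => by
    have h := hg x
    rw [hcard] at h
    exact h
  have hqQ : (q : 𝓞 E) ∈ Q.asIdeal := by
    rw [← hQv, Ideal.mem_comap, map_natCast] at hqv
    exact hqv
  have hN : Ideal.absNorm (belowP F Q).asIdeal = q := by
    refine absNorm_eq_of_fix _ hqp ?_ fun x => ?_
    · show algebraMap (𝓞 F) (𝓞 E) (q : 𝓞 F) ∈ Q.asIdeal
      rwa [map_natCast]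
    · have h := hfrob (algebraMap (𝓞 F) (𝓞 E) x)
      rw [show g • algebraMap (𝓞 F) (𝓞 E) x = algebraMap (𝓞 F) (𝓞 E) x from
        RingOfIntegers.ext (g.commutes (x : F))] at h
      show algebraMap (𝓞 F) (𝓞 E) (x - x ^ q) ∈ Q.asIdeal
      rwa [map_sub, map_pow]
  refine ⟨q, hqp, hvbad, Q, hqQ, hN, fun x => ?_⟩
  show g • x - x ^ Nat.card (𝓞 F ⧸ Q.asIdeal.under (𝓞 F)) ∈ Q.asIdeal
  rw [show Nat.card (𝓞 F ⧸ Q.asIdeal.under (𝓞 F)) = q by
    rw [← hN, Ideal.absNorm_apply, Submodule.cardQuot_apply]; rfl]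
  exact hfrob x

end FA.GaussKolyvagin
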