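import Fermat.Agent.GaussKolyvagin.BaseValue
import Fermat.Agent.HerbrandRibet.Character
import Fermat.Agent.DeuringCM.Primes

/-!
# The bound for `ℚ(ζ_p)`

`card_range_le`: for odd `i ≥ 3` the `ω ^ i` component of the classes modulo `p ^ k₀` has at most
`p ^ v` elements, `v` the valuation of `B_{1,ω^-i}`.
-/

set_option autoImplicit false
set_option linter.unusedSectionVars false
set_option linter.style.haveILetI false

noncomputable section

open scoped Classical
open Finset IntermediateField NumberField IsDedekindDomain FA.ArtinRec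
open FA.Kolyvagin (zr zr_spec gen gen_spec act phiA Aq fullField)
open FA.HerbrandRibet (charEval teich castHom_teich zet zet_spec)
open FA.Ext (sigmaK)
open MonoidAlgebra (single)

namespace FA.GaussKolyvagin

variable {p : ℕ} [hp : Fact p.Prime] (K : Type*) [Field K] [NumberField K]
  [IsCyclotomicExtension {p} ℚ K]

theorem sigmaK_root (d : (ZMod p)ˣ) (z : K) (hz : z ^ p = 1) :
    sigmaK p K d z = z ^ (d : ZMod p).val := by
  haveI : NeZero p := ⟨hp.out.ne_zero⟩
  obtain ⟨j, -, rfl⟩ := (zet_spec p K).eq_pow_of_pow_eq_one hz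
  rw [map_pow, FA.HerbrandRibet.sigmaK_zet, ← pow_mul, ← pow_mul, mul_comm]

/-- A cyclotomic field is the field of the roots of unity in its algebraic closure. -/
theorem isCycBase_cyclotomic (P : ℕ) [NeZero P] (F : Type*) [Field F] [NumberField F]
    [IsCyclotomicExtension {P} ℚ F] :
    IsCycBase P (algebraMap F (AlgebraicClosure F)) := by
  intro x
  set Ω := AlgebraicClosure F
  haveI : Algebra.IsAlgebraic ℚ Ω := Algebra.IsAlgebraic.trans ℚ F Ω
  set f := IsScalarTower.toAlgHom ℚ F Ω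
  set z₀ := IsCyclotomicExtension.zeta P ℚ F 
  have hz : IsPrimitiveRoot (f z₀) P :=
    (IsCyclotomicExtension.zeta_spec P ℚ F).map_of_injective f.injective
  have hgen : (fullField Ω P ∅ : IntermediateField ℚ Ω) = adjoin ℚ {f z₀} := by
    refine le_antisymm (adjoin_le_iff.2 ?_) (adjoin_le_iff.2 ?_)
    · rintro _ ⟨q, hq, rfl⟩
      rw [Finset.coe_insert, Finset.coe_empty, insert_empty_eq, Set.mem_singleton_iff] at hq
      rw [hq]
      obtain ⟨j, -, hj⟩ := hz.eq_pow_of_pow_eq_one (zr_spec Ω (NeZero.ne P)).pow_eq_one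
      rw [← hj]
      exact pow_mem (mem_adjoin_simple_self ℚ _) j
    · rintro _ rfl
      obtain ⟨j, -, hj⟩ := (zr_spec Ω (NeZero.ne P)).eq_pow_of_pow_eq_one hz.pow_eq_one
      rw [SetLike.mem_coe, ← hj]
      exact pow_mem (zr_P_mem ∅) j
  have hrange : adjoin ℚ {f z₀} = f.fieldRange := by
    refine le_antisymm (adjoin_le_iff.2 (by rintro _ rfl; exact ⟨_, rfl⟩)) ?_
    intro y hy
    obtain ⟨z, rfl⟩ := hy
    have htop := IsCyclotomicExtension.adjoin_roots (S := {P}) (A := ℚ) (B := F) z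
    refine Algebra.adjoin_induction (p := fun w _ => f w ∈ adjoin ℚ {f z₀})
      (fun w hw => ?_) (fun r => ?_) (fun a b _ _ ha hb => ?_) (fun a b _ _ ha hb => ?_) htop
    · obtain ⟨n, hn, -, hw⟩ := hw
      rw [Set.mem_singleton_iff] at hn
      rw [hn] at hw
      obtain ⟨j, -, rfl⟩ := (IsCyclotomicExtension.zeta_spec P ℚ F).eq_pow_of_pow_eq_one hw
      rw [map_pow]
      exact pow_mem (mem_adjoin_simple_self ℚ _) j
    · rw [AlgHom.commutes]
      exact IntermediateField.algebraMap_mem _ _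
    · rw [map_add]; exact add_mem ha hb
    · rw [map_mul]; exact mul_mem ha hb
  rw [hgen, hrange]
  exact Iff.rfl

/-- The field is the field of the `p`-th roots of unity in its algebraic closure. -/
theorem isCycBase_algebraMap : IsCycBase p (algebraMap K (AlgebraicClosure K)) :=
  haveI : NeZero p := ⟨hp.out.ne_zero⟩
  isCycBase_cyclotomic p K

/-- The bound. -/
theorem card_range_le (hp5 : 5 ≤ p) {i : ℕ} (hi : Odd i) (hi3 : 3 ≤ i) (hip : i + 2 ≤ p)
    {k k₀ v : ℕ} (hk : 0 < k) (hk₀ : k₀ ≤ k) (hvk : v < k) (hkv : k₀ + v ≤ k)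
    {e : MonoidAlgebra (ZMod (p ^ k)) (ZMod p)ˣ}
    (hmul : ∀ x, x * e = single 1 (charEval (teich hk ^ i) x) * e)
    (heval : charEval (teich hk ^ i) e = 1)
    (hS : padicValNat p (∑ t ∈ range p, t ^ (1 + (p - 1 - i) * p ^ k)) = v + 1) :
    Nat.card (act (phiA (sigmaK p K)) (pow_dvd_pow p hk₀) e :
      Aq K (p ^ k₀) →+ Aq K (p ^ k₀)).range ≤ p ^ v := by
  haveI : NeZero p := ⟨hp.out.ne_zero⟩
  haveI : IsGalois ℚ K := IsCyclotomicExtension.isGalois {p} ℚ K
  haveI : Algebra.IsAlgebraic ℚ (AlgebraicClosure K) :=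
    Algebra.IsAlgebraic.trans ℚ K (AlgebraicClosure K)
  -- a primitive root
  obtain ⟨γ, hγ⟩ := IsCyclic.exists_generator (α := (ZMod p)ˣ)
  have hγo : orderOf γ = p - 1 := by
    rw [orderOf_eq_card_of_forall_mem_zpowers hγ, Nat.card_eq_fintype_card, ZMod.card_units p]
  set c := (γ : ZMod p).val
  have hcγ : (c : ZMod p) = γ := ZMod.natCast_zmod_val _
  have hord : orderOf (c : ZMod p) = p - 1 := by rw [hcγ, orderOf_units, hγo]
  have hpow : ∀ n, 0 < n → n < p - 1 → (c : ZMod p) ^ n ≠ 1 := fun n h1 h2 h => by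
    have := orderOf_le_of_pow_eq_one h1 h
    omega
  have hc0 : c ≠ 0 := fun h => γ.ne_zero (by rw [← hcγ, h, Nat.cast_zero])
  have hc1 : c ≠ 1 := fun h => by
    rw [h, Nat.cast_one, orderOf_one] at hord
    omega
  have hcp' : ¬ p ∣ c := fun h => by
    have h1 := Nat.le_of_dvd (Nat.pos_of_ne_zero hc0) h
    have h2 : c < p := ZMod.val_lt _
    omega
  have hs : Setup p p k c :=
    ⟨hp.out, hp5, hk, by omega, ZMod.val_lt _, hcp', 0, (pow_one p).symm⟩
  have hcp : ¬ p ∣ c := hs.hcd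
  -- the auxiliary prime
  obtain ⟨vr, -, hvr, hprime, -⟩ := FA.DeuringCM.exists_degree_one_class (F := K)
    (𝔪 := ⊤) top_ne_bot (FA.Hecke.rayClass top_ne_bot 1)
    (FA.HerbrandRibet.finite_natCast_mem (K := K) (p := p))
  set r := Ideal.absNorm vr.asIdeal
  have hA : IsAux p ∅ r (gen r) := ⟨hprime, gen_spec hprime,
    FA.HerbrandRibet.dvd_absNorm_sub_one' (zet_spec p K) hvr, by simp⟩
  obtain ⟨x, hx⟩ := exists_isKappa_base (isCycBase_algebraMap K) hs (T := ∅) (by simp) hA
  -- the sum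
  set S := ∑ t ∈ range p, t ^ (1 + (p - 1 - i) * p ^ k)
  have hS0 : S ≠ 0 := fun h => by rw [h, padicValNat_zero_right] at hS; omega
  obtain ⟨w, hw⟩ : p ^ (v + 1) ∣ S := hS ▸ pow_padicValNat_dvd
  have hwp : ¬ p ∣ w := fun h => by
    have h1 : p ^ (v + 1 + 1) ∣ S := by
      rw [hw, pow_succ]; exact mul_dvd_mul_left _ h
    rw [padicValNat_dvd_iff_le hS0] at h1
    omega
  obtain ⟨u, hu, hval⟩ := ordq_base (isCycBase_algebraMap K) hs (sigmaK p K) (sigmaK_root K)
    (j := i) (by omega) hip hord hmul heval hA rfl hx hw hwp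
  -- the eigenvalue at `γ`
  have hX : (((teich hk ^ i) γ).val : ZMod p) = (c : ZMod p) ^ i := by
    haveI : NeZero (p ^ k) := ⟨pow_ne_zero _ hp.out.ne_zero⟩
    rw [← map_natCast (ZMod.castHom (dvd_pow_self p hk.ne') (ZMod p)), ZMod.natCast_zmod_val,
      MonoidHom.pow_apply, map_pow, castHom_teich, hcγ]
  have hG : ¬ p ∣ Fintype.card (ZMod p)ˣ := fun h => by
    rw [ZMod.card_units p] at h
    have := Nat.le_of_dvd (by omega) h
    omega
  have hi2 := Nat.odd_iff.1 hi
  have hpodd := hp.out.eq_two_or_odd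
  have hcne : (c : ZMod p) ≠ 0 := fun h => hcp ((ZMod.natCast_eq_zero_iff c p).1 h)
  refine card_component_le (sigmaK p K) (isCycBase_algebraMap K) hs
    (IsCyclotomicExtension.Rat.galEquivZMod p K).symm.bijective hmul heval hG (g₀ := γ) (a := c)
    (sigmaK_root K γ) hcp ?_ ?_ ?_ (pow_dvd_pow p hk₀) hA rfl hx hvk
    (pow_dvd_pow p (by omega)) hu hval <;> rw [hX]
  · exact hpow i (by omega) (by omega)
  · intro h
    refine hpow (i - 1) (by omega) (by omega) (mul_right_cancel₀ hcne ?_)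
    rw [one_mul, ← pow_succ, Nat.sub_add_cancel (by omega : 1 ≤ i), h]
  · rw [← pow_mul]
    intro h
    have h1 : (c : ZMod p) ^ (i * 2 - 1) = 1 := mul_right_cancel₀ hcne (by
      rw [one_mul, ← pow_succ, Nat.sub_add_cancel (by omega : 1 ≤ i * 2), h])
    have h2 := orderOf_dvd_of_pow_eq_one h1
    rw [hord] at h2
    have h3 : 2 ∣ i * 2 - 1 := (show 2 ∣ p - 1 by omega).trans h2
    omega

end FA.GaussKolyvagin
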