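import Fermat.Agent.GaussKolyvagin.Funct

/-!
# Kolyvagin's derivative of the Gauss sums

For a set `T` of admissible primes and an auxiliary prime `r` the derivative `dG T 1` is
`∏_j funG (∏_q ζ_q ^ (g_q ^ j_q)) ^ (∏_q j_q)`.

* `derivative_relation`: the relation at a prime of `T`;
* `exists_derivative_gal`: invariance modulo `p ^ k * P`-th powers;
* `exists_isKappa`: the class `κ` in `ℚ(ζ_P)` modulo `p ^ k`-th powers.
-/

set_option autoImplicit false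
set_option linter.unusedSectionVars false
set_option linter.style.haveILetI false

noncomputable section

open scoped Classical
open Finset IntermediateField
open FA.Kolyvagin (zr zr_spec zr_pow_self zr_pow_congr fullField
  exists_map_zr zr_mem_fullField gen not_dvd_gen pt wt getJ gen_pow_modEq_one
  exists_gen_pow_modEq prod_shift isGalois_rat)

namespace FA.GaussKolyvagin

variable {Ω : Type*} [Field Ω] [CharZero Ω] [IsAlgClosed Ω] [Algebra.IsAlgebraic ℚ Ω] {p P k c : ℕ}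
variable {r g : ℕ}

variable (Ω P c r g) in
/-- **The derivative.** -/
def dG (T : Finset ℕ) (w : Ω) : Ω :=
  ∏ j ∈ T.pi (fun q => range (q - 1)), funG Ω P c r g (w * pt Ω T j) ^ wt T j

theorem dG_insert {T : Finset ℕ} {q : ℕ} (hq : q ∉ T) (w : Ω) :
    dG Ω P c r g (insert q T) w =
      ∏ i ∈ range (q - 1), dG Ω P c r g T (w * zr Ω q ^ gen q ^ i) ^ i := by
  rw [dG, Finset.pi_insert hq, Finset.prod_biUnion]
  · refine Finset.prod_congr rfl fun i _ => ?_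
    rw [Finset.prod_image ((Finset.Pi.cons_injective hq).injOn), dG, ← Finset.prod_pow]
    refine Finset.prod_congr rfl fun j hj => ?_
    have hget : ∀ s ∈ T, getJ (insert q T) (Finset.Pi.cons T q i j) s = getJ T j s := by
      intro s hs
      rw [getJ, getJ, dif_pos (Finset.mem_insert_of_mem hs), dif_pos hs,
        Finset.Pi.cons_ne (by rintro rfl; exact hq hs)]
    have hgetq : getJ (insert q T) (Finset.Pi.cons T q i j) q = i := by
      rw [getJ, dif_pos (Finset.mem_insert_self q T), Finset.Pi.cons_same]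
    rw [pt, pt, wt, wt, Finset.prod_insert hq, Finset.prod_insert hq, hgetq,
      Finset.prod_congr rfl (fun s hs => by rw [hget s hs]),
      Finset.prod_congr rfl (g := fun s => getJ T j s) hget, mul_comm i, pow_mul, mul_assoc]
  · intro i _ i' _ hne
    refine Finset.disjoint_left.2 fun x hx hx' => hne ?_
    obtain ⟨a, -, rfl⟩ := Finset.mem_image.1 hx
    obtain ⟨b, -, hb⟩ := Finset.mem_image.1 hx'
    have h := congrFun (congrFun hb q) (Finset.mem_insert_self q T)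
    rw [Finset.Pi.cons_same, Finset.Pi.cons_same] at h
    exact h.symm

theorem map_dG {σ : Ω →+* Ω} (hσ : σ (zr Ω P) = zr Ω P) {T : Finset ℕ}
    (hfix : ∀ q ∈ T, σ (zr Ω q) = zr Ω q) (w : Ω) :
    σ (dG Ω P c r g T w) = dG Ω P c r g T (σ w) := by
  rw [dG, dG, map_prod]
  refine Finset.prod_congr rfl fun j _ => ?_
  rw [map_pow, map_funG hσ, map_mul]
  refine congrArg (fun y => funG Ω P c r g (σ w * y) ^ wt T j) ?_
  rw [pt, map_prod]
  exact Finset.prod_congr rfl fun q hq => by rw [map_pow, hfix q hq]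

section aux

variable (hs : Setup p P k c) {S : Finset ℕ} (hS : ∀ q ∈ S, IsAdm p P k q) (hA : IsAux P S r g)
include hs hS hA

theorem dG_ne_zero {T : Finset ℕ} (hTS : T ⊆ S) {w : Ω} (hw : IsPt S w) :
    dG Ω P c r g T w ≠ 0 :=
  Finset.prod_ne_zero_iff.2 fun j _ =>
    pow_ne_zero _ (funG_ne_zero hs hS hA (hw.mul (isPt_pt hTS j)))

theorem dG_mem {T : Finset ℕ} (hTS : T ⊆ S) {w : Ω} (hw : w ∈ fullField Ω P S) :
    dG Ω P c r g T w ∈ fullField Ω P S :=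
  prod_mem fun j _ => pow_mem (funG_mem hs hS hA (mul_mem hw
    (sField_le_fullField S (isPt_pt hTS j).1))) _

/-- The norm of a slice. -/
theorem prod_dG_mul {T : Finset ℕ} {q : ℕ} (hTS : T ⊆ S) (hqS : q ∈ S) {φ : Ω →+* Ω}
    (hφp : φ (zr Ω P) = zr Ω P) (hφ : ∀ s ∈ T, φ (zr Ω s) = zr Ω s ^ q) :
    ∃ z, IsAdj P r S z ∧
      (∏ i ∈ range (q - 1), dG Ω P c r g T (zr Ω q ^ gen q ^ i)) * dG Ω P c r g T 1 =
        φ (dG Ω P c r g T 1) * z ^ (p ^ k * P) := by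
  simp only [dG, map_prod, one_mul]
  rw [Finset.prod_comm, ← Finset.prod_mul_distrib]
  refine Finset.cons_induction ?_ (fun j J hj ih => ?_) (T.pi fun q => range (q - 1))
  · exact ⟨1, IsAdj.one S, by simp⟩
  obtain ⟨z, hz, hzJ⟩ := ih
  obtain ⟨y, hy, hyj⟩ := prod_funG_mul hs hS hA hqS (isPt_pt (Ω := Ω) hTS j)
  refine ⟨y ^ wt T j * z, (hy.pow _).mul hz, ?_⟩
  have hpt : φ (pt Ω T j) = pt Ω T j ^ q := by
    rw [pt, map_prod, ← Finset.prod_pow]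
    exact Finset.prod_congr rfl fun s hs => by rw [map_pow, hφ s hs, ← pow_mul, ← pow_mul, mul_comm]
  rw [Finset.prod_cons, Finset.prod_cons, hzJ, map_pow, map_funG hφp, hpt, Finset.prod_pow,
    ← mul_pow, Finset.prod_congr rfl fun i _ => by rw [mul_comm (zr Ω q ^ gen q ^ i)], hyj,
    mul_pow, mul_pow, pow_right_comm y]
  ring

/-- **The derivative relation** at a prime of `T`. -/
theorem derivative_relation {T : Finset ℕ} {q : ℕ} (hqT : q ∉ T) (hTS : T ⊆ S) (hqS : q ∈ S)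
    {σ φ : Ω →+* Ω} (hσp : σ (zr Ω P) = zr Ω P) (hσ : ∀ s ∈ T, σ (zr Ω s) = zr Ω s)
    (hσq : σ (zr Ω q) = zr Ω q ^ gen q) (hφp : φ (zr Ω P) = zr Ω P)
    (hφ : ∀ s ∈ T, φ (zr Ω s) = zr Ω s ^ q) :
    ∃ z, IsAdj P r S z ∧
      σ (dG Ω P c r g (insert q T) 1) * φ (dG Ω P c r g T 1) * z ^ (p ^ k * P) =
        dG Ω P c r g (insert q T) 1 * dG Ω P c r g T (zr Ω q) ^ (q - 1) * dG Ω P c r g T 1 := by
  obtain ⟨z, hz, hzeq⟩ := prod_dG_mul hs hS hA hTS hqS hφp hφ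
  refine ⟨z, hz, ?_⟩
  set a : ℕ → Ω := fun i => dG Ω P c r g T (zr Ω q ^ gen q ^ i)
  have hn : a (q - 1) = a 0 := by
    show dG Ω P c r g T _ = dG Ω P c r g T _
    rw [zr_pow_congr Ω (gen_pow_modEq_one (hS q hqS).prime), pow_zero]
  have hd : dG Ω P c r g (insert q T) 1 = ∏ i ∈ range (q - 1), a i ^ i := by
    rw [dG_insert hqT]; simp only [one_mul, a]
  have hσd : σ (dG Ω P c r g (insert q T) 1) = ∏ i ∈ range (q - 1), a (i + 1) ^ i := by
    rw [hd, map_prod]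
    refine Finset.prod_congr rfl fun i _ => ?_
    show σ (dG Ω P c r g T _ ^ i) = dG Ω P c r g T _ ^ i
    rw [map_pow, map_dG hσp hσ, map_pow, hσq, ← pow_mul, ← pow_succ']
  rw [mul_assoc, ← hzeq, ← mul_assoc, hσd, prod_shift a hn, hd]
  simp only [a, pow_zero, pow_one]

omit hA in
/-- The automorphisms needed: `σ_q` and the Frobenius of `q`. -/
theorem exists_sigma_phi {T : Finset ℕ} {q : ℕ} (hqT : q ∉ T) (hTS : T ⊆ S) (hqS : q ∈ S) :
    ∃ σ φ : Ω ≃ₐ[ℚ] Ω, σ (zr Ω P) = zr Ω P ∧ (∀ s ∈ T, σ (zr Ω s) = zr Ω s) ∧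
      σ (zr Ω q) = zr Ω q ^ gen q ∧
      φ (zr Ω P) = zr Ω P ∧ (∀ s ∈ T, φ (zr Ω s) = zr Ω s ^ q) := by
  have hP := rootSet_insert hs hS
  have hqp : q ≠ P := fun h => P_notMem hs hS (by rwa [h] at hqS)
  have hq := (hS q hqS).prime
  obtain ⟨σ, hσ⟩ := exists_aut (Ω := Ω) hP (fun s => if s = q then gen q else 1) fun s hs' => by
    split_ifs with h
    · subst h; exact (hq.coprime_iff_not_dvd.2 (not_dvd_gen hq)).symm
    · exact Nat.coprime_one_left s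
  obtain ⟨φ, hφ⟩ := exists_aut (Ω := Ω) hP (fun s => if s ∈ T then q else 1) fun s hs' => by
    split_ifs with h
    · exact hP.coprime q (Finset.mem_insert_of_mem hqS) s hs'
        fun (e : q = s) => hqT (by rwa [← e] at h)
    · exact Nat.coprime_one_left s
  refine ⟨σ, φ, ?_, fun s hs' => ?_, ?_, ?_, fun s hs' => ?_⟩
  · rw [hσ P (Finset.mem_insert_self _ _), if_neg (Ne.symm hqp), pow_one]
  · rw [hσ s (Finset.mem_insert_of_mem (hTS hs')),
      if_neg (fun (h : s = q) => hqT (by rwa [h] at hs')), pow_one]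
  · rw [hσ q (Finset.mem_insert_of_mem hqS), if_pos rfl]
  · rw [hφ P (Finset.mem_insert_self _ _),
      if_neg (fun h => P_notMem hs hS (hTS h)), pow_one]
  · rw [hφ s (Finset.mem_insert_of_mem (hTS hs')), if_pos hs']

/-- **Invariance of the derivative modulo `(p ^ k * P)`-th powers.** -/
theorem exists_derivative_gal (T : Finset ℕ) :
    T ⊆ S → ∀ σ : Ω ≃ₐ[ℚ] Ω, σ (zr Ω P) = zr Ω P →
      ∃ δ ∈ fullField Ω P S,
        σ (dG Ω P c r g T 1) = dG Ω P c r g T 1 * δ ^ (p ^ k * P) := by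
  induction T using Finset.strongInduction with
  | _ T IHT =>
  intro hTS
  set D := dG Ω P c r g T (1 : Ω)
  have hP := rootSet_insert hs hS
  have hcomp : ∀ σ τ : Ω ≃ₐ[ℚ] Ω, (∃ δ ∈ fullField Ω P S, σ D = D * δ ^ (p ^ k * P)) →
      (∃ δ ∈ fullField Ω P S, τ D = D * δ ^ (p ^ k * P)) →
      ∃ δ ∈ fullField Ω P S, (σ * τ) D = D * δ ^ (p ^ k * P) := by
    rintro σ τ ⟨δ, hδ, h⟩ ⟨ε, hε, h'⟩
    refine ⟨δ * σ ε, mul_mem hδ (map_mem_fullField σ hP hε), ?_⟩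
    rw [AlgEquiv.mul_apply, h', map_mul, map_pow, h, mul_pow, mul_assoc]
  suffices key : ∀ (U : Finset ℕ) (σ : Ω ≃ₐ[ℚ] Ω), σ (zr Ω P) = zr Ω P →
      (T.filter fun q => σ (zr Ω q) ≠ zr Ω q) = U →
        ∃ δ ∈ fullField Ω P S, σ D = D * δ ^ (p ^ k * P) from
    fun σ hσ => key _ σ hσ rfl
  intro U
  induction U using Finset.strongInduction with
  | _ U IHU =>
  intro σ hσ hU
  rcases U.eq_empty_or_nonempty with rfl | ⟨q, hq⟩
  · refine ⟨1, one_mem _, ?_⟩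
    rw [one_pow, mul_one]
    refine (map_dG (σ := (σ : Ω →+* Ω)) hσ (fun q hq => ?_) 1).trans (by rw [map_one])
    by_contra h
    exact Finset.notMem_empty q (hU ▸ Finset.mem_filter.2 ⟨hq, h⟩)
  have hqf : q ∈ T.filter fun q => σ (zr Ω q) ≠ zr Ω q := hU.symm ▸ hq
  obtain ⟨hqT, hmove⟩ := Finset.mem_filter.1 hqf
  have hqS := hTS hqT
  have hqa := hS q hqS
  set T' := T.erase q with hT'
  have hins : insert q T' = T := Finset.insert_erase hqT
  have hT'S : T' ⊆ S := (Finset.erase_subset _ _).trans hTS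
  obtain ⟨τ, φ, hτp, hτT, hτq, hφp, hφT⟩ := exists_sigma_phi (Ω := Ω) hs hS
    (Finset.notMem_erase q T) hT'S hqS
  -- the generator at `q`
  have hAτ : ∃ δ ∈ fullField Ω P S, τ D = D * δ ^ (p ^ k * P) := by
    obtain ⟨δ, hδ, hδe⟩ := IHT T' (Finset.erase_ssubset hqT) hT'S φ hφp
    obtain ⟨e, he⟩ := hqa.dvd
    obtain ⟨z, ⟨hz, hz0, -⟩, hrel⟩ := derivative_relation hs hS hA (σ := (τ : Ω →+* Ω))
      (φ := (φ : Ω →+* Ω)) (Finset.notMem_erase q T) hT'S hqS hτp hτT hτq hφp hφT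
    rw [hins] at hrel
    change τ D * φ (dG Ω P c r g T' 1) * z ^ (p ^ k * P) = _ at hrel
    rw [hδe] at hrel
    have hd0 : dG Ω P c r g T' (1 : Ω) ≠ 0 := dG_ne_zero hs hS hA hT'S (IsPt.one S)
    have hδ0 : δ ≠ 0 := fun h => by
      rw [h, zero_pow hs.pow_mul_ne_zero, mul_zero] at hδe
      exact hd0 (φ.injective (hδe.trans (map_zero φ).symm))
    refine ⟨dG Ω P c r g T' (zr Ω q) ^ e / (δ * z), div_mem (pow_mem (dG_mem hs hS hA hT'S
      (zr_mem_fullField (Finset.mem_insert_of_mem hqS))) _) (mul_mem hδ hz), ?_⟩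
    rw [div_pow, ← pow_mul, mul_comm e, ← he, mul_div_assoc',
      eq_div_iff (pow_ne_zero _ (mul_ne_zero hδ0 hz0))]
    refine mul_right_cancel₀ hd0 ?_
    rw [← hrel]
    ring
  obtain ⟨a, ha, hna⟩ := exists_map_zr (σ : Ω →+* Ω) hqa.prime
  obtain ⟨i, -, hi⟩ := exists_gen_pow_modEq hqa.prime hna
  have hτi : ∀ i : ℕ, (τ ^ i) (zr Ω P) = zr Ω P ∧ (∀ s ∈ T', (τ ^ i) (zr Ω s) = zr Ω s) ∧
      (τ ^ i) (zr Ω q) = zr Ω q ^ gen q ^ i ∧
      ∃ δ ∈ fullField Ω P S, (τ ^ i) D = D * δ ^ (p ^ k * P) := by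
    intro i
    induction i with
    | zero =>
      exact ⟨rfl, fun _ _ => rfl, by rw [pow_zero, pow_zero, pow_one]; rfl,
        1, one_mem _, by rw [one_pow, mul_one]; rfl⟩
    | succ i ih =>
      obtain ⟨h1, h2, h3, h4⟩ := ih
      rw [pow_succ']
      refine ⟨by rw [AlgEquiv.mul_apply, h1, hτp], fun s hs => ?_, ?_, hcomp _ _ hAτ h4⟩
      · rw [AlgEquiv.mul_apply, h2 s hs, hτT s hs]
      · rw [AlgEquiv.mul_apply, h3, map_pow, hτq, ← pow_mul, ← pow_succ']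
  set σ' := (τ ^ i)⁻¹ * σ
  have hσ'p : σ' (zr Ω P) = zr Ω P := by
    show (τ ^ i).symm (σ (zr Ω P)) = _
    rw [hσ, AlgEquiv.symm_apply_eq, (hτi i).1]
  have hlt : (T.filter fun s => σ' (zr Ω s) ≠ zr Ω s) ⊂ U := by
    rw [Finset.ssubset_iff_of_subset]
    · refine ⟨q, hq, fun h => (Finset.mem_filter.1 h).2 ?_⟩
      show (τ ^ i).symm (σ (zr Ω q)) = _
      rw [AlgEquiv.symm_apply_eq, (hτi i).2.2.1, show σ (zr Ω q) = zr Ω q ^ a from ha,
        zr_pow_congr Ω hi]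
    · intro s hs
      obtain ⟨hsT, hsm⟩ := Finset.mem_filter.1 hs
      rw [← hU, Finset.mem_filter]
      refine ⟨hsT, fun h => hsm ?_⟩
      show (τ ^ i).symm (σ (zr Ω s)) = _
      have hsq : s ≠ q := fun e => hmove (e ▸ h)
      rw [h, AlgEquiv.symm_apply_eq, (hτi i).2.1 s (Finset.mem_erase.2 ⟨hsq, hsT⟩)]
  have := hcomp _ _ (hτi i).2.2.2 (IHU _ hlt σ' hσ'p rfl)
  rwa [mul_inv_cancel_left] at this

omit hA in
/-- Roots of a `p ^ k * P`-th power have the same `P`-th power. -/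
theorem pow_P_eq_of_pow_eq {x y : Ω} (hx : x ∈ fullField Ω P S) (hy : y ∈ fullField Ω P S)
    (h : x ^ (p ^ k * P) = y ^ (p ^ k * P)) : x ^ P = y ^ P := by
  rcases eq_or_ne y 0 with rfl | hy0
  · rw [zero_pow hs.pow_mul_ne_zero] at h
    rw [eq_zero_of_pow_eq_zero h]
  obtain ⟨n, hn⟩ := hs.hP
  have h1 := pow_P_eq_one hs hS (div_mem hx hy) (i := k + (n + 1))
    (by rw [pow_add, ← hn, div_pow, h, div_self (pow_ne_zero _ hy0)])
  rwa [div_pow, div_eq_one_iff_eq (pow_ne_zero _ hy0)] at h1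

end aux

variable (Ω P c r g) in
/-- **The Kolyvagin class**: `x ∈ ℚ(ζ_P)` is the derivative up to the `M`-th power of an element
whose conjugates over `ℚ(ζ_P)` differ from it by `P`-th powers, `M = p ^ k`. -/
def IsKappa (p k : ℕ) (T : Finset ℕ) (x : Ω) : Prop :=
  x ∈ fullField Ω P ∅ ∧ ∃ γ ∈ fullField Ω P T, γ ≠ 0 ∧ dG Ω P c r g T 1 = x * γ ^ p ^ k ∧
    ∀ σ : Ω ≃ₐ[ℚ] Ω, σ (zr Ω P) = zr Ω P → ∃ δ ∈ fullField Ω P T, σ γ = γ * δ ^ P

theorem IsKappa.ne_zero (hs : Setup p P k c) {T : Finset ℕ} (hT : ∀ q ∈ T, IsAdm p P k q)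
    (hA : IsAux P T r g) {x : Ω} (h : IsKappa Ω P c r g p k T x) : x ≠ 0 := by
  rintro rfl
  obtain ⟨-, γ, -, -, he, -⟩ := h
  rw [zero_mul] at he
  exact dG_ne_zero hs hT hA subset_rfl (IsPt.one T) he

/-- **Existence of the class.** -/
theorem exists_isKappa (hs : Setup p P k c) {T : Finset ℕ} (hT : ∀ q ∈ T, IsAdm p P k q)
    (hA : IsAux P T r g) : ∃ x : Ω, IsKappa Ω P c r g p k T x := by
  haveI := isGalois_rat (Ω := Ω)
  have hP := rootSet_insert hs hT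
  haveI : NeZero (∏ q ∈ insert P T, q) := ⟨hP.prod_pos.ne'⟩
  haveI := fullField_isCyclotomic (Ω := Ω) hP
  haveI : FiniteDimensional ℚ (fullField Ω P T) :=
    IsCyclotomicExtension.finiteDimensional {∏ q ∈ insert P T, q} ℚ _
  haveI : IsGalois ℚ (fullField Ω P T) :=
    IsCyclotomicExtension.isGalois {∏ q ∈ insert P T, q} ℚ _
  set L := fullField Ω P T
  set d := dG Ω P c r g T (1 : Ω)
  have hd0 : d ≠ 0 := dG_ne_zero hs hT hA subset_rfl (IsPt.one T)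
  have hdL : d ∈ L := dG_mem hs hT hA subset_rfl (one_mem _)
  choose δ hδ hδe using fun σ : {σ : Ω ≃ₐ[ℚ] Ω // σ (zr Ω P) = zr Ω P} =>
    exists_derivative_gal hs hT hA T subset_rfl σ.1 σ.2
  have hzp : zr Ω P ∈ L := zr_P_mem T
  let H : Finset (L ≃ₐ[ℚ] L) := Finset.univ.filter fun τ => τ ⟨zr Ω P, hzp⟩ = ⟨zr Ω P, hzp⟩
  let ext : (L ≃ₐ[ℚ] L) → (Ω ≃ₐ[ℚ] Ω) := fun τ => τ.liftNormal Ω
  have hext : ∀ (τ : L ≃ₐ[ℚ] L) (y : L), ext τ (y : Ω) = (τ y : L) :=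
    fun τ y => τ.liftNormal_commutes Ω y
  have hH : ∀ τ ∈ H, ext τ (zr Ω P) = zr Ω P := fun τ hτ =>
    (hext τ ⟨zr Ω P, hzp⟩).trans (congrArg Subtype.val (Finset.mem_filter.1 hτ).2)
  let f : (L ≃ₐ[ℚ] L) → Ω := fun τ => if h : τ ∈ H then δ ⟨ext τ, hH τ h⟩ ^ P else 0
  have hf : ∀ τ ∈ H, ∃ h : ext τ (zr Ω P) = zr Ω P, f τ = δ ⟨ext τ, h⟩ ^ P := fun τ hτ =>
    ⟨hH τ hτ, by simp only [f, dif_pos hτ]⟩
  have hfm : ∀ τ ∈ H, f τ ∈ L := fun τ hτ => by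
    obtain ⟨h, e⟩ := hf τ hτ
    rw [e]
    exact pow_mem (hδ _) P
  have hf0 : ∀ τ ∈ H, f τ ≠ 0 := fun τ hτ h0 => by
    obtain ⟨h, e⟩ := hf τ hτ
    rw [e] at h0
    have h' := hδe ⟨ext τ, h⟩
    rw [eq_zero_of_pow_eq_zero h0, zero_pow hs.pow_mul_ne_zero, mul_zero] at h'
    exact hd0 ((ext τ).injective (h'.trans (map_zero _).symm))
  -- some Poincaré series does not vanish
  obtain ⟨x, hx⟩ : ∃ x : L, ∑ τ ∈ H, f τ * ((τ x : L) : Ω) ≠ 0 := by
    by_contra! h0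
    have hli : LinearIndependent Ω fun τ : L ≃ₐ[ℚ] L =>
        (((L.val : L →+* Ω).comp (τ : L →+* L)).toMonoidHom : L → Ω) :=
      (linearIndependent_monoidHom L Ω).comp
        (fun τ : L ≃ₐ[ℚ] L => ((L.val : L →+* Ω).comp (τ : L →+* L)).toMonoidHom)
        fun τ τ' h => AlgEquiv.ext fun y => Subtype.ext (DFunLike.congr_fun h y)
    have h1 : (1 : L ≃ₐ[ℚ] L) ∈ H := Finset.mem_filter.2 ⟨Finset.mem_univ _, rfl⟩
    refine hf0 1 h1 (linearIndependent_iff'.1 hli H f ?_ 1 h1)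
    funext y
    simpa [Finset.sum_apply] using h0 y
  set b := ∑ τ ∈ H, f τ * ((τ x : L) : Ω) with hb
  have hbL : b ∈ L := sum_mem fun τ hτ => mul_mem (hfm τ hτ) (τ x).2
  have hkey : ∀ σ : Ω ≃ₐ[ℚ] Ω, ∀ hσ : σ (zr Ω P) = zr Ω P, δ ⟨σ, hσ⟩ ^ P * σ b = b := by
    intro σ hσ
    set σL := σ.restrictNormal L
    have hσL : ∀ y : L, ((σL y : L) : Ω) = σ (y : Ω) := fun y =>
      AlgEquiv.restrictNormal_commutes σ L y
    have hmul : ∀ τ ∈ H, σL * τ ∈ H := fun τ hτ => Finset.mem_filter.2 ⟨Finset.mem_univ _, by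
      rw [AlgEquiv.mul_apply, (Finset.mem_filter.1 hτ).2]
      exact Subtype.ext (by rw [hσL]; exact hσ)⟩
    have hcoc : ∀ τ ∈ H, δ ⟨σ, hσ⟩ ^ P * σ (f τ) = f (σL * τ) := by
      intro τ hτ
      obtain ⟨h1, e1⟩ := hf τ hτ
      obtain ⟨h2, e2⟩ := hf _ (hmul τ hτ)
      rw [e1, e2, map_pow, ← mul_pow]
      refine pow_P_eq_of_pow_eq hs hT (mul_mem (hδ _) (map_mem_fullField σ hP (hδ _))) (hδ _)
        (mul_left_cancel₀ hd0 ?_)
      rw [← hδe ⟨ext (σL * τ), h2⟩, mul_pow, ← mul_assoc, ← hδe ⟨σ, hσ⟩, ← map_pow, ← map_mul,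
        ← hδe ⟨ext τ, h1⟩, hext τ ⟨d, hdL⟩, hext (σL * τ) ⟨d, hdL⟩, AlgEquiv.mul_apply, hσL]
    rw [hb, map_sum, Finset.mul_sum]
    refine Finset.sum_bij (fun τ _ => σL * τ) hmul (fun _ _ _ _ h => mul_left_cancel h)
      (fun τ hτ => ⟨σL⁻¹ * τ, Finset.mem_filter.2 ⟨Finset.mem_univ _, ?_⟩, mul_inv_cancel_left _ _⟩)
      fun τ hτ => ?_
    · rw [AlgEquiv.mul_apply, (Finset.mem_filter.1 hτ).2]
      exact σL.injective ((σL.apply_symm_apply _).trans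
        (Subtype.ext (by rw [hσL]; exact hσ.symm)))
    · rw [map_mul, ← mul_assoc, hcoc τ hτ, AlgEquiv.mul_apply, hσL]
  refine ⟨d * b ^ p ^ k, mem_fullField_iff.2 fun σ hσ => ?_, b⁻¹, inv_mem hbL, inv_ne_zero hx,
    ?_, fun σ hσ => ⟨δ ⟨σ, hσ⟩, hδ _, ?_⟩⟩
  · have hσ' := hσ P (Finset.mem_insert_self _ _)
    rw [map_mul, map_pow, show σ d = _ from hδe ⟨σ, hσ'⟩, mul_comm (p ^ k) P, pow_mul,
      mul_assoc, ← mul_pow, hkey σ hσ']
  · rw [inv_pow, mul_assoc, mul_inv_cancel₀ (pow_ne_zero _ hx), mul_one]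
  · have h1 := hkey σ hσ
    have hne : δ ⟨σ, hσ⟩ ^ P ≠ 0 := fun h0 => hx (by rw [← h1, h0, zero_mul])
    rw [map_inv₀]
    nth_rw 2 [← h1]
    rw [mul_inv, mul_comm (δ ⟨σ, hσ⟩ ^ P)⁻¹, mul_assoc, inv_mul_cancel₀ hne, mul_one]

end FA.GaussKolyvagin
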