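import Fermat.Agent.GaussKolyvagin.JacobiOrd
import Fermat.Agent.AmbiguousClass.Divisor

/-!
# The distribution relation of the Jacobi sums

* `jOrd m c t = c (m - t % m) / m`, the order at a prime of degree one;
* `sum_jOrd`: its distribution relation;
* `exists_root_distribution`: for a primitive `q`-th root `z`, `q ∣ r - 1`, the product of the
  `pJ (u z ^ i)` is a root of unity times `r ^ ((c - 1) (q - 1) / 2) pJ (u ^ q)`: both sides have
  the same divisor and the same absolute values.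
-/

set_option autoImplicit false
set_option linter.unusedSectionVars false
set_option linter.style.haveILetI false

noncomputable section

open scoped Classical ComplexConjugate
open Finset NumberField IsDedekindDomain FA.ArtinRec

namespace FA.GaussKolyvagin

/-- The order of the product of the Jacobi sums at a prime with exponent `t`. -/
def jOrd (m c t : ℕ) : ℕ := c * (m - t % m) / m

theorem jOrd_congr {m c s t : ℕ} (h : s ≡ t [MOD m]) : jOrd m c s = jOrd m c t := by
  rw [jOrd, jOrd, h]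

theorem jOrd_mul_right {m d : ℕ} (c t : ℕ) (hd : 0 < d) : jOrd (m * d) c (t * d) = jOrd m c t := by
  rw [jOrd, jOrd, Nat.mul_mod_mul_right, ← Nat.sub_mul, ← mul_assoc, Nat.mul_div_mul_right _ _ hd]

theorem jOrd_add_compl {m c s t : ℕ} (hst : m ∣ s + t) (hct : ¬ m ∣ c * t) :
    jOrd m c s + jOrd m c t = c - 1 := by
  rcases Nat.eq_zero_or_pos m with rfl | hm
  · simp at hst
    exact absurd ⟨0, by simp [hst.2]⟩ hct
  have ht0 : t % m ≠ 0 := fun h => hct (dvd_mul_of_dvd_right (Nat.dvd_of_mod_eq_zero h) _)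
  have hs : s % m = m - t % m := by
    have h1 : (s % m + t % m) % m = 0 := by
      rw [← Nat.add_mod]; exact Nat.mod_eq_zero_of_dvd hst
    have := Nat.mod_lt s hm
    have := Nat.mod_lt t hm
    rcases Nat.lt_or_ge (s % m + t % m) m with h | h
    · rw [Nat.mod_eq_of_lt h] at h1
      omega
    · rw [Nat.mod_eq_sub_mod h, Nat.mod_eq_of_lt (by omega)] at h1
      omega
  have hct' : c * (t % m) % m ≠ 0 := fun h => hct (Nat.dvd_of_mod_eq_zero (by
    rwa [Nat.mul_mod, Nat.mod_mod, ← Nat.mul_mod] at h))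
  rw [jOrd, jOrd, hs, Nat.sub_sub_self (Nat.mod_lt t hm).le, Nat.mul_sub]
  generalize ht : c * (t % m) = a at hct' ⊢
  have ha : a < c * m := by
    have hle : a ≤ c * m := ht ▸ Nat.mul_le_mul_left c (Nat.mod_lt t hm).le
    exact lt_of_le_of_ne hle fun h => hct' (by rw [h, Nat.mul_mod_left])
  have hd := Nat.div_add_mod a m
  have hlt := Nat.mod_lt a hm
  have hpos := Nat.pos_of_ne_zero hct'
  generalize a / m = q at hd ⊢
  generalize a % m = e at hd hlt hpos
  have hq : q < c := Nat.lt_of_mul_lt_mul_left (a := m) (by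
    rw [mul_comm m c]
    omega)
  obtain ⟨d, rfl⟩ : ∃ d, c = q + 1 + d := ⟨c - (q + 1), by omega⟩
  have h1 : ((q + 1 + d) * m - a) / m = d := by
    have hcm : (q + 1 + d) * m = m * q + m + d * m := by ring
    refine Nat.div_eq_of_lt_le ?_ ?_
    · omega
    · rw [add_mul d 1 m, one_mul]
      omega
  rw [h1]
  omega

/-- Reindexing the residues modulo a prime affinely. -/
theorem sum_affine {q a : ℕ} (hq : q.Prime) (ha : ¬ q ∣ a) (b : ℕ) (f : ℕ → ℕ) :
    ∑ i ∈ range q, f ((a * i + b) % q) = ∑ i ∈ range q, f i := by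
  have hinj : Set.InjOn (fun i => (a * i + b) % q) ↑(range q) := fun i hi j hj h => by
    have h1 : a * i ≡ a * j [MOD q] := Nat.ModEq.add_right_cancel' b h
    exact (h1.cancel_left_of_coprime (hq.coprime_iff_not_dvd.2 ha)).eq_of_lt_of_lt
      (Finset.mem_range.1 hi) (Finset.mem_range.1 hj)
  have himg : (range q).image (fun i => (a * i + b) % q) = range q :=
    Finset.eq_of_subset_of_card_le
      (Finset.image_subset_iff.2 fun i _ => Finset.mem_range.2 (Nat.mod_lt _ hq.pos))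
      (by rw [Finset.card_image_of_injOn hinj])
  conv_rhs => rw [← himg, Finset.sum_image hinj]

/-- **The distribution relation of the orders.** -/
theorem sum_jOrd {q d c : ℕ} (hq : q.Prime) (hq2 : q ≠ 2) (hd : 0 < d) (hc1 : 1 ≤ c)
    (hcq : ¬ q ∣ c) {a : ℕ} (ha : ¬ q ∣ a) (n : ℕ) :
    ∑ i ∈ range q, jOrd (q * d) c (n + i * (a * d)) =
      jOrd (q * d) c (q * n) + (c - 1) * ((q - 1) / 2) := by
  have hn := Nat.div_add_mod n d
  have hlt := Nat.mod_lt n hd
  have e1 : ∀ i, jOrd (q * d) c (n + i * (a * d)) =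
      jOrd (q * d) c (n % d + (a * i + n / d) % q * d) := fun i => jOrd_congr (by
    have h1 : (a * i + n / d) * d ≡ (a * i + n / d) % q * d [MOD q * d] :=
      ((Nat.mod_modEq _ q).symm).mul_right' d
    have h2 : n + i * (a * d) = n % d + (a * i + n / d) * d := by
      conv_lhs => rw [← hn]
      ring
    rw [h2]
    exact h1.add_left _)
  simp only [e1]
  rw [sum_affine hq ha (n / d) (fun i => jOrd (q * d) c (n % d + i * d)),
    ← Finset.sum_range_reflect]
  have e2 : ∀ i ∈ range q, jOrd (q * d) c (n % d + (q - 1 - i) * d) =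
      (c * (d - n % d) / d + c * i) / q := fun i hi => by
    obtain ⟨e, he⟩ : ∃ e, q = i + 1 + e := ⟨q - (i + 1), by
      have := Finset.mem_range.1 hi; omega⟩
    rw [jOrd, show q - 1 - i = e by omega]
    have hb : n % d + e * d < q * d := by
      rw [he, add_mul, add_mul, one_mul]
      omega
    rw [Nat.mod_eq_of_lt hb,
      show q * d - (n % d + e * d) = d - n % d + i * d by
        rw [he, add_mul, add_mul, one_mul]; omega,
      mul_comm q d, ← Nat.div_div_eq_div_mul, mul_add, ← mul_assoc,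
      Nat.add_mul_div_right _ _ hd]
  rw [Finset.sum_congr rfl e2, show jOrd (q * d) c (q * n) = c * (d - n % d) / d by
    rw [mul_comm q, mul_comm q, jOrd_mul_right _ _ hq.pos, jOrd]]
  generalize c * (d - n % d) / d = y
  obtain ⟨h, hh⟩ := hq.odd_of_ne_two hq2
  rw [show (q - 1) / 2 = h by omega]
  have hmod : ∑ i ∈ range q, (y + c * i) % q = ∑ i ∈ range q, i := by
    simp only [add_comm y]
    exact sum_affine hq hcq y id
  have hid : ∑ i ∈ range q, i = q * h := by
    refine Nat.eq_of_mul_eq_mul_right (show 0 < 2 by norm_num) ?_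
    rw [Finset.sum_range_id_mul_two, show q - 1 = 2 * h by omega]
    ring
  refine Nat.eq_of_mul_eq_mul_left hq.pos ?_
  refine Nat.add_right_cancel (m := ∑ i ∈ range q, (y + c * i) % q) ?_
  rw [Finset.mul_sum, ← Finset.sum_add_distrib,
    Finset.sum_congr rfl fun i _ => Nat.div_add_mod (y + c * i) q,
    Finset.sum_add_distrib, Finset.sum_const, Finset.card_range, smul_eq_mul, ← Finset.mul_sum,
    hmod, hid]
  obtain ⟨c', rfl⟩ : ∃ c', c = c' + 1 := ⟨c - 1, by omega⟩
  rw [Nat.add_sub_cancel]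
  ring

section field

variable {L : Type*} [Field L] [NumberField L] {r g : ℕ} [hr : Fact r.Prime]
  (hg : orderOf (g : ZMod r) = r - 1) {c : ℕ}

/-- An element without divisor and with trivial absolute values is a root of unity. -/
theorem exists_pow_eq_one {X : Lˣ} (hord : ∀ Q, ord Q X = 0)
    (habs : ∀ φ : L →+* ℂ, ‖φ (X : L)‖ = 1) : ∃ t, 0 < t ∧ (X : L) ^ t = 1 := by
  obtain ⟨a, ha0, ha⟩ := exists_intU_of_ord_nonneg fun Q => (hord Q).ge
  obtain ⟨t, ht, h⟩ := Embeddings.pow_eq_one_of_norm_eq_one L ℂ (x := (a : L))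
    a.isIntegral_coe fun φ => by
      have := habs φ
      rwa [ha, intU_val] at this
  exact ⟨t, ht, by rwa [ha, intU_val]⟩

include hg

/-- An exponent at a prime over `r`. -/
theorem exists_exponent (Q : HeightOneSpectrum (𝓞 L)) (hrQ : (r : 𝓞 L) ∈ Q.asIdeal) {u : L}
    (hu : u ^ (r - 1) = 1) : ∃ n : ℕ, Q.valuation L (u - (g : L) ^ n) < 1 := by
  have hN0 : r - 1 ≠ 0 := by have := hr.out.two_le; omega
  have hint : IsIntegral ℤ u :=
    IsIntegral.of_pow (Nat.pos_of_ne_zero hN0) (by rw [hu]; exact isIntegral_one)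
  set π := Ideal.Quotient.mk Q.asIdeal
  haveI := Q.isPrime
  haveI : IsDomain (𝓞 L ⧸ Q.asIdeal) := Ideal.Quotient.isDomain _
  haveI : CharP (𝓞 L ⧸ Q.asIdeal) r := (CharP.charP_iff_prime_eq_zero hr.out).2
    ((map_natCast π r).symm.trans (Ideal.Quotient.eq_zero_iff_mem.2 hrQ))
  haveI : NeZero (r - 1) := ⟨hN0⟩
  have hgp : IsPrimitiveRoot (π (g : 𝓞 L)) (r - 1) := by
    rw [map_natCast, ← map_natCast (ZMod.castHom dvd_rfl (𝓞 L ⧸ Q.asIdeal))]
    exact IsPrimitiveRoot.map_of_injective (hg ▸ IsPrimitiveRoot.orderOf _)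
      (ZMod.castHom_injective _)
  obtain ⟨u', hu'⟩ : ∃ u' : 𝓞 L, (u' : L) = u := ⟨⟨u, hint⟩, rfl⟩
  obtain ⟨n, -, hn⟩ := hgp.eq_pow_of_pow_eq_one (ξ := π u') (by
    rw [← map_pow, show u' ^ (r - 1) = 1 from RingOfIntegers.ext (by
      push_cast; exact (congrArg (· ^ (r - 1)) hu').trans hu), map_one])
  refine ⟨n, ?_⟩
  rw [← map_pow, Ideal.Quotient.eq, ← Q.valuation_lt_one_iff_mem (K := L)] at hn
  rw [Valuation.map_sub_swap]
  convert hn using 2
  push_cast
  rw [← hu']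

variable {u : L} (hu : u ^ (r - 1) = 1) (hc : ∀ j, 1 ≤ j → j ≤ c → u ^ j ≠ 1)
include hu hc

theorem pJ_ne_zero : pJ r g c u ≠ 0 := fun h => by
  have h1 := pJ_mul_inv hg hu hc
  rw [h, zero_mul] at h1
  exact pow_ne_zero _ (Nat.cast_ne_zero.2 hr.out.ne_zero) h1.symm

/-- Away from `r` the product is a unit. -/
theorem ord_pJ_eq_zero (Q : HeightOneSpectrum (𝓞 L)) (hrQ : (r : 𝓞 L) ∉ Q.asIdeal) {J : Lˣ}
    (hJ : (J : L) = pJ r g c u) : ord Q J = 0 := by
  have hN0 : 0 < r - 1 := by have := hr.out.two_le; omega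
  have hint : IsIntegral ℤ u := IsIntegral.of_pow hN0 (by rw [hu]; exact isIntegral_one)
  have hu' : u⁻¹ ^ (r - 1) = 1 := by rw [inv_pow, hu, inv_one]
  have hint' : IsIntegral ℤ u⁻¹ := IsIntegral.of_pow hN0 (by rw [hu']; exact isIntegral_one)
  have hc' : ∀ j, 1 ≤ j → j ≤ c → u⁻¹ ^ j ≠ 1 := fun j h1 h2 h =>
    hc j h1 h2 (by rwa [inv_pow, inv_eq_one] at h)
  obtain ⟨v, hv⟩ : ∃ v : 𝓞 L, (v : L) = u := ⟨⟨u, hint⟩, rfl⟩
  obtain ⟨v', hv'⟩ : ∃ v : 𝓞 L, (v : L) = u⁻¹ := ⟨⟨u⁻¹, hint'⟩, rfl⟩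
  have he : algebraMap (𝓞 L) L (pJ r g c v) = pJ r g c u := by rw [map_pJ]; exact congrArg _ hv
  have he' : algebraMap (𝓞 L) L (pJ r g c v') = pJ r g c u⁻¹ := by
    rw [map_pJ]; exact congrArg _ hv'
  have h0 : pJ r g c v ≠ 0 := fun h => J.ne_zero (by rw [hJ, ← he, h, map_zero])
  have h0' : pJ r g c v' ≠ 0 := fun h =>
    pJ_ne_zero hg hu' hc' (by rw [← he', h, map_zero])
  have hrU : (r : 𝓞 L) ≠ 0 := Nat.cast_ne_zero.2 hr.out.ne_zero
  have hJeq : J = intU _ h0 := Units.ext (by rw [intU_val, hJ, ← he])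
  have hprod : intU _ h0 * intU _ h0' = intU _ hrU ^ (c - 1) := Units.ext (by
    rw [Units.val_mul, Units.val_pow_eq_pow_val, intU_val, intU_val, intU_val]
    show algebraMap (𝓞 L) L _ * algebraMap (𝓞 L) L _ = algebraMap (𝓞 L) L (r : 𝓞 L) ^ (c - 1)
    rw [he, he', pJ_mul_inv hg hu hc, map_natCast])
  have h1 := congrArg (ord Q) hprod
  rw [ord_mul, ord_pow, (ord_intU_eq_zero_iff Q hrU).2 hrQ, mul_zero] at h1
  have := ord_intU_nonneg Q h0
  have := ord_intU_nonneg Q h0'
  rw [hJeq]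
  omega

/-- **Absolute values.** -/
theorem norm_sq_pJ (φ : L →+* ℂ) : ‖φ (pJ r g c u)‖ ^ 2 = (r : ℝ) ^ (c - 1) := by
  have hN0 : r - 1 ≠ 0 := by have := hr.out.two_le; omega
  have hn1 : ‖φ u‖ = 1 :=
    Complex.norm_eq_one_of_pow_eq_one (by rw [← map_pow, hu, map_one]) hN0
  have hconj : conj (φ (pJ r g c u)) = φ (pJ r g c u⁻¹) := by
    rw [map_pJ, map_pJ, map_pJ, map_inv₀, Complex.inv_eq_conj hn1]
  have h := congrArg φ (pJ_mul_inv hg hu hc)
  rw [map_mul, ← hconj, Complex.mul_conj', map_pow, map_natCast] at h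
  exact_mod_cast h

omit hc in
/-- **The distribution relation.** -/
theorem exists_root_distribution {q : ℕ} (hq : q.Prime) (hq2 : q ≠ 2) (hqr : q ∣ r - 1)
    (hc1 : 1 ≤ c) (hcq : c < q) {z : L} (hz : IsPrimitiveRoot z q)
    (hcu : ∀ j, 1 ≤ j → j ≤ c → (u ^ q) ^ j ≠ 1)
    (hr1 : ∀ Q : HeightOneSpectrum (𝓞 L), (r : 𝓞 L) ∈ Q.asIdeal →
      ∀ h : (r : L) ≠ 0, ord Q (Units.mk0 (r : L) h) = 1) :
    ∃ ε : L, (∃ t, 0 < t ∧ ε ^ t = 1) ∧ ∏ i ∈ range q, pJ r g c (u * z ^ i) =
      ε * (r : L) ^ ((c - 1) * ((q - 1) / 2)) * pJ r g c (u ^ q) := by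
  obtain ⟨d, hd⟩ := hqr
  have hN0 : r - 1 ≠ 0 := by have := hr.out.two_le; omega
  have hd0 : 0 < d := Nat.pos_of_ne_zero fun h => hN0 (by rw [hd, h, mul_zero])
  have hzN : z ^ (r - 1) = 1 := by rw [hd, pow_mul, hz.pow_eq_one, one_pow]
  have hui : ∀ i, (u * z ^ i) ^ (r - 1) = 1 := fun i => by
    rw [mul_pow, hu, pow_right_comm, hzN, one_pow, one_mul]
  have huq : (u ^ q) ^ (r - 1) = 1 := by rw [pow_right_comm, hu, one_pow]
  have hci : ∀ i j, 1 ≤ j → j ≤ c → (u * z ^ i) ^ j ≠ 1 := fun i j h1 h2 h => hcu j h1 h2 (by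
    have h' := congrArg (fun x : L => x ^ q) h
    rw [← pow_mul, mul_comm j, pow_mul, mul_pow, pow_right_comm z, hz.pow_eq_one, one_pow,
      mul_one, one_pow] at h'
    exact h')
  set J : ℕ → Lˣ := fun i => Units.mk0 _ (pJ_ne_zero hg (hui i) (hci i))
  set Jq : Lˣ := Units.mk0 _ (pJ_ne_zero hg huq hcu)
  set R : Lˣ := Units.mk0 (r : L) (Nat.cast_ne_zero.2 hr.out.ne_zero)
  set E := (c - 1) * ((q - 1) / 2)
  set X : Lˣ := (∏ i ∈ range q, J i) / (R ^ E * Jq)
  have hX : (X : L) = (∏ i ∈ range q, pJ r g c (u * z ^ i)) /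
      ((r : L) ^ E * pJ r g c (u ^ q)) := by
    rw [Units.val_div_eq_div_val, Units.coe_prod, Units.val_mul, Units.val_pow_eq_pow_val]
    rfl
  refine ⟨(X : L), exists_pow_eq_one (fun Q => ?_) (fun φ => ?_), ?_⟩
  · rw [ord_div, ord_prod, ord_mul, ord_pow]
    by_cases hrQ : (r : 𝓞 L) ∈ Q.asIdeal
    · obtain ⟨n, hn⟩ := exists_exponent hg Q hrQ hu
      obtain ⟨b, hb⟩ := exists_exponent hg Q hrQ hzN
      have hwg : Q.valuation L (g : L) ≤ 1 := FA.Kolyvagin.val_natCast_le_one _ g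
      have hz1 : Q.valuation L z = 1 :=
        FA.Kolyvagin.val_eq_one_of_pow_eq_one _ hN0 hzN
      have hu1 : Q.valuation L u = 1 :=
        FA.Kolyvagin.val_eq_one_of_pow_eq_one _ hN0 hu
      have hgp : ∀ e, Q.valuation L ((g : L) ^ e) ≤ 1 := fun e => by
        rw [map_pow]; exact pow_le_one' hwg e
      have hni : ∀ i, Q.valuation L (u * z ^ i - (g : L) ^ (n + i * b)) < 1 := fun i => by
        rw [pow_add, mul_comm i, pow_mul]
        exact FA.Kolyvagin.congr_mul hu1.le (by rw [map_pow]; exact pow_le_one' (hgp b) i) hn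
          (FA.Kolyvagin.congr_pow hz1.le (hgp b) hb i)
      have hnq : Q.valuation L (u ^ q - (g : L) ^ (q * n)) < 1 := by
        rw [mul_comm, pow_mul]
        exact FA.Kolyvagin.congr_pow hu1.le (hgp n) hn q
      have hzb : ¬ (r - 1) ∣ b * 1 := not_dvd_mul_exponent Q hg hzN hrQ hb (by
        rw [pow_one]; exact hz.ne_one hq.one_lt)
      have hdb : d ∣ b := by
        have h1 : Q.valuation L ((g : L) ^ (b * q) - (g : L) ^ 0) < 1 := by
          have h2 := FA.Kolyvagin.congr_pow hz1.le (hgp b) hb q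
          rw [hz.pow_eq_one, ← pow_mul] at h2
          rw [pow_zero, Valuation.map_sub_swap]
          exact h2
        rw [← Nat.cast_pow, ← Nat.cast_pow] at h1
        have hwr : Q.valuation L (r : L) < 1 := by
          rw [← map_natCast (algebraMap (𝓞 L) L)]
          exact (Q.valuation_lt_one_iff_mem _).2 hrQ
        have h3 := FA.Kolyvagin.modEq_of_congr hr.out hwr h1
        rw [← ZMod.natCast_eq_natCast_iff, Nat.cast_pow, Nat.cast_pow] at h3
        have h4 := Nat.modEq_zero_iff_dvd.1 (modEq_of_pow_eq hg h3)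
        rw [hd, mul_comm b] at h4
        exact Nat.dvd_of_mul_dvd_mul_left hq.pos h4
      obtain ⟨a, rfl⟩ := hdb
      have ha : ¬ q ∣ a := fun h => hzb (by
        rw [mul_one, hd, mul_comm q]; exact mul_dvd_mul_left d h)
      rw [Finset.sum_congr rfl fun i _ =>
          ord_pJ Q hg (hui i) hrQ (hni i) (hr1 Q hrQ) hc1 (hci i) (J := J i) rfl,
        ord_pJ Q hg huq hrQ hnq (hr1 Q hrQ) hc1 hcu (J := Jq) rfl, hr1 Q hrQ]
      have hsum := sum_jOrd (n := n) hq hq2 hd0 hc1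
        (fun h => absurd (Nat.le_of_dvd (by omega) h) (not_le.2 hcq)) ha
      simp only [jOrd, ← hd, mul_comm a d] at hsum
      rw [← Nat.cast_sum, hsum]
      push_cast [E]
      ring
    · rw [Finset.sum_eq_zero fun i _ => ord_pJ_eq_zero hg (hui i) (hci i) Q hrQ (J := J i) rfl,
        ord_pJ_eq_zero hg huq hcu Q hrQ (J := Jq) rfl]
      have : ord Q R = 0 := by
        have hrU : (r : 𝓞 L) ≠ 0 := Nat.cast_ne_zero.2 hr.out.ne_zero
        rw [show R = intU _ hrU from Units.ext (by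
          rw [intU_val]
          exact (map_natCast (algebraMap (𝓞 L) L) r).symm)]
        exact (ord_intU_eq_zero_iff Q hrU).2 hrQ
      rw [this]
      ring
  · have hr0 : (0 : ℝ) < r := by exact_mod_cast hr.out.pos
    have hsq : ‖φ (X : L)‖ ^ 2 = 1 := by
      rw [hX, map_div₀, map_prod, map_mul, map_pow, map_natCast, norm_div, norm_prod, norm_mul,
        norm_pow, Complex.norm_natCast, div_pow, mul_pow, ← Finset.prod_pow,
        Finset.prod_congr rfl fun i _ => norm_sq_pJ hg (hui i) (hci i) φ,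
        norm_sq_pJ hg huq hcu φ, Finset.prod_const, Finset.card_range, ← pow_mul, ← pow_mul,
        ← pow_add, div_eq_one_iff_eq (pow_ne_zero _ hr0.ne')]
      congr 1
      obtain ⟨h, rfl⟩ := hq.odd_of_ne_two hq2
      simp only [E]
      rw [show (2 * h + 1 - 1) / 2 = h by omega]
      ring
    exact (pow_eq_one_iff_of_nonneg (norm_nonneg _) two_ne_zero).1 hsq
  · rw [hX, mul_assoc, div_mul_cancel₀]
    exact mul_ne_zero (pow_ne_zero _ (Nat.cast_ne_zero.2 hr.out.ne_zero))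
      (pJ_ne_zero hg huq hcu)

end field

end FA.GaussKolyvagin
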