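import Fermat.Agent.IwasawaMinus.Growth
import Fermat.Agent.IwasawaMinus.UnitIndex

/-!
# The values `B_{1,ω^-i}` and the relative class number

With `bsum i = ∑ t ω(t) ^ -i = p B_{1,ω^-i}` and `bexp i + 1` its valuation:

* `padicValNat_sum`: `bexp i + 1` is the valuation of the integers `∑ t ^ (1 + (p - 1 - i) p ^ k)`,
  `bexp i < k`;
* `sum_bexp`: the exponent of `p` in `h / h⁺` is the sum of the `bexp i`, `i` odd, `3 ≤ i ≤ p - 2`.
-/

set_option autoImplicit false
set_option linter.unusedSectionVars false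
set_option linter.style.haveILetI false

noncomputable section

open scoped Classical
open Finset NumberField
open FA.IwasawaMinus (IsGen exists_isGen stickSum bval levelRoots levelRoots_zero_eq oddU theta
  theta_ne_zero exists_theta_eq emb emb_injective norm_emb res res_lt bval_ne_zero zpow_minusExp
  minusExp ratio norm_natCast_of_not_dvd norm_p norm_eq_one_of_toZMod_ne toZMod_teich
  teich_pow_card norm_lt_one_iff_toZMod)

namespace FA.GaussKolyvagin

variable {p : ℕ} [hp : Fact p.Prime]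

local notation "ω" => FA.IwasawaMinus.teich

/-- The Teichmüller lift is multiplicative. -/
theorem teich_mul (u v : (ZMod p)ˣ) : ω (u * v) = ω u * ω v := by
  obtain ⟨w, hw⟩ := exists_theta_eq (p := p) (x := theta u * theta v) (by
    rw [mul_pow, FA.IwasawaMinus.theta_pow_card, FA.IwasawaMinus.theta_pow_card, one_mul])
  have h : ω u * ω v = ω w := emb_injective (by rw [map_mul]; exact hw.symm)
  have hwuv : u * v = w := Units.ext (by
    rw [Units.val_mul, ← toZMod_teich u, ← toZMod_teich v, ← map_mul, h, toZMod_teich])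
  rw [h, hwuv]

theorem teich_one : ω (1 : (ZMod p)ˣ) = 1 := by
  have h := teich_mul (1 : (ZMod p)ˣ) 1
  rw [one_mul] at h
  refine mul_left_cancel₀ (a := ω (1 : (ZMod p)ˣ)) (fun h0 => ?_) (by rw [← h, mul_one])
  have h1 := toZMod_teich (1 : (ZMod p)ˣ)
  rw [h0, map_zero] at h1
  exact zero_ne_one h1

theorem teich_pow (u : (ZMod p)ˣ) (n : ℕ) : ω (u ^ n) = ω u ^ n := by
  induction n with
  | zero => rw [pow_zero, pow_zero, teich_one]
  | succ n ih => rw [pow_succ, pow_succ, teich_mul, ih]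

theorem teich_pow_prime_pow (u : (ZMod p)ˣ) (k : ℕ) : ω u ^ p ^ k = ω u := by
  rw [← teich_pow]
  congr 1
  refine Units.ext ?_
  rw [Units.val_pow_eq_pow_val, ZMod.pow_card_pow]

theorem norm_le_pow_iff_dvd (x : ℤ_[p]) (n : ℕ) :
    ‖x‖ ≤ (p : ℝ) ^ (-n : ℤ) ↔ (p : ℤ_[p]) ^ n ∣ x := by
  rw [PadicInt.norm_le_pow_iff_mem_span_pow, Ideal.mem_span_singleton]

/-- `p B_{1,ω^-i}`. -/
def bsum (p : ℕ) [Fact p.Prime] (i : ℕ) : ℤ_[p] :=
  ∑ u : (ZMod p)ˣ, ((u : ZMod p).val : ℤ_[p]) * ω u ^ (p - 1 - i)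

/-- The exponent of `B_{1,ω^-i}`. -/
def bexp (p : ℕ) [Fact p.Prime] (i : ℕ) : ℕ := (bsum p i).valuation - 1

theorem toZMod_bsum {i : ℕ} (hi : i ≤ p - 1) :
    PadicInt.toZMod (bsum p i) = ∑ u : (ZMod p)ˣ, ((u ^ (p - i) : (ZMod p)ˣ) : ZMod p) := by
  haveI : NeZero p := ⟨hp.out.ne_zero⟩
  rw [bsum, map_sum]
  refine Finset.sum_congr rfl fun u _ => ?_
  rw [map_mul, map_natCast, ZMod.natCast_zmod_val, map_pow, toZMod_teich, Units.val_pow_eq_pow_val,
    ← pow_succ', show p - 1 - i + 1 = p - i by have := hp.out.one_le; omega]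

/-- `B_{1,ω^-1}` has the pole. -/
theorem norm_bsum_one (hp5 : 5 ≤ p) : ‖bsum p 1‖ = 1 := by
  haveI : NeZero p := ⟨hp.out.ne_zero⟩
  refine norm_eq_one_of_toZMod_ne ?_
  rw [toZMod_bsum (by omega)]
  have h1 : ∀ u : (ZMod p)ˣ, u ^ (p - 1) = 1 := fun u => by
    have h := pow_card_eq_one (x := u)
    rwa [ZMod.card_units] at h
  simp only [h1, Units.val_one, Finset.sum_const, Finset.card_univ, ZMod.card_units p, nsmul_eq_mul,
    mul_one]
  exact fun h => absurd (Nat.le_of_dvd (by omega) ((ZMod.natCast_eq_zero_iff _ p).1 h))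
    (by omega)

theorem norm_bsum_lt {i : ℕ} (hi2 : 2 ≤ i) (hi : i + 2 ≤ p) : ‖bsum p i‖ < 1 := by
  haveI : NeZero p := ⟨hp.out.ne_zero⟩
  rw [norm_lt_one_iff_toZMod, toZMod_bsum (by omega)]
  obtain ⟨γ, hγ⟩ := IsCyclic.exists_generator (α := (ZMod p)ˣ)
  set S := ∑ u : (ZMod p)ˣ, ((u ^ (p - i) : (ZMod p)ˣ) : ZMod p)
  have hS : ((γ ^ (p - i) : (ZMod p)ˣ) : ZMod p) * S = S := by
    rw [Finset.mul_sum]
    refine Fintype.sum_equiv (Equiv.mulLeft γ) _ _ fun u => ?_
    rw [Equiv.coe_mulLeft, mul_pow, Units.val_mul]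
  have hne : ((γ ^ (p - i) : (ZMod p)ˣ) : ZMod p) - 1 ≠ 0 := fun h => by
    rw [sub_eq_zero, Units.val_eq_one] at h
    have h1 := Nat.le_of_dvd (by omega) (orderOf_dvd_of_pow_eq_one h)
    rw [orderOf_eq_card_of_forall_mem_zpowers hγ, Nat.card_eq_fintype_card, ZMod.card_units p]
      at h1
    omega
  refine (mul_eq_zero.1 ?_).resolve_left hne
  rw [sub_mul, one_mul, hS, sub_self]

section value

variable {g : ℕ}

/-- The value at the character `u = γ ^ (p - 1 - i)`. -/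
theorem stickSum_theta (hg : IsGen p g) {γ : (ZMod p)ˣ} (hγ : (γ : ZMod p) = g) (i : ℕ) :
    stickSum p g 0 (theta (γ ^ (p - 1 - i))) = emb (bsum p i) := by
  haveI : NeZero p := ⟨hp.out.ne_zero⟩
  have hord : orderOf γ = p - 1 := by
    have h := hg.2 0
    rw [pow_zero, mul_one, zero_add, pow_one] at h
    rw [← orderOf_units, hγ, h]
  have hres : ∀ k, res p g 0 k = ((γ ^ k : (ZMod p)ˣ) : ZMod p).val := fun k => by
    have h1 : ((res p g 0 k : ℕ) : ZMod p) = ((γ ^ k : (ZMod p)ˣ) : ZMod p) := by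
      rw [res, ZMod.natCast_val, ← ZMod.castHom_apply (h := dvd_of_eq (pow_one p).symm)
        (R := ZMod p), map_pow, map_natCast, Units.val_pow_eq_pow_val, hγ]
    rw [← h1, ZMod.val_natCast, Nat.mod_eq_of_lt ((res_lt 0 k).trans_eq (pow_one p))]
  rw [stickSum, pow_zero, mul_one, bsum, map_sum]
  refine Finset.sum_bij (fun k _ => γ ^ k) (fun k _ => Finset.mem_univ _) (fun a ha b hb h => ?_)
    (fun u _ => ?_) fun k _ => ?_
  · rw [Finset.mem_range, ← hord] at ha hb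
    exact pow_injOn_Iio_orderOf ha hb h
  · have hmem : u ∈ Subgroup.zpowers γ := by
      rw [Subgroup.eq_top_of_card_eq (Subgroup.zpowers γ) (by
        rw [Nat.card_zpowers, hord, Nat.card_eq_fintype_card, ZMod.card_units p])]
      exact Subgroup.mem_top u
    obtain ⟨k, hk⟩ := (Submonoid.mem_powers_iff _ _).mp (mem_powers_iff_mem_zpowers.mpr hmem)
    exact ⟨k % (p - 1), Finset.mem_range.2 (Nat.mod_lt _ (by have := hp.out.two_le; omega)),
      by rw [← hord, pow_mod_orderOf, hk]⟩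
  · rw [hres, map_mul, map_natCast, map_pow, mul_comm]
    show _ * emb (ω (γ ^ (p - 1 - i))) ^ k = _
    rw [← map_pow, ← map_pow, teich_pow, teich_pow, pow_right_comm]

theorem odd_mem_oddU {γ : (ZMod p)ˣ} (hp5 : 5 ≤ p) (hord : orderOf γ = p - 1) {a : ℕ} :
    γ ^ a ∈ oddU p ↔ Odd a := by
  haveI : NeZero p := ⟨hp.out.ne_zero⟩
  have hodd := hp.out.odd_of_ne_two (by omega)
  have h2 : (p - 1) / 2 * 2 = p - 1 := Nat.div_mul_cancel (hodd.tsub_odd odd_one).two_dvd
  have hhalf : (γ : ZMod p) ^ ((p - 1) / 2) = -1 := by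
    have hsq : ((γ : ZMod p) ^ ((p - 1) / 2)) ^ 2 = 1 := by
      rw [← pow_mul, h2, ← Units.val_pow_eq_pow_val, ← hord, pow_orderOf_eq_one, Units.val_one]
    refine (sq_eq_one_iff.1 hsq).resolve_left fun h => ?_
    rw [← Units.val_pow_eq_pow_val, Units.val_eq_one] at h
    have h1 := Nat.le_of_dvd (by omega) (orderOf_dvd_of_pow_eq_one h)
    omega
  rw [oddU, Finset.mem_filter, Units.val_pow_eq_pow_val, ← pow_mul, mul_comm, pow_mul, hhalf]
  haveI : Fact (2 < p) := ⟨by omega⟩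
  constructor
  · rintro ⟨-, h⟩
    by_contra hev
    rw [(Nat.not_odd_iff_even.1 hev).neg_one_pow] at h
    exact ZMod.neg_one_ne_one h.symm
  · exact fun h => ⟨Finset.mem_univ _, h.neg_one_pow⟩

/-- The roots of the odd characters through the weights. -/
theorem prod_levelRoots {M : Type*} [CommMonoid M] (hp5 : 5 ≤ p) {γ : (ZMod p)ˣ}
    (hord : orderOf γ = p - 1) (f : PadicAlgCl p → M) :
    ∏ η ∈ levelRoots (PadicAlgCl p) p 0, f η =
      ∏ i ∈ (range (p - 1)).filter Odd, f (theta (γ ^ (p - 1 - i))) := by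
  haveI : NeZero p := ⟨hp.out.ne_zero⟩
  rw [levelRoots_zero_eq (by omega), Finset.prod_image fun a _ b _ h =>
    FA.IwasawaMinus.theta_injective h]
  refine (Finset.prod_bij (fun i _ => γ ^ (p - 1 - i)) (fun i hi => ?_) (fun a ha b hb h => ?_)
    (fun u hu => ?_) fun i _ => rfl).symm
  · obtain ⟨hir, hio⟩ := Finset.mem_filter.1 hi
    have hir' := Finset.mem_range.1 hir
    rw [odd_mem_oddU hp5 hord, Nat.odd_iff]
    have := Nat.odd_iff.1 hio
    have := hp.out.eq_two_or_odd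
    omega
  · obtain ⟨har, hao⟩ := Finset.mem_filter.1 ha
    obtain ⟨hbr, hbo⟩ := Finset.mem_filter.1 hb
    have := Nat.odd_iff.1 hao
    have := Nat.odd_iff.1 hbo
    have := Finset.mem_range.1 har
    have := Finset.mem_range.1 hbr
    have h' := pow_injOn_Iio_orderOf (by rw [Set.mem_Iio, hord]; omega)
      (by rw [Set.mem_Iio, hord]; omega) h
    omega
  · have hmem : u ∈ Subgroup.zpowers γ := by
      rw [Subgroup.eq_top_of_card_eq (Subgroup.zpowers γ) (by
        rw [Nat.card_zpowers, hord, Nat.card_eq_fintype_card, ZMod.card_units p])]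
      exact Subgroup.mem_top u
    obtain ⟨a, ha⟩ := (Submonoid.mem_powers_iff _ _).mp (mem_powers_iff_mem_zpowers.mpr hmem)
    set b := a % (p - 1) with hb
    have hub : γ ^ b = u := by rw [hb, ← hord, pow_mod_orderOf, ha]
    have hbo : Odd b := (odd_mem_oddU hp5 hord).1 (hub ▸ hu)
    have hblt : b < p - 1 := Nat.mod_lt _ (by omega)
    have := Nat.odd_iff.1 hbo
    refine ⟨p - 1 - b, Finset.mem_filter.2 ⟨Finset.mem_range.2 (by omega), Nat.odd_iff.2 ?_⟩, ?_⟩
    · have := hp.out.eq_two_or_odd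
      omega
    · rw [show p - 1 - (p - 1 - b) = b by omega, hub]

/-- A generator modulo `p`. -/
theorem exists_gen_unit (hp5 : 5 ≤ p) (hg : IsGen p g) :
    ∃ γ : (ZMod p)ˣ, (γ : ZMod p) = g ∧ orderOf γ = p - 1 := by
  refine ⟨Units.mk0 (g : ZMod p) (FA.IwasawaMinus.gen_ne_zero hg), rfl, ?_⟩
  have h := hg.2 0
  rw [pow_zero, mul_one, zero_add, pow_one] at h
  rw [← orderOf_units, Units.val_mk0, h]

theorem bsum_ne_zero (hp5 : 5 ≤ p) {i : ℕ} (hi : Odd i) (hip : i + 2 ≤ p) : bsum p i ≠ 0 := by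
  obtain ⟨g, hg⟩ := exists_isGen (p := p) (by omega)
  obtain ⟨γ, hγ, hord⟩ := exists_gen_unit hp5 hg
  have hmem : theta (γ ^ (p - 1 - i)) ∈ levelRoots (PadicAlgCl p) p 0 := by
    rw [levelRoots_zero_eq (by omega)]
    refine Finset.mem_image.2 ⟨_, (odd_mem_oddU hp5 hord).2 ?_, rfl⟩
    have := Nat.odd_iff.1 hi
    have := hp.out.eq_two_or_odd
    exact Nat.odd_iff.2 (by omega)
  intro h0
  refine bval_ne_zero (by omega) hg hmem ?_
  rw [bval, stickSum_theta hg hγ, h0, map_zero, neg_zero, zero_div]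

theorem norm_bsum (hp5 : 5 ≤ p) {i : ℕ} (hi : Odd i) (hi3 : 3 ≤ i) (hip : i + 2 ≤ p) :
    ‖bsum p i‖ = (p : ℝ)⁻¹ ^ (bexp p i + 1) := by
  have h0 := bsum_ne_zero hp5 hi hip
  have h1 := norm_bsum_lt (by omega) hip
  rw [PadicInt.norm_eq_zpow_neg_valuation h0, zpow_neg, zpow_natCast] at h1 ⊢
  have hv : (bsum p i).valuation ≠ 0 := fun hv => by
    rw [hv, pow_zero, inv_one] at h1
    exact lt_irrefl _ h1
  rw [bexp, Nat.sub_add_cancel (Nat.pos_of_ne_zero hv), inv_pow]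

end value

/-- **The integral sums have the valuation of `p B_{1,ω^-i}`.** -/
theorem padicValNat_sum (hp5 : 5 ≤ p) {i : ℕ} (hi : Odd i) (hi3 : 3 ≤ i) (hip : i + 2 ≤ p) {k : ℕ}
    (hk : bexp p i < k) :
    padicValNat p (∑ t ∈ range p, t ^ (1 + (p - 1 - i) * p ^ k)) = bexp p i + 1 := by
  haveI : NeZero p := ⟨hp.out.ne_zero⟩
  set S := ∑ t ∈ range p, t ^ (1 + (p - 1 - i) * p ^ k)
  set v := bexp p i
  have hdiff : (p : ℤ_[p]) ^ (k + 1) ∣ (S : ℤ_[p]) - bsum p i := by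
    have hS : S = ∑ u : (ZMod p)ˣ, (u : ZMod p).val ^ (1 + (p - 1 - i) * p ^ k) := by
      show ∑ t ∈ range p, _ = _
      rw [← Finset.sum_filter_of_ne (p := fun t => t ≠ 0) (s := range p)
        (fun t _ ht h => ht (by rw [h, zero_pow (by omega)]))]
      refine Finset.sum_bij' (fun t ht => Units.mk0 (t : ZMod p) (fun h => ?_))
        (fun u _ => (u : ZMod p).val) (fun t _ => Finset.mem_univ _) (fun u _ => ?_)
        (fun t ht => ?_) (fun u _ => Units.ext (ZMod.natCast_zmod_val _)) fun t ht => ?_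
      · obtain ⟨h1, h2⟩ := Finset.mem_filter.1 ht
        have h3 := Nat.le_of_dvd (Nat.pos_of_ne_zero h2) ((ZMod.natCast_eq_zero_iff t p).1 h)
        have := Finset.mem_range.1 h1
        omega
      · exact Finset.mem_filter.2 ⟨Finset.mem_range.2 (ZMod.val_lt _),
          fun h => u.ne_zero ((ZMod.val_eq_zero _).1 h)⟩
      all_goals
        rw [Units.val_mk0, ZMod.val_natCast, Nat.mod_eq_of_lt
          (Finset.mem_range.1 (Finset.mem_filter.1 ht).1)]
    rw [hS, bsum, Nat.cast_sum, ← Finset.sum_sub_distrib]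
    refine Finset.dvd_sum fun u _ => ?_
    rw [Nat.cast_pow, pow_add ((u : ZMod p).val : ℤ_[p]), pow_one, ← mul_sub]
    refine dvd_mul_of_dvd_right ?_ _
    have hpu : (p : ℤ_[p]) ∣ ((u : ZMod p).val : ℤ_[p]) - ω u := by
      rw [← PadicInt.norm_lt_one_iff_dvd, norm_lt_one_iff_toZMod, map_sub, map_natCast,
        toZMod_teich, ZMod.natCast_zmod_val, sub_self]
    have h1 := dvd_sub_pow_of_dvd_sub hpu k
    rw [mul_comm (p - 1 - i), pow_mul]
    refine h1.trans ?_
    rw [teich_pow_prime_pow]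
    exact sub_dvd_pow_sub_pow _ _ _
  have hB := norm_bsum hp5 hi hi3 hip
  have hdvd : (p : ℤ_[p]) ^ (v + 1) ∣ bsum p i :=
    (norm_le_pow_iff_dvd _ _).1 (le_of_eq (by rw [hB, zpow_neg, zpow_natCast, inv_pow]))
  have hndvd : ¬ (p : ℤ_[p]) ^ (v + 2) ∣ bsum p i := fun h => by
    have h1 := (norm_le_pow_iff_dvd _ _).2 h
    rw [hB, zpow_neg, zpow_natCast, inv_pow, inv_le_inv₀ (pow_pos (Nat.cast_pos.2 hp.out.pos) _)
      (pow_pos (Nat.cast_pos.2 hp.out.pos) _)] at h1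
    exact absurd h1 (not_le.2 (pow_lt_pow_right₀ (by exact_mod_cast hp.out.one_lt) (by omega)))
  have hle : ∀ j, j ≤ k + 1 → ((p ^ j ∣ S) ↔ (p : ℤ_[p]) ^ j ∣ bsum p i) := fun j hj => by
    rw [← dvd_iff_dvd_of_dvd_sub ((pow_dvd_pow _ hj).trans hdiff), ← Int.natCast_dvd_natCast,
      ← Int.cast_natCast (R := ℤ_[p]) S, PadicInt.pow_p_dvd_int_iff, Nat.cast_pow]
  have h2 : ¬ p ^ (v + 2) ∣ S := fun h => hndvd ((hle _ (by omega)).1 h)
  have hS0 : S ≠ 0 := fun h => h2 (h ▸ dvd_zero _)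
  have h1 := (padicValNat_dvd_iff_le hS0).1 ((hle (v + 1) (by omega)).2 hdvd)
  have h3 : ¬ v + 2 ≤ padicValNat p S := fun h => h2 ((padicValNat_dvd_iff_le hS0).2 h)
  omega

/-- **The exponent of the relative class number.** -/
theorem sum_bexp (hp5 : 5 ≤ p) (K : Type*) [Field K] [NumberField K]
    [IsCyclotomicExtension {p} ℚ K] :
    padicValNat p (classNumber K) = padicValNat p (classNumber (maximalRealSubfield K)) +
      ∑ i ∈ ((range (p - 1)).filter Odd).erase 1, bexp p i := by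
  haveI : IsCyclotomicExtension {p ^ (0 + 1)} ℚ K := by rwa [zero_add, pow_one]
  obtain ⟨g, hg⟩ := exists_isGen (p := p) (by omega)
  obtain ⟨γ, hγ, hord⟩ := exists_gen_unit hp5 hg
  have h2 : ‖(2 : PadicAlgCl p)‖ = 1 := by
    simpa using norm_natCast_of_not_dvd (p := p) (k := 2) fun h => by
      have := (Nat.prime_dvd_prime_iff_eq hp.out Nat.prime_two).1 h
      omega
  have hterm : ∀ i, ‖bval p g 0 (theta (γ ^ (p - 1 - i)))‖ = ‖bsum p i‖ * (p : ℝ) := fun i => by
    rw [bval, stickSum_theta hg hγ, norm_div, norm_neg, norm_emb, norm_mul, h2, one_mul, zero_add,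
      pow_one, norm_p, div_inv_eq_mul]
  have h1mem : (1 : ℕ) ∈ (range (p - 1)).filter Odd :=
    Finset.mem_filter.2 ⟨Finset.mem_range.2 (by omega), odd_one⟩
  have hπ : (p : ℝ)⁻¹ ≠ 0 := inv_ne_zero (Nat.cast_ne_zero.2 hp.out.ne_zero)
  have hrest : ∀ i ∈ ((range (p - 1)).filter Odd).erase 1,
      ‖bsum p i‖ * (p : ℝ) = (p : ℝ)⁻¹ ^ bexp p i := fun i hi => by
    obtain ⟨hi1, hi'⟩ := Finset.mem_erase.1 hi
    obtain ⟨hir, hio⟩ := Finset.mem_filter.1 hi'
    have := Nat.odd_iff.1 hio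
    have := Finset.mem_range.1 hir
    have := hp.out.eq_two_or_odd
    rw [norm_bsum hp5 hio (by omega) (by omega), pow_succ, mul_assoc,
      inv_mul_cancel₀ (Nat.cast_ne_zero.2 hp.out.ne_zero), mul_one]
  have h := zpow_minusExp (p := p) (by omega) hg 0 K
  rw [ratio, zero_add, Finset.prod_range_one, pow_one, norm_prod,
    prod_levelRoots hp5 hord, Finset.prod_congr rfl fun i _ => hterm i,
    ← Finset.mul_prod_erase _ _ h1mem, norm_bsum_one hp5, one_mul, Finset.prod_congr rfl hrest,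
    Finset.prod_pow_eq_pow_sum, ← mul_assoc, inv_mul_cancel₀ (Nat.cast_ne_zero.2 hp.out.ne_zero),
    one_mul, ← zpow_natCast] at h
  have h' := zpow_right_injective₀ (inv_pos.2 (Nat.cast_pos.2 hp.out.pos))
    (by
      rw [Ne, inv_eq_one]
      exact_mod_cast hp.out.one_lt.ne') h
  rw [minusExp] at h'
  omega

end FA.GaussKolyvagin
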