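import Fermat.Agent.GaussKolyvagin.Component
import Fermat.Agent.GaussKolyvagin.Valuation
import Fermat.Agent.HerbrandRibet.RealEigen
import Fermat.Agent.ClassField94.Capitulation
import Fermat.Agent.ExtVanish.Herbrand

/-!
# The exact orders

The bounds of all odd components and the relative class number give their orders.

* `card_range_eq`: the components modulo the exact power `p ^ k₀` of the class number;
* `card_eigen`: for odd `3 ≤ i ≤ p - 2` the classes of weight `ω ^ i` are `p ^ bexp p i`;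
* `eq_one_of_weight_one`: no class has weight `ω`.
-/

set_option autoImplicit false
set_option linter.unusedSectionVars false
set_option linter.style.haveILetI false

noncomputable section

open scoped Classical
open Finset NumberField IsDedekindDomain FA.ArtinRec FA.AmbClass
open FA.Kolyvagin (Modq mkq mkq_surjective mkq_eq_zero_iff phiq act act_of act_mul act_add act_zero
  act_one act_single act_sum Aq phiA nsmul_modq_eq_zero nsmul_modq_eq_zero_of_dvd)
open FA.HerbrandRibet (charEval charEval_single teich castHom_teich natCast_pow_congr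
  exists_charIdem exists_eigen_order_p galCl_sigmaK)
open FA.Ext (sigmaK sigmaCl)
open MonoidAlgebra (single)

namespace FA.GaussKolyvagin

variable {p : ℕ} [hp : Fact p.Prime]

section general

/-- The powers of `p`-power exponent are stable modulo `p ^ w`. -/
theorem pow_prime_pow_stable {w s t : ℕ} (hs : w ≤ s + 1) (ht : w ≤ t + 1) (a : ℕ) :
    ((a : ℕ) : ZMod (p ^ w)) ^ p ^ s = (a : ZMod (p ^ w)) ^ p ^ t := by
  rcases Nat.eq_zero_or_pos w with rfl | hw
  · haveI : Subsingleton (ZMod (p ^ 0)) := by rw [pow_zero]; infer_instance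
    exact Subsingleton.elim _ _
  have key : ∀ n, w ≤ n + 1 → (a : ZMod (p ^ w)) ^ p ^ n = (a : ZMod (p ^ w)) ^ p ^ (w - 1) := by
    intro n hn
    induction n with
    | zero => rw [show w - 1 = 0 by omega]
    | succ n ih =>
      rcases Nat.lt_or_ge (n + 1) w with h | h
      · rw [show w - 1 = n + 1 by omega]
      have hap : ((a ^ p : ℕ) : ZMod (p ^ w)) ^ p ^ (w - 1) = (a : ZMod (p ^ w)) ^ p ^ (w - 1) :=
        natCast_pow_congr hw (by rw [Nat.cast_pow, ZMod.pow_card])
      rw [Nat.cast_pow] at hap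
      rw [pow_succ, pow_mul, ih (by omega), pow_right_comm, hap]
  rw [key s hs, key t ht]

/-- Congruent multiples. -/
theorem nsmul_congr {A : Type*} [AddCommMonoid A] {M a b : ℕ} {y : A} (hy : M • y = 0)
    (h : (a : ZMod M) = b) : a • y = b • y := by
  have key : ∀ n, n • y = (n % M) • y := fun n => by
    conv_lhs => rw [← Nat.mod_add_div n M, add_nsmul, mul_nsmul y M, hy, nsmul_zero, add_zero]
  rw [key a, key b, (ZMod.natCast_eq_natCast_iff' a b M).1 h]

variable {k : ℕ} {G : Type*} [CommGroup G] [Fintype G] {χ : G →* ZMod (p ^ k)}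
  {e : MonoidAlgebra (ZMod (p ^ k)) G} (hmul : ∀ x, x * e = single 1 (charEval χ x) * e)
include hmul

theorem coeff_charIdem (h : G) : e.coeff h = χ h⁻¹ * e.coeff 1 := by
  have h1 := congrArg (fun x : MonoidAlgebra (ZMod (p ^ k)) G => x.coeff 1)
    (hmul (single h⁻¹ (1 : ZMod (p ^ k))))
  simp only [charEval_single, one_mul] at h1
  rw [MonoidAlgebra.coeff_single_mul_eq_mul_coeff h (fun m _ => by
      rw [inv_mul_eq_one, eq_comm]),
    MonoidAlgebra.coeff_single_mul_eq_mul_coeff 1 (fun m _ => by rw [one_mul]), one_mul] at h1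
  exact h1

theorem card_mul_coeff_one (heval : charEval χ e = 1) :
    (Fintype.card G : ZMod (p ^ k)) * e.coeff 1 = 1 := by
  conv_rhs => rw [← heval, ← e.sum_coeff_single, Finsupp.sum_fintype _ _ (fun g =>
    MonoidAlgebra.single_zero g), map_sum]
  rw [Finset.sum_congr rfl fun g _ => show charEval χ (single g (e.coeff g)) = e.coeff 1 by
    rw [charEval_single, coeff_charIdem hmul g, mul_right_comm, ← map_mul, inv_mul_cancel, map_one,
      one_mul], Finset.sum_const, Finset.card_univ, nsmul_eq_mul]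

omit hmul in
/-- An eigen element and the group ring. -/
theorem act_eq_charEval_smul {X : Type*} [AddCommGroup X] {φ : G →* AddMonoid.End X} {m : ℕ}
    (hm : m ∣ p ^ k) {y : Modq X m} (hy : ∀ g, phiq φ m g y = (χ g).val • y)
    (a : MonoidAlgebra (ZMod (p ^ k)) G) : act φ hm a y = (charEval χ a).val • y := by
  haveI : NeZero (p ^ k) := ⟨pow_ne_zero _ hp.out.ne_zero⟩
  induction a using MonoidAlgebra.induction_linear with
  | zero => rw [act_zero, map_zero, ZMod.val_zero, zero_nsmul]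
  | add a b ha hb =>
    rw [act_add, ha, hb, ← add_nsmul, map_add, ← natCast_val_smul hm, Nat.cast_add,
      ZMod.natCast_zmod_val, ZMod.natCast_zmod_val]
  | single g c => rw [act_single, hy, charEval_single, val_smul_mul hm]

end general

section field

variable {F : Type*} [Field F] [NumberField F]

/-- The exact power of `p` divides the classes modulo it. -/
theorem pow_dvd_card_modq {k₀ : ℕ} (hk₀ : p ^ k₀ ∣ classNumber F)
    (hk₁ : ¬ p ^ (k₀ + 1) ∣ classNumber F) :
    p ^ k₀ ∣ Nat.card (Aq F (p ^ k₀)) := by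
  haveI : Finite (Additive (ClassGroup (𝓞 F))) := Finite.of_equiv _ Additive.ofMul
  obtain ⟨q, hq⟩ := hk₀
  have hh : Nat.card (Additive (ClassGroup (𝓞 F))) = classNumber F := by
    rw [← Nat.card_congr Additive.ofMul, Nat.card_eq_fintype_card]
    rfl
  set R := (nsmulAddMonoidHom (α := Additive (ClassGroup (𝓞 F))) (p ^ k₀)).range
  have hsplit := AddSubgroup.card_eq_card_quotient_mul_card_addSubgroup R
  have hcop : (p ^ k₀).Coprime (Nat.card R) := by
    refine Nat.Coprime.pow_left _ (hp.out.coprime_iff_not_dvd.2 fun hd => ?_)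
    obtain ⟨z, hz⟩ := exists_prime_addOrderOf_dvd_card' p hd
    obtain ⟨z, w, rfl⟩ := z
    have h1 : q • ((p ^ k₀) • w) = 0 := by
      rw [← mul_nsmul, ← hq, ← hh]
      exact card_nsmul_eq_zero'
    have h2 := addOrderOf_dvd_of_nsmul_eq_zero h1
    rw [← AddSubgroup.addOrderOf_coe] at hz
    rw [show (p ^ k₀) • w = nsmulAddMonoidHom (p ^ k₀) w from rfl, hz] at h2
    exact hk₁ (by rw [hq, pow_succ]; exact mul_dvd_mul_left _ h2)
  refine hcop.dvd_of_dvd_mul_right ?_
  rw [← hsplit, hh, hq]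
  exact dvd_mul_right _ _

/-- A quotient of the classes killed by a power of `p`. -/
theorem card_range_le_padic {A : Type*} [AddCommGroup A] [Finite A] {M : ℕ}
    (hA : ∀ a : A, p ^ M • a = 0) (f : Additive (ClassGroup (𝓞 F)) →+ A) :
    Nat.card f.range ≤ p ^ padicValNat p (classNumber F) := by
  set k₁ := padicValNat p (classNumber F) with hk₁
  have hh0 := (classNumber_pos F).ne'
  obtain ⟨q, hq⟩ : p ^ k₁ ∣ classNumber F := pow_padicValNat_dvd
  have hdvd : Nat.card f.range ∣ classNumber F := by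
    have h := AddSubgroup.card_range_dvd f
    rw [← Nat.card_congr Additive.ofMul, Nat.card_eq_fintype_card (α := ClassGroup (𝓞 F))] at h
    exact h
  have hqp : ¬ p ∣ q := fun h => by
    have h1 : p ^ (k₁ + 1) ∣ classNumber F := by rw [hq, pow_succ]; exact mul_dvd_mul_left _ h
    rw [padicValNat_dvd_iff_le hh0, ← hk₁] at h1
    omega
  have hcop : (Nat.card f.range).Coprime q := Nat.coprime_of_dvd fun s hs hs1 hs2 => by
    haveI : Fact s.Prime := ⟨hs⟩
    obtain ⟨z, hz⟩ := exists_prime_addOrderOf_dvd_card' s hs1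
    have h1 : s ∣ p ^ M := hz ▸ addOrderOf_dvd_of_nsmul_eq_zero (Subtype.ext (hA z.1))
    exact hqp ((Nat.prime_dvd_prime_iff_eq hs hp.out).1 (hs.dvd_of_dvd_pow h1) ▸ hs2)
  exact Nat.le_of_dvd (pow_pos hp.out.pos _) (hcop.dvd_of_dvd_mul_right (hq ▸ hdvd))

end field

variable (K : Type*) [Field K] [NumberField K] [IsCyclotomicExtension {p} ℚ K]

/-- No class of order `p` has weight one. -/
theorem eq_one_of_weight_one (hp5 : 5 ≤ p) {k : ℕ} {x : ClassGroup (𝓞 K)}
    (hx : x ^ p ^ (k + 1) = 1)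
    (heig : ∀ d : (ZMod p)ˣ, sigmaCl p K d x = x ^ ((d : ZMod p).val ^ p ^ k)) : x = 1 := by
  haveI : NeZero p := ⟨hp.out.ne_zero⟩
  by_contra hne
  obtain ⟨m, -, hm⟩ := (Nat.dvd_prime_pow hp.out).1 (orderOf_dvd_of_pow_eq_one hx)
  obtain ⟨m, rfl⟩ : ∃ m', m = m' + 1 := Nat.exists_eq_succ_of_ne_zero fun h0 =>
    hne (orderOf_eq_one_iff.1 (by rw [hm, h0, pow_zero]))
  set y := x ^ p ^ m
  have hy : y ^ p = 1 := by rw [← pow_mul, ← pow_succ, ← hm, pow_orderOf_eq_one]
  have hy1 : y ≠ 1 := fun h => by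
    have h1 := orderOf_dvd_of_pow_eq_one h
    rw [hm, Nat.pow_dvd_pow_iff_le_right hp.out.one_lt] at h1
    omega
  have h3 := (FA.Ext.herbrand (p := p) (K := K) hp5 (i := 1) odd_one (by omega) hy hy1
    fun d => by
      rw [map_pow, heig, ← pow_mul, mul_comm, pow_mul]
      refine pow_eq_pow_of_modEq ((ZMod.natCast_eq_natCast_iff _ _ p).1 ?_) hy
      rw [Nat.cast_pow, ZMod.natCast_zmod_val, ZMod.natCast_zmod_val, ZMod.pow_card_pow,
        pow_one]).1
  omega

/-- **The components modulo the exact power of `p`.** -/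
theorem card_range_eq (hp5 : 5 ≤ p) :
    ∃ (N : ℕ) (hN : 0 < N) (hk₀ : padicValNat p (classNumber K) ≤ N),
      ∀ i ∈ ((range (p - 1)).filter Odd).erase 1, bexp p i < N ∧
        ∃ e : MonoidAlgebra (ZMod (p ^ N)) (ZMod p)ˣ,
          (∀ x, x * e = single 1 (charEval (teich hN ^ i) x) * e) ∧
          charEval (teich hN ^ i) e = 1 ∧
          Nat.card (act (phiA (sigmaK p K)) (pow_dvd_pow p hk₀) e :
            Aq K (p ^ padicValNat p (classNumber K)) →+
              Aq K (p ^ padicValNat p (classNumber K))).range = p ^ bexp p i := by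
  haveI : NeZero p := ⟨hp.out.ne_zero⟩
  haveI : IsGalois ℚ K := IsCyclotomicExtension.isGalois {p} ℚ K
  haveI : IsCMField K := IsCyclotomicExtension.Rat.isCMField K (S := {p}) ⟨p, rfl, by omega⟩
  set k₀ := padicValNat p (classNumber K) with hk₀def
  set O := ((range (p - 1)).filter Odd)
  set N := k₀ + ∑ i ∈ O.erase 1, bexp p i + 1
  have hN : 0 < N := by omega
  have hk₀ : k₀ ≤ N := by omega
  haveI : NeZero (p ^ N) := ⟨pow_ne_zero _ hp.out.ne_zero⟩
  have hle : ∀ i ∈ O.erase 1, bexp p i + k₀ < N := fun i hi => by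
    have := Finset.single_le_sum (f := fun i => bexp p i) (fun _ _ => Nat.zero_le _) hi
    omega
  have hm : p ^ k₀ ∣ p ^ N := pow_dvd_pow p hk₀
  have hpodd := hp.out.eq_two_or_odd
  have hG : ¬ p ∣ Fintype.card (ZMod p)ˣ := fun h => by
    rw [ZMod.card_units p] at h
    have := Nat.le_of_dvd (by omega) h
    omega
  choose e he heval hmul using fun j : ℕ => exists_charIdem hN hG (teich hN ^ j)
  set τ := sigmaK p K
  haveI : Finite (Additive (ClassGroup (𝓞 K))) := Finite.of_equiv _ Additive.ofMul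
  set E : ℕ → Aq K (p ^ k₀) →+ Aq K (p ^ k₀) := fun j => act (phiA τ) hm (e j)
  -- the sum of the idempotents
  have hsum : ∑ j ∈ range (p - 1), e j = 1 := by
    refine MonoidAlgebra.ext (Finsupp.ext fun h => ?_)
    rw [MonoidAlgebra.coeff_sum, Finsupp.finsetSum_apply, MonoidAlgebra.one_def,
      MonoidAlgebra.coeff_single, Finsupp.single_apply]
    have hc : ∀ j, (e j).coeff 1 = (e 0).coeff 1 := fun j => by
      have h0 := card_mul_coeff_one (hmul 0) (heval 0)
      have h1 := card_mul_coeff_one (hmul j) (heval j)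
      exact (IsUnit.of_mul_eq_one _ h0).mul_left_cancel (h1.trans h0.symm)
    rw [Finset.sum_congr rfl fun j _ => show (e j).coeff h = (teich hN h⁻¹) ^ j * (e 0).coeff 1 by
      rw [coeff_charIdem (hmul j), hc j, MonoidHom.pow_apply], ← Finset.sum_mul]
    split_ifs with hh
    · subst hh
      rw [inv_one, map_one]
      simp only [one_pow, Finset.sum_const, Finset.card_range, nsmul_one]
      rw [← ZMod.card_units p, card_mul_coeff_one (hmul 0) (heval 0)]
    · set z := teich hN h⁻¹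
      have hz : z ^ (p - 1) = 1 := by
        rw [← map_pow, show h⁻¹ ^ (p - 1) = 1 by
          rw [← ZMod.card_units p, pow_card_eq_one], map_one]
      have hz1 : IsUnit (z - 1) := by
        refine isUnit_of_residue hN ?_
        rw [map_sub, map_one, castHom_teich, sub_ne_zero, Ne, Units.val_eq_one, inv_eq_one]
        exact fun h' => hh h'.symm
      have h1 := geom_sum_mul z (p - 1)
      rw [hz, sub_self] at h1
      rw [hz1.mul_left_eq_zero.1 h1, zero_mul]
  -- the bounds
  have hbound : ∀ i ∈ O.erase 1, Nat.card (E i).range ≤ p ^ bexp p i := fun i hi => by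
    obtain ⟨hi1, hiO⟩ := Finset.mem_erase.1 hi
    obtain ⟨hir, hio⟩ := Finset.mem_filter.1 hiO
    have := Nat.odd_iff.1 hio
    have := Finset.mem_range.1 hir
    have := hle i hi
    exact card_range_le K hp5 hio (by omega) (by omega) hN hk₀ (by omega) (by omega) (hmul i)
      (heval i) (padicValNat_sum hp5 hio (by omega) (by omega) (by omega))
  have hone : Nat.card (E 1).range = 1 := by
    rw [AddSubgroup.card_eq_one, AddSubgroup.eq_bot_iff_forall]
    rintro y ⟨z, rfl⟩
    by_contra hne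
    obtain ⟨x, hx1, hxp, hxg⟩ := exists_eigen_order_p τ hk₀def hne
      (fun d => ((teich hN ^ 1) d).val) (fun d => phiq_eigen (hmul 1) hm d
        (act_e_idem (hmul 1) (heval 1) hm z))
    refine hx1 (eq_one_of_weight_one K hp5 (k := 0) (by rwa [zero_add, pow_one]) fun d => ?_)
    rw [← galCl_sigmaK, hxg d]
    refine pow_eq_pow_of_modEq ((ZMod.natCast_eq_natCast_iff _ _ p).1 ?_) hxp
    rw [← map_natCast (ZMod.castHom (dvd_pow_self p hN.ne') (ZMod p)), ZMod.natCast_zmod_val,
      pow_one, castHom_teich, pow_zero, pow_one, ZMod.natCast_zmod_val]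
  -- the minus part
  let conj : Aq K (p ^ k₀) →+ Aq K (p ^ k₀) := phiq (phiA τ) (p ^ k₀) (-1)
  set Ψ : Aq K (p ^ k₀) →+ Aq K (p ^ k₀) := AddMonoidHom.id (Aq K (p ^ k₀)) + conj with hΨdef
  have hker : Nat.card Ψ.ker ≤ ∏ j ∈ O, Nat.card (E j).range := by
    rw [← Finset.prod_coe_sort O, ← Nat.card_pi]
    refine Nat.card_le_card_of_injective (fun y j => ⟨E j y.1, y.1, rfl⟩)
      fun y y' h => Subtype.ext ?_
    have heven : ∀ z ∈ Ψ.ker, ∀ j ∈ range (p - 1), ¬ Odd j → E j z = 0 := by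
      intro z hz j _ hj
      have h1 : phiq (phiA τ) (p ^ k₀) (-1) z = -z := eq_neg_of_add_eq_zero_right hz
      have h2 : phiq (phiA τ) (p ^ k₀) (-1) (act (phiA τ) hm (e j) z) =
          act (phiA τ) hm (e j) (phiq (phiA τ) (p ^ k₀) (-1) z) := by
        rw [← act_of (φ := phiA τ) (hm := hm), ← act_mul, mul_comm, act_mul, act_of]
      rw [phiq_eigen (hmul j) hm (-1) (act_e_idem (hmul j) (heval j) hm z), MonoidHom.pow_apply,
        ← map_pow, (Nat.not_odd_iff_even.1 hj).neg_one_pow, map_one, h1, map_neg] at h2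
      haveI : Fact (1 < p ^ N) := ⟨Nat.one_lt_pow hN.ne' hp.out.one_lt⟩
      rw [ZMod.val_one, one_nsmul, eq_neg_iff_add_eq_zero, ← two_nsmul] at h2
      show act (phiA τ) hm (e j) z = 0
      have h3 : p ^ k₀ • act (phiA τ) hm (e j) z = 0 := nsmul_modq_eq_zero _ _
      rw [← AddMonoid.addOrderOf_eq_one_iff, ← Nat.dvd_one,
        ← (((Nat.coprime_primes hp.out Nat.prime_two).2 (by omega)).pow_left k₀).gcd_eq_one]
      exact Nat.dvd_gcd (addOrderOf_dvd_of_nsmul_eq_zero h3) (addOrderOf_dvd_of_nsmul_eq_zero h2)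
    have hdec : ∀ z ∈ Ψ.ker, z = ∑ j ∈ O, E j z := fun z hz => by
      rw [Finset.sum_filter_of_ne (fun j hj hne => by_contra fun h => hne (heven z hz j hj h))]
      show z = ∑ j ∈ range (p - 1), act (phiA τ) hm (e j) z
      rw [← act_sum, hsum, act_one]
    rw [hdec _ y.2, hdec _ y'.2]
    exact Finset.sum_congr rfl fun j hj => congrArg Subtype.val (congrFun h ⟨j, hj⟩)
  set ext' : Additive (ClassGroup (𝓞 (maximalRealSubfield K))) →+ Aq K (p ^ k₀) :=
    (mkq (p ^ k₀)).comp
      (ClassGroup.extendedHom (𝓞 (maximalRealSubfield K)) (𝓞 K)).toAdditive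
  have hrange : Ψ.range ≤ ext'.range := by
    rintro _ ⟨y, rfl⟩
    obtain ⟨C', rfl⟩ := mkq_surjective (p ^ k₀) y
    set C := Additive.toMul C'
    obtain ⟨D, hD⟩ := FA.ClassField94.mul_conjClass_mem_range K C
    refine ⟨Additive.ofMul D, ?_⟩
    show mkq (p ^ k₀) (Additive.ofMul _) = mkq (p ^ k₀) (Additive.ofMul C) +
      mkq (p ^ k₀) (Additive.ofMul (galCl (sigmaK p K (-1)) C))
    rw [← map_add, ← ofMul_mul, galCl_sigmaK, toMul_ofMul, hD,
      show sigmaCl p K (-1) C = FA.ClassField94.conjClass K C by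
        show ClassGroup.mulEquiv _ C = ClassGroup.mulEquiv _ C
        refine congrArg (fun σ => ClassGroup.mulEquiv σ C) (RingEquiv.ext fun t =>
          RingOfIntegers.ext ?_)
        exact FA.Regular.sigmaK_neg_one_eq p K (t : K)]
  have hplus : Nat.card Ψ.range ≤
      p ^ padicValNat p (classNumber (maximalRealSubfield K)) :=
    (AddSubgroup.card_le_of_le hrange).trans
      (card_range_le_padic (fun a => nsmul_modq_eq_zero _ a) ext')
  have htot : p ^ k₀ ≤ Nat.card Ψ.ker * Nat.card Ψ.range := by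
    refine (Nat.le_of_dvd Nat.card_pos (pow_dvd_card_modq pow_padicValNat_dvd fun h => ?_)).trans
      (le_of_eq ?_)
    · rw [padicValNat_dvd_iff_le (classNumber_pos K).ne'] at h
      omega
    · rw [AddSubgroup.card_eq_card_quotient_mul_card_addSubgroup Ψ.ker,
        Nat.card_congr (QuotientAddGroup.quotientKerEquivRange Ψ).toEquiv, mul_comm]
  have hprod : p ^ ∑ i ∈ O.erase 1, bexp p i ≤ ∏ i ∈ O.erase 1, Nat.card (E i).range := by
    have h1 : (1 : ℕ) ∈ O := Finset.mem_filter.2 ⟨Finset.mem_range.2 (by omega), odd_one⟩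
    rw [← Finset.mul_prod_erase _ _ h1, hone, one_mul] at hker
    refine Nat.le_of_mul_le_mul_right ((htot.trans (Nat.mul_le_mul hker hplus)).trans' ?_)
      (pow_pos hp.out.pos _)
    rw [← pow_add, hk₀def, sum_bexp hp5 K, add_comm]
  refine ⟨N, hN, hk₀, fun i hi => ⟨by have := hle i hi; omega, e i, hmul i, heval i, ?_⟩⟩
  refine le_antisymm (hbound i hi) (not_lt.1 fun hlt => hprod.not_gt ?_)
  rw [← Finset.prod_pow_eq_pow_sum]
  exact Finset.prod_lt_prod (fun _ _ => Nat.card_pos) hbound ⟨i, hi, hlt⟩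

/-- **The orders of the odd components.** -/
theorem card_eigen (hp5 : 5 ≤ p) {i : ℕ} (hi : Odd i) (hi3 : 3 ≤ i) (hip : i + 2 ≤ p) {k : ℕ}
    (hk : bexp p i < k) :
    Nat.card {x : ClassGroup (𝓞 K) // x ^ p ^ (k + 1) = 1 ∧
      ∀ d : (ZMod p)ˣ, sigmaCl p K d x = x ^ ((d : ZMod p).val ^ (i * p ^ k))} = p ^ bexp p i := by
  haveI : NeZero p := ⟨hp.out.ne_zero⟩
  haveI : IsGalois ℚ K := IsCyclotomicExtension.isGalois {p} ℚ K
  haveI : Finite (Additive (ClassGroup (𝓞 K))) := Finite.of_equiv _ Additive.ofMul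
  obtain ⟨N, hN, hk₀, hall⟩ := card_range_eq K hp5
  obtain ⟨hvN, e, hmul, heval, hcard⟩ := hall i (Finset.mem_erase.2 ⟨by omega,
    Finset.mem_filter.2 ⟨Finset.mem_range.2 (by omega), hi⟩⟩)
  set v := bexp p i
  set k₀ := padicValNat p (classNumber K) with hk₀def
  set τ := sigmaK p K
  have hm : p ^ k₀ ∣ p ^ N := pow_dvd_pow p hk₀
  haveI : NeZero (p ^ N) := ⟨pow_ne_zero _ hp.out.ne_zero⟩
  haveI : NeZero (p ^ k₀) := ⟨pow_ne_zero _ hp.out.ne_zero⟩
  obtain ⟨q, hq⟩ : p ^ k₀ ∣ classNumber K := pow_padicValNat_dvd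
  have hqp : ¬ p ∣ q := fun h => by
    have h1 : p ^ (k₀ + 1) ∣ classNumber K := by rw [hq, pow_succ]; exact mul_dvd_mul_left _ h
    rw [padicValNat_dvd_iff_le (classNumber_pos K).ne', ← hk₀def] at h1
    omega
  have hinj : ∀ z : ClassGroup (𝓞 K), z ^ (p ^ k₀) = 1 →
      mkq (p ^ k₀) (Additive.ofMul z) = 0 → z = 1 := by
    intro z hz hz0
    obtain ⟨w, hw⟩ := mkq_eq_zero_iff.1 hz0
    have hzq : z ^ q = 1 := by
      rw [show z = Additive.toMul w ^ (p ^ k₀) from (congrArg Additive.toMul hw).symm,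
        ← pow_mul, ← hq]
      exact pow_card_eq_one
    rw [← orderOf_eq_one_iff, ← Nat.dvd_one,
      ← ((hp.out.coprime_iff_not_dvd.2 hqp).pow_left k₀).gcd_eq_one]
    exact Nat.dvd_gcd (orderOf_dvd_of_pow_eq_one hz) (orderOf_dvd_of_pow_eq_one hzq)
  have hexp : ∀ (d : (ZMod p)ˣ) {w : ℕ}, w ≤ k + 1 → w ≤ N →
      ((((teich hN ^ i) d).val : ℕ) : ZMod (p ^ w)) =
        (((d : ZMod p).val ^ (i * p ^ k) : ℕ) : ZMod (p ^ w)) := by
    intro d w hw1 hw2
    rw [← map_natCast (ZMod.castHom (pow_dvd_pow p hw2) (ZMod (p ^ w))), ZMod.natCast_zmod_val,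
      MonoidHom.pow_apply, map_pow]
    show (ZMod.castHom _ (ZMod (p ^ w)) (((d : ZMod p).val : ZMod (p ^ N)) ^ p ^ (N - 1))) ^ i = _
    rw [map_pow, map_natCast, Nat.cast_pow, mul_comm i, pow_mul _ (p ^ k),
      pow_prime_pow_stable (s := N - 1) (t := k) (by omega) hw1]
  set S := {x : ClassGroup (𝓞 K) // x ^ p ^ (k + 1) = 1 ∧
      ∀ d : (ZMod p)ˣ, sigmaCl p K d x = x ^ ((d : ZMod p).val ^ (i * p ^ k))}
  set W := (act (phiA τ) hm e : Aq K (p ^ k₀) →+ Aq K (p ^ k₀)).range
  have hS0 : ∀ x : S, x.1 ^ (p ^ k₀) = 1 := fun x => by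
    refine orderOf_dvd_iff_pow_eq_one.1 (Nat.Coprime.dvd_of_dvd_mul_right
      (((hp.out.coprime_iff_not_dvd.2 hqp).pow_left (k + 1)).coprime_dvd_left
        (orderOf_dvd_of_pow_eq_one x.2.1)) ?_)
    rw [← hq]
    exact orderOf_dvd_card
  have hfix : ∀ x : S, act (phiA τ) hm e (mkq (p ^ k₀) (Additive.ofMul x.1)) =
      mkq (p ^ k₀) (Additive.ofMul x.1) := fun x => by
    haveI : Fact (1 < p ^ N) := ⟨Nat.one_lt_pow hN.ne' hp.out.one_lt⟩
    rw [act_eq_charEval_smul (χ := teich hN ^ i) hm (fun d => ?_) e, heval, ZMod.val_one, one_nsmul]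
    show mkq _ (Additive.ofMul (galCl (sigmaK p K d) x.1)) = _
    rw [galCl_sigmaK, x.2.2 d, ofMul_pow, map_nsmul]
    refine nsmul_congr (M := p ^ min (k + 1) k₀) ?_
      (hexp d (min_le_left _ _) ((min_le_right _ _).trans hk₀)).symm
    rcases le_total (k + 1) k₀ with h | h
    · rw [min_eq_left h, ← map_nsmul, ← ofMul_pow, x.2.1, ofMul_one, map_zero]
    · rw [min_eq_right h]
      exact nsmul_modq_eq_zero _ _
  let Φ : S → W := fun x => ⟨mkq (p ^ k₀) (Additive.ofMul x.1), _, hfix x⟩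
  rw [← hcard]
  refine Nat.card_congr (Equiv.ofBijective Φ ⟨fun x x' h => Subtype.ext ?_, fun y => ?_⟩)
  · refine mul_inv_eq_one.1 (hinj _ ?_ ?_)
    · rw [mul_pow, inv_pow, hS0, hS0, inv_one, one_mul]
    · rw [ofMul_mul, ofMul_inv, map_add, map_neg, add_neg_eq_zero]
      exact congrArg Subtype.val h
  · obtain ⟨C', hC'⟩ := mkq_surjective (p ^ k₀) (y : Aq K (p ^ k₀))
    set q' := ((q : ZMod (p ^ k₀))⁻¹).val
    set x := Additive.toMul C' ^ (q * q')
    have hqq : ((q * q' : ℕ) : ZMod (p ^ k₀)) = ((1 : ℕ) : ZMod (p ^ k₀)) := by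
      rw [Nat.cast_mul, ZMod.natCast_zmod_val, Nat.cast_one, ZMod.coe_mul_inv_eq_one]
      exact ((hp.out.coprime_iff_not_dvd.2 hqp).pow_left k₀).symm
    have hxmk : mkq (p ^ k₀) (Additive.ofMul x) = (y : Aq K (p ^ k₀)) := by
      rw [ofMul_pow, map_nsmul, ofMul_toMul, hC',
        nsmul_congr (nsmul_modq_eq_zero (p ^ k₀) _) hqq, one_nsmul]
    have hyv : p ^ v • (y : Aq K (p ^ k₀)) = 0 := by
      have h : p ^ v • y = 0 := by rw [← hcard]; exact card_nsmul_eq_zero'
      simpa using congrArg Subtype.val h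
    have hxk : x ^ (p ^ k₀) = 1 := by
      rw [← pow_mul, mul_comm, ← mul_assoc, ← hq, pow_mul]
      exact (congrArg (· ^ q') pow_card_eq_one).trans (one_pow _)
    have hxv : x ^ (p ^ v) = 1 := by
      refine hinj _ (by rw [pow_right_comm, hxk, one_pow]) ?_
      rw [ofMul_pow, map_nsmul, hxmk, hyv]
    have hx1 : x ^ p ^ (k + 1) = 1 := by
      obtain ⟨t, ht⟩ := pow_dvd_pow p (show v ≤ k + 1 by omega)
      rw [ht, pow_mul, hxv, one_pow]
    refine ⟨⟨x, hx1, fun d => ?_⟩, Subtype.ext hxmk⟩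
    refine mul_inv_eq_one.1 (hinj _ ?_ ?_)
    · rw [mul_pow, inv_pow, ← map_pow, hxk, map_one, ← pow_mul, mul_comm _ (p ^ k₀), pow_mul,
        hxk, one_pow, inv_one, one_mul]
    · rw [ofMul_mul, ofMul_inv, map_add, map_neg, ofMul_pow, map_nsmul, hxmk, ← galCl_sigmaK,
        show mkq (p ^ k₀) (Additive.ofMul (galCl (sigmaK p K d) x)) =
          phiq (phiA τ) (p ^ k₀) d (mkq (p ^ k₀) (Additive.ofMul x)) from rfl, hxmk]
      obtain ⟨z, hz⟩ := y.2
      have hy : act (phiA τ) hm e (y : Aq K (p ^ k₀)) = y := by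
        rw [← hz]; exact act_e_idem hmul heval hm z
      rw [phiq_eigen hmul hm d hy, add_neg_eq_zero]
      exact nsmul_congr hyv (hexp d (by omega) (by omega))

end FA.GaussKolyvagin
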