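import Fermat.Agent.GaussKolyvagin.RootFields

/-!
# The derivatives of the twisted Jacobi sums

`funG P c r g w = pJ (ζ_P ^ c w) / pJ (ζ_P w) ^ c`. Its norm relation holds up to the
`p ^ k * P`-th power of a `z` with `IsAdj`: `z ^ (2 ∏ S)` is the inverse of a power of `r`.

* `prod_funG_mul`: the norm relation;
* `IsAdj`: the adjustments.
-/

set_option autoImplicit false
set_option linter.unusedSectionVars false
set_option linter.style.haveILetI false

noncomputable section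

open scoped Classical
open Finset IntermediateField NumberField IsDedekindDomain FA.ArtinRec
open FA.Kolyvagin (zr zr_spec zr_pow_self zr_pow_congr fullField
  mem_adjoin_iff_fixed exists_map_zr zr_mem_fullField gen gen_pow_inj not_dvd_gen_pow pt wt getJ
  gen_pow_modEq_one exists_gen_pow_modEq not_dvd_gen prod_shift)

namespace FA.GaussKolyvagin

variable {Ω : Type*} [Field Ω] [CharZero Ω] [IsAlgClosed Ω] [Algebra.IsAlgebraic ℚ Ω] {p P k c : ℕ}
variable {r g : ℕ}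

/-- The two enumerations of the `q`-th roots of unity. -/
theorem prod_range_zr {q : ℕ} (hq : q.Prime) (F : Ω → Ω) :
    (∏ i ∈ range (q - 1), F (zr Ω q ^ gen q ^ i)) * F 1 = ∏ i ∈ range q, F (zr Ω q ^ i) := by
  have hprim := zr_spec Ω hq.ne_zero
  have hinj : Set.InjOn (fun i => zr Ω q ^ gen q ^ i) ↑(range (q - 1)) := fun i hi j hj h => by
    refine gen_pow_inj hq (Finset.mem_range.1 hi) (Finset.mem_range.1 hj) ?_
    have h' := (hprim.isOfFinOrder hq.ne_zero).pow_eq_pow_iff_modEq.1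
      (show zr Ω q ^ gen q ^ i = zr Ω q ^ gen q ^ j from h)
    rwa [← hprim.eq_orderOf] at h'
  have hinj' : Set.InjOn (fun i => zr Ω q ^ i) ↑(range q) := fun i hi j hj h =>
    hprim.pow_inj (Finset.mem_range.1 hi) (Finset.mem_range.1 hj) h
  have h1 : (1 : Ω) ∈ (range q).image (fun i => zr Ω q ^ i) :=
    Finset.mem_image.2 ⟨0, Finset.mem_range.2 hq.pos, pow_zero _⟩
  have himg : (range (q - 1)).image (fun i => zr Ω q ^ gen q ^ i) =
      ((range q).image fun i => zr Ω q ^ i).erase 1 := by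
    refine Finset.eq_of_subset_of_card_le (fun y hy => ?_) ?_
    · obtain ⟨i, -, rfl⟩ := Finset.mem_image.1 hy
      refine Finset.mem_erase.2 ⟨fun h => not_dvd_gen_pow hq i (hprim.dvd_of_pow_eq_one _ h),
        Finset.mem_image.2 ⟨gen q ^ i % q, Finset.mem_range.2 (Nat.mod_lt _ hq.pos),
          zr_pow_congr Ω (Nat.mod_modEq _ _)⟩⟩
    · rw [Finset.card_erase_of_mem h1, Finset.card_image_of_injOn hinj',
        Finset.card_image_of_injOn hinj, Finset.card_range, Finset.card_range]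
  rw [← Finset.prod_image (f := F) hinj, himg, Finset.prod_erase_mul _ _ h1,
    Finset.prod_image hinj']

/-- The adjustment elements of the relations. -/
def IsAdj (P r : ℕ) (S : Finset ℕ) (z : Ω) : Prop :=
  z ∈ fullField Ω P S ∧ z ≠ 0 ∧ ∃ n : ℕ, z ^ (2 * ∏ q ∈ S, q) * (r : Ω) ^ n = 1

theorem IsAdj.one (S : Finset ℕ) : IsAdj P r S (1 : Ω) :=
  ⟨one_mem _, one_ne_zero, 0, by simp⟩

theorem IsAdj.mul {S : Finset ℕ} {y z : Ω} (hy : IsAdj P r S y) (hz : IsAdj P r S z) :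
    IsAdj P r S (y * z) := by
  obtain ⟨hy1, hy0, n, hn⟩ := hy
  obtain ⟨hz1, hz0, m, hm⟩ := hz
  refine ⟨mul_mem hy1 hz1, mul_ne_zero hy0 hz0, n + m, ?_⟩
  rw [mul_pow, pow_add, mul_mul_mul_comm, hn, hm, one_mul]

theorem IsAdj.pow {S : Finset ℕ} {z : Ω} (hz : IsAdj P r S z) (i : ℕ) : IsAdj P r S (z ^ i) := by
  induction i with
  | zero => simpa using IsAdj.one S
  | succ i ih => rw [pow_succ]; exact ih.mul hz

variable (Ω P c r g) in
/-- **The twisted product of Jacobi sums.** -/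
def funG (w : Ω) : Ω := pJ r g c (zr Ω P ^ c * w) / pJ r g c (zr Ω P * w) ^ c

theorem map_funG {σ : Ω →+* Ω} (hσ : σ (zr Ω P) = zr Ω P) (w : Ω) :
    σ (funG Ω P c r g w) = funG Ω P c r g (σ w) := by
  simp only [funG, map_div₀, map_pow, map_pJ, map_mul, hσ]

section aux

variable (hs : Setup p P k c) {S : Finset ℕ} (hS : ∀ q ∈ S, IsAdm p P k q) (hA : IsAux P S r g)
include hs hS hA

theorem pJ_root_ne_zero {w : Ω} (hw : IsPt S w) {a : ℕ} (ha : ¬ p ∣ a) :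
    pJ r g c (zr Ω P ^ a * w) ≠ 0 := fun h => by
  haveI : Fact r.Prime := ⟨hA.prime⟩
  have h1 := pJ_mul_inv hA.gen (hw.pow_r_sub_one hA (prime_of_adm hS) a)
    fun j hj1 hj2 => hw.pow_ne_one hs hS ha hj1 hj2
  rw [h, zero_mul] at h1
  exact pow_ne_zero _ (Nat.cast_ne_zero.2 hA.prime.ne_zero) h1.symm

theorem funG_ne_zero {w : Ω} (hw : IsPt S w) : funG Ω P c r g w ≠ 0 := by
  have h1 := pJ_root_ne_zero hs hS hA hw (a := 1) hs.hp.not_dvd_one
  rw [pow_one] at h1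
  exact div_ne_zero (pJ_root_ne_zero hs hS hA hw hs.hcd) (pow_ne_zero _ h1)

theorem pJ_mem {w : Ω} (hw : w ∈ fullField Ω P S) (a : ℕ) :
    pJ r g c (zr Ω P ^ a * w) ∈ fullField Ω P S := by
  set u : fullField Ω P S := ⟨zr Ω P ^ a * w, mul_mem (pow_mem (zr_P_mem S) a) hw⟩
  rw [show zr Ω P ^ a * w = (fullField Ω P S).val.toRingHom u from rfl, ← map_pJ]
  exact Subtype.coe_prop _

theorem funG_mem {w : Ω} (hw : w ∈ fullField Ω P S) : funG Ω P c r g w ∈ fullField Ω P S := by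
  have h1 := pJ_mem hs hS hA hw 1
  rw [pow_one] at h1
  exact div_mem (pJ_mem hs hS hA hw c) (pow_mem h1 c)

/-- **The distribution relation in `Ω`.** -/
theorem exists_root_eq {q : ℕ} (hq : q ∈ S) {w : Ω} (hw : IsPt S w) {a : ℕ} (ha : ¬ p ∣ a) :
    ∃ ε ∈ fullField Ω P S, (∃ t, 0 < t ∧ ε ^ t = 1) ∧
      ∏ i ∈ range q, pJ r g c (zr Ω P ^ a * (w * zr Ω q ^ i)) =
        ε * (r : Ω) ^ ((c - 1) * ((q - 1) / 2)) * pJ r g c (zr Ω P ^ a * w ^ q) := by
  haveI : Fact r.Prime := ⟨hA.prime⟩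
  have hqa := hS q hq
  have hP := rootSet_insert hs hS
  obtain ⟨L, hNF, hGal, hL⟩ := exists_rootField (Ω := Ω) hP
  have hzq : zr Ω q ∈ L := hL.zr_mem q (Finset.mem_insert_of_mem hq)
  have hwL : w ∈ L := by
    have h : sField Ω S ≤ L := adjoin_le_iff.2 (by
      rintro _ ⟨s, hs', rfl⟩
      exact hL.zr_mem s (Finset.mem_insert_of_mem hs'))
    exact h hw.1
  set u : L := ⟨zr Ω P ^ a * w, mul_mem (pow_mem (hL.zr_mem P (Finset.mem_insert_self _ _)) a) hwL⟩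
  set z : L := ⟨zr Ω q, hzq⟩
  have hu : u ^ (r - 1) = 1 := Subtype.ext (hw.pow_r_sub_one hA (prime_of_adm hS) a)
  have hq1 : (zr Ω P ^ a * w) ^ q = zr Ω P ^ a * w ^ q := by
    rw [mul_pow, ← pow_mul]
    congr 1
    exact zr_pow_congr Ω (by simpa using (Nat.ModEq.refl a).mul hqa.modEq_one)
  have hcu : ∀ j, 1 ≤ j → j ≤ c → (u ^ q) ^ j ≠ 1 := fun j h1 h2 h => by
    have h' := congrArg Subtype.val h
    change ((zr Ω P ^ a * w) ^ q) ^ j = 1 at h'
    rw [hq1] at h'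
    exact (hw.pow q).pow_ne_one hs hS ha h1 h2 h'
  obtain ⟨ε, ⟨t, ht, hεt⟩, hε⟩ := exists_root_distribution hA.gen hu hqa.prime (hqa.ne_two hs)
    (hA.dvd q hq) (le_trans one_le_two hs.hc2) (lt_trans hs.hcP (hqa.lt hs))
    (z := z) (IsPrimitiveRoot.coe_submonoidClass_iff.1 (zr_spec Ω hqa.prime.ne_zero)) hcu
    fun Q hQ h => ord_natCast_root hP hL hA.prime hA.coprime Q hQ h
  have heq := congrArg L.val.toRingHom hε
  simp only [map_prod, map_mul, map_pow, map_pJ, map_natCast] at heq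
  change ∏ i ∈ range q, pJ r g c (zr Ω P ^ a * w * zr Ω q ^ i) =
    (ε : Ω) * (r : Ω) ^ _ * pJ r g c ((zr Ω P ^ a * w) ^ q) at heq
  rw [hq1] at heq
  simp only [← mul_assoc (zr Ω P ^ a)]
  refine ⟨(ε : Ω), ?_, ⟨t, ht, congrArg Subtype.val hεt⟩, by rw [heq, mul_assoc]⟩
  have hne : (r : Ω) ^ ((c - 1) * ((q - 1) / 2)) * pJ r g c (zr Ω P ^ a * w ^ q) ≠ 0 :=
    mul_ne_zero (pow_ne_zero _ (Nat.cast_ne_zero.2 hA.prime.ne_zero))
      (pJ_root_ne_zero hs hS hA (hw.pow q) ha)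
  rw [show (ε : Ω) = (∏ i ∈ range q, pJ r g c (zr Ω P ^ a * w * zr Ω q ^ i)) /
    ((r : Ω) ^ ((c - 1) * ((q - 1) / 2)) * pJ r g c (zr Ω P ^ a * w ^ q)) by
    rw [eq_div_iff hne, heq, mul_assoc]]
  have hwF : w ∈ fullField Ω P S := sField_le_fullField S hw.1
  refine div_mem (prod_mem fun i _ => ?_) (mul_mem (pow_mem (IntermediateField.natCast_mem _ r) _)
    (pJ_mem hs hS hA (pow_mem hwF q) a))
  rw [mul_assoc]
  exact pJ_mem hs hS hA (mul_mem hwF (pow_mem (zr_mem_fullField (Finset.mem_insert_of_mem hq)) i)) a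

/-- **The norm relation.** -/
theorem prod_funG_mul {q : ℕ} (hq : q ∈ S) {w : Ω} (hw : IsPt S w) :
    ∃ z, IsAdj P r S z ∧ (∏ i ∈ range (q - 1), funG Ω P c r g (w * zr Ω q ^ gen q ^ i)) *
      funG Ω P c r g w = funG Ω P c r g (w ^ q) * z ^ (p ^ k * P) := by
  have hqa := hS q hq
  have hP := rootSet_insert hs hS
  obtain ⟨ε₁, hε₁m, ⟨t, ht, hεt⟩, hε₁⟩ :=
    exists_root_eq hs hS hA hq hw (a := 1) hs.hp.not_dvd_one
  obtain ⟨εc, hεcm, -, hεc⟩ := exists_root_eq hs hS hA hq hw hs.hcd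
  simp only [pow_one] at hε₁
  obtain ⟨σ, hσ⟩ := exists_aut (Ω := Ω) hP (fun s => if s = P then c else 1) fun s hs' => by
    split_ifs with h
    · exact h ▸ (hs.coprime hs.hcd).symm
    · exact Nat.coprime_one_left s
  have hσp : σ (zr Ω P) = zr Ω P ^ c := by rw [hσ P (Finset.mem_insert_self _ _), if_pos rfl]
  have hσS : ∀ s ∈ S, σ (zr Ω s) = zr Ω s := fun s hs' => by
    rw [hσ s (Finset.mem_insert_of_mem hs'),
      if_neg (fun h => P_notMem hs hS (by rwa [h] at hs')), pow_one]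
  have hσε : σ ε₁ = εc := by
    have h1 := congrArg σ.toAlgHom.toRingHom hε₁
    simp only [map_prod, map_mul, map_pow, map_pJ, map_natCast] at h1
    change ∏ i ∈ range q, pJ r g c (σ (zr Ω P) * (σ w * σ (zr Ω q) ^ i)) =
      σ ε₁ * (r : Ω) ^ _ * pJ r g c (σ (zr Ω P) * σ w ^ q) at h1
    rw [hσp, map_sField hσS hw.1, hσS q hq, hεc] at h1
    exact (mul_right_cancel₀ (pow_ne_zero _ (Nat.cast_ne_zero.2 hA.prime.ne_zero))
      (mul_right_cancel₀ (pJ_root_ne_zero hs hS hA (hw.pow q) hs.hcd) h1)).symm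
  have hy : (εc / ε₁ ^ c) ^ (2 * ∏ s ∈ S, s) = 1 := by
    have h1 := pow_two_mul_eq_one hP hε₁m ht hεt
    rw [Finset.prod_insert (P_notMem hs hS), mul_left_comm, mul_comm P, pow_mul] at h1
    haveI : NeZero P := ⟨hs.pos.ne'⟩
    obtain ⟨b, -, hb⟩ := (zr_spec Ω hs.pos.ne').eq_pow_of_pow_eq_one h1
    have hε0 : ε₁ ≠ 0 := fun h => by rw [h, zero_pow ht.ne'] at hεt; exact zero_ne_one hεt
    rw [div_pow, ← hσε, ← map_pow, ← hb, map_pow, hσp, pow_right_comm (zr Ω P) c, hb,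
      pow_right_comm ε₁ c, div_self (pow_ne_zero _ (pow_ne_zero _ hε0))]
  obtain ⟨a, ha⟩ :=
    exists_root_of_coprime (prime_of_adm hS) (coprime_exp hs hS) hy
  obtain ⟨h, hh⟩ := hqa.dvd_half hs
  obtain ⟨c', hc'⟩ : ∃ c', c = c' + 1 := ⟨c - 1, by have := hs.hc2; omega⟩
  have hr0 : (r : Ω) ≠ 0 := Nat.cast_ne_zero.2 hA.prime.ne_zero
  refine ⟨(εc / ε₁ ^ c) ^ a / (r : Ω) ^ (c' * c' * h), ⟨?_, ?_, 2 * (∏ s ∈ S, s) * (c' * c' * h),
    ?_⟩, ?_⟩
  · exact div_mem (pow_mem (div_mem hεcm (pow_mem hε₁m c)) a)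
      (pow_mem (IntermediateField.natCast_mem _ r) _)
  · refine div_ne_zero (fun h0 => ?_) (pow_ne_zero _ hr0)
    rw [h0, zero_pow hs.pow_mul_ne_zero] at ha
    rw [← ha, zero_pow (Nat.mul_ne_zero two_ne_zero
      (Finset.prod_pos fun s hs' => (hS s hs').prime.pos).ne')] at hy
    exact zero_ne_one hy
  · rw [div_pow, pow_right_comm _ a, hy, one_pow, ← pow_mul, mul_comm (c' * c' * h),
      one_div, inv_mul_cancel₀ (pow_ne_zero _ hr0)]
  rw [show funG Ω P c r g w = funG Ω P c r g (w * 1) by rw [mul_one],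
    prod_range_zr hqa.prime (fun x => funG Ω P c r g (w * x))]
  simp only [funG, Finset.prod_div_distrib, Finset.prod_pow]
  have hsplit : (r : Ω) ^ ((c - 1) * ((q - 1) / 2)) /
      ((r : Ω) ^ ((c - 1) * ((q - 1) / 2))) ^ c =
      1 / ((r : Ω) ^ (c' * c' * h)) ^ (p ^ k * P) := by
    rw [hh, hc', Nat.add_sub_cancel, div_eq_div_iff (pow_ne_zero _ (pow_ne_zero _ hr0))
      (pow_ne_zero _ (pow_ne_zero _ hr0)), one_mul, ← pow_mul, ← pow_mul, ← pow_add]
    congr 1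
    ring
  rw [hεc, hε₁, div_pow _ ((r : Ω) ^ _), ha, mul_pow, mul_pow]
  have e1 : εc * (r : Ω) ^ ((c - 1) * ((q - 1) / 2)) * pJ r g c (zr Ω P ^ c * w ^ q) /
      (ε₁ ^ c * ((r : Ω) ^ ((c - 1) * ((q - 1) / 2))) ^ c * pJ r g c (zr Ω P * w ^ q) ^ c) =
      (εc / ε₁ ^ c) * ((r : Ω) ^ ((c - 1) * ((q - 1) / 2)) /
        ((r : Ω) ^ ((c - 1) * ((q - 1) / 2))) ^ c) *
        (pJ r g c (zr Ω P ^ c * w ^ q) / pJ r g c (zr Ω P * w ^ q) ^ c) := by
    rw [div_mul_div_comm, div_mul_div_comm]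
  rw [e1, hsplit]
  ring

end aux

end FA.GaussKolyvagin
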