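import Fermat.Agent.Kolyvagin.Congr
import Fermat.Agent.GaussValuation.Basic
import Mathlib.NumberTheory.JacobiSum.Basic

/-!
# Jacobi sums at a prime of degree one

For a prime `r`, a generator `g` modulo `r` and a root of unity `u` with `u ^ (r - 1) = 1`,
`pJ r g c u` is the product `∏_{1 ≤ j < c} J(χ, χ ^ j)` of the Jacobi sums of the character with
`χ g = u`: a polynomial in `u`.

* `pJ_mul_inv`: `pJ u * pJ u⁻¹ = r ^ (c - 1)`;
* `ord_pJ`: at a prime over `r` where `u ≡ g ^ n` the order is `c (N - n % N) / N`, `N = r - 1`.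
-/

set_option autoImplicit false
set_option linter.unusedSectionVars false
set_option linter.style.haveILetI false

noncomputable section

open scoped Classical
open Finset NumberField IsDedekindDomain FA.ArtinRec

namespace FA.GaussKolyvagin

variable {r g : ℕ}

/-- The index modulo `r` to the base `g`. -/
def ind (r g : ℕ) (x : ZMod r) : ℕ :=
  if h : ∃ i, i < r - 1 ∧ (g : ZMod r) ^ i = x then h.choose else 0

section index

variable [hr : Fact r.Prime] (hg : orderOf (g : ZMod r) = r - 1)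
include hg

theorem exists_index {x : ZMod r} (hx : x ≠ 0) : ∃ i, i < r - 1 ∧ (g : ZMod r) ^ i = x := by
  haveI : NeZero (r - 1) := ⟨by have := hr.out.two_le; omega⟩
  have hprim : IsPrimitiveRoot (g : ZMod r) (r - 1) := hg ▸ IsPrimitiveRoot.orderOf _
  exact hprim.eq_pow_of_pow_eq_one (ZMod.pow_card_sub_one_eq_one hx)

theorem pow_ind {x : ZMod r} (hx : x ≠ 0) : (g : ZMod r) ^ ind r g x = x := by
  rw [ind, dif_pos (exists_index hg hx)]
  exact (exists_index hg hx).choose_spec.2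

theorem natCast_g_ne_zero : (g : ZMod r) ≠ 0 := fun h => by
  rw [h, orderOf_zero] at hg
  have := hr.out.two_le
  omega

theorem modEq_of_pow_eq {a b : ℕ} (h : (g : ZMod r) ^ a = (g : ZMod r) ^ b) :
    a ≡ b [MOD r - 1] := by
  rw [← hg]
  refine (IsOfFinOrder.pow_eq_pow_iff_modEq ?_).1 h
  rw [← orderOf_pos_iff, hg]
  have := hr.out.two_le
  omega

theorem ind_mul {x y : ZMod r} (hx : x ≠ 0) (hy : y ≠ 0) :
    ind r g (x * y) ≡ ind r g x + ind r g y [MOD r - 1] :=
  modEq_of_pow_eq hg (by rw [pow_add, pow_ind hg (mul_ne_zero hx hy), pow_ind hg hx, pow_ind hg hy])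

theorem ind_one : ind r g 1 ≡ 0 [MOD r - 1] :=
  modEq_of_pow_eq hg (by rw [pow_ind hg one_ne_zero, pow_zero])

theorem ind_self : ind r g (g : ZMod r) ≡ 1 [MOD r - 1] :=
  modEq_of_pow_eq hg (by rw [pow_ind hg (natCast_g_ne_zero hg), pow_one])

end index

variable (r g) in
/-- The Jacobi sum, as a polynomial in the value at `g`. -/
def jac {R : Type*} [CommSemiring R] (u : R) (j : ℕ) : R :=
  ∑ i ∈ Ico 2 r, u ^ (ind r g (i : ZMod r) + j * ind r g (1 - (i : ZMod r)))

variable (r g) in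
/-- The product of the Jacobi sums. -/
def pJ {R : Type*} [CommSemiring R] (c : ℕ) (u : R) : R :=
  ∏ j ∈ Ico 1 c, jac r g u j

theorem map_jac {R S : Type*} [CommSemiring R] [CommSemiring S] (f : R →+* S) (u : R) (j : ℕ) :
    f (jac r g u j) = jac r g (f u) j := by
  simp only [jac, map_sum, map_pow]

theorem map_pJ {R S : Type*} [CommSemiring R] [CommSemiring S] (f : R →+* S) (c : ℕ) (u : R) :
    f (pJ r g c u) = pJ r g c (f u) := by
  simp only [pJ, map_prod, map_jac]

/-- The residues different from `0` and `1`. -/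
theorem sum_Ico_two {A : Type*} [AddCommMonoid A] [hr : Fact r.Prime] (f : ZMod r → A) :
    ∑ i ∈ Ico 2 r, f (i : ZMod r) =
      ∑ x ∈ (univ : Finset (ZMod r)).filter (fun x => x ≠ 0 ∧ x ≠ 1), f x := by
  refine Finset.sum_bij' (fun i _ => (i : ZMod r)) (fun x _ => x.val) (fun i hi => ?_)
    (fun x hx => ?_) (fun i hi => ?_) (fun x _ => ZMod.natCast_zmod_val x) fun _ _ => rfl
  · rw [Finset.mem_Ico] at hi
    refine Finset.mem_filter.2 ⟨Finset.mem_univ _, fun h => ?_, fun h => ?_⟩ <;>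
      have h' := congrArg ZMod.val h
    · rw [ZMod.val_natCast, Nat.mod_eq_of_lt hi.2, ZMod.val_zero] at h'
      omega
    · rw [ZMod.val_natCast, Nat.mod_eq_of_lt hi.2, ZMod.val_one] at h'
      omega
  · obtain ⟨-, h0, h1⟩ := Finset.mem_filter.1 hx
    refine Finset.mem_Ico.2 ⟨?_, ZMod.val_lt x⟩
    by_contra hlt
    rcases Nat.lt_succ_iff.1 (not_le.1 hlt) |>.lt_or_eq with h | h
    · exact h0 ((ZMod.val_eq_zero x).1 (by omega))
    · refine h1 ?_
      rw [← ZMod.natCast_zmod_val x, h, Nat.cast_one]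
  · rw [Finset.mem_Ico] at hi
    rw [ZMod.val_natCast, Nat.mod_eq_of_lt hi.2]

section character

variable [hr : Fact r.Prime] {R : Type*} [Field R] (hg : orderOf (g : ZMod r) = r - 1) {u : R}
  (hu : u ^ (r - 1) = 1)
include hg hu

/-- The character with the value `u` at `g`. -/
def charOf : MulChar (ZMod r) R where
  toFun x := if x = 0 then 0 else u ^ ind r g x
  map_one' := by
    rw [if_neg one_ne_zero, pow_eq_pow_of_modEq (ind_one hg) hu, pow_zero]
  map_mul' x y := by
    rcases eq_or_ne x 0 with rfl | hx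
    · simp
    rcases eq_or_ne y 0 with rfl | hy
    · simp
    rw [if_neg (mul_ne_zero hx hy), if_neg hx, if_neg hy,
      pow_eq_pow_of_modEq (ind_mul hg hx hy) hu, pow_add]
  map_nonunit' x hx := if_pos (by_contra fun h => hx (isUnit_iff_ne_zero.2 h))

theorem charOf_apply {x : ZMod r} (hx : x ≠ 0) : charOf hg hu x = u ^ ind r g x := if_neg hx

theorem charOf_g : charOf hg hu (g : ZMod r) = u := by
  rw [charOf_apply hg hu (natCast_g_ne_zero hg), pow_eq_pow_of_modEq (ind_self hg) hu, pow_one]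

theorem charOf_pow_ne_one {j : ℕ} (hj0 : j ≠ 0) (hj : u ^ j ≠ 1) : charOf hg hu ^ j ≠ 1 := by
  intro h
  have h1 := DFunLike.congr_fun h (g : ZMod r)
  rw [MulChar.pow_apply' _ hj0, charOf_g,
    MulChar.one_apply (isUnit_iff_ne_zero.2 (natCast_g_ne_zero hg))] at h1
  exact hj h1

theorem jac_eq_jacobiSum {j : ℕ} (hj : j ≠ 0) :
    jac r g u j = jacobiSum (charOf hg hu) (charOf hg hu ^ j) := by
  rw [jac, jacobiSum, sum_Ico_two (fun x => u ^ (ind r g x + j * ind r g (1 - x)))]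
  refine (Finset.sum_congr rfl fun x hx => ?_).trans
    (Finset.sum_subset (Finset.filter_subset _ _) fun x _ hx => ?_)
  · obtain ⟨-, h0, h1⟩ := Finset.mem_filter.1 hx
    rw [MulChar.pow_apply' _ hj, charOf_apply hg hu h0,
      charOf_apply hg hu (sub_ne_zero.2 (Ne.symm h1)), ← pow_mul, mul_comm _ j, pow_add]
  · have hx' : x = 0 ∨ x = 1 := by simpa [or_iff_not_imp_left] using hx
    rcases hx' with rfl | rfl
    · rw [MulChar.map_zero, zero_mul]
    · rw [sub_self, MulChar.map_zero, mul_zero]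

theorem charOf_inv (hu' : u⁻¹ ^ (r - 1) = 1) : charOf hg hu' = (charOf hg hu)⁻¹ := by
  refine eq_inv_of_mul_eq_one_left (MulChar.ext fun x => ?_)
  have hu0 : u ≠ 0 := fun h => by
    rw [h, zero_pow (by have := hr.out.two_le; omega)] at hu
    exact zero_ne_one hu
  rw [MulChar.mul_apply, charOf_apply hg hu' x.ne_zero, charOf_apply hg hu x.ne_zero,
    ← mul_pow, inv_mul_cancel₀ hu0, one_pow, MulChar.one_apply_coe]

theorem jac_mul_inv [CharZero R] {j : ℕ} (hj : j ≠ 0) (h1 : u ≠ 1) (hj1 : u ^ j ≠ 1)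
    (hj2 : u ^ (j + 1) ≠ 1) : jac r g u j * jac r g u⁻¹ j = (r : R) := by
  have hu' : u⁻¹ ^ (r - 1) = 1 := by rw [inv_pow, hu, inv_one]
  rw [jac_eq_jacobiSum hg hu hj, jac_eq_jacobiSum hg hu' hj, charOf_inv hg hu hu', inv_pow]
  rw [jacobiSum_mul_jacobiSum_inv, ZMod.card]
  · rw [ringChar.eq R 0, ZMod.ringChar_zmod_n]
    exact hr.out.ne_zero.symm
  · simpa using charOf_pow_ne_one hg hu one_ne_zero (by rwa [pow_one])
  · exact charOf_pow_ne_one hg hu hj hj1
  · rw [← pow_succ']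
    exact charOf_pow_ne_one hg hu (Nat.succ_ne_zero j) hj2

/-- **The absolute value.** -/
theorem pJ_mul_inv [CharZero R] {c : ℕ} (hc : ∀ j, 1 ≤ j → j ≤ c → u ^ j ≠ 1) :
    pJ r g c u * pJ r g c u⁻¹ = (r : R) ^ (c - 1) := by
  rw [pJ, pJ, ← Finset.prod_mul_distrib]
  have h : ∀ j ∈ Ico 1 c, jac r g u j * jac r g u⁻¹ j = (r : R) := fun j hj => by
    rw [Finset.mem_Ico] at hj
    refine jac_mul_inv hg hu (by omega) ?_ (hc j hj.1 hj.2.le) (hc _ (by omega) (by omega))
    simpa using hc 1 le_rfl (by omega)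
  rw [Finset.prod_congr rfl h, Finset.prod_const, Nat.card_Ico]

end character

/-- The sum `∑ x ^ a (1 - x) ^ b` modulo `r` vanishes exactly for `a + b < r - 1`. -/
theorem sum_pow_mul_pow_eq_zero_iff [hr : Fact r.Prime] {a b : ℕ} (ha : a < r - 1)
    (hb : b < r - 1) (ha0 : a ≠ 0) (hb0 : b ≠ 0) (hab : a + b ≠ r - 1) :
    (∑ x : ZMod r, x ^ a * (1 - x) ^ b) = 0 ↔ a + b < r - 1 := by
  have hs : ∀ e, 0 < e → e < 2 * (r - 1) →
      (∑ x : ZMod r, x ^ e) = if e = r - 1 then -1 else 0 := fun e he0 he => by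
    rcases lt_trichotomy e (r - 1) with h | h | h
    · rw [if_neg h.ne]
      exact FiniteField.sum_pow_lt_card_sub_one (ZMod r) e (by rwa [ZMod.card])
    · rw [if_pos h, h]
      have h1 : ∀ x : ZMod r, x ^ (r - 1) = if x = 0 then 0 else 1 := fun x => by
        split_ifs with hx
        · rw [hx, zero_pow (by omega)]
        · exact ZMod.pow_card_sub_one_eq_one hx
      simp only [h1]
      rw [Finset.sum_ite, Finset.sum_const_zero, zero_add, Finset.sum_const, nsmul_one,
        show (univ : Finset (ZMod r)).filter (fun x => ¬ x = 0) = univ.erase 0 by ext x; simp,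
        Finset.card_erase_of_mem (Finset.mem_univ _), Finset.card_univ, ZMod.card,
        Nat.cast_sub hr.out.one_le, ZMod.natCast_self, Nat.cast_one, zero_sub]
    · rw [if_neg h.ne']
      have h1 : ∀ x : ZMod r, x ^ e = x ^ (e - (r - 1)) := fun x => by
        rcases eq_or_ne x 0 with rfl | hx
        · rw [zero_pow (by omega), zero_pow (by omega)]
        · conv_lhs => rw [show e = (e - (r - 1)) + (r - 1) by omega, pow_add,
            ZMod.pow_card_sub_one_eq_one hx, mul_one]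
      simp only [h1]
      exact FiniteField.sum_pow_lt_card_sub_one (ZMod r) _ (by rw [ZMod.card]; omega)
  have hexp : (∑ x : ZMod r, x ^ a * (1 - x) ^ b) =
      ∑ i ∈ range (b + 1), ((b.choose i : ZMod r) * (-1) ^ i) *
        (if a + i = r - 1 then -1 else 0) := by
    have h1 : ∀ x : ZMod r, x ^ a * (1 - x) ^ b =
        ∑ i ∈ range (b + 1), ((b.choose i : ZMod r) * (-1) ^ i) * x ^ (a + i) := fun x => by
      rw [show (1 : ZMod r) - x = -x + 1 by ring, add_pow, Finset.mul_sum]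
      refine Finset.sum_congr rfl fun i _ => ?_
      rw [neg_pow, one_pow, pow_add]
      ring
    simp only [h1]
    rw [Finset.sum_comm]
    refine Finset.sum_congr rfl fun i hi => ?_
    have := Finset.mem_range.1 hi
    rw [← Finset.mul_sum, hs (a + i) (by omega) (by omega)]
  rw [hexp]
  refine ⟨fun h => ?_, fun h => Finset.sum_eq_zero fun i hi => ?_⟩
  · by_contra hge
    rw [Finset.sum_eq_single (r - 1 - a) (fun i _ hne => by rw [if_neg (by omega), mul_zero])
      (fun hn => absurd (Finset.mem_range.2 (by omega)) hn), if_pos (by omega), mul_neg, mul_one,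
      neg_eq_zero, mul_eq_zero, ZMod.natCast_eq_zero_iff] at h
    rcases h with h | h
    · have h1 := Nat.choose_mul_factorial_mul_factorial (show r - 1 - a ≤ b by omega)
      have h2 : r ∣ b.factorial := h1 ▸ dvd_mul_of_dvd_left (dvd_mul_of_dvd_left h _) _
      have := (Nat.Prime.dvd_factorial hr.out).1 h2
      omega
    · exact pow_ne_zero _ (neg_ne_zero.2 one_ne_zero) h
  · have := Finset.mem_range.1 hi
    rw [if_neg (by omega), mul_zero]

/-- One more Jacobi sum in the count. -/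
theorem count_step {N A c : ℕ} (hA : A < N) (hA0 : A ≠ 0) (hc : c * A % N ≠ 0)
    (hne : A + c * A % N ≠ N) :
    (c + 1) * (N - A) / N = c * (N - A) / N + if A + c * A % N < N then 1 else 0 := by
  have hd := Nat.div_add_mod (c * A) N
  have hm := Nat.mod_lt (c * A) (show N > 0 by omega)
  generalize c * A / N = q at hd
  generalize c * A % N = t at hd hm hc hne ⊢
  obtain ⟨B, rfl⟩ : ∃ B, N = A + B := ⟨N - A, by omega⟩
  rw [show A + B - A = B by omega]
  have hqc : q < c := by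
    by_contra hge
    have h1 : (A + B) * c ≤ (A + B) * q := Nat.mul_le_mul_left _ (not_lt.1 hge)
    have h2 : c * A ≤ (A + B) * c := by rw [mul_comm c]; exact Nat.mul_le_mul_right c (by omega)
    omega
  obtain ⟨s, rfl⟩ : ∃ s, c = q + 1 + s := ⟨c - q - 1, by omega⟩
  have ht := Nat.pos_of_ne_zero hc
  have key : (q + 1 + s) * B + t = (s + 1) * (A + B) := by linarith
  have key' : (q + 1 + s + 1) * B + t + A = (s + 2) * (A + B) := by linarith
  have h0 : (q + 1 + s) * B / (A + B) = s := by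
    refine Nat.div_eq_of_lt_le ?_ ?_ <;> linarith
  rw [h0]
  split_ifs with h
  · refine Nat.div_eq_of_lt_le ?_ ?_ <;> linarith
  · rw [add_zero]
    have hlt : A + B < A + t := lt_of_le_of_ne (not_lt.1 h) (Ne.symm hne)
    refine Nat.div_eq_of_lt_le ?_ ?_ <;> linarith

section order

variable {L : Type*} [Field L] [NumberField L] (Q : HeightOneSpectrum (𝓞 L))
  [hr : Fact r.Prime] (hg : orderOf (g : ZMod r) = r - 1) {u : L} (hu : u ^ (r - 1) = 1)
  (hrQ : (r : 𝓞 L) ∈ Q.asIdeal) {n : ℕ} (hn : Q.valuation L (u - (g : L) ^ n) < 1)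
include hg hu hrQ hn

theorem not_dvd_mul_exponent {j : ℕ} (hj : u ^ j ≠ 1) : ¬ (r - 1) ∣ n * j := by
  intro hd
  have hN0 : r - 1 ≠ 0 := by have := hr.out.two_le; omega
  have hint : IsIntegral ℤ u :=
    IsIntegral.of_pow (Nat.pos_of_ne_zero hN0) (by rw [hu]; exact isIntegral_one)
  set u' : 𝓞 L := ⟨u, hint⟩
  set π := Ideal.Quotient.mk Q.asIdeal
  haveI : Nontrivial (𝓞 L ⧸ Q.asIdeal) := Ideal.Quotient.nontrivial_iff.2 Q.isPrime.ne_top
  haveI : CharP (𝓞 L ⧸ Q.asIdeal) r := (CharP.charP_iff_prime_eq_zero hr.out).2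
    ((map_natCast π r).symm.trans (Ideal.Quotient.eq_zero_iff_mem.2 hrQ))
  have hπu : π u' = (g : 𝓞 L ⧸ Q.asIdeal) ^ n := by
    rw [← map_natCast π, ← map_pow, Ideal.Quotient.eq, ← Q.valuation_lt_one_iff_mem (K := L)]
    convert hn using 2
    push_cast
    rfl
  haveI : NeZero (r - 1) := ⟨hN0⟩
  refine hj ?_
  have h1 : π (u' ^ j) = π 1 := by
    rw [map_pow, hπu, ← pow_mul, map_one,
      ← map_natCast (ZMod.castHom dvd_rfl (𝓞 L ⧸ Q.asIdeal)), ← map_pow,
      orderOf_dvd_iff_pow_eq_one.1 (hg.symm ▸ hd), map_one]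
  have hN : ((r - 1 : ℕ) : 𝓞 L) ∉ Q.asIdeal := by
    rw [← Ideal.Quotient.eq_zero_iff_mem, map_natCast, CharP.cast_eq_zero_iff _ r]
    exact fun h => absurd (Nat.le_of_dvd (Nat.pos_of_ne_zero hN0) h)
      (by have := hr.out.two_le; omega)
  have := FA.GaussValuation.eq_of_mk_eq hN (a := u' ^ j) (b := 1)
    (RingOfIntegers.ext (by
      push_cast
      show (u ^ j) ^ (r - 1) = 1
      rw [pow_right_comm, hu, one_pow]))
    (one_pow _) h1
  calc u ^ j = algebraMap (𝓞 L) L (u' ^ j) := by rw [map_pow]; rfl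
    _ = 1 := by rw [this, map_one]

theorem ord_jac (hr1 : ∀ h : (r : L) ≠ 0, ord Q (Units.mk0 (r : L) h) = 1) {j : ℕ} (hj : j ≠ 0)
    (h1 : u ≠ 1) (hj1 : u ^ j ≠ 1) (hj2 : u ^ (j + 1) ≠ 1) {J : Lˣ}
    (hJ : (J : L) = jac r g u j) :
    ord Q J = if n % (r - 1) + j * (n % (r - 1)) % (r - 1) < r - 1 then 1 else 0 := by
  have hN0 : r - 1 ≠ 0 := by have := hr.out.two_le; omega
  have hint : IsIntegral ℤ u :=
    IsIntegral.of_pow (Nat.pos_of_ne_zero hN0) (by rw [hu]; exact isIntegral_one)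
  set u' : 𝓞 L := ⟨u, hint⟩
  set π := Ideal.Quotient.mk Q.asIdeal
  haveI : Nontrivial (𝓞 L ⧸ Q.asIdeal) := Ideal.Quotient.nontrivial_iff.2 Q.isPrime.ne_top
  haveI : CharP (𝓞 L ⧸ Q.asIdeal) r := (CharP.charP_iff_prime_eq_zero hr.out).2
    ((map_natCast π r).symm.trans (Ideal.Quotient.eq_zero_iff_mem.2 hrQ))
  set φ := ZMod.castHom dvd_rfl (𝓞 L ⧸ Q.asIdeal)
  set A := n % (r - 1) with hA
  set B := j * A % (r - 1) with hB
  have hπu : π u' = φ (g : ZMod r) ^ n := by
    rw [map_natCast, ← map_natCast π, ← map_pow, Ideal.Quotient.eq,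
      ← Q.valuation_lt_one_iff_mem (K := L)]
    convert hn using 2
    push_cast
    rfl
  have hnd : ∀ i, u ^ i ≠ 1 → A * i % (r - 1) ≠ 0 := fun i hi h =>
    not_dvd_mul_exponent Q hg hu hrQ hn hi (Nat.dvd_of_mod_eq_zero (by
      rwa [hA, Nat.mul_mod, Nat.mod_mod, ← Nat.mul_mod] at h))
  have hA0 : A ≠ 0 := fun h => hnd 1 (by rwa [pow_one]) (by simp [h])
  have hB0 : B ≠ 0 := by rw [hB, mul_comm]; exact hnd j hj1
  have hAB : A + B ≠ r - 1 := fun h => hnd (j + 1) hj2 (by
    rw [mul_add, mul_one, add_comm, Nat.add_mod, mul_comm A j, ← hB,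
      Nat.mod_eq_of_lt (Nat.mod_lt n (Nat.pos_of_ne_zero hN0)), h, Nat.mod_self])
  have hAlt : A < r - 1 := Nat.mod_lt _ (Nat.pos_of_ne_zero hN0)
  have hres : π (jac r g u' j) = φ (∑ x : ZMod r, x ^ A * (1 - x) ^ B) := by
    rw [map_jac, hπu, ← map_pow, ← map_jac φ]
    congr 1
    rw [jac, sum_Ico_two (fun x => ((g : ZMod r) ^ n) ^ (ind r g x + j * ind r g (1 - x)))]
    have hcongr : ∀ x : ZMod r, x ≠ 0 → ∀ e f, e ≡ f [MOD r - 1] → x ^ e = x ^ f :=
      fun x hx e f hef => pow_eq_pow_of_modEq hef (ZMod.pow_card_sub_one_eq_one hx)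
    refine (Finset.sum_congr rfl fun x hx => ?_).trans
      (Finset.sum_subset (Finset.filter_subset _ _) fun x _ hx => ?_)
    · obtain ⟨-, h0, h1⟩ := Finset.mem_filter.1 hx
      have h1' : (1 : ZMod r) - x ≠ 0 := sub_ne_zero.2 (Ne.symm h1)
      rw [← pow_mul, show n * (ind r g x + j * ind r g (1 - x)) =
          ind r g x * n + ind r g (1 - x) * (j * n) by ring, pow_add, pow_mul, pow_ind hg h0,
        pow_mul, pow_ind hg h1']
      refine congrArg₂ (· * ·) (hcongr x h0 _ _ (Nat.mod_modEq n _).symm) (hcongr _ h1' _ _ ?_)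
      exact (((Nat.mod_modEq n _).symm.mul_left j)).trans (Nat.mod_modEq _ _).symm
    · have hx' : x = 0 ∨ x = 1 := by simpa [or_iff_not_imp_left] using hx
      rcases hx' with rfl | rfl
      · rw [zero_pow hA0, zero_mul]
      · rw [sub_self, zero_pow hB0, mul_zero]
  have hzero : π (jac r g u' j) = 0 ↔ A + B < r - 1 := by
    rw [hres, map_eq_zero,
      sum_pow_mul_pow_eq_zero_iff hAlt (Nat.mod_lt _ (Nat.pos_of_ne_zero hN0)) hA0 hB0 hAB]
  have hu0 : u ≠ 0 := fun h => by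
    rw [h, zero_pow hN0] at hu
    exact zero_ne_one hu
  have hju : algebraMap (𝓞 L) L (jac r g u' j) = jac r g u j := by rw [map_jac]; rfl
  have hJ0 : jac r g u' j ≠ 0 := fun h => J.ne_zero (by rw [hJ, ← hju, h, map_zero])
  have hJeq : J = intU (jac r g u' j) hJ0 := Units.ext (by rw [intU_val, hJ, ← hju])
  split_ifs with h
  · -- the product with the conjugate is `r`
    have hint' : IsIntegral ℤ u⁻¹ :=
      IsIntegral.of_pow (Nat.pos_of_ne_zero hN0)
        (by rw [inv_pow, hu, inv_one]; exact isIntegral_one)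
    have hK : (jac r g u j) * jac r g u⁻¹ j = (r : L) := jac_mul_inv hg hu hj h1 hj1 hj2
    have hr0 : (r : L) ≠ 0 := Nat.cast_ne_zero.2 hr.out.ne_zero
    set v' : 𝓞 L := ⟨u⁻¹, hint'⟩
    have hv : algebraMap (𝓞 L) L (jac r g v' j) = jac r g u⁻¹ j := by rw [map_jac]; rfl
    have hK' : jac r g v' j ≠ 0 := fun h' => hr0 (by rw [← hK, ← hv, h', map_zero, mul_zero])
    have hprod : Units.mk0 (r : L) hr0 = J * intU _ hK' := Units.ext (by
      rw [Units.val_mul, intU_val, Units.val_mk0, hJ, ← hK, ← hv])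
    have h2 := hr1 hr0
    rw [hprod, ord_mul] at h2
    have h3 := ord_intU_nonneg Q hK'
    have h4 : 1 ≤ ord Q J := by
      rw [hJeq]
      refine (le_ord_intU_iff Q hJ0 1).2 ?_
      rw [pow_one, ← Ideal.Quotient.eq_zero_iff_mem]
      exact hzero.2 h
    omega
  · rw [hJeq, ord_intU_eq_zero_iff]
    rw [← Ideal.Quotient.eq_zero_iff_mem]
    exact fun h' => h (hzero.1 h')

/-- **Stickelberger's theorem at degree one.** -/
theorem ord_pJ (hr1 : ∀ h : (r : L) ≠ 0, ord Q (Units.mk0 (r : L) h) = 1) {c : ℕ} (hc1 : 1 ≤ c)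
    (hc : ∀ j, 1 ≤ j → j ≤ c → u ^ j ≠ 1) {J : Lˣ} (hJ : (J : L) = pJ r g c u) :
    ord Q J = ((c * (r - 1 - n % (r - 1)) / (r - 1) : ℕ) : ℤ) := by
  have hN0 : r - 1 ≠ 0 := by have := hr.out.two_le; omega
  have hAlt : n % (r - 1) < r - 1 := Nat.mod_lt _ (Nat.pos_of_ne_zero hN0)
  induction c, hc1 using Nat.le_induction generalizing J with
  | base =>
    have h1 : J = 1 := Units.ext (by rw [hJ, pJ, Finset.Ico_self, Finset.prod_empty]; rfl)
    have h0 : n % (r - 1) ≠ 0 := fun h => not_dvd_mul_exponent Q hg hu hrQ hn (hc 1 le_rfl le_rfl)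
      (by rw [mul_one]; exact Nat.dvd_of_mod_eq_zero h)
    rw [h1, ord_one, one_mul, Nat.div_eq_of_lt (by omega)]
    rfl
  | succ m hm ih =>
    have h1 : u ≠ 1 := by simpa using hc 1 le_rfl (by omega)
    have hj1 := hc m hm (by omega)
    have hj2 := hc (m + 1) (by omega) le_rfl
    have hne : pJ r g m u ≠ 0 ∧ jac r g u m ≠ 0 := by
      refine mul_ne_zero_iff.1 ?_
      rw [pJ, ← Finset.prod_Ico_succ_top hm]
      intro h
      exact J.ne_zero (hJ.trans h)
    have hsplit : J = Units.mk0 _ hne.1 * Units.mk0 _ hne.2 := Units.ext (by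
      rw [hJ, pJ, Finset.prod_Ico_succ_top hm]
      rfl)
    have hA0 : n % (r - 1) ≠ 0 := fun h => not_dvd_mul_exponent Q hg hu hrQ hn
      (hc 1 le_rfl (by omega)) (by rw [mul_one]; exact Nat.dvd_of_mod_eq_zero h)
    have hmA : m * (n % (r - 1)) % (r - 1) ≠ 0 := fun h =>
      not_dvd_mul_exponent Q hg hu hrQ hn hj1 (Nat.dvd_of_mod_eq_zero (by
        rwa [Nat.mul_mod, Nat.mod_mod, ← Nat.mul_mod, mul_comm] at h))
    have hne' : n % (r - 1) + m * (n % (r - 1)) % (r - 1) ≠ r - 1 := fun h =>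
      not_dvd_mul_exponent Q hg hu hrQ hn hj2 (Nat.dvd_of_mod_eq_zero (by
        rw [mul_comm, Nat.mul_mod, ← Nat.mod_mod n, ← Nat.mul_mod, add_mul, one_mul,
          add_comm, Nat.add_mod, Nat.mod_mod, h, Nat.mod_self]))
    rw [hsplit, ord_mul, ih (fun j h1 h2 => hc j h1 (by omega)) (J := Units.mk0 _ hne.1) rfl,
      ord_jac Q hg hu hrQ hn hr1 (by omega) h1 hj1 hj2 (J := Units.mk0 _ hne.2) rfl,
      count_step hAlt hA0 hmA hne']
    split_ifs <;> simp

end order

end FA.GaussKolyvagin
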