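import Fermat.Agent.GaussKolyvagin.Places
import Fermat.Agent.Kolyvagin.Divisors

/-!
# The divisors of the classes of the Gauss sums

* `IsKappa.dvd_ord`: away from `T` and `r` the orders of `κ` are divisible by `M = p ^ k`;
* `IsKappa.dvd_ord_add_log`: at a prime over `q ∈ T` the order of `κ_T` is minus the discrete
  logarithm of `κ_{T \ q}` modulo `M`;
* `spread_ord_eq_neg_spread_dlog`: the same in the group ring.
-/

set_option autoImplicit false
set_option linter.unusedSectionVars false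
set_option linter.style.haveILetI false

noncomputable section

open scoped Classical Pointwise
open Finset IntermediateField NumberField IsDedekindDomain FA.ArtinRec FA.AmbClass
open FA.Kolyvagin (zr zr_spec zr_pow_self fullField IsRootField LogAt gen gen_spec not_dvd_gen
  val_natCast_eq_one_of_coprime val_natCast_lt_one_iff val_eq_one_of_pow_eq_one
  val_natCast_eq_one_iff congr_mul congr_pow congr_zpow congr_val congr_self congr_symm congr_trans
  congr_mul_cancel modEq_of_congr val_map_sub_pow_lt zProd IsDeg1 phiV phiq ordq dlogq spread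
  coeff_spread dlogq_gal ordq_phiq exists_logAt dlog_eq vmk)

namespace FA.GaussKolyvagin

/-- Removing a factor with trivial residue after raising to the power `N`. -/
theorem congr_strip {L Γ : Type*} [Field L] [LinearOrderedCommGroupWithZero Γ] {w : Valuation L Γ}
    {G z : L} (hG : w G = 1) (hz : w z = 1) {n : ℤ} {A B a N p : ℕ} (hn : n = (A : ℤ) - B)
    (h : w (G ^ n * z ^ p - G ^ a) < 1) (hzN : w (z ^ N - 1) < 1) :
    w (G ^ (A * N) - G ^ ((a + B) * N)) < 1 := by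
  have hG0 : G ≠ 0 := fun e => one_ne_zero (hG.symm.trans (by rw [e, map_zero]))
  have hpw : ∀ i : ℕ, w (G ^ i) = 1 := fun i => by rw [map_pow, hG, one_pow]
  have hl : w (G ^ n * z ^ p) = 1 := congr_val h (hpw a)
  have h1 : w ((G ^ n * z ^ p) ^ N - (G ^ a) ^ N) < 1 := congr_pow hl.le (hpw a).le h N
  have h2 : w ((z ^ N) ^ p - 1 ^ p) < 1 :=
    congr_pow (by rw [map_pow, hz, one_pow]) (by rw [map_one]) hzN p
  rw [one_pow] at h2
  have h3 : w (G ^ (A * N) * (z ^ N) ^ p - G ^ (A * N) * 1) < 1 :=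
    congr_mul (hpw _).le (by rw [map_one]) (congr_self _) h2
  have h4 : w ((G ^ n * z ^ p) ^ N * G ^ (B * N) - (G ^ a) ^ N * G ^ (B * N)) < 1 :=
    congr_mul (by rw [map_pow, hl, one_pow]) (hpw _).le h1 (congr_self _)
  have e : (G ^ n * z ^ p) ^ N * G ^ (B * N) = G ^ (A * N) * (z ^ N) ^ p := by
    rw [hn, zpow_sub₀ hG0, zpow_natCast, zpow_natCast, mul_pow, div_pow, pow_right_comm z p,
      pow_mul G A, pow_mul G B, mul_right_comm,
      div_mul_cancel₀ _ (pow_ne_zero _ (pow_ne_zero _ hG0))]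
  rw [e] at h4
  rw [mul_one] at h3
  rw [add_mul, pow_add, pow_mul G a]
  exact congr_trans (congr_symm h3) h4

variable {Ω : Type*} [Field Ω] [CharZero Ω] [IsAlgClosed Ω] [Algebra.IsAlgebraic ℚ Ω] {p P k c : ℕ}
variable {r g : ℕ} {F : Type*} [Field F] [NumberField F] {ι : F →+* Ω} (hι : IsCycBase P ι)
include hι

/-- **Orders away from `T` and `r`.** -/
theorem IsKappa.dvd_ord (hs : Setup p P k c) {T : Finset ℕ} (hT : ∀ q ∈ T, IsAdm p P k q)
    (hA : IsAux P T r g) {x : Fˣ} (hx : IsKappa Ω P c r g p k T (ι x)) (v : HeightOneSpectrum (𝓞 F))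
    (hv : ∀ q ∈ T, (q : 𝓞 F) ∉ v.asIdeal) (hrv : (r : 𝓞 F) ∉ v.asIdeal) :
    ((p ^ k : ℕ) : ℤ) ∣ ord v x := by
  obtain ⟨L, hNF, hGal, ιL, Q, e, hL, hιL, -, hord, hval, he1⟩ :=
    exists_place hι (rootSet_insert hs hT) v
  have hrQ : (r : 𝓞 L) ∉ Q.asIdeal := by
    rw [← val_natCast_eq_one_iff, ← map_natCast ιL r, hval, he1 hv, pow_one]
    exact (val_natCast_eq_one_iff v r).2 hrv
  obtain ⟨-, γ, hγ, hγ0, he, -⟩ := hx
  set γL : Lˣ := Units.mk0 ⟨γ, fullField_le hL hγ⟩ fun h => hγ0 (congrArg Subtype.val h)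
  obtain ⟨hd, hd1⟩ := val_dG hs hT hA hL Q hrQ subset_rfl (IsPt.one T)
  set X : Lˣ := Units.map (ιL : F →* L) x * γL ^ p ^ k
  have h0 : ord Q X = 0 := by
    rw [ord_eq_iff, neg_zero, WithZero.exp_zero, ← hd1]
    refine congrArg _ (Subtype.ext ?_)
    show ((ιL (x : F) : L) : Ω) * γ ^ p ^ k = dG Ω P c r g T 1
    rw [hιL, he]
  rw [ord_mul, ord_pow, hord, he1 hv, Nat.cast_one, one_mul] at h0
  exact ⟨-ord Q γL, by linarith⟩

/-- **The order at a prime of `T`.** -/
theorem IsKappa.dvd_ord_add_log (hs : Setup p P k c) {T : Finset ℕ} (hT : ∀ q ∈ T, IsAdm p P k q)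
    (hA : IsAux P T r g) {q : ℕ} (hqT : q ∈ T) (v : HeightOneSpectrum (𝓞 F))
    (hqv : (q : 𝓞 F) ∈ v.asIdeal) {x y : Fˣ} (hx : IsKappa Ω P c r g p k T (ι x))
    (hy : IsKappa Ω P c r g p k (T.erase q) (ι y)) {j : ℕ} (hj : LogAt v q y j) :
    ((p ^ k : ℕ) : ℤ) ∣ ord v x + j := by
  set M := p ^ k with hM
  have hqa := hT q hqT
  have hq := hqa.prime
  set T' := T.erase q with hT'
  have hT'T : T' ⊆ T := Finset.erase_subset _ _
  have hT'a : ∀ s ∈ T', IsAdm p P k s := fun s hs' => hT s (hT'T hs')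
  have hins : insert q T' = T := Finset.insert_erase hqT
  obtain ⟨e'', he''⟩ := hqa.dvd
  set e' := P * e''
  have he' : q - 1 = M * e' := by rw [he'', hM, mul_assoc]
  have hqp : q ≠ P := fun h => P_notMem hs hT (by rwa [h] at hqT)
  have hrq : r ≠ q := fun h => hA.notMem (h ▸ hqT)
  have hvone : ∀ s : ℕ, s.Prime → s ≠ q → (s : 𝓞 F) ∉ v.asIdeal := fun s hs' hne hmem => by
    exact ((val_natCast_lt_one_iff v s).2 hmem).ne (val_natCast_eq_one_of_coprime
      ((Nat.coprime_primes hs' hq).2 hne) ((val_natCast_lt_one_iff v q).2 hqv))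
  -- normalise `y` at `v`
  set qU : Fˣ := Units.mk0 (q : F) (Nat.cast_ne_zero.2 hq.ne_zero)
  have hqU : ord v qU = 1 := ord_natCast_eq_one hι hs.pos.ne' hq
    ((rootSet_insert hs hT).coprime q (Finset.mem_insert_of_mem hqT) P
      (Finset.mem_insert_self _ _) hqp) v hqv
  obtain ⟨b, hb⟩ := IsKappa.dvd_ord hι hs hT'a (hA.mono hT'T) hy v
    (fun s hs' => hvone s (hT'a s hs').prime (Finset.ne_of_mem_erase hs'))
    (hvone r hA.prime hrq)
  obtain ⟨-, γ', hγ', hγ'0, hey, hγ'σ⟩ := hy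
  obtain ⟨-, γ, hγ, hγ0, hex, hγσ⟩ := hx
  set y' : Fˣ := y * qU ^ (-ord v y) with hy'
  set δ : Ω := γ' * ι (qU ^ b : Fˣ)
  have hδmem : δ ∈ fullField Ω P T' := mul_mem hγ' (iota_mem hι T' _)
  have hδ0 : δ ≠ 0 := mul_ne_zero hγ'0 ((map_ne_zero ι).2 (Units.ne_zero _))
  have hey' : dG Ω P c r g T' 1 = ι y' * δ ^ M := by
    rw [hey]
    have hu : y = y' * (qU ^ b) ^ M := by
      rw [hy', hb, mul_assoc, ← zpow_natCast (qU ^ b), ← zpow_mul, ← zpow_add,
        neg_add_eq_zero.2 (mul_comm _ _), zpow_zero, mul_one]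
    conv_lhs => rw [hu]
    rw [Units.val_mul, Units.val_pow_eq_pow_val, map_mul, map_pow, mul_pow]
    ring
  have hy'0 : ord v y' = 0 := by rw [hy', ord_mul, ord_zpow, hqU]; ring
  have hy'j : v.valuation F ((y' : F) - (gen q : F) ^ j) < 1 := by
    rw [hy', Units.val_mul, Units.val_zpow_eq_zpow_val]
    exact hj
  -- automorphisms
  obtain ⟨σ, φ, hσp, hσT, hσq, hφp, hφT⟩ := exists_sigma_phi (Ω := Ω) hs hT
    (Finset.notMem_erase q T) hT'T hqT
  obtain ⟨a₁, ha₁, hσγ⟩ := hγσ σ hσp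
  obtain ⟨b₁, hb₁, hφγ'⟩ := hγ'σ φ hφp
  have hφδ : φ δ = δ * b₁ ^ P := by
    rw [show φ δ = φ γ' * φ (ι (qU ^ b : Fˣ)) from map_mul φ _ _, hφγ', map_iota hι hφp]
    ring
  obtain ⟨z, ⟨hz, hz0, m, hm⟩, hrel⟩ := derivative_relation hs hT hA (σ := (σ : Ω →+* Ω))
    (φ := (φ : Ω →+* Ω)) (Finset.notMem_erase q T) hT'T hqT hσp hσT hσq hφp hφT
  rw [hins, hex, hey'] at hrel
  set f := dG Ω P c r g T' (zr Ω q)
  have hfP : f ∈ fullField Ω P T :=
    dG_mem hs hT hA hT'T (sField_le_fullField T (isPt_zr hqT).1)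
  have hroot : σ γ * φ δ * z ^ P = γ * f ^ e' * δ := by
    have h' : σ (ι x * γ ^ M) * φ (ι y' * δ ^ M) * z ^ (p ^ k * P) =
        ι x * γ ^ M * f ^ (q - 1) * (ι y' * δ ^ M) := hrel
    rw [map_mul, map_mul, map_pow, map_pow, map_iota hι hσp, map_iota hι hφp, hσγ, hφδ,
      he''] at h'
    have hne : ι (x : F) * γ ^ M * (ι (y' : F) * δ ^ M) ≠ 0 := mul_ne_zero
      (mul_ne_zero ((map_ne_zero ι).2 x.ne_zero) (pow_ne_zero _ hγ0))
      (mul_ne_zero ((map_ne_zero ι).2 y'.ne_zero) (pow_ne_zero _ hδ0))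
    have h1 : (a₁ * b₁ * z) ^ (p ^ k * P) = (f ^ e'') ^ (p ^ k * P) := by
      refine mul_left_cancel₀ hne ?_
      rw [← pow_mul, mul_comm e'', mul_pow (a₁ * b₁)]
      rw [← hM] at h' ⊢
      rw [mul_comm M P, mul_pow a₁ b₁]
      linear_combination h'
    have h2 := pow_P_eq_of_pow_eq hs hT
      (mul_mem (mul_mem ha₁ (fullField_mono hT'T hb₁)) hz) (pow_mem hfP _) h1
    rw [hσγ, hφδ, show f ^ e' = (f ^ e'') ^ P by rw [← pow_mul, mul_comm e'' P]]
    linear_combination γ * δ * h2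
  -- the field
  obtain ⟨L, hNF, hGal, ιL, Q, e, hL, hιL, hepos, hord, hval, -⟩ :=
    exists_place hι (rootSet_insert hs hT) v
  set w := Q.valuation L
  have hlt_iff : ∀ a : F, v.valuation F a < 1 → w (ιL a) < 1 := fun a h => by
    rw [hval]; exact pow_lt_one₀ zero_le h hepos.ne'
  have hone : ∀ a : Fˣ, ord v a = 0 → w (ιL (a : F)) = 1 := fun a h => by
    rw [hval, valuation_eq_exp, h, neg_zero, WithZero.exp_zero, one_pow]
  have hwq : w (q : L) < 1 := by
    rw [← map_natCast ιL q]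
    exact hlt_iff _ ((val_natCast_lt_one_iff v q).2 hqv)
  have hwr : w (r : L) = 1 :=
    val_natCast_eq_one_of_coprime ((Nat.coprime_primes hA.prime hq).2 hrq) hwq
  have hrQ : (r : 𝓞 L) ∉ Q.asIdeal := (val_natCast_eq_one_iff Q r).1 hwr
  have hwg : w (gen q : L) = 1 :=
    val_natCast_eq_one_of_coprime ((hq.coprime_iff_not_dvd.2 (not_dvd_gen hq)).symm) hwq
  -- the root at `q`
  set zq : L := ⟨zr Ω q, hL.zr_mem _ (Finset.mem_insert_of_mem hqT)⟩
  have hzq : IsPrimitiveRoot zq q :=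
    IsPrimitiveRoot.coe_submonoidClass_iff.1 (zr_spec Ω hq.ne_zero)
  have hz1 : w zq = 1 := val_eq_one_of_pow_eq_one w hq.ne_zero hzq.pow_eq_one
  set π : Lˣ := Units.mk0 (zq - 1) (sub_ne_zero.2 (hzq.ne_one hq.one_lt))
  have hπeq : ∀ μ ∈ primitiveRoots q L, w (1 - μ) = w (1 - zq) := fun μ hμ => by
    have hdiv : ∀ {a b : L}, IsPrimitiveRoot a q → b ^ q = 1 → w (1 - b) ≤ w (1 - a) := by
      intro a b ha hb
      haveI : NeZero q := ⟨hq.ne_zero⟩
      obtain ⟨i, -, rfl⟩ := ha.eq_pow_of_pow_eq_one hb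
      rw [← mul_neg_geom_sum, map_mul]
      exact mul_le_of_le_one_right' (w.map_sum_le fun i _ => by
        rw [map_pow, val_eq_one_of_pow_eq_one w hq.ne_zero ha.pow_eq_one, one_pow])
    exact le_antisymm (hdiv hzq ((mem_primitiveRoots hq.pos).1 hμ).pow_eq_one)
      (hdiv ((mem_primitiveRoots hq.pos).1 hμ) hzq.pow_eq_one)
  have hqπ : (e : ℤ) = (q - 1 : ℕ) * ord Q π := by
    have hwprod : w (q : L) = w (zq - 1) ^ (q - 1) := by
      have h := congrArg (Polynomial.eval 1)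
        (Polynomial.cyclotomic_eq_prod_X_sub_primitiveRoots hzq)
      haveI : Fact q.Prime := ⟨hq⟩
      rw [Polynomial.eval_one_cyclotomic_prime, Polynomial.eval_prod] at h
      simp only [Polynomial.eval_sub, Polynomial.eval_X, Polynomial.eval_C] at h
      rw [h, map_prod, Finset.prod_congr rfl hπeq, Finset.prod_const, hzq.card_primitiveRoots,
        Nat.totient_prime hq, Valuation.map_sub_swap]
    have h := hord qU
    rw [hqU, mul_one] at h
    rw [← h, ord_eq_iff, neg_mul_eq_mul_neg, ← nsmul_eq_mul, WithZero.exp_nsmul,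
      ← valuation_eq_exp]
    rw [Units.coe_map]
    show w (ιL (q : F)) = _
    rw [map_natCast]
    exact hwprod
  -- `γ`
  set γL : Lˣ := Units.mk0 ⟨γ, fullField_le hL hγ⟩ fun h => hγ0 (congrArg Subtype.val h)
  obtain ⟨hd, hd1⟩ := val_dG hs hT hA hL Q hrQ subset_rfl (IsPt.one T)
  set o := ord v x
  set n : ℤ := -((e' : ℤ) * o)
  have hγord : ord Q γL = n * ord Q π := by
    have h0 : ord Q (Units.map (ιL : F →* L) x * γL ^ M) = 0 := by
      rw [ord_eq_iff, neg_zero, WithZero.exp_zero, ← hd1]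
      refine congrArg _ (Subtype.ext ?_)
      show ((ιL (x : F) : L) : Ω) * γ ^ M = dG Ω P c r g T 1
      rw [hιL, hex]
    rw [ord_mul, ord_pow, hord, hqπ, he', Nat.cast_mul] at h0
    have hM0 : (M : ℤ) ≠ 0 := by exact_mod_cast pow_ne_zero _ hs.hp.ne_zero
    exact mul_left_cancel₀ hM0 (by linear_combination h0)
  set u : Lˣ := γL / π ^ n
  have hu1 : w (u : L) = 1 := by
    rw [valuation_eq_exp, ord_div, ord_zpow, hγord, sub_self, neg_zero, WithZero.exp_zero]
  -- integers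
  obtain ⟨Zi, hZi, hadj⟩ := hL.adjoin_int
  set Z : L := (Zi : L)
  have hZ1 : w Z ≤ 1 := Q.valuation_le_one Zi
  set σL := σ.restrictNormal L
  set φL := φ.restrictNormal L
  have hσL : ∀ a : L, ((σL a : L) : Ω) = σ (a : Ω) := fun a =>
    AlgEquiv.restrictNormal_commutes σ L a
  have hφL : ∀ a : L, ((φL a : L) : Ω) = φ (a : Ω) := fun a =>
    AlgEquiv.restrictNormal_commutes φ L a
  have hzpow : ∀ i : ℕ, w (zq ^ i - 1) < 1 := fun i => by
    have hπ1 : w (zq - 1) < 1 := by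
      rw [show (zq - 1) = (π : L) from rfl, valuation_eq_exp, ← WithZero.exp_zero,
        WithZero.exp_lt_exp, neg_lt_zero]
      have h1 : (0 : ℤ) < e := by exact_mod_cast hepos
      rw [hqπ] at h1
      exact pos_of_mul_pos_right h1 (Int.natCast_nonneg _)
    have := congr_pow (w := w) hz1.le (by rw [map_one]) (b := 1) hπ1 i
    rwa [one_pow] at this
  have hσcongr : ∀ a : L, w a ≤ 1 → w (σL a - a) < 1 := fun a ha => by
    have h := val_map_sub_pow_lt hadj Q (Or.inl rfl) (σL : L →+* L) (fun b hb => ?_) ha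
    · rwa [pow_one] at h
    rw [Set.mem_singleton_iff] at hb
    subst hb
    rw [pow_one]
    show w (σL Z - Z) < 1
    have hσZ : σL Z * zq = Z * zq ^ gen q := by
      refine Subtype.ext ?_
      show ((σL Z : L) : Ω) * zr Ω q = (Z : Ω) * zr Ω q ^ gen q
      rw [hσL, hZi]
      rw [zProd, map_prod, ← Finset.mul_prod_erase _ _ (Finset.mem_insert_of_mem hqT),
        ← Finset.mul_prod_erase _ (fun s => zr Ω s) (Finset.mem_insert_of_mem hqT), hσq,
        Finset.prod_congr rfl fun s hs' => (show σ (zr Ω s) = zr Ω s from ?_)]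
      · ring
      · obtain ⟨hsq, hs''⟩ := Finset.mem_erase.1 hs'
        rcases Finset.mem_insert.1 hs'' with rfl | hs''
        · exact hσp
        · exact hσT s (Finset.mem_erase.2 ⟨hsq, hs''⟩)
    refine congr_mul_cancel hz1 ?_
    rw [hσZ]
    exact congr_mul hZ1 hz1.le (congr_self Z)
      (congr_trans (b := 1) (hzpow (gen q)) (congr_symm (by simpa using hzpow 1)))
  set δL : Lˣ := Units.mk0 ⟨δ, fullField_le hL (fullField_mono hT'T hδmem)⟩
    fun h => hδ0 (congrArg Subtype.val h)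
  have hwy : w (ιL (y' : F)) = 1 := hone y' hy'0
  obtain ⟨hd', hd'1⟩ := val_dG hs hT hA hL Q hrQ hT'T (IsPt.one T)
  obtain ⟨hf, hf1⟩ := val_dG hs hT hA hL Q hrQ hT'T (w := (zq : Ω)) (isPt_zr hqT)
  have hd'eq : (⟨_, hd'⟩ : L) = ιL (y' : F) * (δL : L) ^ M :=
    Subtype.ext (by
      show dG Ω P c r g T' 1 = ((ιL (y' : F) : L) : Ω) * δ ^ M
      rw [hιL, hey'])
  have hδ1 : w (δL : L) = 1 := by
    rw [hd'eq, map_mul, hwy, one_mul, map_pow] at hd'1
    exact (pow_eq_one_iff_of_nonneg zero_le (pow_ne_zero _ hs.hp.ne_zero)).1 hd'1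
  -- Frobenius
  have hφcongr : w (φL (δL : L) - (δL : L) ^ q) < 1 := by
    have hP := rootSet_insert hs hT
    obtain ⟨φ', hφ'⟩ := exists_aut (Ω := Ω) hP (fun s => if s = q then 1 else q) fun s hs' => by
      split_ifs with h
      · exact Nat.coprime_one_left s
      · exact hP.coprime q (Finset.mem_insert_of_mem hqT) s hs' (Ne.symm h)
    have hqQ : (q : 𝓞 L) ∈ Q.asIdeal := (val_natCast_lt_one_iff Q q).1 hwq
    have hφ'p : φ' (zr Ω P) = zr Ω P := by
      rw [hφ' P (Finset.mem_insert_self _ _), if_neg hqp.symm,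
        FA.Kolyvagin.zr_pow_congr Ω hqa.modEq_one, pow_one]
    have heq : φ' δ = φ δ := by
      have : (φ⁻¹ * φ') δ = δ := by
        refine mem_fullField_iff.1 hδmem (φ⁻¹ * φ') fun s hs' => ?_
        show φ.symm (φ' (zr Ω s)) = _
        rw [AlgEquiv.symm_apply_eq]
        rcases Finset.mem_insert.1 hs' with rfl | hs'
        · rw [hφ'p, hφp]
        · rw [hφ' s (Finset.mem_insert_of_mem (hT'T hs')), if_neg (Finset.ne_of_mem_erase hs'),
            hφT s hs']
      exact (AlgEquiv.symm_apply_eq _).1 this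
    set φ'L := φ'.restrictNormal L
    have hφ'L : ∀ a : L, ((φ'L a : L) : Ω) = φ' (a : Ω) := fun a =>
      AlgEquiv.restrictNormal_commutes φ' L a
    have h := val_map_sub_pow_lt hadj Q (Or.inr ⟨hq, hqQ⟩) (φ'L : L →+* L) (fun b hb => ?_)
      hδ1.le
    · have : φ'L (δL : L) = φL (δL : L) := Subtype.ext (by rw [hφL, hφ'L]; exact heq)
      rwa [show (φ'L : L →+* L) (δL : L) = φL (δL : L) from this] at h
    rw [Set.mem_singleton_iff] at hb
    subst hb
    show w (φ'L Z - Z ^ q) < 1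
    have hφZ : φ'L Z = Z ^ q * zq := by
      refine Subtype.ext ?_
      show ((φ'L Z : L) : Ω) = (Z : Ω) ^ q * zr Ω q
      rw [hφ'L, hZi]
      rw [zProd, map_prod, ← Finset.prod_pow,
        ← Finset.mul_prod_erase _ _ (Finset.mem_insert_of_mem hqT),
        ← Finset.mul_prod_erase _ (fun s => zr Ω s ^ q) (Finset.mem_insert_of_mem hqT),
        hφ' q (Finset.mem_insert_of_mem hqT), if_pos rfl, pow_one, zr_pow_self, one_mul, mul_comm]
      congr 1
      exact Finset.prod_congr rfl fun s hs' => by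
        rw [hφ' s (Finset.mem_of_mem_erase hs'), if_neg (Finset.ne_of_mem_erase hs')]
    rw [hφZ, ← mul_sub_one, map_mul, map_pow]
    exact (mul_le_of_le_one_left' (pow_le_one' hZ1 q)).trans_lt (by simpa using hzpow 1)
  -- the geometric sum
  set s : L := ∑ i ∈ range (gen q), zq ^ i
  have hsg : w (s - (gen q : L)) < 1 := by
    rw [show s - (gen q : L) = ∑ i ∈ range (gen q), (zq ^ i - 1) by
      rw [Finset.sum_sub_distrib, Finset.sum_const, Finset.card_range, nsmul_one]]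
    exact w.map_sum_lt one_ne_zero fun i _ => hzpow i
  have hs1 : w s = 1 := congr_val hsg hwg
  have hfd : w ((⟨_, hf⟩ : L) - ⟨_, hd'⟩) < 1 :=
    val_dG_congr hs hT hA hL Q hrQ hT'T (isPt_zr hqT) (by simpa using hzpow 1) hf hd'
  have hγsplit : (γL : L) = (π : L) ^ n * (u : L) := by
    rw [show (u : L) = (γL : L) / (π : L) ^ n by
      simp only [u, Units.val_div_eq_div_val, Units.val_zpow_eq_zpow_val], mul_div_cancel₀]
    exact zpow_ne_zero _ π.ne_zero
  have hσπ : σL (π : L) = (π : L) * s := by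
    show σL (zq - 1) = (zq - 1) * s
    rw [mul_comm, geom_sum_mul, map_sub, map_one]
    congr 1
    exact Subtype.ext (by rw [hσL]; exact hσq)
  set zL : L := ⟨z, fullField_le hL hz⟩
  have hfL : σL (γL : L) * φL (δL : L) * zL ^ P = (γL : L) * (⟨_, hf⟩ : L) ^ e' * (δL : L) := by
    refine Subtype.ext ?_
    push_cast [hσL, hφL]
    exact hroot
  rw [hγsplit, map_mul, map_zpow₀, hσπ, mul_zpow, mul_assoc, mul_assoc, mul_assoc, mul_assoc,
    mul_assoc, mul_right_inj' (zpow_ne_zero _ π.ne_zero)] at hfL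
  -- the adjustment has trivial residue
  set N₂ := 2 * ∏ s ∈ T, s
  have hN₂ : N₂ ≠ 0 :=
    Nat.mul_ne_zero two_ne_zero (Finset.prod_pos fun s hs' => (hT s hs').prime.pos).ne'
  have hmL : zL ^ N₂ * (r : L) ^ m = 1 := Subtype.ext (by push_cast; exact hm)
  have hzL1 : w zL = 1 := by
    have h := congrArg w hmL
    rw [map_mul, map_pow, map_pow, hwr, one_pow, mul_one, map_one] at h
    exact (pow_eq_one_iff_of_nonneg zero_le hN₂).1 h
  have hzN : w (zL ^ N₂ - 1) < 1 := by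
    have hr1 : w ((r : L) - 1) < 1 := by
      obtain ⟨d, hd⟩ := hA.dvd q hqT
      have h : w ((r - 1 : ℕ) : L) < 1 := by
        rw [hd, Nat.cast_mul, map_mul]
        exact (mul_le_of_le_one_right' (FA.Kolyvagin.val_natCast_le_one w d)).trans_lt hwq
      rwa [Nat.cast_sub hA.prime.one_le, Nat.cast_one] at h
    have h1 := congr_pow (w := w) hwr.le (by rw [map_one]) (b := 1) hr1 m
    rw [one_pow] at h1
    refine congr_mul_cancel (c := (r : L) ^ m) (by rw [map_pow, hwr, one_pow]) ?_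
    rw [hmL, one_mul]
    exact congr_symm h1
  -- reduce
  have hgn : w ((gen q : L) ^ n) = 1 := by rw [map_zpow₀, hwg, one_zpow]
  have hur : w ((u : L) * (δL : L) ^ q) = 1 := by
    rw [map_mul, map_pow, hu1, hδ1, one_pow, mul_one]
  have hL1 : w (s ^ n * (σL (u : L) * (φL (δL : L) * zL ^ P)) -
      (gen q : L) ^ n * zL ^ P * ((u : L) * (δL : L) ^ q)) < 1 := by
    have h1 := hσcongr _ hu1.le
    have h2 := congr_mul (w := w) (a := s ^ n) (b := (gen q : L) ^ n)
      (by rw [map_zpow₀, hs1, one_zpow]) hur.le (congr_zpow hwg hsg n)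
      (congr_mul (congr_val h1 hu1).le (by rw [map_pow, hδ1, one_pow]) h1 hφcongr)
    have h3 := congr_mul (w := w) (c := zL ^ P) (d := zL ^ P) ?_ (by rw [map_pow, hzL1, one_pow]) h2
      (congr_self _)
    · convert h3 using 3 <;> ring
    · rw [map_mul, map_zpow₀, hs1, one_zpow, one_mul, map_mul, congr_val h1 hu1, one_mul,
        congr_val hφcongr (by rw [map_pow, hδ1, one_pow])]
  have hR1 : w ((u : L) * ((⟨_, hf⟩ : L) ^ e' * (δL : L)) -
      (gen q : L) ^ (j * e') * ((u : L) * (δL : L) ^ q)) < 1 := by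
    have h1 : w ((⟨_, hf⟩ : L) ^ e' - ((gen q : L) ^ j * (δL : L) ^ M) ^ e') < 1 := by
      refine congr_pow hf1.le (by rw [map_mul, map_pow, map_pow, hwg, hδ1, one_pow, one_pow,
        one_mul]) (congr_trans hfd ?_) e'
      rw [hd'eq]
      refine congr_mul hwy.le (by rw [map_pow, hδ1, one_pow]) ?_ (congr_self _)
      have := hlt_iff _ hy'j
      rwa [map_sub, map_pow, map_natCast] at this
    rw [show (gen q : L) ^ (j * e') * ((u : L) * (δL : L) ^ q) =
        (u : L) * (((gen q : L) ^ j * (δL : L) ^ M) ^ e' * (δL : L)) by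
      rw [mul_pow, ← pow_mul, ← pow_mul, ← he', mul_assoc _ _ (δL : L), ← pow_succ,
        Nat.sub_add_cancel hq.one_le]
      ring]
    refine congr_mul hu1.le ?_ (congr_self _) (congr_mul ?_ hδ1.le h1 (congr_self _))
    · simp only [map_mul, map_pow, hwg, hδ1, one_pow, one_mul, le_refl]
    · rw [map_pow, hf1, one_pow]
  rw [← hfL] at hR1
  have hg : w ((gen q : L) ^ n * zL ^ P - (gen q : L) ^ (j * e')) < 1 :=
    congr_mul_cancel hur (congr_trans (congr_symm hL1) hR1)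
  obtain ⟨A, B, hAB⟩ : ∃ A B : ℕ, n = (A : ℤ) - B :=
    ⟨n.toNat, (-n).toNat, (Int.toNat_sub_toNat_neg n).symm⟩
  have hnat : w (((gen q ^ (A * N₂) : ℕ) : L) - ((gen q ^ ((j * e' + B) * N₂) : ℕ) : L)) < 1 := by
    rw [Nat.cast_pow, Nat.cast_pow]
    exact congr_strip hwg hzL1 hAB hg hzN
  have hmod : ((A * N₂ : ℕ) : ZMod (q - 1)) = (((j * e' + B) * N₂ : ℕ) : ZMod (q - 1)) := by
    rw [ZMod.natCast_eq_natCast_iff]
    have h := modEq_of_congr hq hwq hnat
    rw [← ZMod.natCast_eq_natCast_iff, Nat.cast_pow, Nat.cast_pow] at h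
    haveI : Fact q.Prime := ⟨hq⟩
    rw [← gen_spec hq]
    refine (IsOfFinOrder.pow_eq_pow_iff_modEq ?_).1 h
    rw [← orderOf_pos_iff, gen_spec hq]
    have := hq.two_le
    omega
  have hdvd : ((q - 1 : ℕ) : ℤ) ∣ ((A * N₂ : ℕ) : ℤ) - (((j * e' + B) * N₂ : ℕ) : ℤ) := by
    rw [← ZMod.intCast_zmod_eq_zero_iff_dvd, Int.cast_sub, Int.cast_natCast, Int.cast_natCast,
      hmod, sub_self]
  rw [he'] at hdvd
  push_cast at hdvd
  have he'0 : (e' : ℤ) ≠ 0 := by
    intro h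
    have h' : e' = 0 := by exact_mod_cast h
    rw [h', mul_zero] at he'
    have := hq.two_le
    omega
  have hcop : IsCoprime ((M : ℤ)) (N₂ : ℤ) :=
    Nat.isCoprime_iff_coprime.2 ((coprime_prod hs hT).pow_left k)
  refine hcop.dvd_of_dvd_mul_right (Int.dvd_of_mul_dvd_mul_right he'0 (dvd_neg.1 ?_))
  have hn : (A : ℤ) - B = -((e' : ℤ) * o) := hAB.symm
  rw [show -((o + (j : ℤ)) * (N₂ : ℤ) * e') = (A : ℤ) * N₂ - ((j : ℤ) * e' + B) * N₂ by
    linear_combination -(N₂ : ℤ) * hn]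
  exact hdvd

/-- **The relation at a prime of `T`** in the group ring. -/
theorem spread_ord_eq_neg_spread_dlog [IsGalois ℚ F] {G : Type*} [CommGroup G] [Fintype G]
    (τ : G →* (F ≃ₐ[ℚ] F)) [NeZero (p ^ k)] (hs : Setup p P k c) {T : Finset ℕ}
    (hT : ∀ q ∈ T, IsAdm p P k q) (hA : IsAux P T r g) {q : ℕ} (hqT : q ∈ T)
    {v : HeightOneSpectrum (𝓞 F)} (hv : IsDeg1 (p ^ k) v q) {x y : Fˣ}
    (hx : IsKappa Ω P c r g p k T (ι x)) (hy : IsKappa Ω P c r g p k (T.erase q) (ι y)) :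
    spread (phiV τ) (ordq v (p ^ k)) (vmk (p ^ k) x) =
      -spread (phiV τ) (dlogq hv) (vmk (p ^ k) y) := by
  refine MonoidAlgebra.ext (Finsupp.ext fun g' => ?_)
  rw [MonoidAlgebra.coeff_neg, Finsupp.neg_apply, coeff_spread, coeff_spread]
  have hv' := hv.gal (τ g')
  obtain ⟨j, hj⟩ := exists_logAt hv' y
  have h := IsKappa.dvd_ord_add_log hι hs hT hA hqT (galPrime (τ g') v)
    (hv'.norm ▸ Ideal.absNorm_mem _) hx hy hj
  have h1 : dlogq hv (phiq (phiV τ) _ g'⁻¹ (vmk (p ^ k) y)) = (j : ZMod (p ^ k)) := by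
    rw [← dlogq_gal τ hv g', show phiq (phiV τ) _ g' (phiq (phiV τ) _ g'⁻¹ (vmk (p ^ k) y)) =
        phiq (phiV τ) _ (g' * g'⁻¹) (vmk (p ^ k) y) by rw [map_mul]; rfl,
      mul_inv_cancel, map_one]
    exact dlog_eq hv' hj
  have h2 : ordq v (p ^ k) (phiq (phiV τ) _ g'⁻¹ (vmk (p ^ k) x)) =
      ((ord (galPrime (τ g') v) x : ℤ) : ZMod (p ^ k)) := by
    rw [← ordq_phiq τ v _ g', show phiq (phiV τ) _ g' (phiq (phiV τ) _ g'⁻¹ (vmk (p ^ k) x)) =
        phiq (phiV τ) _ (g' * g'⁻¹) (vmk (p ^ k) x) by rw [map_mul]; rfl,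
      mul_inv_cancel, map_one]
    rfl
  rw [h1, h2]
  rw [← ZMod.intCast_zmod_eq_zero_iff_dvd, Int.cast_add, Int.cast_natCast] at h
  exact eq_neg_of_add_eq_zero_left h

end FA.GaussKolyvagin
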