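import Fermat.Agent.GaussKolyvagin.Derivative

/-!
# Valuations of the derivatives of the Gauss sums

`F` is embedded in `Ω` with image `ℚ(ζ_P)`.

* `exists_place`: a place of a root field over a prime of `F`, unramified off the roots;
* `val_dG`: the derivative is a unit at the primes not over `r`;
* `val_dG_congr`: it depends on the point only modulo the maximal ideal.
-/

set_option autoImplicit false
set_option linter.unusedSectionVars false
set_option linter.style.haveILetI false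

noncomputable section

open scoped Classical
open Finset IntermediateField NumberField IsDedekindDomain FA.ArtinRec
open FA.Kolyvagin (zr zr_spec fullField IsRootField isGalois_rat
  val_eq_one_of_pow_eq_one val_natCast_eq_one_iff val_natCast_lt_one_iff congr_mul congr_pow
  congr_inv congr_self zr_pow_self pt wt)

namespace FA.GaussKolyvagin

variable {Ω : Type*} [Field Ω] [CharZero Ω] [IsAlgClosed Ω] [Algebra.IsAlgebraic ℚ Ω] {p P k c : ℕ}
variable {r g : ℕ}

/-- The root field contains the field of the roots. -/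
theorem fullField_le {S : Finset ℕ} {L : IntermediateField ℚ Ω} (hL : IsRootField P S L) :
    fullField Ω P S ≤ L :=
  adjoin_le_iff.2 (by rintro _ ⟨q, hq, rfl⟩; exact hL.zr_mem q hq)

section congruence

variable {L : Type*} [Field L] {Γ : Type*} [LinearOrderedCommGroupWithZero Γ] {w : Valuation L Γ}

theorem val_jac_le {u : L} (hu : w u ≤ 1) (j : ℕ) : w (jac r g u j) ≤ 1 :=
  w.map_sum_le fun i _ => by rw [map_pow]; exact pow_le_one' hu _

theorem congr_jac {a b : L} (ha : w a ≤ 1) (hb : w b ≤ 1) (h : w (a - b) < 1) (j : ℕ) :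
    w (jac r g a j - jac r g b j) < 1 := by
  rw [jac, jac, ← Finset.sum_sub_distrib]
  exact w.map_sum_lt one_ne_zero fun i _ => congr_pow ha hb h _

theorem congr_pJ {a b : L} (ha : w a ≤ 1) (hb : w b ≤ 1) (h : w (a - b) < 1) :
    w (pJ r g c a - pJ r g c b) < 1 := by
  have key : ∀ J : Finset ℕ, w (∏ j ∈ J, jac r g b j) ≤ 1 ∧
      w (∏ j ∈ J, jac r g a j - ∏ j ∈ J, jac r g b j) < 1 := by
    intro J
    induction J using Finset.induction with
    | empty => simp
    | insert j J hj ih =>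
      rw [Finset.prod_insert hj, Finset.prod_insert hj]
      exact ⟨by rw [map_mul]; exact mul_le_one' (val_jac_le hb j) ih.1,
        congr_mul (val_jac_le ha j) ih.1 (congr_jac ha hb h j) ih.2⟩
  exact (key _).2

end congruence

variable (P) in
/-- The embedding identifies `F` with `ℚ(ζ_P)`. -/
def IsCycBase {F : Type*} [Field F] (ι : F →+* Ω) : Prop :=
  ∀ x : Ω, x ∈ fullField Ω P ∅ ↔ ∃ y, ι y = x

section base

variable {F : Type*} [Field F] [NumberField F] {ι : F →+* Ω} (hι : IsCycBase P ι)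
include hι

theorem map_iota {σ : Ω ≃ₐ[ℚ] Ω} (hσ : σ (zr Ω P) = zr Ω P) (y : F) : σ (ι y) = ι y :=
  mem_fullField_iff.1 ((hι _).2 ⟨y, rfl⟩) σ fun q hq => by
    rw [Finset.mem_insert] at hq
    rcases hq with rfl | hq
    · exact hσ
    · exact absurd hq (Finset.notMem_empty q)

theorem iota_mem (T : Finset ℕ) (y : F) : ι y ∈ fullField Ω P T :=
  fullField_mono (Finset.empty_subset T) ((hι _).2 ⟨y, rfl⟩)

theorem exists_isKappa_base (hs : Setup p P k c) {T : Finset ℕ} (hT : ∀ q ∈ T, IsAdm p P k q)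
    (hA : IsAux P T r g) : ∃ x : Fˣ, IsKappa Ω P c r g p k T (ι x) := by
  obtain ⟨x, hx⟩ := exists_isKappa (Ω := Ω) hs hT hA
  obtain ⟨y, rfl⟩ := (hι x).1 hx.1
  exact ⟨Units.mk0 y fun h => hx.ne_zero hs hT hA (by rw [h, map_zero]), hx⟩

/-- A place over `v`, unramified if `v` avoids the primes of the roots. -/
theorem exists_place {S : Finset ℕ} (hS : RootSet (insert P S)) (v : HeightOneSpectrum (𝓞 F)) :
    ∃ (L : IntermediateField ℚ Ω) (_ : NumberField L) (_ : IsGalois ℚ L) (j : F →+* L)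
      (Q : HeightOneSpectrum (𝓞 L)) (e : ℕ),
      IsRootField P S L ∧ (∀ x, (j x : Ω) = ι x) ∧ 0 < e ∧
      (∀ x : Fˣ, ord Q (Units.map (j : F →* L) x) = e * ord v x) ∧
      (∀ x : F, Q.valuation _ (j x) = v.valuation F x ^ e) ∧
      ((∀ q ∈ S, (q : 𝓞 F) ∉ v.asIdeal) → e = 1) := by
  haveI := isGalois_rat (Ω := Ω)
  obtain ⟨L, hNF, hGal, hL⟩ := exists_rootField (Ω := Ω) hS
  let j : F →+* L := ι.codRestrict L fun y => fullField_le hL (iota_mem hι S y)
  letI : Algebra F L := j.toAlgebra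
  haveI : IsScalarTower ℚ F L := IsScalarTower.of_algebraMap_eq' (Subsingleton.elim _ _)
  haveI : IsGalois F L := IsGalois.tower_top_of_isGalois ℚ F _
  obtain ⟨Q, rfl⟩ := exists_belowP F L v
  refine ⟨L, hNF, hGal, j, Q, eIdx F Q, hL, fun _ => rfl, eIdx_pos Q, fun x => ord_baseU Q x,
    fun x => ?_, fun hv => ?_⟩
  · haveI : Q.asIdeal.LiesOver (belowP F Q).asIdeal := ⟨rfl⟩
    exact (HeightOneSpectrum.valuation_liesOver L (belowP F Q) Q x).symm
  refine eIdx_eq_one fun ⟨Q', hQ', hne⟩ => hne ((Subgroup.eq_bot_iff_forall _).2 fun τ hτ => ?_)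
  let τQ : L ≃ₐ[ℚ] L := AlgEquiv.ofRingEquiv (f := τ.toRingEquiv) fun x =>
    map_ratCast τ.toRingEquiv x
  set σ := τQ.liftNormal Ω
  have hσ : ∀ y : L, σ (y : Ω) = (τ y : L) := fun y => τQ.liftNormal_commutes Ω y
  have hfix : ∀ q ∈ insert P S, σ (zr Ω q) = zr Ω q := by
    intro q hq
    have h := hσ ⟨zr Ω q, hL.zr_mem q hq⟩
    rcases Finset.mem_insert.1 hq with e | hqS
    · subst e
      obtain ⟨y, hy⟩ := (hι (zr Ω q)).1 (zr_P_mem ∅)
      have h := hσ (algebraMap F L y)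
      rw [τ.commutes] at h
      rwa [show ((algebraMap F L y : L) : Ω) = zr Ω q from hy] at h
    rw [inertia_fix Q' hτ (hS.ne_zero q hq) (IsPrimitiveRoot.coe_submonoidClass_iff.1
      (zr_spec Ω (hS.ne_zero q hq))) fun hmem => hv q hqS (by
        rw [← hQ']
        show algebraMap (𝓞 F) (𝓞 L) (q : 𝓞 F) ∈ Q'.asIdeal
        rwa [map_natCast])] at h
    exact h
  refine AlgEquiv.ext fun y => Subtype.ext ?_
  rw [← hσ y]
  exact hL.fixed σ hfix y

/-- Primes not dividing `P` do not ramify in `F`. -/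
theorem ord_natCast_eq_one (hP : P ≠ 0) {q : ℕ} (hq : q.Prime) (hqP : q.Coprime P)
    (v : HeightOneSpectrum (𝓞 F)) (hqv : (q : 𝓞 F) ∈ v.asIdeal) :
    ord v (Units.mk0 (q : F) (Nat.cast_ne_zero.2 hq.ne_zero)) = 1 := by
  have hS : RootSet (insert P (∅ : Finset ℕ)) := ⟨by simp [hP], by simp⟩
  obtain ⟨L, hNF, hGal, j, Q, e, hL, -, -, hord, hval, he1⟩ := exists_place hι hS v
  have he : e = 1 := he1 fun s hs => absurd hs (Finset.notMem_empty s)
  have hqQ : (q : 𝓞 L) ∈ Q.asIdeal := by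
    rw [← val_natCast_lt_one_iff, ← map_natCast j q, hval, he, pow_one]
    exact (val_natCast_lt_one_iff v q).2 hqv
  have h := hord (Units.mk0 (q : F) (Nat.cast_ne_zero.2 hq.ne_zero))
  rw [he, Nat.cast_one, one_mul] at h
  rw [← h, show Units.map (j : F →* L) (Units.mk0 (q : F) (Nat.cast_ne_zero.2 hq.ne_zero)) =
    Units.mk0 (q : L) (Nat.cast_ne_zero.2 hq.ne_zero) from Units.ext (map_natCast j q)]
  exact ord_natCast_root hS hL hq (by simpa using hqP) Q hqQ _

end base

section field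

variable {S : Finset ℕ} {L : IntermediateField ℚ Ω} [NumberField L] (hs : Setup p P k c)
  (hS : ∀ q ∈ S, IsAdm p P k q) (hA : IsAux P S r g) (hL : IsRootField P S L)
include hs hS hA hL

/-- A value of `funG` is a unit away from `r`. -/
theorem val_funG (Q : HeightOneSpectrum (𝓞 L)) (hrQ : (r : 𝓞 L) ∉ Q.asIdeal) {w : Ω}
    (hw : IsPt S w) :
    ∃ h : funG Ω P c r g w ∈ L, Q.valuation L ⟨funG Ω P c r g w, h⟩ = 1 := by
  haveI : Fact r.Prime := ⟨hA.prime⟩
  have hwL : w ∈ L := fullField_le hL (sField_le_fullField S hw.1)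
  have hzL : zr Ω P ∈ L := hL.zr_mem P (Finset.mem_insert_self _ _)
  have key : ∀ a : ℕ, ¬ p ∣ a → ∀ u : L, (u : Ω) = zr Ω P ^ a * w →
      Q.valuation L (pJ r g c u) = 1 := fun a ha u hu => by
    have hu1 : u ^ (r - 1) = 1 := Subtype.ext (by
      show (u : Ω) ^ (r - 1) = 1
      rw [hu]
      exact hw.pow_r_sub_one hA (prime_of_adm hS) a)
    have hu2 : ∀ j, 1 ≤ j → j ≤ c → u ^ j ≠ 1 := fun j h1 h2 h =>
      hw.pow_ne_one hs hS ha h1 h2 (by
        rw [← hu]
        exact congrArg Subtype.val h)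
    have h := ord_pJ_eq_zero hA.gen hu1 hu2 Q hrQ
      (J := Units.mk0 _ (pJ_ne_zero hA.gen hu1 hu2)) rfl
    rw [ord_eq_iff, neg_zero, WithZero.exp_zero] at h
    exact h
  set uc : L := ⟨zr Ω P ^ c * w, mul_mem (pow_mem hzL c) hwL⟩
  set u1 : L := ⟨zr Ω P * w, mul_mem hzL hwL⟩
  have hval : (funG Ω P c r g w) = ((pJ r g c uc / pJ r g c u1 ^ c : L) : Ω) := by
    show _ = L.val.toRingHom (pJ r g c uc / pJ r g c u1 ^ c)
    rw [map_div₀, map_pow, map_pJ, map_pJ]
    rfl
  rw [hval]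
  refine ⟨Subtype.coe_prop _, ?_⟩
  rw [Subtype.coe_eta, map_div₀, map_pow, key c hs.hcd uc rfl,
    key 1 hs.hp.not_dvd_one u1 (by rw [pow_one]), one_pow, div_one]

/-- **The derivative is a unit away from `r`.** -/
theorem val_dG (Q : HeightOneSpectrum (𝓞 L)) (hrQ : (r : 𝓞 L) ∉ Q.asIdeal) {T : Finset ℕ}
    (hTS : T ⊆ S) {w : Ω} (hw : IsPt S w) :
    ∃ h : dG Ω P c r g T w ∈ L, Q.valuation L ⟨_, h⟩ = 1 := by
  refine Finset.prod_induction _ (fun x => ∃ h : x ∈ L, Q.valuation L ⟨x, h⟩ = 1) ?_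
    ⟨one_mem L, (Q.valuation L).map_one⟩ fun j _ => ?_
  · rintro a b ⟨ha, ha'⟩ ⟨hb, hb'⟩
    refine ⟨mul_mem ha hb, ?_⟩
    show Q.valuation L (⟨a, ha⟩ * ⟨b, hb⟩) = 1
    rw [map_mul, ha', hb', one_mul]
  obtain ⟨h, h1⟩ := val_funG hs hS hA hL Q hrQ (hw.mul (isPt_pt hTS j))
  refine ⟨pow_mem h _, ?_⟩
  show Q.valuation L ((⟨_, h⟩ : L) ^ wt T j) = 1
  rw [map_pow, h1, one_pow]

/-- The derivative at a point congruent to `1`. -/
theorem val_dG_congr (Q : HeightOneSpectrum (𝓞 L)) (hrQ : (r : 𝓞 L) ∉ Q.asIdeal) {T : Finset ℕ}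
    (hTS : T ⊆ S) {u : L} (hu : IsPt S (u : Ω)) (hu1 : Q.valuation L (u - 1) < 1)
    (hf : dG Ω P c r g T (u : Ω) ∈ L) (hd : dG Ω P c r g T 1 ∈ L) :
    Q.valuation L ((⟨_, hf⟩ : L) - ⟨_, hd⟩) < 1 := by
  set w := Q.valuation L
  have hzL : zr Ω P ∈ L := hL.zr_mem P (Finset.mem_insert_self _ _)
  set Z : L := ⟨zr Ω P, hzL⟩
  have hwZ : w Z = 1 := val_eq_one_of_pow_eq_one w hs.pos.ne' (Subtype.ext (zr_pow_self Ω P))
  have hpos : 0 < ∏ q ∈ S, q := Finset.prod_pos fun q hq => (hS q hq).prime.pos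
  have hwu : w u = 1 := val_eq_one_of_pow_eq_one w hpos.ne' (Subtype.ext hu.2)
  have key : ∀ J : Finset (∀ q ∈ T, ℕ), ∃ a b : L,
      (a : Ω) = ∏ j ∈ J, funG Ω P c r g ((u : Ω) * pt Ω T j) ^ wt T j ∧
      (b : Ω) = ∏ j ∈ J, funG Ω P c r g ((1 : Ω) * pt Ω T j) ^ wt T j ∧
      w a = 1 ∧ w b = 1 ∧ w (a - b) < 1 := by
    intro J
    induction J using Finset.induction with
    | empty => exact ⟨1, 1, by simp, by simp, by simp, by simp, by simp⟩
    | insert j J hj ih =>
      obtain ⟨a, b, ha, hb, ha1, hb1, hab⟩ := ih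
      have hptL : pt Ω T j ∈ L := fullField_le hL (sField_le_fullField S (isPt_pt hTS j).1)
      set Pt : L := ⟨pt Ω T j, hptL⟩
      have hwP : w Pt = 1 :=
        val_eq_one_of_pow_eq_one w hpos.ne' (Subtype.ext (isPt_pt (Ω := Ω) hTS j).2)
      obtain ⟨hA1, hA2⟩ := val_funG hs hS hA hL Q hrQ (hu.mul (isPt_pt hTS j))
      obtain ⟨hB1, hB2⟩ := val_funG hs hS hA hL Q hrQ ((IsPt.one S).mul (isPt_pt hTS j))
      refine ⟨(⟨_, hA1⟩ : L) ^ wt T j * a, (⟨_, hB1⟩ : L) ^ wt T j * b, ?_, ?_, ?_, ?_, ?_⟩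
      · rw [Finset.prod_insert hj, ← ha]
        rfl
      · rw [Finset.prod_insert hj, ← hb]
        rfl
      · rw [map_mul, map_pow, hA2, ha1, one_pow, one_mul]
      · rw [map_mul, map_pow, hB2, hb1, one_pow, one_mul]
      · refine congr_mul (by rw [map_pow, hA2, one_pow]) hb1.le (congr_pow hA2.le hB2.le ?_ _) hab
        have e : ∀ (x : L) (h : funG Ω P c r g (x : Ω) ∈ L), (⟨_, h⟩ : L) =
            pJ r g c (Z ^ c * x) / pJ r g c (Z * x) ^ c := fun x h => Subtype.ext (by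
          show funG Ω P c r g (x : Ω) =
            L.val.toRingHom (pJ r g c (Z ^ c * x) / pJ r g c (Z * x) ^ c)
          rw [map_div₀, map_pow, map_pJ, map_pJ]
          rfl)
        rw [show (⟨_, hA1⟩ : L) = _ from e (u * Pt) hA1,
          show (⟨_, hB1⟩ : L) = _ from e (1 * Pt) hB1,
          div_eq_mul_inv, div_eq_mul_inv]
        have hc1 : w (u * Pt - 1 * Pt) < 1 := by
          rw [← sub_mul, map_mul, hwP, mul_one]
          exact hu1
        have hle : ∀ y : L, w y ≤ 1 → w (pJ r g c y) ≤ 1 := fun y hy => by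
          rw [pJ, map_prod]
          exact Finset.prod_le_one' fun i _ => val_jac_le hy i
        have hu' : w (u * Pt) ≤ 1 := by rw [map_mul, hwu, hwP, one_mul]
        have h1' : w (1 * Pt) ≤ 1 := by rw [one_mul, hwP]
        have hm : ∀ i : ℕ, w (Z ^ i * (u * Pt) - Z ^ i * (1 * Pt)) < 1 := fun i =>
          congr_mul (by rw [map_pow, hwZ, one_pow]) h1' (congr_self _) hc1
        have hmz : ∀ i : ℕ, ∀ y : L, w y ≤ 1 → w (Z ^ i * y) ≤ 1 := fun i y hy => by
          rw [map_mul, map_pow, hwZ, one_pow, one_mul]; exact hy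
        have hden : w (pJ r g c (Z * (1 * Pt))) = 1 := by
          refine le_antisymm (hle _ ?_) (not_lt.1 fun hlt => ?_)
          · simpa using hmz 1 _ h1'
          · haveI : Fact r.Prime := ⟨hA.prime⟩
            have hX : IsPt S (((1 * Pt : L)) : Ω) := (IsPt.one S).mul (isPt_pt hTS j)
            have hu1' : (Z * (1 * Pt)) ^ (r - 1) = 1 := Subtype.ext (by
              have := hX.pow_r_sub_one hA (prime_of_adm hS) 1
              rwa [pow_one] at this)
            have hu2' : ∀ i, 1 ≤ i → i ≤ c → (Z * (1 * Pt)) ^ i ≠ 1 := fun i h1 h2 he =>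
              hX.pow_ne_one hs hS hs.hp.not_dvd_one h1 h2 (by
                rw [pow_one]
                exact congrArg Subtype.val he)
            have h := ord_pJ_eq_zero hA.gen hu1' hu2' Q hrQ
              (J := Units.mk0 _ (pJ_ne_zero hA.gen hu1' hu2')) rfl
            rw [ord_eq_iff, neg_zero, WithZero.exp_zero] at h
            exact hlt.ne h
        refine congr_mul (hle _ (hmz c _ hu')) ?_
          (congr_pJ (hmz c _ hu') (hmz c _ h1') (hm c))
          (congr_inv (by rw [map_pow, hden, one_pow]) (congr_pow (hle _ ?_) (hden.le)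
            (congr_pJ ?_ ?_ ?_) c))
        · rw [map_inv₀, map_pow, hden, one_pow, inv_one]
        · simpa using hmz 1 _ hu'
        · simpa using hmz 1 _ hu'
        · simpa using hmz 1 _ h1'
        · simpa using hm 1
  obtain ⟨a, b, ha, hb, -, -, hab⟩ := key (T.pi fun q => range (q - 1))
  rwa [show (⟨_, hf⟩ : L) = a from Subtype.ext ha.symm,
    show (⟨_, hd⟩ : L) = b from Subtype.ext hb.symm]

end field

end FA.GaussKolyvagin
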