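import Fermat.Agent.GaussKolyvagin.AuxPrime

/-!
# Replacing the auxiliary prime

`exists_replace`: if `r` is a `p ^ k * P`-th power modulo an admissible `q ≡ 1` modulo `T`, there
are an auxiliary prime `r'` for `insert q T` and a prime over it in the class of a given one over
`r` such that the classes `κ_T` of `r` and of `r'` have the same discrete logarithms at the primes
over `q`.
-/

set_option autoImplicit false
set_option linter.unusedSectionVars false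
set_option linter.style.haveILetI false

noncomputable section

open scoped Classical Pointwise nonZeroDivisors
open Finset IntermediateField NumberField IsDedekindDomain FA.ArtinRec FA.AmbClass
open FA.Kolyvagin (zr zr_spec zr_pow_self fullField IsRootField IsDeg1 gen gen_spec
  exists_congr_gen_pow val_natCast_lt_one_iff val_natCast_eq_one_iff
  val_natCast_eq_one_of_coprime val_eq_one_of_pow_eq_one congr_mul congr_pow congr_zpow congr_self
  congr_symm congr_trans congr_val modEq_of_congr exists_logAt dlog dlog_eq pt wt LogAt)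

namespace FA.GaussKolyvagin

variable {Ω : Type*} [Field Ω] [CharZero Ω] [IsAlgClosed Ω] [Algebra.IsAlgebraic ℚ Ω] {p P k c : ℕ}
variable {r g r' g' : ℕ}

/-- `b` is `a` times the `p ^ k * P`-th power of a unit, modulo the maximal ideal. -/
def Near {L Γ : Type*} [Field L] [LinearOrderedCommGroupWithZero Γ] (w : Valuation L Γ) (N : ℕ)
    (a b : L) : Prop :=
  ∃ Y : L, w Y = 1 ∧ w (b - a * Y ^ N) < 1

theorem Near.mul {L Γ : Type*} [Field L] [LinearOrderedCommGroupWithZero Γ] {w : Valuation L Γ}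
    {N : ℕ} {a b a' b' : L} (hb : w b ≤ 1) (ha' : w a' ≤ 1) (h : Near w N a b)
    (h' : Near w N a' b') : Near w N (a * a') (b * b') := by
  obtain ⟨Y, hY, hY'⟩ := h
  obtain ⟨Z, hZ, hZ'⟩ := h'
  refine ⟨Y * Z, by rw [map_mul, hY, hZ, one_mul], ?_⟩
  rw [mul_pow, mul_mul_mul_comm]
  exact congr_mul hb (by rw [map_mul, map_pow, hZ, one_pow, mul_one]; exact ha') hY' hZ'

theorem Near.pow {L Γ : Type*} [Field L] [LinearOrderedCommGroupWithZero Γ] {w : Valuation L Γ}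
    {N : ℕ} {a b : L} (hb : w b ≤ 1) (ha : w a ≤ 1) (h : Near w N a b) (n : ℕ) :
    Near w N (a ^ n) (b ^ n) := by
  obtain ⟨Y, hY, hY'⟩ := h
  refine ⟨Y ^ n, by rw [map_pow, hY, one_pow], ?_⟩
  rw [pow_right_comm, ← mul_pow]
  exact congr_pow hb (by rw [map_mul, map_pow, hY, one_pow, mul_one]; exact ha) hY' n

/-- The conjugates of elements congruent to `1` modulo `q`. -/
theorem val_gal_sub_one {K : Type*} [Field K] [NumberField K] {q : ℕ}
    (P : HeightOneSpectrum (𝓞 K)) (hq : (q : 𝓞 K) ∈ P.asIdeal) {x : 𝓞 K}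
    (hx : x - 1 ∈ Ideal.span {(q : 𝓞 K)}) (σ : K ≃ₐ[ℚ] K) :
    P.valuation K (σ (x : K) - 1) < 1 := by
  obtain ⟨z, hz⟩ := Ideal.mem_span_singleton.mp hx
  have hmem : σ • x - 1 ∈ P.asIdeal := by
    rw [← smul_one σ, ← smul_sub, hz, smul_mul', show σ • (q : 𝓞 K) = q from
      map_natCast (MulSemiringAction.toRingHom (K ≃ₐ[ℚ] K) (𝓞 K) σ) q]
    exact P.asIdeal.mul_mem_right _ hq
  have h := (P.valuation_lt_one_iff_mem (K := K) _).2 hmem
  convert h using 2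
  push_cast
  rfl

variable {T : Finset ℕ}

section field

variable {L : IntermediateField ℚ Ω} [NumberField L] [IsGalois ℚ L] (hs : Setup p P k c)
  (hT : ∀ s ∈ T, IsAdm p P k s) (hA : IsAux P T r g) (hA' : IsAux P T r' g')
  (hL : IsRootField P T L) {Q Q' : HeightOneSpectrum (𝓞 L)} (hQ : IsDeg1 1 Q r)
  (hQ' : IsDeg1 1 Q' r')
  (heq : ∀ v : L, v ^ (∏ s ∈ insert P T, s) = 1 → (∀ j, 1 ≤ j → j ≤ c → v ^ j ≠ 1) →
    ordJ r' g' c Q' v = ordJ r g c Q v)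
  {W : Lˣ} (hW : ∀ R, ord R W = (if Q' = R then 1 else 0) - if Q = R then 1 else 0)
  (hNW : ∀ φ : L →+* ℂ, (∏ σ : L ≃ₐ[ℚ] L, ‖φ (σ (W : L))‖) * r = r')
  {b x y : 𝓞 L} (hWval : (W : L) = (y : L) / (x : L) * (b : L) ^ (p ^ k * P))
  {q : ℕ} (hx : x - 1 ∈ Ideal.span {(q : 𝓞 L)}) (hy : y - 1 ∈ Ideal.span {(q : 𝓞 L)})
  (hb : ∀ R : HeightOneSpectrum (𝓞 L), (q : 𝓞 L) ∈ R.asIdeal → b ∉ R.asIdeal)
  {R : HeightOneSpectrum (𝓞 L)} (hqP : (q : 𝓞 L) ∈ R.asIdeal) (hrP : (r : 𝓞 L) ∉ R.asIdeal)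
include hs hT hA hA' hL hQ hQ' heq hW hNW hWval hx hy hb hqP hrP

/-- The two values of `funG`. -/
theorem near_funG {w : Ω} (hw : IsPt T w) (hF : funG Ω P c r g w ∈ L)
    (hF' : funG Ω P c r' g' w ∈ L) :
    Near (R.valuation L) ((p ^ k * P)) ⟨_, hF⟩ ⟨_, hF'⟩ := by
  haveI := FA.Kolyvagin.isGalois_rat (Ω := Ω)
  set v := R.valuation L
  haveI : Fact r.Prime := ⟨hA.prime⟩
  haveI : Fact r'.Prime := ⟨hA'.prime⟩
  have hS := rootSet_insert hs hT
  set m := ∏ s ∈ insert P T, s with hm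
  have hm0 : m ≠ 0 := hS.prod_pos.ne'
  have hdvd : ∀ {r₀ g₀}, IsAux P T r₀ g₀ → m ∣ r₀ - 1 := fun h => hS.prod_dvd (dvd_insert_aux h)
  have hpm : P ∣ m := Finset.dvd_prod_of_mem (fun s : ℕ => s) (Finset.mem_insert_self P T)
  have hwL : w ∈ L := fullField_le hL (sField_le_fullField T hw.1)
  have hzL : zr Ω P ∈ L := hL.zr_mem P (Finset.mem_insert_self _ _)
  set uc : L := ⟨zr Ω P ^ c * w, mul_mem (pow_mem hzL c) hwL⟩
  set u1 : L := ⟨zr Ω P * w, mul_mem hzL hwL⟩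
  have hu : ∀ (a : ℕ) (u : L), ¬ p ∣ a → (u : Ω) = zr Ω P ^ a * w →
      u ^ m = 1 ∧ ∀ j, 1 ≤ j → j ≤ c → u ^ j ≠ 1 := fun a u ha he => by
    refine ⟨Subtype.ext ?_, fun j h1 h2 h => hw.pow_ne_one hs hT ha h1 h2 ?_⟩
    · show (u : Ω) ^ m = 1
      obtain ⟨e, he'⟩ := hpm
      rw [he, mul_pow, ← pow_mul, mul_comm a, he', mul_assoc, pow_mul, zr_pow_self, one_pow,
        one_mul, ← he', hm, Finset.prod_insert (P_notMem hs hT), mul_comm, pow_mul, hw.2, one_pow]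
    · rw [← he]
      exact congrArg Subtype.val h
  obtain ⟨huc, hucc⟩ := hu c uc hs.hcd rfl
  obtain ⟨hu1, hu1c⟩ := hu 1 u1 hs.hp.not_dvd_one (by rw [pow_one])
  obtain ⟨εc, -, hεc⟩ := exists_root_replace hA.gen hA'.gen hQ hQ' (hdvd hA) (hdvd hA') heq hW hNW
    huc hucc
  obtain ⟨ε₁, ⟨t, ht, hεt⟩, hε₁⟩ := exists_root_replace hA.gen hA'.gen hQ hQ' (hdvd hA) (hdvd hA')
    heq hW hNW hu1 hu1c
  -- the roots of unity are equivariant
  obtain ⟨σ, hσ⟩ := exists_aut (Ω := Ω) hS (fun s => if s = P then c else 1) fun s hs' => by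
    split_ifs with h
    · exact h ▸ (hs.coprime hs.hcd).symm
    · exact Nat.coprime_one_left s
  have hσp : σ (zr Ω P) = zr Ω P ^ c := by rw [hσ P (Finset.mem_insert_self _ _), if_pos rfl]
  have hσT : ∀ s ∈ T, σ (zr Ω s) = zr Ω s := fun s hs' => by
    rw [hσ s (Finset.mem_insert_of_mem hs'),
      if_neg (fun h => P_notMem hs hT (by rwa [h] at hs')), pow_one]
  set σL := σ.restrictNormal L
  have hσL : ∀ a : L, ((σL a : L) : Ω) = σ (a : Ω) := fun a =>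
    AlgEquiv.restrictNormal_commutes σ L a
  have hσu : σL u1 = uc := Subtype.ext (by
    rw [hσL]
    show σ (zr Ω P * w) = zr Ω P ^ c * w
    rw [map_mul, hσp, map_sField hσT hw.1])
  have hpJ : ∀ (r₀ g₀ : ℕ), σL (pJ r₀ g₀ c u1) = pJ r₀ g₀ c uc := fun r₀ g₀ => by
    rw [← hσu]
    exact map_pJ (σL : L →+* L) c u1
  have hprod : σL (∏ τ : L ≃ₐ[ℚ] L, τ (W : L) ^ ordJ r g c Q (τ⁻¹ u1)) =
      ∏ τ : L ≃ₐ[ℚ] L, τ (W : L) ^ ordJ r g c Q (τ⁻¹ uc) := by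
    rw [map_prod]
    refine Fintype.prod_equiv (Equiv.mulLeft σL) _ _ fun τ => ?_
    rw [map_zpow₀, Equiv.coe_mulLeft, mul_inv_rev, AlgEquiv.mul_apply, AlgEquiv.mul_apply, ← hσu,
      show σL⁻¹ (σL u1) = u1 from σL.symm_apply_apply u1]
  have hpu : m ∣ r - 1 := hdvd hA
  have hJ : ∀ u : L, u ^ m = 1 → (∀ j, 1 ≤ j → j ≤ c → u ^ j ≠ 1) → pJ r g c u ≠ 0 :=
    fun u h1 h2 => pJ_ne_zero hA.gen (by
      obtain ⟨d, hd⟩ := hpu
      rw [hd, pow_mul, h1, one_pow]) h2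
  have hWne : ∀ (e : (L ≃ₐ[ℚ] L) → ℤ), (∏ τ : L ≃ₐ[ℚ] L, τ (W : L) ^ e τ) ≠ 0 := fun e =>
    Finset.prod_ne_zero_iff.2 fun τ _ => zpow_ne_zero _ ((map_ne_zero τ).2 W.ne_zero)
  have hσε : σL ε₁ = εc := by
    have h1 := congrArg σL hε₁
    rw [map_mul, map_mul, hpJ, hpJ, hprod, hεc] at h1
    exact (mul_right_cancel₀ (hJ uc huc hucc) (mul_right_cancel₀ (hWne _) h1)).symm
  have hmemF : ∀ a : L, (a : Ω) ∈ fullField Ω P T := fun a =>
    mem_fullField_iff.2 fun τ hτ => hL.fixed τ hτ a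
  have hε0 : (ε₁ : Ω) ≠ 0 := fun h => by
    have h' : (ε₁ : Ω) ^ t = 1 := congrArg Subtype.val hεt
    rw [h, zero_pow ht.ne'] at h'
    exact zero_ne_one h'
  have hyy : ((εc : Ω) / (ε₁ : Ω) ^ c) ^ (2 * ∏ s ∈ T, s) = 1 := by
    have h1 := pow_two_mul_eq_one hS (hmemF ε₁) ht (congrArg Subtype.val hεt)
    rw [Finset.prod_insert (P_notMem hs hT), mul_left_comm, mul_comm P, pow_mul] at h1
    haveI : NeZero P := ⟨hs.pos.ne'⟩
    obtain ⟨e, -, he⟩ := (zr_spec Ω hs.pos.ne').eq_pow_of_pow_eq_one h1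
    rw [div_pow, show (εc : Ω) = σ (ε₁ : Ω) by rw [← hσL, hσε], ← map_pow, ← he, map_pow, hσp,
      pow_right_comm (zr Ω P) c, he, pow_right_comm (ε₁ : Ω) c,
      div_self (pow_ne_zero _ (pow_ne_zero _ hε0))]
  obtain ⟨a, ha⟩ := exists_root_of_coprime (prime_of_adm hT) (coprime_exp hs hT) hyy
  have haL : ((εc / ε₁ ^ c) ^ a) ^ (p ^ k * P) = εc / ε₁ ^ c := Subtype.ext (by
    simpa using ha)
  -- units at `P`
  have hb1 : ∀ τ : L ≃ₐ[ℚ] L, v (τ (b : L)) = 1 := fun τ => by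
    refine le_antisymm (R.valuation_le_one (τ • b)) (not_lt.1 fun hlt => ?_)
    have hm := (R.valuation_lt_one_iff_mem (K := L) (τ • b)).1 hlt
    have hq' : (q : 𝓞 L) ∈ (galPrime τ⁻¹ R).asIdeal := by
      have h := Ideal.smul_mem_pointwise_smul τ⁻¹ _ _ hqP
      rwa [show τ⁻¹ • (q : 𝓞 L) = q from
        map_natCast (MulSemiringAction.toRingHom (L ≃ₐ[ℚ] L) (𝓞 L) τ⁻¹) q] at h
    refine hb _ hq' ?_
    have h := Ideal.smul_mem_pointwise_smul τ⁻¹ _ _ hm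
    rwa [inv_smul_smul] at h
  set e : (L ≃ₐ[ℚ] L) → ℤ := fun τ => ordJ r g c Q (τ⁻¹ uc) - c * ordJ r g c Q (τ⁻¹ u1)
  set Γ : L := ∏ τ : L ≃ₐ[ℚ] L, (τ (y : L) / τ (x : L)) ^ e τ
  have hΓ : v Γ = 1 ∧ v (Γ - 1) < 1 := by
    refine Finset.prod_induction _ (fun z : L => v z = 1 ∧ v (z - 1) < 1) ?_
      ⟨map_one v, by rw [sub_self, map_zero]; exact zero_lt_one⟩ fun τ _ => ?_
    · rintro a₁ a₂ ⟨h1, h1'⟩ ⟨h2, h2'⟩
      refine ⟨by rw [map_mul, h1, h2, one_mul], ?_⟩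
      rw [← mul_one (1 : L)]
      exact congr_mul h1.le (by rw [map_one]) h1' h2'
    · have hy' := val_gal_sub_one R hqP hy τ
      have hx' := val_gal_sub_one R hqP hx τ
      have hd : v (τ (y : L) / τ (x : L) - 1) < 1 := by
        rw [div_eq_mul_inv, show (1 : L) = 1 * 1⁻¹ by simp]
        exact congr_mul (congr_val hy' (map_one v)).le (by rw [inv_one, map_one]) hy'
          (FA.Kolyvagin.congr_inv (map_one v) hx')
      have h1 := congr_val hd (map_one v)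
      refine ⟨by rw [map_zpow₀, h1, one_zpow], ?_⟩
      have h2 := congr_zpow (map_one v) hd (e τ)
      rwa [one_zpow] at h2
  set Y : L := (εc / ε₁ ^ c) ^ a * ∏ τ : L ≃ₐ[ℚ] L, τ (b : L) ^ e τ
  have hY : v Y = 1 := by
    have hm2 : 2 * ∏ s ∈ T, s ≠ 0 :=
      Nat.mul_ne_zero two_ne_zero (Finset.prod_pos fun s h => (hT s h).prime.pos).ne'
    have h1 : v (εc / ε₁ ^ c) = 1 :=
      val_eq_one_of_pow_eq_one v hm2 (Subtype.ext (by simpa using hyy))
    simp only [Y, map_mul, map_pow, map_prod, map_zpow₀, h1, hb1, one_pow, one_zpow,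
      Finset.prod_const_one, one_mul]
  have hWsplit : (∏ τ : L ≃ₐ[ℚ] L, τ (W : L) ^ ordJ r g c Q (τ⁻¹ uc)) /
      (∏ τ : L ≃ₐ[ℚ] L, τ (W : L) ^ ordJ r g c Q (τ⁻¹ u1)) ^ c =
      Γ * (∏ τ : L ≃ₐ[ℚ] L, τ (b : L) ^ e τ) ^ (p ^ k * P) := by
    rw [← Finset.prod_pow, ← Finset.prod_div_distrib, ← Finset.prod_pow, ← Finset.prod_mul_distrib]
    refine Finset.prod_congr rfl fun τ _ => ?_
    have hτ0 : τ (W : L) ≠ 0 := (map_ne_zero τ).2 W.ne_zero
    rw [← zpow_natCast (τ (W : L) ^ ordJ r g c Q (τ⁻¹ u1)), ← zpow_mul, ← zpow_sub₀ hτ0,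
      mul_comm (ordJ r g c Q (τ⁻¹ u1)), hWval, map_mul, map_div₀, map_pow, mul_zpow,
      ← zpow_natCast (τ (b : L)), ← zpow_natCast (τ (b : L) ^ e τ), ← zpow_mul, ← zpow_mul,
      mul_comm (((p ^ k * P) : ℕ) : ℤ)]
  have hval : ∀ (r₀ g₀ : ℕ) (h : funG Ω P c r₀ g₀ w ∈ L),
      (⟨_, h⟩ : L) = pJ r₀ g₀ c uc / pJ r₀ g₀ c u1 ^ c := fun r₀ g₀ h => Subtype.ext (by
    show funG Ω P c r₀ g₀ w = L.val.toRingHom (pJ r₀ g₀ c uc / pJ r₀ g₀ c u1 ^ c)
    rw [map_div₀, map_pow, map_pJ, map_pJ]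
    rfl)
  have heqF : (⟨_, hF'⟩ : L) = (⟨_, hF⟩ : L) * Y ^ (p ^ k * P) * Γ := by
    rw [hval, hval, hεc, hε₁, mul_pow, mul_pow, mul_pow, haL]
    rw [show εc * pJ r g c uc * (∏ τ : L ≃ₐ[ℚ] L, τ (W : L) ^ ordJ r g c Q (τ⁻¹ uc)) /
        (ε₁ ^ c * pJ r g c u1 ^ c *
          (∏ τ : L ≃ₐ[ℚ] L, τ (W : L) ^ ordJ r g c Q (τ⁻¹ u1)) ^ c) =
        (εc / ε₁ ^ c) * (pJ r g c uc / pJ r g c u1 ^ c) *
          ((∏ τ : L ≃ₐ[ℚ] L, τ (W : L) ^ ordJ r g c Q (τ⁻¹ uc)) /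
            (∏ τ : L ≃ₐ[ℚ] L, τ (W : L) ^ ordJ r g c Q (τ⁻¹ u1)) ^ c) by
      rw [div_mul_div_comm, div_mul_div_comm], hWsplit]
    ring
  refine ⟨Y, hY, ?_⟩
  obtain ⟨hF0, hF1⟩ := val_funG hs hT hA hL R hrP hw
  rw [heqF, ← mul_sub_one, map_mul, map_mul, map_pow, hY, one_pow, mul_one, hF1, one_mul]
  exact hΓ.2

/-- The two derivatives. -/
theorem near_dG (hrP' : (r' : 𝓞 L) ∉ R.asIdeal) (hd : dG Ω P c r g T 1 ∈ L)
    (hd' : dG Ω P c r' g' T 1 ∈ L) : Near (R.valuation L) ((p ^ k * P)) ⟨_, hd⟩ ⟨_, hd'⟩ := by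
  have key : ∀ J : Finset (∀ q ∈ T, ℕ), ∃ a b : L,
      (a : Ω) = ∏ j ∈ J, funG Ω P c r g ((1 : Ω) * pt Ω T j) ^ wt T j ∧
      (b : Ω) = ∏ j ∈ J, funG Ω P c r' g' ((1 : Ω) * pt Ω T j) ^ wt T j ∧
      R.valuation L a = 1 ∧ R.valuation L b = 1 ∧ Near (R.valuation L) ((p ^ k * P)) a b := by
    intro J
    induction J using Finset.induction with
    | empty =>
      exact ⟨1, 1, by simp, by simp, by simp, by simp, 1, map_one _, by simp⟩
    | insert j J hj ih =>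
      obtain ⟨a, b', ha, hb', ha1, hb1, hab⟩ := ih
      have hpt := (IsPt.one (Ω := Ω) T).mul (isPt_pt subset_rfl j)
      obtain ⟨hA1, hA2⟩ := val_funG hs hT hA hL R hrP hpt
      obtain ⟨hB1, hB2⟩ := val_funG hs hT hA' hL R hrP' hpt
      have hn := near_funG hs hT hA hA' hL hQ hQ' heq hW hNW hWval hx hy hb hqP hrP hpt hA1 hB1
      refine ⟨(⟨_, hA1⟩ : L) ^ wt T j * a, (⟨_, hB1⟩ : L) ^ wt T j * b', ?_, ?_, ?_, ?_, ?_⟩
      · rw [Finset.prod_insert hj, ← ha]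
        rfl
      · rw [Finset.prod_insert hj, ← hb']
        rfl
      · rw [map_mul, map_pow, hA2, ha1, one_pow, one_mul]
      · rw [map_mul, map_pow, hB2, hb1, one_pow, one_mul]
      · exact (hn.pow hB2.le hA2.le _).mul (by rw [map_pow, hB2, one_pow]) ha1.le hab
  obtain ⟨a, b', ha, hb', -, -, hab⟩ := key (T.pi fun s => range (s - 1))
  rwa [show (⟨_, hd⟩ : L) = a from Subtype.ext ha.symm,
    show (⟨_, hd'⟩ : L) = b' from Subtype.ext hb'.symm]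

end field

variable {F : Type*} [Field F] [NumberField F] {ι : F →+* Ω} (hι : IsCycBase P ι)
include hι

/-- Normalised representation of a class at a prime over `q`. -/
theorem exists_normalised (hs : Setup p P k c) (hT : ∀ s ∈ T, IsAdm p P k s) (hA : IsAux P T r g)
    {L : IntermediateField ℚ Ω} [NumberField L] (hL : IsRootField P T L) {j : F →+* L}
    (hj : ∀ x, (j x : Ω) = ι x) {q : ℕ} (hq : IsAdm p P k q) (hqT : q ∉ T) (hqr : q ≠ r)
    {R : HeightOneSpectrum (𝓞 L)} (hR : IsDeg1 1 R q) {v : HeightOneSpectrum (𝓞 F)}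
    (hv : Ideal.absNorm v.asIdeal = q)
    (hvP : ∀ a : F, v.valuation F a < 1 → R.valuation L (j a) < 1)
    (hvP1 : ∀ a : F, v.valuation F a = 1 → R.valuation L (j a) = 1) {x : Fˣ}
    (hx : IsKappa Ω P c r g p k T (ι x)) (hd : dG Ω P c r g T 1 ∈ L) :
    ∃ e a : ℕ, dlog (p ^ k) v q x = (e : ZMod (p ^ k)) ∧
      R.valuation L ((⟨_, hd⟩ : L) - (gen q : L) ^ (e + a * p ^ k)) < 1 := by
  have hqp : q.Coprime P := coprime_of_dvd_sub_one hq.prime hq.dvd_base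
  have hqv : (q : 𝓞 F) ∈ v.asIdeal := hv ▸ Ideal.absNorm_mem _
  have hvone : ∀ s : ℕ, s.Prime → s ≠ q → (s : 𝓞 F) ∉ v.asIdeal := fun s hs' hne h =>
    hne (FA.Kolyvagin.eq_of_natCast_mem hs' hq.prime h hqv)
  have hdeg : IsDeg1 (p ^ k) v q := ⟨hq.prime, hv, hq.dvd_pow,
    fun _ => ord_natCast_eq_one hι hs.pos.ne' hq.prime hqp v hqv⟩
  obtain ⟨e, he⟩ := exists_logAt hdeg x
  obtain ⟨o, ho⟩ := IsKappa.dvd_ord hι hs hT hA hx v
    (fun s h => hvone s (hT s h).prime (fun e => hqT (e ▸ h)))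
    (hvone r hA.prime hqr.symm)
  obtain ⟨-, γ, hγ, -, hxe, -⟩ := hx
  set qU : Fˣ := Units.mk0 (q : F) (Nat.cast_ne_zero.2 hq.prime.ne_zero)
  have hqU : ord v qU = 1 := hdeg.ord_r _
  set x0 : Fˣ := x * qU ^ (-ord v x)
  set γ0 : L := (⟨γ, fullField_le hL hγ⟩ : L) * j ((qU ^ o : Fˣ) : F)
  have hx0 : v.valuation F ((x0 : F) - (gen q : F) ^ e) < 1 := by
    simp only [x0, Units.val_mul, Units.val_zpow_eq_zpow_val]
    exact he
  have hx01 : R.valuation L (j (x0 : F)) = 1 := hvP1 _ (by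
    rw [valuation_eq_exp, ord_mul, ord_zpow, hqU, mul_one, add_neg_cancel, neg_zero,
      WithZero.exp_zero])
  have hdeq : (⟨_, hd⟩ : L) = j (x0 : F) * γ0 ^ p ^ k := by
    rw [mul_pow, mul_left_comm, ← map_pow, ← map_mul, ← Units.val_pow_eq_pow_val,
      ← Units.val_mul, show x0 * (qU ^ o) ^ p ^ k = x by
        simp only [x0]
        rw [ho, ← zpow_natCast (qU ^ o), ← zpow_mul, mul_assoc, ← zpow_add, mul_comm o,
          neg_add_cancel, zpow_zero, mul_one], mul_comm]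
    refine Subtype.ext ?_
    show dG Ω P c r g T 1 = (j (x : F) : Ω) * γ ^ p ^ k
    rw [hj, hxe]
  have hrP : (r : 𝓞 L) ∉ R.asIdeal := fun h => hqr
    (FA.Kolyvagin.eq_of_natCast_mem hA.prime hq.prime h (hR.norm ▸ Ideal.absNorm_mem _)).symm
  obtain ⟨hd1', hd1⟩ := val_dG hs hT hA hL R hrP subset_rfl (IsPt.one T)
  have hγ1 : R.valuation L γ0 = 1 := by
    rw [hdeq, map_mul, hx01, one_mul, map_pow] at hd1
    exact (pow_eq_one_iff_of_nonneg zero_le (pow_ne_zero _ hs.hp.ne_zero)).1 hd1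
  obtain ⟨a, ha⟩ := exists_congr_gen_pow R hq.prime hR.norm hγ1
  refine ⟨e, a, dlog_eq hdeg he, ?_⟩
  rw [hdeq, pow_add, pow_mul]
  have hg1 : R.valuation L (gen q : L) ≤ 1 := FA.Kolyvagin.val_natCast_le_one _ _
  refine congr_mul hx01.le ?_ ?_ (congr_pow hγ1.le ?_ ha _)
  · rw [map_pow, map_pow]; exact pow_le_one' (pow_le_one' hg1 _) _
  · have h := hvP _ hx0
    rwa [map_sub, map_pow, map_natCast] at h
  · rw [map_pow]; exact pow_le_one' hg1 _

/-- **The replacement of the auxiliary prime.** -/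
theorem exists_replace [IsGalois ℚ F] (hs : Setup p P k c) (hT : ∀ s ∈ T, IsAdm p P k s)
    (hA : IsAux P T r g) {vr : HeightOneSpectrum (𝓞 F)} (hvr : Ideal.absNorm vr.asIdeal = r)
    {q : ℕ} (hq : IsAdm p P k q) (hqT : ∀ s ∈ T, s ∣ q - 1) (hrq : r ≠ q) {ρ : ℕ}
    (hρ : ρ ^ (p ^ k * P) ≡ r [MOD q]) :
    ∃ (r' g' : ℕ) (vr' : HeightOneSpectrum (𝓞 F)), IsAux P (insert q T) r' g' ∧
      Ideal.absNorm vr'.asIdeal = r' ∧ primeCls vr' = primeCls vr ∧
      ∀ (v : HeightOneSpectrum (𝓞 F)), Ideal.absNorm v.asIdeal = q → ∀ x x' : Fˣ,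
        IsKappa Ω P c r g p k T (ι x) → IsKappa Ω P c r' g' p k T (ι x') →
          dlog (p ^ k) v q x' = dlog (p ^ k) v q x := by
  haveI := FA.Kolyvagin.isGalois_rat (Ω := Ω)
  have hS := rootSet_insert hs hT
  obtain ⟨L, hNF, hGal, hL⟩ := exists_rootField (Ω := Ω) hS
  let j : F →+* L := ι.codRestrict L fun z => fullField_le hL (iota_mem hι T z)
  letI : Algebra F L := j.toAlgebra
  haveI : IsScalarTower ℚ F L := IsScalarTower.of_algebraMap_eq' (Subsingleton.elim _ _)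
  haveI : IsGalois F L := IsGalois.tower_top_of_isGalois ℚ F _
  obtain ⟨Q, hQvr⟩ := exists_belowP F L vr
  have hrQ : (r : 𝓞 L) ∈ Q.asIdeal := by
    have h : (r : 𝓞 F) ∈ Q.asIdeal.under (𝓞 F) := by
      rw [show Q.asIdeal.under (𝓞 F) = vr.asIdeal from congrArg HeightOneSpectrum.asIdeal hQvr,
        ← hvr]
      exact Ideal.absNorm_mem _
    rwa [Ideal.mem_comap, map_natCast] at h
  obtain ⟨r', g', Q', W, b, x, y, hA', hQ'deg, heq, hW, hNW, hWval, hx, hy, hb, hx0, hy0, hb0,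
    hxy⟩ := exists_aux_prime hs hT hA hL hrQ hq hqT hrq hρ
  have hQdeg := isDeg1_root hS hL hA.prime (dvd_insert_aux hA) Q hrQ
  have hA'T := hA'.mono (Finset.subset_insert q T)
  have hqnT : q ∉ T := fun h => by
    have h1 := Nat.le_of_dvd (by have := hq.prime.two_le; omega) (hqT q h)
    have := hq.prime.two_le
    omega
  have hrel : ∀ {r₀ : ℕ} {R : HeightOneSpectrum (𝓞 L)}, r₀.Prime →
      Ideal.absNorm R.asIdeal = r₀ →
      Ideal.relNorm (𝓞 F) R.asIdeal = (belowP F R).asIdeal ∧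
        Ideal.absNorm (belowP F R).asIdeal = r₀ := by
    intro r₀ R hr₀ hR
    have h := Ideal.absNorm_relNorm (𝓞 F) (𝓞 L) R.asIdeal
    rw [relNorm_prime, hR, map_pow] at h
    have hp1 : fDeg L (belowP F R) = 1 := ((Nat.Prime.pow_eq_iff hr₀).1 h).2
    exact ⟨by rw [relNorm_prime, hp1, pow_one], by rwa [hp1, pow_one] at h⟩
  obtain ⟨hRQ', hNQ'⟩ := hrel hA'.prime hQ'deg.norm
  obtain ⟨hRQ, -⟩ := hrel hA.prime hQdeg.norm
  refine ⟨r', g', belowP F Q', hA', hNQ', ?_, fun v hv z z' hz hz' => ?_⟩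
  · have h := congrArg (Ideal.relNorm (𝓞 F)) hxy
    rw [map_mul, map_mul, map_mul, hRQ', hRQ, hQvr, Ideal.relNorm_singleton,
      Ideal.relNorm_singleton, Ideal.relNorm_singleton, mul_comm vr.asIdeal, ← mul_assoc,
      Ideal.span_singleton_mul_span_singleton] at h
    refine ClassGroup.mk0_eq_mk0_iff.2 ⟨Algebra.intNorm (𝓞 F) (𝓞 L) x, _,
      Algebra.intNorm_ne_zero.mpr hx0, mul_ne_zero (Algebra.intNorm_ne_zero.mpr hy0)
        (Algebra.intNorm_ne_zero.mpr (pow_ne_zero _ hb0)), h⟩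
  · obtain ⟨R, hPv⟩ := exists_belowP F L v
    have hqP : (q : 𝓞 L) ∈ R.asIdeal := by
      have h : (q : 𝓞 F) ∈ R.asIdeal.under (𝓞 F) := by
        rw [show R.asIdeal.under (𝓞 F) = v.asIdeal from congrArg HeightOneSpectrum.asIdeal hPv,
          ← hv]
        exact Ideal.absNorm_mem _
      rwa [Ideal.mem_comap, map_natCast] at h
    have hPdeg := isDeg1_root hS hL hq.prime (fun s h => (Finset.mem_insert.1 h).elim
      (fun e => e ▸ hq.dvd_base) (hqT s)) R hqP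
    haveI : R.asIdeal.LiesOver v.asIdeal := ⟨(congrArg HeightOneSpectrum.asIdeal hPv).symm⟩
    have hval : ∀ a : F, R.valuation L (j a) =
        v.valuation F a ^ (v.asIdeal.ramificationIdx' R.asIdeal) :=
      fun a => (HeightOneSpectrum.valuation_liesOver L v R a).symm
    have hpos : v.asIdeal.ramificationIdx' R.asIdeal ≠ 0 :=
      Ideal.IsDedekindDomain.ramificationIdx'_ne_zero_of_liesOver R.asIdeal v.ne_bot
    have hvP : ∀ a : F, v.valuation F a < 1 → R.valuation L (j a) < 1 := fun a h => by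
      rw [hval]; exact pow_lt_one₀ zero_le h hpos
    have hvP1 : ∀ a : F, v.valuation F a = 1 → R.valuation L (j a) = 1 := fun a h => by
      rw [hval, h, one_pow]
    have hr'q : r' ≠ q := fun e => by
      have h1 := hA'.dvd q (Finset.mem_insert_self _ _)
      rw [e] at h1
      have h2 := Nat.le_of_dvd (by have := hq.prime.two_le; omega) h1
      have := hq.prime.two_le
      omega
    have hrP : (r : 𝓞 L) ∉ R.asIdeal := fun h =>
      hrq (FA.Kolyvagin.eq_of_natCast_mem hA.prime hq.prime h hqP)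
    have hrP' : (r' : 𝓞 L) ∉ R.asIdeal := fun h =>
      hr'q (FA.Kolyvagin.eq_of_natCast_mem hA'.prime hq.prime h hqP)
    obtain ⟨hd, hd1⟩ := val_dG hs hT hA hL R hrP subset_rfl (IsPt.one T)
    obtain ⟨hd', hd'1⟩ := val_dG hs hT hA'T hL R hrP' subset_rfl (IsPt.one T)
    obtain ⟨Y, hY, hYd⟩ := near_dG hs hT hA hA'T hL hQdeg hQ'deg heq hW hNW hWval hx hy hb hqP hrP
      hrP' hd hd'
    obtain ⟨e, a, he, hea⟩ := exists_normalised hι hs hT hA hL (fun _ => rfl) hq hqnT hrq.symm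
      hPdeg hv hvP hvP1 hz hd
    obtain ⟨e', a', he', hea'⟩ := exists_normalised hι hs hT hA'T hL (fun _ => rfl) hq hqnT
      hr'q.symm hPdeg hv hvP hvP1 hz' hd'
    obtain ⟨f, hf⟩ := exists_congr_gen_pow R hq.prime hPdeg.norm hY
    have hg1 : R.valuation L (gen q : L) ≤ 1 := FA.Kolyvagin.val_natCast_le_one _ _
    have hgp : ∀ n : ℕ, R.valuation L ((gen q : L) ^ n) ≤ 1 := fun n => by
      rw [map_pow]; exact pow_le_one' hg1 n
    have h1 : R.valuation L ((gen q : L) ^ (e' + a' * p ^ k) -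
        (gen q : L) ^ (e + a * p ^ k + f * (p ^ k * P))) < 1 := by
      refine congr_trans (congr_symm hea') (congr_trans hYd ?_)
      rw [pow_add _ (e + a * p ^ k), pow_mul _ f]
      exact congr_mul hd1.le (by rw [← pow_mul]; exact hgp _) hea
        (congr_pow hY.le (hgp f) hf _)
    rw [← Nat.cast_pow, ← Nat.cast_pow] at h1
    have h2 := modEq_of_congr hq.prime ((val_natCast_lt_one_iff R q).2 hqP) h1
    rw [← ZMod.natCast_eq_natCast_iff, Nat.cast_pow, Nat.cast_pow] at h2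
    haveI : Fact q.Prime := ⟨hq.prime⟩
    have h3 := (modEq_of_pow_eq (gen_spec hq.prime) h2).of_dvd
      hq.dvd_pow
    rw [← ZMod.natCast_eq_natCast_iff] at h3
    simp only [Nat.cast_add, Nat.cast_mul, ZMod.natCast_self, mul_zero, zero_mul,
      add_zero] at h3
    rw [he, he', h3]

end FA.GaussKolyvagin
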