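import Fermat.Agent.GaussKolyvagin.RootPlaces

/-!
# The divisors of the Jacobi sums on a prime of degree one and another one in its class

* `ordJ`: the order of `pJ` at a fixed prime over `r`;
* `ordJ_pow`: its value on the powers of a root of unity;
* `exists_root_replace`: if `div W = Q' - Q`, the Jacobi sums of `Q'` are those of `Q` times a root
  of unity and the conjugates of `W` with these orders as exponents;
* `exists_gen_exponent`: generators with a prescribed exponent.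
-/

set_option autoImplicit false
set_option linter.unusedSectionVars false
set_option linter.style.haveILetI false

noncomputable section

open scoped Classical Pointwise ComplexConjugate
open Finset NumberField IsDedekindDomain FA.ArtinRec
open FA.Kolyvagin (IsDeg1 gen gen_spec exists_congr_gen_pow congr_pow val_eq_one_of_pow_eq_one
  val_natCast_le_one)

namespace FA.GaussKolyvagin

section gal

variable {L : Type*} [Field L] [NumberField L]

/-- The order of the product of Jacobi sums at `Q`. -/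
def ordJ (r g c : ℕ) (Q : HeightOneSpectrum (𝓞 L)) (u : L) : ℤ :=
  if h : pJ r g c u = 0 then 0 else ord Q (Units.mk0 _ h)

theorem ordJ_eq {r g c : ℕ} (Q : HeightOneSpectrum (𝓞 L)) {u : L} {J : Lˣ}
    (hJ : (J : L) = pJ r g c u) : ordJ r g c Q u = ord Q J := by
  have h : pJ r g c u ≠ 0 := hJ ▸ J.ne_zero
  rw [ordJ, dif_neg h]
  exact congrArg _ (Units.ext (by rw [Units.val_mk0, hJ]))

variable [IsGalois ℚ L]

/-- The complex conjugation of an embedding. -/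
theorem exists_conj_emb (φ : L →+* ℂ) : ∃ τ : L ≃ₐ[ℚ] L, ∀ x, φ (τ x) = conj (φ x) := by
  obtain ⟨τ', hτ'⟩ := ComplexEmbedding.exists_comp_symm_eq_of_comp_eq (k := ℚ) φ
    ((starRingEnd ℂ).comp φ) (RingHom.ext_rat _ _)
  exact ⟨τ'.symm, fun x => RingHom.congr_fun hτ' x⟩

section one

variable {r g : ℕ} [hr : Fact r.Prime] (hg : orderOf (g : ZMod r) = r - 1) {c : ℕ} {u : L}
  (hu : u ^ (r - 1) = 1) (hc : ∀ j, 1 ≤ j → j ≤ c → u ^ j ≠ 1) {Q : HeightOneSpectrum (𝓞 L)}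
  (hQ : IsDeg1 1 Q r)
include hg hu hc hQ

theorem ordJ_add_inv : ordJ r g c Q u + ordJ r g c Q u⁻¹ = ((c - 1 : ℕ) : ℤ) := by
  have hu' : u⁻¹ ^ (r - 1) = 1 := by rw [inv_pow, hu, inv_one]
  have hc' : ∀ j, 1 ≤ j → j ≤ c → u⁻¹ ^ j ≠ 1 := fun j h1 h2 h =>
    hc j h1 h2 (by rwa [inv_pow, inv_eq_one] at h)
  set J := Units.mk0 _ (pJ_ne_zero hg hu hc)
  set J' := Units.mk0 _ (pJ_ne_zero hg hu' hc')
  set R : Lˣ := Units.mk0 (r : L) (Nat.cast_ne_zero.2 hr.out.ne_zero)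
  have h : J * J' = R ^ (c - 1) := Units.ext (by
    rw [Units.val_mul, Units.val_pow_eq_pow_val]
    exact pJ_mul_inv hg hu hc)
  rw [ordJ_eq Q (J := J) rfl, ordJ_eq Q (J := J') rfl, ← ord_mul, h, ord_pow, hQ.ord_r, mul_one]

/-- The divisor along the orbit. -/
theorem ord_pJ_orbit (P : HeightOneSpectrum (𝓞 L)) {J : Lˣ} (hJ : (J : L) = pJ r g c u) :
    ord P J =
      ∑ σ : L ≃ₐ[ℚ] L, if galPrime σ Q = P then ordJ r g c Q (σ⁻¹ u) else 0 := by
  by_cases hrP : (r : 𝓞 L) ∈ P.asIdeal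
  · obtain ⟨σ, hσ, huniq⟩ := exists_unique_gal hQ hrP
    rw [Finset.sum_eq_single σ (fun ρ _ hne => if_neg fun h => hne (huniq ρ h))
      (fun h => absurd (Finset.mem_univ σ) h), if_pos hσ, ← hσ]
    have hJ' : ((galU σ⁻¹ J : Lˣ) : L) = pJ r g c (σ⁻¹ u) := by
      rw [galU_val, hJ]
      exact map_pJ ((σ⁻¹ : L ≃ₐ[ℚ] L) : L →+* L) c u
    rw [ordJ_eq Q hJ', ← ord_galU σ Q (galU σ⁻¹ J)]
    exact congrArg _ (Units.ext (σ.apply_symm_apply (J : L)).symm)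
  · rw [ord_pJ_eq_zero hg hu hc P hrP hJ, Finset.sum_eq_zero fun σ _ => if_neg ?_]
    intro h
    refine hrP ?_
    have hmem : σ • (r : 𝓞 L) ∈ σ • Q.asIdeal :=
      Ideal.smul_mem_pointwise_smul σ _ _ (hQ.norm ▸ Ideal.absNorm_mem Q.asIdeal)
    rw [← h]
    rwa [show σ • (r : 𝓞 L) = r from
      map_natCast (MulSemiringAction.toRingHom (L ≃ₐ[ℚ] L) (𝓞 L) σ) r] at hmem

end one

/-- **Two primes in a class.** -/
theorem exists_root_replace {r g r' g' c : ℕ} [hr : Fact r.Prime] [hr' : Fact r'.Prime]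
    (hg : orderOf (g : ZMod r) = r - 1) (hg' : orderOf (g' : ZMod r') = r' - 1)
    {Q Q' : HeightOneSpectrum (𝓞 L)} (hQ : IsDeg1 1 Q r) (hQ' : IsDeg1 1 Q' r') {m : ℕ}
    (hm : m ∣ r - 1) (hm' : m ∣ r' - 1)
    (heq : ∀ v : L, v ^ m = 1 → (∀ j, 1 ≤ j → j ≤ c → v ^ j ≠ 1) →
      ordJ r' g' c Q' v = ordJ r g c Q v)
    {W : Lˣ} (hW : ∀ P, ord P W = (if Q' = P then 1 else 0) - if Q = P then 1 else 0)
    (hNW : ∀ φ : L →+* ℂ, (∏ σ : L ≃ₐ[ℚ] L, ‖φ (σ (W : L))‖) * r = r')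
    {u : L} (hu : u ^ m = 1) (hc : ∀ j, 1 ≤ j → j ≤ c → u ^ j ≠ 1) :
    ∃ ε : L, (∃ t, 0 < t ∧ ε ^ t = 1) ∧ pJ r' g' c u =
      ε * pJ r g c u * ∏ σ : L ≃ₐ[ℚ] L, σ (W : L) ^ ordJ r g c Q (σ⁻¹ u) := by
  have hpow : ∀ {n : ℕ}, m ∣ n → ∀ {v : L}, v ^ m = 1 → v ^ n = 1 := fun {n} hn {v} hv => by
    obtain ⟨d, rfl⟩ := hn
    rw [pow_mul, hv, one_pow]
  have hgal : ∀ σ : L ≃ₐ[ℚ] L, (σ u) ^ m = 1 ∧ ∀ j, 1 ≤ j → j ≤ c → (σ u) ^ j ≠ 1 := fun σ =>
    ⟨by rw [← map_pow, hu, map_one],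
      fun j h1 h2 h => hc j h1 h2 (σ.injective (by rw [map_pow, h, map_one]))⟩
  set J := Units.mk0 _ (pJ_ne_zero hg (hpow hm hu) hc)
  set J' := Units.mk0 _ (pJ_ne_zero hg' (hpow hm' hu) hc)
  set o : (L ≃ₐ[ℚ] L) → ℤ := fun σ => ordJ r g c Q (σ⁻¹ u)
  set X : Lˣ := J' / (J * ∏ σ : L ≃ₐ[ℚ] L, galU σ W ^ o σ)
  have hX : (X : L) = pJ r' g' c u / (pJ r g c u * ∏ σ : L ≃ₐ[ℚ] L, σ (W : L) ^ o σ) := by
    rw [Units.val_div_eq_div_val, Units.val_mul, Units.coe_prod]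
    simp only [Units.val_zpow_eq_zpow_val, galU_val]
    rfl
  refine ⟨(X : L), exists_pow_eq_one (fun P => ?_) (fun φ => ?_), ?_⟩
  · rw [ord_div, ord_mul, ord_prod, ord_pJ_orbit hg (hpow hm hu) hc hQ P (J := J) rfl,
      ord_pJ_orbit hg' (hpow hm' hu) hc hQ' P (J := J') rfl, ← Finset.sum_add_distrib,
      ← Finset.sum_sub_distrib]
    refine Finset.sum_eq_zero fun σ _ => ?_
    have hP : ∀ R : HeightOneSpectrum (𝓞 L), R = galPrime σ⁻¹ P ↔ galPrime σ R = P := fun R =>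
      ⟨fun h => by rw [h, ← galPrime_mul, mul_inv_cancel, galPrime_one],
        fun h => by rw [← h, ← galPrime_mul, inv_mul_cancel, galPrime_one]⟩
    rw [ord_zpow, show ord P (galU σ W) = ord (galPrime σ⁻¹ P) W by
        conv_lhs => rw [← (hP _).1 rfl]
        exact ord_galU σ _ W,
      hW, heq _ (hgal σ⁻¹).1 (hgal σ⁻¹).2]
    simp only [hP, o]
    split_ifs <;> ring
  · obtain ⟨τ, hτ⟩ := exists_conj_emb φ
    set a : (L ≃ₐ[ℚ] L) → ℝ := fun σ => ‖φ (σ (W : L))‖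
    have ha : ∀ σ, 0 < a σ := fun σ =>
      norm_pos_iff.2 ((map_ne_zero φ).2 ((map_ne_zero σ).2 W.ne_zero))
    have haτ : ∀ σ, a (τ * σ) = a σ := fun σ => by
      show ‖φ (τ (σ (W : L)))‖ = _
      rw [hτ, Complex.norm_conj]
    have hτu : τ⁻¹ u = u⁻¹ := by
      show τ.symm u = u⁻¹
      rw [AlgEquiv.symm_apply_eq]
      refine φ.injective ?_
      have hn : ‖φ u‖ = 1 := Complex.norm_eq_one_of_pow_eq_one
        (by rw [← map_pow, hpow hm hu, map_one]) (by have := hr.out.two_le; omega)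
      rw [hτ, map_inv₀, Complex.inv_eq_conj hn, Complex.conj_conj]
    have ho : ∀ σ, o σ + o (τ * σ) = ((c - 1 : ℕ) : ℤ) := fun σ => by
      have h1 : (τ * σ)⁻¹ u = (σ⁻¹ u)⁻¹ := by
        rw [mul_inv_rev, AlgEquiv.mul_apply, hτu, map_inv₀]
      show ordJ r g c Q _ + ordJ r g c Q _ = _
      rw [h1]
      exact ordJ_add_inv hg (hpow hm (hgal _).1) (hgal _).2 hQ
    have hsq : (∏ σ, a σ ^ o σ) ^ 2 = (∏ σ, a σ) ^ (c - 1) := by
      rw [sq]
      nth_rw 2 [← Equiv.prod_comp (Equiv.mulLeft τ)]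
      rw [← Finset.prod_mul_distrib, ← Finset.prod_pow]
      refine Finset.prod_congr rfl fun σ _ => ?_
      rw [Equiv.coe_mulLeft, haτ, ← zpow_add₀ (ha σ).ne', ho, zpow_natCast]
    have hsqX : ‖φ (X : L)‖ ^ 2 = 1 := by
      have hr0 : (r : ℝ) ≠ 0 := Nat.cast_ne_zero.2 hr.out.ne_zero
      have hr'0 : (r' : ℝ) ≠ 0 := Nat.cast_ne_zero.2 hr'.out.ne_zero
      rw [hX, map_div₀, map_mul, map_prod, norm_div, norm_mul, norm_prod, div_pow, mul_pow,
        norm_sq_pJ hg' (hpow hm' hu) hc φ, norm_sq_pJ hg (hpow hm hu) hc φ]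
      simp only [map_zpow₀, norm_zpow]
      rw [show ∏ σ : L ≃ₐ[ℚ] L, ‖φ (σ (W : L))‖ ^ o σ = ∏ σ, a σ ^ o σ from rfl, hsq, ← mul_pow,
        mul_comm (r : ℝ), hNW φ, div_self (pow_ne_zero _ hr'0)]
    exact (pow_eq_one_iff_of_nonneg (norm_nonneg _) two_ne_zero).1 hsqX
  · rw [hX, mul_assoc, div_mul_cancel₀]
    exact mul_ne_zero (pJ_ne_zero hg (hpow hm hu) hc)
      (Finset.prod_ne_zero_iff.2 fun σ _ => zpow_ne_zero _ ((map_ne_zero σ).2 W.ne_zero))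

end gal

section exponent

variable {L : Type*} [Field L] [NumberField L] {r g : ℕ} [hr : Fact r.Prime]
  (hg : orderOf (g : ZMod r) = r - 1) {Q : HeightOneSpectrum (𝓞 L)} (hQ : IsDeg1 1 Q r)
  {m d : ℕ} (hmd : r - 1 = m * d) {Z : L} (hZ : IsPrimitiveRoot Z m)
include hg hQ hmd hZ

/-- The order on the powers of a root. -/
theorem ordJ_pow {i : ℕ} (hn : Q.valuation L (Z - (g : L) ^ (i * d)) < 1) {c : ℕ} (hc1 : 1 ≤ c)
    (a : ℕ) (hc : ∀ j, 1 ≤ j → j ≤ c → (Z ^ a) ^ j ≠ 1) :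
    ordJ r g c Q (Z ^ a) = (jOrd m c (i * a) : ℤ) := by
  have hN0 : r - 1 ≠ 0 := by have := hr.out.two_le; omega
  have hd : 0 < d := Nat.pos_of_ne_zero fun h => hN0 (by rw [hmd, h, mul_zero])
  have hZ1 : Z ^ (r - 1) = 1 := by rw [hmd, pow_mul, hZ.pow_eq_one, one_pow]
  have hu : (Z ^ a) ^ (r - 1) = 1 := by rw [pow_right_comm, hZ1, one_pow]
  have hwg : ∀ e, Q.valuation L ((g : L) ^ e) ≤ 1 := fun e => by
    rw [map_pow]; exact pow_le_one' (val_natCast_le_one _ g) e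
  have hn' : Q.valuation L (Z ^ a - (g : L) ^ (i * d * a)) < 1 := by
    rw [pow_mul]
    exact congr_pow (val_eq_one_of_pow_eq_one _ hN0 hZ1).le (hwg _) hn a
  rw [ordJ_eq Q (J := Units.mk0 _ (pJ_ne_zero hg hu hc)) rfl,
    ord_pJ Q hg hu (hQ.norm ▸ Ideal.absNorm_mem Q.asIdeal) hn' hQ.ord_r hc1 hc rfl,
    ← jOrd_mul_right c (i * a) hd, jOrd, hmd, show i * d * a = i * a * d by ring]

/-- The exponent of a primitive root. -/
theorem exists_coprime_exponent :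
    ∃ i, i.Coprime m ∧ Q.valuation L (Z - (g : L) ^ (i * d)) < 1 := by
  have hN0 : r - 1 ≠ 0 := by have := hr.out.two_le; omega
  have hd : 0 < d := Nat.pos_of_ne_zero fun h => hN0 (by rw [hmd, h, mul_zero])
  have hm0 : 0 < m := Nat.pos_of_ne_zero fun h => hN0 (by rw [hmd, h, zero_mul])
  have hrQ : (r : 𝓞 L) ∈ Q.asIdeal := hQ.norm ▸ Ideal.absNorm_mem Q.asIdeal
  have hZ1 : Z ^ (r - 1) = 1 := by rw [hmd, pow_mul, hZ.pow_eq_one, one_pow]
  obtain ⟨n, hn⟩ := exists_exponent hg Q hrQ hZ1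
  have hwg : ∀ e, Q.valuation L ((g : L) ^ e) ≤ 1 := fun e => by
    rw [map_pow]; exact pow_le_one' (val_natCast_le_one _ g) e
  have hdn : d ∣ n := by
    have h1 : Q.valuation L ((g : L) ^ (n * m) - (g : L) ^ 0) < 1 := by
      have h2 := congr_pow (val_eq_one_of_pow_eq_one _ hN0 hZ1).le (hwg n) hn m
      rw [hZ.pow_eq_one, ← pow_mul] at h2
      rw [pow_zero, Valuation.map_sub_swap]
      exact h2
    rw [← Nat.cast_pow, ← Nat.cast_pow] at h1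
    have h3 := FA.Kolyvagin.modEq_of_congr hr.out
      ((FA.Kolyvagin.val_natCast_lt_one_iff Q r).2 hrQ) h1
    rw [← ZMod.natCast_eq_natCast_iff, Nat.cast_pow, Nat.cast_pow] at h3
    have h4 := Nat.modEq_zero_iff_dvd.1 (modEq_of_pow_eq hg h3)
    rw [hmd, mul_comm n] at h4
    exact Nat.dvd_of_mul_dvd_mul_left hm0 h4
  obtain ⟨i, rfl⟩ := hdn
  refine ⟨i, Nat.coprime_of_dvd' fun s hs hsi hsm => ?_, by rwa [mul_comm i]⟩
  by_contra hs1
  obtain ⟨a, rfl⟩ := hsi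
  obtain ⟨b, rfl⟩ := hsm
  have hb : b < s * b :=
    lt_mul_left (Nat.pos_of_ne_zero fun h => by rw [h, mul_zero] at hm0; omega) hs.one_lt
  have hne : Z ^ b ≠ 1 := fun h => absurd (Nat.le_of_dvd (Nat.pos_of_ne_zero fun h0 => by
    rw [h0, mul_zero] at hm0; omega) (hZ.dvd_of_pow_eq_one b h)) (not_le.2 hb)
  exact not_dvd_mul_exponent Q hg hZ1 hrQ hn hne ⟨a, by rw [hmd]; ring⟩

end exponent

/-- **A generator with prescribed exponent.** -/
theorem exists_gen_exponent {L : Type*} [Field L] [NumberField L] {r : ℕ} (hr : r.Prime)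
    {Q : HeightOneSpectrum (𝓞 L)} (hQ : IsDeg1 1 Q r) {m d : ℕ} (hmd : r - 1 = m * d) {Z : L}
    (hZ : IsPrimitiveRoot Z m) {i : ℕ} (hi : i.Coprime m) :
    ∃ g : ℕ, orderOf (g : ZMod r) = r - 1 ∧ Q.valuation L (Z - (g : L) ^ (i * d)) < 1 := by
  haveI : Fact r.Prime := ⟨hr⟩
  obtain ⟨i', hi', hn⟩ := exists_coprime_exponent (gen_spec hr) hQ hmd hZ
  have hN0 : r - 1 ≠ 0 := by have := hr.two_le; omega
  haveI : NeZero (r - 1) := ⟨hN0⟩
  haveI : NeZero m := ⟨fun h => hN0 (by rw [hmd, h, zero_mul])⟩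
  obtain ⟨b, hb⟩ := ZMod.unitsMap_surjective (show m ∣ r - 1 from ⟨d, hmd⟩)
    (ZMod.unitOfCoprime i' hi' * (ZMod.unitOfCoprime i hi)⁻¹)
  have hbN : (b : ZMod (r - 1)).val.Coprime (r - 1) := ZMod.val_coe_unit_coprime b
  have hbm : (b : ZMod (r - 1)).val * i ≡ i' [MOD m] := by
    rw [← ZMod.natCast_eq_natCast_iff, Nat.cast_mul]
    have h1 := congrArg (fun x : (ZMod m)ˣ => (x : ZMod m)) hb
    simp only [ZMod.unitsMap_val, Units.val_mul, ZMod.coe_unitOfCoprime] at h1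
    rw [ZMod.cast_eq_val] at h1
    rw [h1, mul_assoc, ← ZMod.coe_unitOfCoprime i hi, Units.inv_mul, mul_one]
  refine ⟨gen r ^ (b : ZMod (r - 1)).val, ?_, ?_⟩
  · rw [Nat.cast_pow, Nat.Coprime.orderOf_pow (by rw [gen_spec hr]; exact hbN.symm), gen_spec hr]
  · have he : (b : ZMod (r - 1)).val * i * d ≡ i' * d [MOD r - 1] :=
      (hbm.mul_right' d).of_dvd (dvd_of_eq hmd)
    rw [Nat.cast_pow, ← pow_mul, ← mul_assoc]
    refine FA.Kolyvagin.congr_trans hn ?_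
    have hmod : (gen r : ZMod r) ^ (i' * d) =
        (gen r : ZMod r) ^ ((b : ZMod (r - 1)).val * i * d) :=
      pow_eq_pow_of_modEq he.symm (by rw [← gen_spec hr, pow_orderOf_eq_one])
    rw [← Nat.cast_pow, ← Nat.cast_pow, ZMod.natCast_eq_natCast_iff] at hmod
    obtain ⟨z, hz⟩ := (Nat.modEq_iff_dvd.1 hmod)
    rw [← Nat.cast_pow, ← Nat.cast_pow, Valuation.map_sub_swap]
    rw [show (((gen r ^ ((b : ZMod (r - 1)).val * i * d) : ℕ) : L) -
        ((gen r ^ (i' * d) : ℕ) : L)) = ((r : ℤ) : L) * (z : L) by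
      rw [← Int.cast_natCast, ← Int.cast_natCast (R := L) (gen r ^ (i' * d)), ← Int.cast_sub,
        hz, Int.cast_mul]]
    rw [map_mul, Int.cast_natCast]
    refine (mul_le_of_le_one_right' ?_).trans_lt
      ((FA.Kolyvagin.val_natCast_lt_one_iff Q r).2 (hQ.norm ▸ Ideal.absNorm_mem Q.asIdeal))
    rcases Int.eq_nat_or_neg z with ⟨n, rfl | rfl⟩
    · simpa using val_natCast_le_one (Q.valuation L) n
    · simpa using val_natCast_le_one (Q.valuation L) n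

end FA.GaussKolyvagin
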