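import Fermat.Agent.Kolyvagin.Local

/-!
# Roots of unity of pairwise coprime orders

The lemmas on the fields of roots of prime orders for pairwise coprime orders, as needed for the
set of a power of `p` and further primes.

* `exists_aut`: automorphisms with prescribed action;
* `exists_rootField`, `inertia_rootField_eq_bot`: the root field is unramified off its orders;
* `val_one_sub_eq_one_of_pow`: `1 - x` is a unit at a place where the order is one.
-/

set_option autoImplicit false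
set_option linter.unusedSectionVars false
set_option linter.style.haveILetI false

noncomputable section

open scoped Classical
open Finset IntermediateField NumberField IsDedekindDomain
open FA.Kolyvagin (zr zr_spec zr_pow_self zr_pow_congr zProd fullField zr_mem_fullField
  plusField plusField_le_fullField mem_adjoin_iff_fixed IsRootField isGalois_rat
  val_eq_one_of_pow_eq_one val_one_sub_le_one val_natCast_eq_one_iff congr_pow)

namespace FA.GaussKolyvagin

/-- Nonzero pairwise coprime numbers. -/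
structure RootSet (S : Finset ℕ) : Prop where
  ne_zero : ∀ q ∈ S, q ≠ 0
  coprime : ∀ q ∈ S, ∀ q' ∈ S, q ≠ q' → q.Coprime q'

theorem rootSet_of_prime {S : Finset ℕ} (hS : ∀ q ∈ S, q.Prime) : RootSet S :=
  ⟨fun q hq => (hS q hq).ne_zero,
    fun q hq q' hq' hne => (Nat.coprime_primes (hS q hq) (hS q' hq')).2 hne⟩

/-- `1 - x` is a unit where the order of `x` is. -/
theorem val_one_sub_eq_one_of_pow {L Γ : Type*} [Field L] [LinearOrderedCommGroupWithZero Γ]
    (w : Valuation L Γ) {q : ℕ} (hq0 : q ≠ 0) (hwq : w (q : L) = 1) {x : L} (hx : x ^ q = 1)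
    (hx1 : x ≠ 1) : w (1 - x) = 1 := by
  have hw : w x = 1 := val_eq_one_of_pow_eq_one w hq0 hx
  refine le_antisymm (val_one_sub_le_one w hw.le) (not_lt.1 fun hlt => ?_)
  have hs : ∑ i ∈ range q, x ^ i = 0 := by
    have h := geom_sum_mul x q
    rw [hx, sub_self] at h
    exact (mul_eq_zero.1 h).resolve_right (sub_ne_zero.2 hx1)
  have h1 : w (∑ i ∈ range q, (x ^ i - 1)) < 1 := w.map_sum_lt one_ne_zero fun i _ => by
    have h := congr_pow (w := w) (b := 1) hw.le (by rw [map_one])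
      (by rwa [Valuation.map_sub_swap]) i
    rwa [one_pow] at h
  rw [Finset.sum_sub_distrib, hs, Finset.sum_const, Finset.card_range, nsmul_one, zero_sub,
    Valuation.map_neg] at h1
  exact h1.ne hwq

variable {Ω : Type*} [Field Ω] [CharZero Ω] [IsAlgClosed Ω] {S : Finset ℕ}

theorem exists_crt (hS : RootSet S) (a : ℕ → ℕ) : ∃ A : ℕ, ∀ q ∈ S, A ≡ a q [MOD q] :=
  ⟨_, (Nat.chineseRemainderOfFinset a id S hS.ne_zero hS.coprime).2⟩

theorem exists_map_root (σ : Ω →+* Ω) {q : ℕ} (hq : q ≠ 0) :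
    ∃ a : ℕ, σ (zr Ω q) = zr Ω q ^ a ∧ a.Coprime q := by
  haveI : NeZero q := ⟨hq⟩
  have hσ := (zr_spec Ω hq).map_of_injective σ.injective
  obtain ⟨a, -, ha⟩ := (zr_spec Ω hq).eq_pow_of_pow_eq_one hσ.pow_eq_one
  rw [← ha] at hσ
  exact ⟨a, ha.symm, ((zr_spec Ω hq).pow_iff_coprime (Nat.pos_of_ne_zero hq) a).1 hσ⟩

theorem zr_mem_powers (hS : RootSet S) {q : ℕ} (hq : q ∈ S) :
    ∃ b : ℕ, zProd Ω S ^ b = zr Ω q := by
  obtain ⟨b, hb⟩ := exists_crt hS fun s => if s = q then 1 else 0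
  refine ⟨b, ?_⟩
  rw [zProd, ← Finset.prod_pow, Finset.prod_eq_single q]
  · rw [zr_pow_congr Ω (show b ≡ 1 [MOD q] by simpa using hb q hq), pow_one]
  · intro s hs hne
    rw [zr_pow_congr Ω (show b ≡ 0 [MOD s] by simpa [hne] using hb s hs), pow_zero]
  · exact fun h => absurd hq h

theorem RootSet.prod_dvd (hS : RootSet S) {m : ℕ} (h : ∀ q ∈ S, q ∣ m) : ∏ q ∈ S, q ∣ m := by
  induction S using Finset.induction with
  | empty => simp
  | insert q S hq ih =>
    rw [Finset.prod_insert hq]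
    refine Nat.Coprime.mul_dvd_of_dvd_of_dvd (Nat.Coprime.prod_right fun s hs => ?_)
      (h q (Finset.mem_insert_self q S)) (ih
        ⟨fun s hs => hS.ne_zero s (Finset.mem_insert_of_mem hs),
        fun s hs s' hs' => hS.coprime s (Finset.mem_insert_of_mem hs) s'
          (Finset.mem_insert_of_mem hs')⟩ fun s hs => h s (Finset.mem_insert_of_mem hs))
    exact hS.coprime q (Finset.mem_insert_self q S) s (Finset.mem_insert_of_mem hs)
      fun e => hq (e ▸ hs)

theorem RootSet.prod_pos (hS : RootSet S) : 0 < ∏ q ∈ S, q :=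
  Finset.prod_pos fun q hq => Nat.pos_of_ne_zero (hS.ne_zero q hq)

theorem zProd_isPrimitiveRoot (hS : RootSet S) :
    IsPrimitiveRoot (zProd Ω S) (∏ q ∈ S, q) := by
  refine ⟨?_, fun m hm => hS.prod_dvd fun q hq => ?_⟩
  · rw [zProd, ← Finset.prod_pow]
    refine Finset.prod_eq_one fun q hq => ?_
    obtain ⟨c, hc⟩ := Finset.dvd_prod_of_mem (fun s : ℕ => s) hq
    rw [hc, pow_mul, zr_pow_self, one_pow]
  · obtain ⟨b, hb⟩ := zr_mem_powers (Ω := Ω) hS hq
    refine (zr_spec Ω (hS.ne_zero q hq)).dvd_of_pow_eq_one m ?_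
    rw [← hb, pow_right_comm, hm, one_pow]

variable [Algebra.IsAlgebraic ℚ Ω]

/-- **Automorphisms with prescribed action on the roots.** -/
theorem exists_aut (hS : RootSet S) (a : ℕ → ℕ) (ha : ∀ q ∈ S, (a q).Coprime q) :
    ∃ σ : Ω ≃ₐ[ℚ] Ω, ∀ q ∈ S, σ (zr Ω q) = zr Ω q ^ a q := by
  haveI := isGalois_rat (Ω := Ω)
  obtain ⟨A, hA⟩ := exists_crt hS a
  have hpr := zProd_isPrimitiveRoot (Ω := Ω) hS
  have hN := hS.prod_pos
  have hco : A.Coprime (∏ q ∈ S, q) := Nat.Coprime.prod_right fun q hq => by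
    rw [Nat.coprime_iff_gcd_eq_one, (hA q hq).gcd_eq]
    exact ha q hq
  have hmin : minpoly ℚ (zProd Ω S ^ A) = minpoly ℚ (zProd Ω S) := by
    rw [← Polynomial.cyclotomic_eq_minpoly_rat hpr hN,
      ← Polynomial.cyclotomic_eq_minpoly_rat (hpr.pow_of_coprime A hco) hN]
  obtain ⟨σ, hσ⟩ := (Normal.minpoly_eq_iff_mem_orbit (E := Ω)).1 hmin
  refine ⟨σ, fun q hq => ?_⟩
  obtain ⟨b, hb⟩ := zr_mem_powers (Ω := Ω) hS hq
  have hσ' : σ (zProd Ω S) = zProd Ω S ^ A := hσ
  rw [← hb, map_pow, hσ', pow_right_comm, hb, zr_pow_congr Ω (hA q hq)]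

section root

variable {P : ℕ}

theorem map_mem_fullField (σ : Ω ≃ₐ[ℚ] Ω) (hS : RootSet (insert P S)) {x : Ω}
    (hx : x ∈ fullField Ω P S) : σ x ∈ fullField Ω P S := by
  induction hx using adjoin_induction ℚ with
  | mem y hy =>
    obtain ⟨q, hq, rfl⟩ := hy
    obtain ⟨a, ha, -⟩ := exists_map_root (σ : Ω →+* Ω) (hS.ne_zero q hq)
    rw [show σ (zr Ω q) = zr Ω q ^ a from ha]
    exact pow_mem (zr_mem_fullField hq) a
  | algebraMap x => rw [σ.commutes]; exact IntermediateField.algebraMap_mem _ x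
  | add y z _ _ hy hz => rw [map_add]; exact add_mem hy hz
  | inv y _ hy => rw [map_inv₀]; exact inv_mem hy
  | mul y z _ _ hy hz => rw [map_mul]; exact mul_mem hy hz

theorem fullField_isCyclotomic (hS : RootSet (insert P S)) :
    IsCyclotomicExtension {∏ q ∈ insert P S, q} ℚ (fullField Ω P S) := by
  haveI : NeZero (∏ q ∈ insert P S, q) := ⟨hS.prod_pos.ne'⟩
  have h : fullField Ω P S = adjoin ℚ {zProd Ω (insert P S)} := by
    refine le_antisymm (adjoin_le_iff.2 ?_) (adjoin_le_iff.2 (Set.singleton_subset_iff.2 ?_))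
    · rintro _ ⟨q, hq, rfl⟩
      obtain ⟨b, hb⟩ := zr_mem_powers (Ω := Ω) hS hq
      rw [← hb]
      exact pow_mem (mem_adjoin_simple_self ℚ (zProd Ω (insert P S))) b
    · exact prod_mem fun q hq => zr_mem_fullField hq
  rw [h]
  exact (zProd_isPrimitiveRoot hS).intermediateField_adjoin_isCyclotomicExtension ℚ

theorem exists_rootField (hS : RootSet (insert P S)) :
    ∃ (L : IntermediateField ℚ Ω) (_ : NumberField L) (_ : IsGalois ℚ L), IsRootField P S L := by
  haveI : NeZero (∏ q ∈ insert P S, q) := ⟨hS.prod_pos.ne'⟩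
  haveI := fullField_isCyclotomic (Ω := Ω) hS
  refine ⟨fullField Ω P S, IsCyclotomicExtension.numberField {∏ q ∈ insert P S, q} ℚ _,
    IsCyclotomicExtension.isGalois {∏ q ∈ insert P S, q} ℚ _,
    ⟨fun q hq => zr_mem_fullField hq, fun x hx => plusField_le_fullField S hx,
      fun σ hσ y => (mem_adjoin_iff_fixed.1 y.2) σ ?_, ?_⟩⟩
  · rintro _ ⟨q, hq, rfl⟩
    exact hσ q hq
  · haveI : NumberField (fullField Ω P S) :=
      IsCyclotomicExtension.numberField {∏ q ∈ insert P S, q} ℚ _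
    have hmem : zProd Ω (insert P S) ∈ fullField Ω P S :=
      prod_mem fun q hq => zr_mem_fullField hq
    have hZ : IsPrimitiveRoot (⟨_, hmem⟩ : fullField Ω P S) (∏ q ∈ insert P S, q) :=
      IsPrimitiveRoot.coe_submonoidClass_iff.1 (zProd_isPrimitiveRoot hS)
    exact ⟨hZ.toInteger, rfl, IsCyclotomicExtension.Rat.adjoin_singleton_eq_top hZ⟩

/-- An element of inertia fixes the roots of the orders outside the prime. -/
theorem inertia_fix {L : IntermediateField ℚ Ω} [NumberField L] {K : Type*} [Field K]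
    [Algebra K L] (Q : HeightOneSpectrum (𝓞 L)) {τ : L ≃ₐ[K] L}
    (hτ : τ ∈ Q.asIdeal.inertia (L ≃ₐ[K] L)) {q : ℕ} (hq : q ≠ 0) {z : L}
    (hz : IsPrimitiveRoot z q) (hqQ : (q : 𝓞 L) ∉ Q.asIdeal) : τ z = z := by
  haveI : NeZero q := ⟨hq⟩
  obtain ⟨i, -, hi⟩ :=
    hz.eq_pow_of_pow_eq_one (ξ := τ z) (by rw [← map_pow, hz.pow_eq_one, map_one])
  have hwz : Q.valuation L z = 1 := val_eq_one_of_pow_eq_one _ hq hz.pow_eq_one
  have hlt : Q.valuation L (τ z - z) < 1 := by
    have h : τ • hz.toInteger - hz.toInteger ∈ Q.asIdeal := hτ hz.toInteger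
    exact (Q.valuation_lt_one_iff_mem (K := L) _).2 h
  by_contra hne
  have hz0 : z ≠ 0 := hz.ne_zero hq
  have hw : (τ z / z) ^ q = 1 := by
    rw [div_pow, ← map_pow, hz.pow_eq_one, map_one, div_one]
  have hne' : τ z / z ≠ 1 := fun h => hne ((div_eq_one_iff_eq hz0).1 h)
  have h1 := val_one_sub_eq_one_of_pow (Q.valuation L) hq ((val_natCast_eq_one_iff Q q).2 hqQ)
    hw hne'
  rw [show 1 - τ z / z = (z - τ z) / z by rw [sub_div, div_self hz0], map_div₀, hwz, div_one,
    Valuation.map_sub_swap] at h1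
  exact hlt.ne h1

/-- The inertia group is trivial away from the orders of the roots. -/
theorem inertia_rootField_eq_bot (hS : RootSet (insert P S)) {L : IntermediateField ℚ Ω}
    [NumberField L] [IsGalois ℚ L] (hL : IsRootField P S L) {K : Type*} [Field K] [NumberField K]
    [Algebra K L] (Q : HeightOneSpectrum (𝓞 L))
    (hQ : ∀ q ∈ insert P S, (q : 𝓞 L) ∉ Q.asIdeal) : Q.asIdeal.inertia (L ≃ₐ[K] L) = ⊥ := by
  haveI := isGalois_rat (Ω := Ω)
  rw [eq_bot_iff]
  intro τ hτ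
  rw [Subgroup.mem_bot]
  let τQ : L ≃ₐ[ℚ] L := AlgEquiv.ofRingEquiv (f := τ.toRingEquiv) fun r =>
    map_ratCast τ.toRingEquiv r
  set σ := τQ.liftNormal Ω
  have hσ : ∀ y : L, σ (y : Ω) = (τ y : L) := fun y => τQ.liftNormal_commutes Ω y
  have hfix : ∀ q ∈ insert P S, σ (zr Ω q) = zr Ω q := fun q hq => by
    have h := hσ ⟨zr Ω q, hL.zr_mem q hq⟩
    rw [inertia_fix Q hτ (hS.ne_zero q hq) (IsPrimitiveRoot.coe_submonoidClass_iff.1
      (zr_spec Ω (hS.ne_zero q hq))) (hQ q hq)] at h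
    exact h
  refine AlgEquiv.ext fun y => Subtype.ext ?_
  rw [← hσ y]
  exact hL.fixed σ hfix y

end root

end FA.GaussKolyvagin
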