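import Fermat.Agent.GaussKolyvagin.Distribution
import Fermat.Agent.GaussKolyvagin.RootSets

/-!
# The fields of Kolyvagin's system of Gauss sums

`P` is the power of `p` of the base field `ℚ(ζ_P)`, `c` a number in `[2, P)` prime to `p`. An
admissible prime is `1` modulo `p ^ k * P`; an auxiliary prime `r` for a finite set `S` of primes
is `1` modulo `P` and modulo every prime of `S`.

* `IsPt`: the roots of unity of order dividing `∏ S` in the field of the roots of `S`;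
* `IsPt.pow_r_sub_one`, `IsPt.pow_ne_one`: the points `ζ_P ^ a w` are admissible for the Jacobi
  sums;
* `ord_natCast_root`: `r` is unramified in a root field;
* `pow_two_mul_eq_one`, `pow_P_eq_one`: the roots of unity of the field of `P` and `S`.
-/

set_option autoImplicit false
set_option linter.unusedSectionVars false
set_option linter.style.haveILetI false

noncomputable section

open scoped Classical
open Finset IntermediateField NumberField IsDedekindDomain FA.ArtinRec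
open FA.Kolyvagin (zr zr_spec zr_pow_self zr_pow_congr fullField mem_adjoin_iff_fixed
  zr_mem_fullField IsRootField)

namespace FA.GaussKolyvagin

/-- The standing hypotheses. -/
structure Setup (p P k c : ℕ) : Prop where
  hp : p.Prime
  hp5 : 5 ≤ p
  hk : 0 < k
  hc2 : 2 ≤ c
  hcP : c < P
  hcd : ¬ p ∣ c
  hP : ∃ n, P = p ^ (n + 1)

/-- An admissible prime. -/
structure IsAdm (p P k q : ℕ) : Prop where
  prime : q.Prime
  dvd : p ^ k * P ∣ q - 1

/-- An auxiliary prime with a generator. -/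
structure IsAux (P : ℕ) (S : Finset ℕ) (r g : ℕ) : Prop where
  prime : r.Prime
  gen : orderOf (g : ZMod r) = r - 1
  dvd_p : P ∣ r - 1
  dvd : ∀ q ∈ S, q ∣ r - 1

variable {p P k c : ℕ}

theorem Setup.p_dvd (hs : Setup p P k c) : p ∣ P := by
  obtain ⟨n, rfl⟩ := hs.hP
  exact dvd_pow_self p (Nat.succ_ne_zero n)

theorem Setup.pos (hs : Setup p P k c) : 0 < P := (Nat.zero_le c).trans_lt hs.hcP

theorem Setup.two_lt (hs : Setup p P k c) : 2 < P := hs.hc2.trans_lt hs.hcP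

theorem Setup.odd (hs : Setup p P k c) : Odd P := by
  obtain ⟨n, rfl⟩ := hs.hP
  exact (hs.hp.odd_of_ne_two (by have := hs.hp5; omega)).pow

theorem Setup.coprime (hs : Setup p P k c) {m : ℕ} (h : ¬ p ∣ m) : P.Coprime m := by
  obtain ⟨n, rfl⟩ := hs.hP
  exact (hs.hp.coprime_iff_not_dvd.2 h).pow_left _

theorem Setup.pow_mul_ne_zero (hs : Setup p P k c) : p ^ k * P ≠ 0 :=
  Nat.mul_ne_zero (pow_ne_zero _ hs.hp.ne_zero) hs.pos.ne'

theorem IsAdm.lt {q : ℕ} (hs : Setup p P k c) (h : IsAdm p P k q) : P < q := by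
  have h0 : 0 < q - 1 := by have := h.prime.two_le; omega
  have h1 : P ≤ q - 1 := (Nat.le_mul_of_pos_left P (pow_pos hs.hp.pos k)).trans
    (Nat.le_of_dvd h0 h.dvd)
  omega

theorem IsAdm.ne_p {q : ℕ} (hs : Setup p P k c) (h : IsAdm p P k q) : q ≠ p :=
  ((Nat.le_of_dvd hs.pos hs.p_dvd).trans_lt (h.lt hs)).ne'

theorem IsAdm.ne_two {q : ℕ} (hs : Setup p P k c) (h : IsAdm p P k q) : q ≠ 2 := by
  have := h.lt hs
  have := hs.two_lt
  omega

theorem IsAdm.dvd_pow {q : ℕ} (h : IsAdm p P k q) : p ^ k ∣ q - 1 :=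
  (dvd_mul_right _ _).trans h.dvd

theorem IsAdm.dvd_base {q : ℕ} (h : IsAdm p P k q) : P ∣ q - 1 := (dvd_mul_left _ _).trans h.dvd

theorem IsAdm.modEq_one {q : ℕ} (h : IsAdm p P k q) : q ≡ 1 [MOD P] :=
  ((Nat.modEq_iff_dvd' h.prime.one_le).2 h.dvd_base).symm

theorem IsAdm.dvd_half {q : ℕ} (hs : Setup p P k c) (h : IsAdm p P k q) :
    p ^ k * P ∣ (q - 1) / 2 := by
  obtain ⟨m, hm⟩ := h.prime.odd_of_ne_two (h.ne_two hs)
  have h1 := h.dvd
  rw [show q - 1 = 2 * m by omega] at h1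
  rw [show (q - 1) / 2 = m by omega]
  refine (Nat.coprime_two_right.2 ?_).dvd_of_dvd_mul_left h1
  exact ((hs.hp.odd_of_ne_two (by have := hs.hp5; omega)).pow).mul hs.odd

theorem prime_of_adm {S : Finset ℕ} (hS : ∀ q ∈ S, IsAdm p P k q) : ∀ q ∈ S, q.Prime :=
  fun q hq => (hS q hq).prime

theorem P_notMem {S : Finset ℕ} (hs : Setup p P k c) (hS : ∀ q ∈ S, IsAdm p P k q) : P ∉ S :=
  fun h => lt_irrefl P ((hS P h).lt hs)

theorem not_dvd_prod_adm {S : Finset ℕ} (hs : Setup p P k c) (hS : ∀ q ∈ S, IsAdm p P k q) :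
    ¬ p ∣ ∏ q ∈ S, q :=
  FA.Kolyvagin.not_dvd_prod hs.hp (prime_of_adm hS) fun h => (hS p h).ne_p hs rfl

theorem rootSet_insert {S : Finset ℕ} (hs : Setup p P k c) (hS : ∀ q ∈ S, IsAdm p P k q) :
    RootSet (insert P S) := by
  have h : ∀ q ∈ S, P.Coprime q := fun q hq => hs.coprime fun hd =>
    (hS q hq).ne_p hs ((Nat.prime_dvd_prime_iff_eq hs.hp (hS q hq).prime).1 hd).symm
  refine ⟨fun q hq => ?_, fun q hq q' hq' hne => ?_⟩
  · rcases Finset.mem_insert.1 hq with rfl | hq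
    · exact hs.pos.ne'
    · exact (hS q hq).prime.ne_zero
  · rcases Finset.mem_insert.1 hq with e | hq <;> rcases Finset.mem_insert.1 hq' with e' | hq'
    · exact absurd (e.trans e'.symm) hne
    · exact e ▸ h q' hq'
    · exact e' ▸ (h q hq).symm
    · exact (Nat.coprime_primes (hS q hq).prime (hS q' hq').prime).2 hne

theorem coprime_prod {S : Finset ℕ} (hs : Setup p P k c) (hS : ∀ q ∈ S, IsAdm p P k q) :
    Nat.Coprime p (2 * ∏ q ∈ S, q) :=
  (Nat.coprime_two_right.2 (hs.hp.odd_of_ne_two (by have := hs.hp5; omega))).mul_right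
    (hs.hp.coprime_iff_not_dvd.2 (not_dvd_prod_adm hs hS))

theorem coprime_exp {S : Finset ℕ} (hs : Setup p P k c) (hS : ∀ q ∈ S, IsAdm p P k q) :
    Nat.Coprime (p ^ k * P) (2 * ∏ q ∈ S, q) := by
  refine ((coprime_prod hs hS).pow_left k).mul_left ?_
  obtain ⟨n, hn⟩ := hs.hP
  exact hn ▸ (coprime_prod hs hS).pow_left _

/-- A prime number with `q ∣ r - 1` is prime to `q`. -/
theorem coprime_of_dvd_sub_one {r q : ℕ} (hr : r.Prime) (h : q ∣ r - 1) : r.Coprime q :=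
  hr.coprime_iff_not_dvd.2 fun hd => by
    have := Nat.le_of_dvd (by have := hr.two_le; omega) (hd.trans h)
    have := hr.two_le
    omega

theorem IsAux.dvd_insert {S : Finset ℕ} {r g : ℕ} (hA : IsAux P S r g) :
    ∀ q ∈ insert P S, q ∣ r - 1 := fun q hq =>
  (Finset.mem_insert.1 hq).elim (fun e => e ▸ hA.dvd_p) (hA.dvd q)

theorem IsAux.coprime {S : Finset ℕ} {r g : ℕ} (hA : IsAux P S r g) :
    ∀ q ∈ insert P S, r.Coprime q :=
  fun q hq => coprime_of_dvd_sub_one hA.prime (hA.dvd_insert q hq)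

theorem IsAux.ne_p {S : Finset ℕ} {r g : ℕ} (hA : IsAux P S r g) (hs : Setup p P k c) :
    r ≠ p := fun h => (hA.prime.coprime_iff_not_dvd.1 (hA.coprime P (Finset.mem_insert_self _ _)))
      (h ▸ hs.p_dvd)

theorem IsAux.notMem {S : Finset ℕ} {r g : ℕ} (hA : IsAux P S r g) : r ∉ S := fun h =>
  hA.prime.coprime_iff_not_dvd.1 (hA.coprime r (Finset.mem_insert_of_mem h)) dvd_rfl

theorem IsAux.mono {S T : Finset ℕ} {r g : ℕ} (hA : IsAux P S r g) (h : T ⊆ S) : IsAux P T r g :=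
  ⟨hA.prime, hA.gen, hA.dvd_p, fun q hq => hA.dvd q (h hq)⟩

theorem IsAux.prod_dvd {S : Finset ℕ} {r g : ℕ} (hA : IsAux P S r g) (hS : ∀ q ∈ S, q.Prime) :
    ∏ q ∈ S, q ∣ r - 1 :=
  Finset.prod_primes_dvd _ (fun q hq => (hS q hq).prime) hA.dvd

variable (Ω : Type*) [Field Ω] [CharZero Ω] [IsAlgClosed Ω]

/-- The field of the roots of `S`. -/
def sField (S : Finset ℕ) : IntermediateField ℚ Ω :=
  adjoin ℚ (zr Ω '' (S : Set ℕ))

variable {Ω}

/-- The points of `S`. -/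
def IsPt (S : Finset ℕ) (w : Ω) : Prop := w ∈ sField Ω S ∧ w ^ (∏ q ∈ S, q) = 1

theorem IsPt.one (S : Finset ℕ) : IsPt S (1 : Ω) := ⟨one_mem _, one_pow _⟩

theorem IsPt.mul {S : Finset ℕ} {v w : Ω} (hv : IsPt S v) (hw : IsPt S w) : IsPt S (v * w) :=
  ⟨mul_mem hv.1 hw.1, by rw [mul_pow, hv.2, hw.2, one_mul]⟩

theorem IsPt.pow {S : Finset ℕ} {v : Ω} (hv : IsPt S v) (n : ℕ) : IsPt S (v ^ n) :=
  ⟨pow_mem hv.1 n, by rw [pow_right_comm, hv.2, one_pow]⟩

theorem zr_mem_sField {S : Finset ℕ} {q : ℕ} (hq : q ∈ S) : zr Ω q ∈ sField Ω S :=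
  subset_adjoin ℚ _ ⟨q, hq, rfl⟩

theorem isPt_zr {S : Finset ℕ} {q : ℕ} (hq : q ∈ S) : IsPt S (zr Ω q) := by
  refine ⟨zr_mem_sField hq, ?_⟩
  obtain ⟨a, ha⟩ := Finset.dvd_prod_of_mem (fun s : ℕ => s) hq
  rw [ha, pow_mul, zr_pow_self, one_pow]

theorem isPt_pt {S T : Finset ℕ} (hTS : T ⊆ S) (j : ∀ q ∈ T, ℕ) :
    IsPt S (FA.Kolyvagin.pt Ω T j) := by
  refine Finset.prod_induction _ (fun x => IsPt S x) (fun a b => IsPt.mul) (IsPt.one S) ?_
  exact fun q hq => (isPt_zr (hTS hq)).pow _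

theorem sField_le_fullField (S : Finset ℕ) : sField Ω S ≤ fullField Ω P S :=
  adjoin.mono _ _ _ (Set.image_mono (Finset.coe_subset.2 (Finset.subset_insert P S)))

theorem fullField_mono {S T : Finset ℕ} (h : S ⊆ T) : fullField Ω P S ≤ fullField Ω P T :=
  adjoin.mono _ _ _ (Set.image_mono (Finset.coe_subset.2 (Finset.insert_subset_insert P h)))

variable [Algebra.IsAlgebraic ℚ Ω]

theorem zr_P_mem (S : Finset ℕ) : zr Ω P ∈ fullField Ω P S :=
  zr_mem_fullField (Finset.mem_insert_self P S)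

theorem IsPt.pow_r_sub_one {S : Finset ℕ} {r g : ℕ} (hA : IsAux P S r g)
    (hS : ∀ q ∈ S, q.Prime) {w : Ω} (hw : IsPt S w) (a : ℕ) :
    (zr Ω P ^ a * w) ^ (r - 1) = 1 := by
  obtain ⟨d, hd⟩ := hA.prod_dvd hS
  obtain ⟨e, he⟩ := hA.dvd_p
  rw [mul_pow, ← pow_mul, mul_comm a, he, mul_assoc, pow_mul, zr_pow_self, one_pow, one_mul, ← he,
    hd, pow_mul, hw.2, one_pow]

theorem IsPt.pow_ne_one {S : Finset ℕ} (hs : Setup p P k c) (hS : ∀ q ∈ S, IsAdm p P k q) {w : Ω}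
    (hw : IsPt S w) {a : ℕ} (ha : ¬ p ∣ a) {j : ℕ} (hj1 : 1 ≤ j) (hj : j ≤ c) :
    (zr Ω P ^ a * w) ^ j ≠ 1 := fun h => by
  have h1 := congrArg (fun x : Ω => x ^ (∏ q ∈ S, q)) h
  rw [pow_right_comm, mul_pow, hw.2, mul_one, ← pow_mul, ← pow_mul, one_pow, ← mul_assoc] at h1
  have h2 := (zr_spec Ω hs.pos.ne').dvd_of_pow_eq_one _ h1
  have h3 := Nat.le_of_dvd hj1 (((hs.coprime ha).mul_right
    (hs.coprime (not_dvd_prod_adm hs hS))).dvd_of_dvd_mul_left h2)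
  have := hs.hcP
  omega

/-- An automorphism fixing the roots of `S` fixes the points. -/
theorem map_sField {S : Finset ℕ} {σ : Ω ≃ₐ[ℚ] Ω} (hσ : ∀ q ∈ S, σ (zr Ω q) = zr Ω q) {w : Ω}
    (hw : w ∈ sField Ω S) : σ w = w :=
  (mem_adjoin_iff_fixed.1 hw) σ (by rintro _ ⟨q, hq, rfl⟩; exact hσ q hq)

theorem mem_fullField_iff {S : Finset ℕ} {x : Ω} :
    x ∈ fullField Ω P S ↔
      ∀ σ : Ω ≃ₐ[ℚ] Ω, (∀ q ∈ insert P S, σ (zr Ω q) = zr Ω q) → σ x = x := by
  rw [fullField, mem_adjoin_iff_fixed]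
  refine ⟨fun h σ hσ => h σ ?_, fun h σ hσ => h σ fun q hq => hσ _ ⟨q, hq, rfl⟩⟩
  rintro _ ⟨q, hq, rfl⟩
  exact hσ q hq

/-- The primes of the root field over `r` are unramified. -/
theorem ord_natCast_root {S : Finset ℕ} (hS : RootSet (insert P S))
    {L : IntermediateField ℚ Ω} [NumberField L] [IsGalois ℚ L] (hL : IsRootField P S L) {r : ℕ}
    (hr : r.Prime) (hrS : ∀ q ∈ insert P S, r.Coprime q) (Q : HeightOneSpectrum (𝓞 L))
    (hrQ : (r : 𝓞 L) ∈ Q.asIdeal) (h : (r : L) ≠ 0) : ord Q (Units.mk0 (r : L) h) = 1 := by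
  have hprime : Prime (r : 𝓞 ℚ) := by
    refine (MulEquiv.prime_iff Rat.ringOfIntegersEquiv.toMulEquiv).1 ?_
    show Prime (Rat.ringOfIntegersEquiv (r : 𝓞 ℚ))
    rw [map_natCast]
    exact Nat.prime_iff_prime_int.1 hr
  set R := belowP ℚ Q
  have hRr : (r : 𝓞 ℚ) ∈ R.asIdeal := by
    show algebraMap (𝓞 ℚ) (𝓞 L) (r : 𝓞 ℚ) ∈ Q.asIdeal
    rwa [map_natCast]
  have hspan : R.asIdeal = Ideal.span {(r : 𝓞 ℚ)} := by
    haveI : (Ideal.span {(r : 𝓞 ℚ)}).IsPrime :=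
      (Ideal.span_singleton_prime hprime.ne_zero).2 hprime
    exact (((inferInstance : (Ideal.span {(r : 𝓞 ℚ)}).IsPrime).isMaximal
      (by simpa using hprime.ne_zero)).eq_of_le R.isPrime.ne_top
      ((Ideal.span_singleton_le_iff_mem _).2 hRr)).symm
  have he : eIdx ℚ Q = 1 := by
    refine eIdx_eq_one fun ⟨Q', hQ', hne⟩ => hne
      (inertia_rootField_eq_bot hS hL Q' fun q hq hmem => ?_)
    have hq' : (q : 𝓞 ℚ) ∈ R.asIdeal := by
      rw [show R = belowP ℚ Q' from hQ'.symm]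
      show algebraMap (𝓞 ℚ) (𝓞 L) (q : 𝓞 ℚ) ∈ Q'.asIdeal
      rwa [map_natCast]
    rw [hspan, Ideal.mem_span_singleton] at hq'
    have h' := map_dvd Rat.ringOfIntegersEquiv hq'
    rw [map_natCast, map_natCast] at h'
    exact hr.coprime_iff_not_dvd.1 (hrS q hq) (by exact_mod_cast h')
  rw [show Units.mk0 (r : L) h = baseU (intU (r : 𝓞 ℚ) hprime.ne_zero) from Units.ext (by
    rw [Units.val_mk0, baseU_val, intU_val]; simp), ord_baseU, he, ord_intU, ← hspan,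
    multiplicity_self]
  rfl

/-- The roots of unity of the field of `P` and `S`. -/
theorem pow_two_mul_eq_one {S : Finset ℕ} (hS : RootSet (insert P S)) {x : Ω}
    (hx : x ∈ fullField Ω P S) {t : ℕ} (ht : 0 < t) (h : x ^ t = 1) :
    x ^ (2 * ∏ q ∈ insert P S, q) = 1 := by
  haveI : NeZero (∏ q ∈ insert P S, q) := ⟨hS.prod_pos.ne'⟩
  haveI := fullField_isCyclotomic (Ω := Ω) hS
  haveI : NumberField (fullField Ω P S) :=
    IsCyclotomicExtension.numberField {∏ q ∈ insert P S, q} ℚ _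
  have h0 : orderOf x ≠ 0 := fun h0 => by
    rw [orderOf_eq_zero_iff'] at h0
    exact h0 t ht h
  have hprim : IsPrimitiveRoot (⟨x, hx⟩ : fullField Ω P S) (orderOf x) :=
    IsPrimitiveRoot.coe_submonoidClass_iff.1 (IsPrimitiveRoot.orderOf x)
  exact orderOf_dvd_iff_pow_eq_one.1
    (hprim.dvd_of_isCyclotomicExtension (∏ q ∈ insert P S, q) h0)

/-- Roots of unity of `p`-power order in the field have order `P`. -/
theorem pow_P_eq_one {S : Finset ℕ} (hs : Setup p P k c) (hS : ∀ q ∈ S, IsAdm p P k q) {x : Ω}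
    (hx : x ∈ fullField Ω P S) {i : ℕ} (h : x ^ p ^ i = 1) : x ^ P = 1 := by
  have h1 := pow_two_mul_eq_one (rootSet_insert hs hS) hx (pow_pos hs.hp.pos i) h
  rw [Finset.prod_insert (P_notMem hs hS), mul_left_comm, pow_mul] at h1
  have h2 := pow_gcd_eq_one.2 ⟨h1, (show (x ^ P) ^ p ^ i = 1 by
    rw [pow_right_comm, h, one_pow])⟩
  rwa [show Nat.gcd (2 * ∏ q ∈ S, q) (p ^ i) = 1 from
    ((coprime_prod hs hS).symm.pow_right i), pow_one] at h2

/-- A root of unity of order prime to `N` is a power of itself of exponent divisible by `N`. -/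
theorem exists_root_of_coprime {S : Finset ℕ} (hS : ∀ q ∈ S, q.Prime) {N : ℕ}
    (hN : N.Coprime (2 * ∏ q ∈ S, q)) {y : Ω} (hy : y ^ (2 * ∏ q ∈ S, q) = 1) :
    ∃ a : ℕ, (y ^ a) ^ N = y := by
  have hn1 : 1 < 2 * ∏ q ∈ S, q :=
    lt_of_lt_of_le one_lt_two
      (Nat.le_mul_of_pos_right 2 (Finset.prod_pos fun q hq => (hS q hq).pos))
  obtain ⟨a, -, ha⟩ := Nat.exists_mul_mod_eq_one_of_coprime hN hn1
  refine ⟨a, ?_⟩
  rw [← pow_mul, mul_comm, ← Nat.mod_add_div (N * a) (2 * ∏ q ∈ S, q), ha, pow_add, pow_mul,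
    hy, one_pow, pow_one, mul_one]

end FA.GaussKolyvagin
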