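import Fermat.Agent.GaussKolyvagin.Local
import Fermat.Agent.ArtinReciprocity.RayNorm
import Fermat.Agent.Kolyvagin.Bound

/-!
# Primes of degree one of the root fields

In a root field of `P` and `S`:

* `absNorm_eq_of_dvd`: a prime number `1` modulo the roots has primes of degree one;
* `dvd_sub_one_of_absNorm`: conversely a prime number of degree one is `1` modulo the roots;
* `exists_unique_gal`: the Galois group permutes them simply transitively;
* `absNorm_span_pos`: norms are positive, as there is no real embedding.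
-/

set_option autoImplicit false
set_option linter.unusedSectionVars false
set_option linter.style.haveILetI false

noncomputable section

open scoped Classical Pointwise
open Finset IntermediateField NumberField IsDedekindDomain FA.ArtinRec
open FA.Kolyvagin (zr zr_spec zr_pow_self fullField IsRootField zProd IsDeg1 gen
  exists_congr_gen_pow
  val_map_sub_pow_lt val_natCast_lt_one_iff val_natCast_eq_one_of_coprime val_eq_one_of_pow_eq_one
  exists_galPrime_eq eq_one_of_galPrime_eq)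

namespace FA.GaussKolyvagin

/-- The conjugates of a prime of degree one. -/
theorem exists_unique_gal {K : Type*} [Field K] [NumberField K] [IsGalois ℚ K] {r : ℕ}
    {Q P : HeightOneSpectrum (𝓞 K)} (hQ : IsDeg1 1 Q r)
    (hP : (r : 𝓞 K) ∈ P.asIdeal) :
    ∃ σ : K ≃ₐ[ℚ] K, galPrime σ Q = P ∧ ∀ ρ, galPrime ρ Q = P → ρ = σ := by
  obtain ⟨σ, hσ⟩ := exists_galPrime_eq hQ.prime (hQ.norm ▸ Ideal.absNorm_mem Q.asIdeal) hP
  refine ⟨σ, hσ, fun ρ hρ => ?_⟩
  have h : galPrime (σ⁻¹ * ρ) Q = Q := by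
    rw [galPrime_mul, hρ, ← hσ, ← galPrime_mul, inv_mul_cancel, galPrime_one]
  exact (inv_mul_eq_one.1 (eq_one_of_galPrime_eq hQ h)).symm

variable {Ω : Type*} [Field Ω] [CharZero Ω] [IsAlgClosed Ω] [Algebra.IsAlgebraic ℚ Ω] {P : ℕ}
variable {S : Finset ℕ} {L : IntermediateField ℚ Ω} [NumberField L] [IsGalois ℚ L]
  (hS : RootSet (insert P S)) (hL : IsRootField P S L)
include hS hL

/-- **A prime number `1` modulo the roots splits completely.** -/
theorem absNorm_eq_of_dvd {r : ℕ} (hr : r.Prime) (hd : ∀ q ∈ insert P S, q ∣ r - 1)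
    (Q : HeightOneSpectrum (𝓞 L)) (hrQ : (r : 𝓞 L) ∈ Q.asIdeal) :
    Ideal.absNorm Q.asIdeal = r := by
  obtain ⟨Zi, hZi, hadj⟩ := hL.adjoin_int
  have hm : ∏ q ∈ insert P S, q ∣ r - 1 := hS.prod_dvd hd
  have hZ : (Zi : L) ^ (r - 1) = 1 := by
    obtain ⟨d, hd'⟩ := hm
    refine Subtype.ext ?_
    show ((Zi : L) : Ω) ^ (r - 1) = 1
    rw [hZi, hd', pow_mul, (zProd_isPrimitiveRoot (Ω := Ω) hS).pow_eq_one, one_pow]
  have hfix : ∀ x : 𝓞 L, x - x ^ r ∈ Q.asIdeal := fun x => by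
    have h := val_map_sub_pow_lt hadj Q (e := r) (Or.inr ⟨hr, hrQ⟩) (RingHom.id L) (fun a ha => ?_)
      (x := (x : L)) (Q.valuation_le_one x)
    · rw [← Q.valuation_lt_one_iff_mem (K := L)]
      rw [RingHom.id_apply] at h
      simpa using h
    · rw [Set.mem_singleton_iff] at ha
      subst ha
      rw [RingHom.id_apply, ← Nat.sub_add_cancel hr.one_le, pow_succ, hZ, one_mul, sub_self,
        map_zero]
      exact zero_lt_one
  haveI := Q.isMaximal
  letI : Field (𝓞 L ⧸ Q.asIdeal) := Ideal.Quotient.field _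
  haveI : Finite (𝓞 L ⧸ Q.asIdeal) := Ideal.finiteQuotientOfFreeOfNeBot _ Q.ne_bot
  haveI : Fintype (𝓞 L ⧸ Q.asIdeal) := Fintype.ofFinite _
  have hcard : Ideal.absNorm Q.asIdeal = Fintype.card (𝓞 L ⧸ Q.asIdeal) := by
    rw [Ideal.absNorm_apply, Submodule.cardQuot_apply, Nat.card_eq_fintype_card]
  haveI : Fact r.Prime := ⟨hr⟩
  haveI : CharP (𝓞 L ⧸ Q.asIdeal) r := (CharP.charP_iff_prime_eq_zero hr).2
    ((map_natCast (Ideal.Quotient.mk Q.asIdeal) r).symm.trans
      (Ideal.Quotient.eq_zero_iff_mem.2 hrQ))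
  have hle : Fintype.card (𝓞 L ⧸ Q.asIdeal) ≤ r := by
    have hroots : ∀ y : 𝓞 L ⧸ Q.asIdeal,
        y ∈ (Polynomial.X ^ r - Polynomial.X : Polynomial (𝓞 L ⧸ Q.asIdeal)).roots := fun y => by
      obtain ⟨x, rfl⟩ := Ideal.Quotient.mk_surjective y
      rw [Polynomial.mem_roots (FiniteField.X_pow_card_sub_X_ne_zero _ hr.one_lt),
        Polynomial.IsRoot, Polynomial.eval_sub, Polynomial.eval_pow, Polynomial.eval_X,
        sub_eq_zero, ← map_pow, eq_comm, Ideal.Quotient.eq]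
      exact hfix x
    calc Fintype.card (𝓞 L ⧸ Q.asIdeal) = (Finset.univ : Finset (𝓞 L ⧸ Q.asIdeal)).card := rfl
      _ ≤ ((Polynomial.X ^ r - Polynomial.X : Polynomial (𝓞 L ⧸ Q.asIdeal)).roots.toFinset).card :=
        Finset.card_le_card fun y _ => Multiset.mem_toFinset.2 (hroots y)
      _ ≤ _ := (Multiset.toFinset_card_le _).trans ((Polynomial.card_roots' _).trans
        (FiniteField.X_pow_card_sub_X_natDegree_eq _ hr.one_lt).le)
  have hge : r ≤ Fintype.card (𝓞 L ⧸ Q.asIdeal) := by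
    have := Nat.card_le_card_of_injective _ (ZMod.castHom_injective (n := r) (𝓞 L ⧸ Q.asIdeal))
    rwa [Nat.card_zmod, Nat.card_eq_fintype_card] at this
  omega

theorem isDeg1_root {r : ℕ} (hr : r.Prime) (hd : ∀ q ∈ insert P S, q ∣ r - 1)
    (Q : HeightOneSpectrum (𝓞 L)) (hrQ : (r : 𝓞 L) ∈ Q.asIdeal) : IsDeg1 1 Q r :=
  ⟨hr, absNorm_eq_of_dvd hS hL hr hd Q hrQ, one_dvd _,
    fun h => ord_natCast_root hS hL hr (fun q hq => coprime_of_dvd_sub_one hr (hd q hq)) Q hrQ h⟩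

/-- A prime number of degree one is `1` modulo the roots. -/
theorem dvd_sub_one_of_absNorm {r : ℕ} (hr : r.Prime) (hrS : ∀ q ∈ insert P S, r.Coprime q)
    (Q : HeightOneSpectrum (𝓞 L)) (hQ : Ideal.absNorm Q.asIdeal = r) {q : ℕ}
    (hq : q ∈ insert P S) : q ∣ r - 1 := by
  have hrQ : (r : 𝓞 L) ∈ Q.asIdeal := hQ ▸ Ideal.absNorm_mem Q.asIdeal
  set w := Q.valuation L
  have hwr : w (r : L) < 1 := (val_natCast_lt_one_iff Q r).2 hrQ
  have hq0 := hS.ne_zero q hq
  have hwq : w (q : L) = 1 := val_natCast_eq_one_of_coprime (hrS q hq).symm hwr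
  set z : L := ⟨zr Ω q, hL.zr_mem q hq⟩
  have hz : IsPrimitiveRoot z q :=
    IsPrimitiveRoot.coe_submonoidClass_iff.1 (zr_spec Ω hq0)
  have hz1 : w z = 1 := val_eq_one_of_pow_eq_one w hq0 hz.pow_eq_one
  obtain ⟨j, hj⟩ := exists_congr_gen_pow Q hr hQ hz1
  haveI : Fact r.Prime := ⟨hr⟩
  have hg1 : w ((gen r : L) ^ (r - 1) - 1) < 1 := by
    have hm := FA.Kolyvagin.gen_pow_modEq_one hr
    have h1 : 1 ≤ gen r ^ (r - 1) := Nat.one_le_pow _ _ (Nat.pos_of_ne_zero fun h0 => by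
      have := FA.Kolyvagin.not_dvd_gen hr
      rw [h0] at this
      exact this (dvd_zero r))
    obtain ⟨d, hd⟩ := (Nat.modEq_iff_dvd' h1).1 hm.symm
    rw [show (gen r : L) ^ (r - 1) - 1 = ((gen r ^ (r - 1) - 1 : ℕ) : L) by
      rw [Nat.cast_sub h1, Nat.cast_pow, Nat.cast_one], hd, Nat.cast_mul, map_mul]
    exact (mul_le_of_le_one_right' (FA.Kolyvagin.val_natCast_le_one w d)).trans_lt hwr
  have hwg : w (gen r : L) ≤ 1 := FA.Kolyvagin.val_natCast_le_one w _
  have hzr : w (z ^ (r - 1) - 1) < 1 := by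
    have h1 := FA.Kolyvagin.congr_pow (w := w) hz1.le (b := (gen r : L) ^ j)
      (by rw [map_pow]; exact pow_le_one' hwg j) hj (r - 1)
    have h2 := FA.Kolyvagin.congr_pow (w := w) (a := (gen r : L) ^ (r - 1)) (b := 1)
      (by rw [map_pow]; exact pow_le_one' hwg _) (by rw [map_one]) hg1 j
    rw [one_pow, pow_right_comm] at h2
    exact FA.Kolyvagin.congr_trans h1 h2
  by_contra hnd
  have h1 := val_one_sub_eq_one_of_pow w hq0 hwq (x := z ^ (r - 1))
    (by rw [pow_right_comm, hz.pow_eq_one, one_pow]) fun h => hnd (hz.dvd_of_pow_eq_one _ h)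
  rw [Valuation.map_sub_swap] at h1
  exact hzr.ne h1

/-- No real embedding. -/
theorem not_real (hp2 : 2 < P) (ψ : L →+* ℝ) : False := by
  have hp : P ≠ 0 := by omega
  set z : L := ⟨zr Ω P, hL.zr_mem P (Finset.mem_insert_self _ _)⟩
  have hz : IsPrimitiveRoot z P :=
    IsPrimitiveRoot.coe_submonoidClass_iff.1 (zr_spec Ω hp)
  have h1 := hz.map_of_injective ψ.injective
  rcases abs_choice (ψ z) with h | h <;>
    have hab : |ψ z| = 1 := (pow_eq_one_iff_of_nonneg (abs_nonneg _) hp).1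
      (by rw [← abs_pow, h1.pow_eq_one, abs_one]) <;> rw [h] at hab
  · exact h1.ne_one (by omega) hab
  · have h2 : (ψ z) ^ 2 = 1 := by rw [neg_eq_iff_eq_neg.1 hab, neg_one_sq]
    have := Nat.le_of_dvd two_pos (h1.dvd_of_pow_eq_one 2 h2)
    omega

/-- **Norms are positive.** -/
theorem absNorm_span_pos (hp2 : 2 < P) {a : 𝓞 L} (ha : a ≠ 0) :
    ((Ideal.absNorm (Ideal.span {a}) : ℕ) : 𝓞 L) = ∏ σ : L ≃ₐ[ℚ] L, σ • a := by
  have hpos : 0 < Algebra.norm ℤ a := by
    have h := norm_pos_of_totallyPositive (K := ℚ) (RingOfIntegers.coe_ne_zero_iff.mpr ha)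
      (fun ψ => (not_real hS hL hp2 ψ).elim) (algebraMap ℚ ℝ)
    rw [← Algebra.coe_norm_int, map_intCast, Int.cast_pos] at h
    exact h
  rw [Ideal.absNorm_span_singleton, ← Int.cast_natCast, Int.natAbs_of_nonneg hpos.le]
  refine RingOfIntegers.ext ?_
  show algebraMap (𝓞 L) L _ = algebraMap (𝓞 L) L _
  rw [map_intCast, map_prod]
  have h2 := Algebra.norm_eq_prod_automorphisms ℚ (a : L)
  rw [← Algebra.coe_norm_int, map_intCast] at h2
  exact h2

omit hS hL in
/-- The absolute norm in a complex embedding. -/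
theorem absNorm_span_eq_prod (φ : L →+* ℂ) (a : 𝓞 L) :
    ((Ideal.absNorm (Ideal.span {a}) : ℕ) : ℝ) = ∏ σ : L ≃ₐ[ℚ] L, ‖φ (σ (a : L))‖ := by
  have h2 := congrArg (fun x => ‖φ x‖) (Algebra.norm_eq_prod_automorphisms ℚ (a : L))
  simp only [← Algebra.coe_norm_int, map_intCast, map_prod, norm_prod] at h2
  rw [← h2, Ideal.absNorm_span_singleton, Nat.cast_natAbs, Int.cast_abs, Complex.norm_intCast]

end FA.GaussKolyvagin
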