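import Fermat.Agent.GaussKolyvagin.Chebotarev
import Fermat.Agent.HerbrandRibet.WeightIdempotent

/-!
# The component of a character

In the component of a character `χ` of `G` with values in `ℤ/p^k` the group ring acts by scalars.

* `phiq_eigen`, `charEval_spread`;
* `exists_normal_form_eigen`;
* `sum_ord_eigen`: the class relation of an eigen element in the component.
-/

set_option autoImplicit false
set_option linter.unusedSectionVars false
set_option linter.style.haveILetI false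

noncomputable section

open scoped Classical Pointwise
open Finset NumberField IsDedekindDomain FA.ArtinRec FA.AmbClass
open FA.Kolyvagin (Modq mkq mkq_surjective phiq act act_of act_single act_mul act_add act_natCast
  act_sum act_zero Vq Aq vmk vmk_surjective phiV phiA phiq_vmk ordq ordq_phiq ordq_vmk spread
  spread_act coeff_spread aCls sum_ord_cls IsDeg1 eq_one_of_galPrime_eq
  exists_galPrime_eq nsmul_modq_eq_zero nsmul_modq_eq_zero_of_dvd
  zmod_exists_eq_mul_of_pow_mul_eq_zero phiq_mkq)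
open FA.HerbrandRibet (charEval charEval_single)
open MonoidAlgebra (single)

namespace FA.GaussKolyvagin

section general

variable {p k : ℕ} [hp : Fact p.Prime] {G : Type*} [CommGroup G] [Fintype G]
  {χ : G →* ZMod (p ^ k)} {e : MonoidAlgebra (ZMod (p ^ k)) G}
  (hmul : ∀ x, x * e = single 1 (charEval χ x) * e)
  {X : Type*} [AddCommGroup X] {φ : G →* AddMonoid.End X}
include hmul

omit hmul in
theorem val_smul_mul {m : ℕ} (hm : m ∣ p ^ k) (a b : ZMod (p ^ k)) (x : Modq X m) :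
    (a * b).val • x = a.val • (b.val • x) := by
  haveI : NeZero (p ^ k) := ⟨pow_ne_zero _ hp.out.ne_zero⟩
  rw [← mul_nsmul', ZMod.val_mul]
  conv_rhs => rw [← Nat.mod_add_div (a.val * b.val) (p ^ k), add_nsmul, mul_nsmul',
    nsmul_modq_eq_zero_of_dvd hm, add_zero]

omit hmul in
theorem natCast_val_smul {m : ℕ} (hm : m ∣ p ^ k) (n : ℕ) (x : Modq X m) :
    ((n : ZMod (p ^ k))).val • x = n • x := by
  haveI : NeZero (p ^ k) := ⟨pow_ne_zero _ hp.out.ne_zero⟩
  rw [ZMod.val_natCast]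
  conv_rhs => rw [← Nat.mod_add_div n (p ^ k), add_nsmul, mul_nsmul',
    nsmul_modq_eq_zero_of_dvd hm, add_zero]

omit hmul in
theorem act_single_one {m : ℕ} (hm : m ∣ p ^ k) (a : ZMod (p ^ k)) (x : Modq X m) :
    act φ hm (single (1 : G) a) x = a.val • x := by
  haveI : NeZero (p ^ k) := ⟨pow_ne_zero _ hp.out.ne_zero⟩
  rw [act_single, map_one]
  rfl

/-- `G` acts on the component through `χ`. -/
theorem phiq_eigen {m : ℕ} (hm : m ∣ p ^ k) (g : G) {x : Modq X m} (hx : act φ hm e x = x) :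
    phiq φ m g x = (χ g).val • x := by
  calc phiq φ m g x = act φ hm (single g (1 : ZMod (p ^ k)) * e) x := by rw [act_mul, hx, act_of]
    _ = (χ g).val • x := by rw [hmul, charEval_single, one_mul, act_mul, hx, act_single_one hm]

variable (heval : charEval χ e = 1)
include heval

theorem charEval_spread [NeZero (p ^ k)] (f : Modq X (p ^ k) →+ ZMod (p ^ k))
    (y : Modq X (p ^ k)) :
    charEval χ (spread φ f y) = (Fintype.card G : ZMod (p ^ k)) * f (act φ dvd_rfl e y) := by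
  have h1 : charEval χ (spread φ f y) = charEval χ (spread φ f (act φ dvd_rfl e y)) := by
    rw [spread_act, map_mul, heval, one_mul]
  have hfix : act φ dvd_rfl e (act φ dvd_rfl e y) = act φ dvd_rfl e y := by
    rw [← act_mul, hmul, heval, ← MonoidAlgebra.one_def, one_mul]
  set z := act φ dvd_rfl e y
  rw [h1, show spread φ f z = ∑ g : G, single g (f (phiq φ (p ^ k) g⁻¹ z)) from rfl, map_sum,
    Finset.sum_congr rfl fun g _ => show charEval χ (single g (f (phiq φ (p ^ k) g⁻¹ z))) = f z by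
      rw [charEval_single, phiq_eigen hmul dvd_rfl g⁻¹ hfix, map_nsmul, nsmul_eq_mul,
        ZMod.natCast_zmod_val, mul_right_comm, ← map_mul, inv_mul_cancel, map_one, one_mul],
    Finset.sum_const, Finset.card_univ, nsmul_eq_mul]

end general

section field

variable {F : Type*} [Field F] [NumberField F] [IsGalois ℚ F] {G : Type*} [CommGroup G] [Fintype G]
  (τ : G →* (F ≃ₐ[ℚ] F)) {p k : ℕ} [hp : Fact p.Prime]
  {χ : G →* ZMod (p ^ k)} {e : MonoidAlgebra (ZMod (p ^ k)) G}
  (hmul : ∀ x, x * e = single 1 (charEval χ x) * e) (heval : charEval χ e = 1)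
include hmul heval

theorem act_e_idem {m : ℕ} (hm : m ∣ p ^ k) {X : Type*} [AddCommGroup X]
    {φ : G →* AddMonoid.End X} (x : Modq X m) : act φ hm e (act φ hm e x) = act φ hm e x := by
  rw [← act_mul, hmul, heval, ← MonoidAlgebra.one_def, one_mul]

/-- The normal form. -/
theorem exists_normal_form_eigen {z : Vq F (p ^ k)} (hz : act (phiV τ) dvd_rfl e z = z)
    (hz0 : z ≠ 0) :
    ∃ s, s < k ∧ ∃ η, act (phiV τ) dvd_rfl e η = η ∧ z = p ^ s • η ∧
      ¬ ∃ y, η = p • y := by
  set P : ℕ → Prop := fun i => ∃ η, act (phiV τ) dvd_rfl e η = η ∧ z = p ^ i • η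
  have hk' : ¬ P k := fun ⟨η, _, h⟩ => hz0 (by rw [h, nsmul_modq_eq_zero])
  obtain ⟨s, hs, hsP, hns⟩ : ∃ s, s < k ∧ P s ∧ ¬ P (s + 1) := by
    by_contra! hcon
    have hall : ∀ j, j ≤ k → P j := by
      intro j
      induction j with
      | zero => exact fun _ => ⟨z, hz, by rw [pow_zero, one_smul]⟩
      | succ j ih => exact fun hj => hcon j (by omega) (ih (by omega))
    exact hk' (hall k le_rfl)
  obtain ⟨η, hη, hzη⟩ := hsP
  refine ⟨s, hs, η, hη, hzη, fun ⟨y, hy⟩ => hns ⟨act (phiV τ) dvd_rfl e y,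
    act_e_idem hmul heval dvd_rfl y, ?_⟩⟩
  rw [pow_succ, mul_nsmul', ← map_nsmul, ← hy, hη, hzη]

omit hmul heval in
/-- The group ring element of the orders acts on a class as the part of the divisor. -/
theorem act_spread_ord' {m : ℕ} (hm : m ∣ p ^ k) (v : HeightOneSpectrum (𝓞 F)) (x : Fˣ) :
    act (phiA τ) hm (spread (phiV τ) (ordq v (p ^ k)) (vmk (p ^ k) x)) (aCls m v) =
      ∑ g : G, ord (galPrime (τ g) v) x • aCls m (galPrime (τ g) v) := by
  haveI : NeZero (p ^ k) := ⟨pow_ne_zero _ hp.out.ne_zero⟩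
  show act (phiA τ) hm (∑ g : G, single g _) (aCls m v) = _
  rw [act_sum]
  refine Finset.sum_congr rfl fun g _ => ?_
  have hcls : phiq (phiA τ) m g (aCls m v) = aCls m (galPrime (τ g) v) := by
    rw [aCls, phiq_mkq]
    exact congrArg (mkq m) (congrArg Additive.ofMul (galCl_primeCls (τ g) v))
  rw [act_single, hcls, ← ordq_phiq τ v _ g,
    show phiq (phiV τ) _ g (phiq (phiV τ) _ g⁻¹ (vmk (p ^ k) x)) =
      phiq (phiV τ) _ (g * g⁻¹) (vmk (p ^ k) x) by rw [map_mul]; rfl,
    mul_inv_cancel, map_one]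
  show (((ord (galPrime (τ g) v) x : ℤ) : ZMod (p ^ k))).val • _ = _
  rw [← natCast_zsmul, ZMod.val_intCast]
  conv_rhs => rw [← Int.emod_add_mul_ediv (ord (galPrime (τ g) v) x) ((p ^ k : ℕ) : ℤ)]
  rw [add_zsmul, mul_comm ((p ^ k : ℕ) : ℤ), mul_zsmul, natCast_zsmul,
    nsmul_modq_eq_zero_of_dvd hm, zsmul_zero, add_zero]

/-- **The class relation** of an element of the component. -/
theorem sum_ord_eigen (hτ : Function.Bijective τ) {m s : ℕ} (hm : m ∣ p ^ k) (hsk : s ≤ k)
    (hms : m ∣ p ^ (k - s)) {U : Finset ℕ} {vs : ℕ → HeightOneSpectrum (𝓞 F)}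
    (hvs : ∀ q ∈ U, IsDeg1 1 (vs q) q) {x : Fˣ}
    (hx : ∀ w : HeightOneSpectrum (𝓞 F), (∀ q ∈ U, (q : 𝓞 F) ∉ w.asIdeal) →
      ((p ^ k : ℕ) : ℤ) ∣ ord w x)
    {η : Vq F (p ^ k)} (hη : act (phiV τ) dvd_rfl e η = η)
    (hxη : act (phiV τ) dvd_rfl e (vmk (p ^ k) x) = p ^ s • η) :
    ∑ q ∈ U, ((Fintype.card G : ZMod (p ^ k)) * ordq (vs q) (p ^ k) η).val •
      act (phiA τ) hm e (aCls m (vs q)) = 0 := by
  haveI : NeZero (p ^ k) := ⟨pow_ne_zero _ hp.out.ne_zero⟩
  obtain ⟨y, hy⟩ := vmk_surjective (p ^ k) η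
  set conj : Finset (HeightOneSpectrum (𝓞 F)) :=
    (U ×ˢ (Finset.univ : Finset G)).image fun a => galPrime (τ a.2) (vs a.1)
  have hsupp : ∀ w ∉ conj, (m : ℤ) ∣ ord w y := by
    intro w hw
    have hgood : ∀ (g : G), ∀ q ∈ U, (q : 𝓞 F) ∉ (galPrime (τ g) w).asIdeal := by
      intro g q hq hmem
      obtain ⟨σ, hσ⟩ := exists_galPrime_eq (hvs q hq).prime
        (show (q : 𝓞 F) ∈ (vs q).asIdeal by
          have h := Ideal.absNorm_mem (vs q).asIdeal
          rwa [(hvs q hq).norm] at h) hmem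
      obtain ⟨g', rfl⟩ := hτ.2 σ
      refine hw (Finset.mem_image.2
        ⟨(q, g⁻¹ * g'), Finset.mem_product.2 ⟨hq, Finset.mem_univ _⟩, ?_⟩)
      show galPrime (τ (g⁻¹ * g')) (vs q) = w
      rw [map_mul, galPrime_mul, hσ, ← galPrime_mul, ← map_mul, inv_mul_cancel, map_one,
        galPrime_one]
    have hzero : ∀ g : G, ordq w (p ^ k) (phiq (phiV τ) _ g (vmk (p ^ k) x)) = 0 := fun g => by
      rw [← galPrime_one (K := ℚ) w, show (1 : F ≃ₐ[ℚ] F) = τ g * τ g⁻¹ by
        rw [← map_mul, mul_inv_cancel, map_one], galPrime_mul, ordq_phiq, ordq_vmk,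
        ZMod.intCast_zmod_eq_zero_iff_dvd]
      exact hx _ (hgood g⁻¹)
    have hzw : ((p ^ s : ℕ) : ZMod (p ^ k)) * ((ord w y : ℤ) : ZMod (p ^ k)) = 0 := by
      rw [← ordq_vmk, hy, ← nsmul_eq_mul, ← map_nsmul, ← hxη, ← e.sum_coeff_single, Finsupp.sum,
        act_sum, map_sum]
      refine Finset.sum_eq_zero fun g _ => ?_
      rw [act_single, map_nsmul, hzero, smul_zero]
    obtain ⟨d, hd⟩ := zmod_exists_eq_mul_of_pow_mul_eq_zero (ℓ := p) hsk hzw
    have h1 : ((ord w y : ℤ) : ZMod m) = 0 := by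
      have h2 := congrArg (ZMod.castHom hm (ZMod m)) hd
      rwa [map_intCast, map_mul, map_natCast,
        (ZMod.natCast_eq_zero_iff (p ^ (k - s)) m).2 hms, zero_mul] at h2
    exact (ZMod.intCast_zmod_eq_zero_iff_dvd _ _).1 h1
  have hinj : Set.InjOn (fun a : ℕ × G => galPrime (τ a.2) (vs a.1))
      ↑(U ×ˢ (Finset.univ : Finset G)) := by
    rintro ⟨q, g⟩ hq ⟨q', g'⟩ hq' heq
    have hq1 := hvs q (Finset.mem_product.1 hq).1
    have hq2 := hvs q' (Finset.mem_product.1 hq').1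
    have heq' : galPrime (τ g) (vs q) = galPrime (τ g') (vs q') := heq
    obtain rfl : q = q' := by
      rw [← (hq1.gal (τ g)).norm, ← (hq2.gal (τ g')).norm, heq']
    have h1 : galPrime (τ (g'⁻¹ * g)) (vs q) = vs q := by
      rw [map_mul, galPrime_mul, heq', ← galPrime_mul, ← map_mul, inv_mul_cancel, map_one,
        galPrime_one]
    have h2 : g'⁻¹ * g = 1 := hτ.1 (by rw [eq_one_of_galPrime_eq hq1 h1, map_one])
    rw [inv_mul_eq_one.1 h2]
  have h1 := sum_ord_cls (m := m) y conj hsupp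
  rw [Finset.sum_image hinj, Finset.sum_product] at h1
  have h2 := congrArg (act (phiA τ) hm e) h1
  rw [map_sum, map_zero] at h2
  refine (Finset.sum_congr rfl fun q _ => ?_).trans h2
  have h3 : ∑ g : G, ord (galPrime (τ g) (vs q)) y • aCls m (galPrime (τ g) (vs q)) =
      act (phiA τ) hm (spread (phiV τ) (ordq (vs q) (p ^ k)) η) (aCls m (vs q)) := by
    rw [← hy]
    exact (act_spread_ord' τ hm (vs q) y).symm
  show _ = act (phiA τ) hm e (∑ g : G, ord (galPrime (τ g) (vs q)) y •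
    aCls m (galPrime (τ g) (vs q)))
  rw [h3, ← act_mul, mul_comm e, hmul, charEval_spread hmul heval, hη, act_mul, act_single_one hm]

end field

end FA.GaussKolyvagin
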